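import Fermat.Agent.S13x.FreyInt

/-!
# S13 project: `2`-adic numerical facts of the Frey model

For `A : ValuationSubring Qb` over `2` and `W = P.freyCurve⁄Qb` (`a₁ = 1`, `a₃ = a₆ = 0`):

* `ft_b₂_unit`, `ft_b₄`, `ft_b₆`, `ft_b₈`, `ft_a₄_lt`, `ft_a₄_ne_zero`: node data at `2`;
* `ft_exists_h`: `v(a₄) = v(2)^h` with `0 < h` and `p ∤ 2h`;
* `ft_val_int`, `ft_val_rat`: valuations of nonzero integers / rationals are integer powers of `v(2)`;
* `ft_val_two_zpow_inj`: `k ↦ v(2)^k` is injective;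
* `ft_res_rat`: a rational number in `A` is `≡ 0` or `≡ 1` modulo the maximal ideal.
-/

set_option autoImplicit false
open WeierstrassCurve WeierstrassCurve.Affine WeierstrassCurve.Affine.Point
open FreyPackage

namespace Fermat.Agent.S13x

/-! ## integers and rationals in a valuation subring over `2` -/
section Two

variable (A : ValuationSubring Qb)

theorem ft_val_two_pos : 0 < A.valuation (2 : Qb) := by
  rw [Valuation.pos_iff]; norm_num

theorem ft_val_two_ne_zero : A.valuation (2 : Qb) ≠ 0 := (ft_val_two_pos A).ne'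

/-- an odd integer is a unit at `2` -/
theorem ft_val_odd (hA : A.LiesOverPrime 2) {z : ℤ} (hz : ¬ (2 : ℤ) ∣ z) :
    A.valuation (z : Qb) = 1 :=
  (S05x.val_int_eq_one_iff A Nat.prime_two hA z).mpr (by exact_mod_cast hz)

/-- an even integer is in the maximal ideal at `2` -/
theorem ft_val_even (hA : A.LiesOverPrime 2) {z : ℤ} (hz : (2 : ℤ) ∣ z) :
    A.valuation (z : Qb) < 1 := by
  refine lt_of_le_of_ne (S05x.val_int_le_one A z) ?_
  intro h1
  exact ((S05x.val_int_eq_one_iff A Nat.prime_two hA z).mp h1) (by exact_mod_cast hz)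

/-- every nonzero integer is `2^k` times an odd integer -/
theorem ft_int_two_pow_mul_odd {z : ℤ} (hz : z ≠ 0) :
    ∃ (k : ℕ) (c : ℤ), z = 2 ^ k * c ∧ ¬ (2 : ℤ) ∣ c := by
  have hfin : FiniteMultiplicity (2 : ℤ) z := Int.finiteMultiplicity_iff.mpr ⟨by decide, hz⟩
  obtain ⟨c, hc, hnd⟩ := hfin.exists_eq_pow_mul_and_not_dvd
  exact ⟨_, c, hc, hnd⟩

/-- the valuation of a nonzero integer is a power of `v(2)` -/
theorem ft_val_int (hA : A.LiesOverPrime 2) {z : ℤ} (hz : z ≠ 0) :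
    ∃ k : ℕ, A.valuation (z : Qb) = A.valuation (2 : Qb) ^ k := by
  obtain ⟨k, c, hzc, hc⟩ := ft_int_two_pow_mul_odd hz
  refine ⟨k, ?_⟩
  have : (z : Qb) = (2 : Qb) ^ k * (c : Qb) := by rw [hzc]; push_cast; ring
  rw [this, map_mul, map_pow, ft_val_odd A hA hc, mul_one]

/-- the valuation of a nonzero rational is an integer power of `v(2)` -/
theorem ft_val_rat (hA : A.LiesOverPrime 2) {r : ℚ} (hr : r ≠ 0) :
    ∃ k : ℤ, A.valuation (r : Qb) = A.valuation (2 : Qb) ^ k := by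
  have hnum : r.num ≠ 0 := Rat.num_ne_zero.mpr hr
  have hden : (r.den : ℤ) ≠ 0 := by exact_mod_cast r.den_nz
  obtain ⟨k, hk⟩ := ft_val_int A hA hnum
  obtain ⟨l, hl⟩ := ft_val_int A hA hden
  refine ⟨(k : ℤ) - l, ?_⟩
  have hcast : (r : Qb) = (r.num : Qb) / ((r.den : ℤ) : Qb) := by
    rw [Int.cast_natCast]
    exact Rat.cast_def r
  rw [hcast, map_div₀, hk, hl, zpow_sub₀ (ft_val_two_ne_zero A), zpow_natCast, zpow_natCast]

theorem ft_val_rat' (hA : A.LiesOverPrime 2) {r : ℚ} (hr : r ≠ 0) :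
    ∃ k : ℤ, A.valuation (algebraMap ℚ Qb r) = A.valuation (2 : Qb) ^ k := by
  rw [eq_ratCast]; exact ft_val_rat A hA hr

/-- `k ↦ v(2)^k` is injective -/
theorem ft_val_two_zpow_inj (hA : A.LiesOverPrime 2) {k l : ℤ}
    (h : A.valuation (2 : Qb) ^ k = A.valuation (2 : Qb) ^ l) : k = l :=
  zpow_right_injective₀ (ft_val_two_pos A) (fi_val_two_lt A hA).ne h

/-- `v(2)^k ≤ 1 ↔ 0 ≤ k` -/
theorem ft_val_two_zpow_le_one (hA : A.LiesOverPrime 2) {k : ℤ} :
    A.valuation (2 : Qb) ^ k ≤ 1 ↔ 0 ≤ k := by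
  have := zpow_le_zpow_iff_right_of_lt_one₀ (ft_val_two_pos A) (fi_val_two_lt A hA) (m := k) (n := 0)
  rwa [zpow_zero] at this

/-- a rational number in `A` is congruent to `0` or to `1` modulo the maximal ideal -/
theorem ft_res_rat (hA : A.LiesOverPrime 2) {r : ℚ} (hr : A.valuation (r : Qb) ≤ 1) :
    A.valuation (r : Qb) < 1 ∨ A.valuation ((r : Qb) - 1) < 1 := by
  have hden0 : (r.den : ℤ) ≠ 0 := by exact_mod_cast r.den_nz
  have hdenQ : ((r.den : ℤ) : Qb) ≠ 0 := by exact_mod_cast hden0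
  have hcast : (r : Qb) = (r.num : Qb) / ((r.den : ℤ) : Qb) := by
    rw [Int.cast_natCast]
    exact Rat.cast_def r
  -- the denominator is odd
  have hdodd : ¬ (2 : ℤ) ∣ (r.den : ℤ) := by
    intro hd
    have hnodd : ¬ (2 : ℤ) ∣ r.num := by
      intro hn
      have hcop := r.reduced
      have h2 : (2 : ℕ) ∣ r.num.natAbs := by
        have := Int.natAbs_dvd_natAbs.mpr hn
        simpa using this
      have h2' : (2 : ℕ) ∣ r.den := by exact_mod_cast hd
      have := Nat.dvd_gcd h2 h2'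
      rw [hcop] at this
      exact absurd this (by decide)
    have h1 := ft_val_odd A hA hnodd
    have h2 := ft_val_even A hA hd
    rw [hcast, map_div₀, h1] at hr
    have hpos : 0 < A.valuation ((r.den : ℤ) : Qb) := by
      rw [Valuation.pos_iff]; exact hdenQ
    rw [div_le_one₀ hpos] at hr
    exact absurd h2 (not_lt.mpr hr)
  have hdu := ft_val_odd A hA hdodd
  by_cases hn : (2 : ℤ) ∣ r.num
  · left
    rw [hcast, map_div₀, hdu, div_one]
    exact ft_val_even A hA hn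
  · right
    have hsub : (r : Qb) - 1 = ((r.num - (r.den : ℤ) : ℤ) : Qb) / ((r.den : ℤ) : Qb) := by
      rw [hcast]; push_cast; field_simp
    have heven : (2 : ℤ) ∣ r.num - (r.den : ℤ) := by
      have h1 : r.num % 2 = 1 := by omega
      have h2 : (r.den : ℤ) % 2 = 1 := by omega
      omega
    rw [hsub, map_div₀, hdu, div_one]
    exact ft_val_even A hA heven

theorem ft_res_rat' (hA : A.LiesOverPrime 2) {r : ℚ} (hr : A.valuation (algebraMap ℚ Qb r) ≤ 1) :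
    A.valuation (algebraMap ℚ Qb r) < 1 ∨ A.valuation (algebraMap ℚ Qb r - 1) < 1 := by
  rw [eq_ratCast] at hr ⊢; exact ft_res_rat A hA hr

end Two

/-! ## the Frey model at `2` -/
section Frey

variable (P : FreyPackage)

theorem ft_b₄ : (P.freyCurve⁄Qb).b₄ = 2 * (P.freyCurve⁄Qb).a₄ := by
  simp only [WeierstrassCurve.b₄, fi_a₁, fi_a₃]; ring

theorem ft_b₆ : (P.freyCurve⁄Qb).b₆ = 0 := by
  simp only [WeierstrassCurve.b₆, fi_a₃, fi_a₆]; ring

theorem ft_b₈ : (P.freyCurve⁄Qb).b₈ = -(P.freyCurve⁄Qb).a₄ ^ 2 := by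
  simp only [WeierstrassCurve.b₈, fi_a₁, fi_a₃, fi_a₆]; ring

theorem ft_b₂ : (P.freyCurve⁄Qb).b₂ = ((1 + 4 * fiA₂ P : ℤ) : Qb) := by
  simp only [WeierstrassCurve.b₂, fi_a₁, fi_a₂]; push_cast; ring

theorem ft_a₄_ne_zero : (P.freyCurve⁄Qb).a₄ ≠ 0 := by
  rw [fi_a₄]; exact_mod_cast fiA₄_ne_zero P

variable (A : ValuationSubring Qb)

theorem ft_b₂_unit (hA : A.LiesOverPrime 2) : A.valuation (P.freyCurve⁄Qb).b₂ = 1 := by
  rw [ft_b₂]
  apply ft_val_odd A hA
  omega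

theorem ft_a₄_lt (hA : A.LiesOverPrime 2) : A.valuation (P.freyCurve⁄Qb).a₄ < 1 := by
  rw [fi_a₄]; exact ft_val_even A hA (fi_two_dvd_A₄ P)

theorem ft_a_odd : ¬ (2 : ℤ) ∣ P.a := by
  intro h
  have h4 : ((P.a - 3 : ℤ) : ZMod 4) = 0 := by
    push_cast
    rw [P.ha4]
    decide
  have hd := (ZMod.intCast_zmod_eq_zero_iff_dvd (P.a - 3) 4).mp h4
  obtain ⟨k, hk⟩ := hd
  obtain ⟨l, hl⟩ := h
  push_cast at hk
  omega

/-- exact `2`-adic valuation of `a₄`: `v(a₄) = v(2)^h`, `h = p·v₂(b) - 4 > 0`, `p ∤ 2h` -/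
theorem ft_exists_h (hA : A.LiesOverPrime 2) :
    ∃ h : ℕ, 0 < h ∧ A.valuation (P.freyCurve⁄Qb).a₄ = A.valuation (2 : Qb) ^ h ∧
      ¬ P.p ∣ 2 * h := by
  obtain ⟨e, c, hbc, hc⟩ := ft_int_two_pow_mul_odd P.hb0
  have he : 1 ≤ e := by
    by_contra h0
    have : e = 0 := by omega
    rw [this, pow_zero, one_mul] at hbc
    exact hc (hbc ▸ fi_two_dvd_b P)
  have hp5 := P.hp5
  -- `e * p = h + 4`
  obtain ⟨h, hh⟩ : ∃ h : ℕ, e * P.p = h + 4 := by
    refine ⟨e * P.p - 4, ?_⟩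
    have : 5 ≤ e * P.p := by nlinarith
    omega
  have hhpos : 0 < h := by
    have : 5 ≤ e * P.p := by nlinarith
    omega
  refine ⟨h, hhpos, ?_, ?_⟩
  · -- `fiA₄ = 2^h * u`, `u = -(a^p c^p)` odd
    have hspec := fiA₄_spec P
    have hA4 : fiA₄ P = 2 ^ h * (-(P.a ^ P.p * c ^ P.p)) := by
      have h16 : (16 : ℤ) ≠ 0 := by norm_num
      apply mul_left_cancel₀ h16
      rw [hspec]
      conv_lhs => rw [hbc]
      rw [mul_pow, ← pow_mul, hh, pow_add]
      ring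
    have hu : ¬ (2 : ℤ) ∣ -(P.a ^ P.p * c ^ P.p) := by
      rw [dvd_neg]
      intro hd
      rcases Int.prime_two.dvd_or_dvd hd with h1 | h1
      · exact ft_a_odd P (Int.prime_two.dvd_of_dvd_pow h1)
      · exact hc (Int.prime_two.dvd_of_dvd_pow h1)
    rw [fi_a₄, hA4]
    have : ((2 ^ h * (-(P.a ^ P.p * c ^ P.p)) : ℤ) : Qb)
        = (2 : Qb) ^ h * ((-(P.a ^ P.p * c ^ P.p) : ℤ) : Qb) := by push_cast; ring
    rw [this, map_mul, map_pow, ft_val_odd A hA hu, mul_one]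
  · intro hd
    have h8 : P.p ∣ 8 := by
      have h1 : P.p ∣ 2 * (e * P.p) := Dvd.intro_left (2 * e) (by ring)
      have h2 : 2 * (e * P.p) = 2 * h + 8 := by omega
      rw [h2] at h1
      exact (Nat.dvd_add_right hd).mp h1
    have h2 : P.p ∣ 2 := by
      have : P.p ∣ 2 ^ 3 := by norm_num; exact h8
      exact P.pp.dvd_of_dvd_pow this
    have := Nat.le_of_dvd (by norm_num) h2
    omega

end Frey

end Fermat.Agent.S13x
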