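import Fermat.Agent.S13x.W1PairPt
import Fermat.Agent.S05x.NodeCore

/-!
# S13 project, 2-adic package: sawtooth consequence for `Y² + a₁XY = X³ + a₂X² + a₄X`

For an `n`-torsion point `P`, `psz P ^ n` is an even power of `v(a₄)` (port of the second half of
`S05x/Sawtooth.lean`; the abstract `saw_induction` is reused as is).
-/

set_option autoImplicit false
open WeierstrassCurve WeierstrassCurve.Affine WeierstrassCurve.Affine.Point

namespace Fermat.Agent.S13x

open Fermat.Agent.S05x

variable {K : Type*} [Field K] [DecidableEq K] (A : ValuationSubring K) {W : WeierstrassCurve K}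

/-- sawtooth consequence, with the pair lemma for points as an explicit hypothesis:
for an `n`-torsion point, `psz P ^ n` is an even power of `v(a₄)` -/
theorem w1_psz_pow_mem_of_pair (H : W1Hyp A W)
    (hpair : ∀ P Q : W.toAffine.Point,
      (psz A W (P + Q) = min (psz A W P / psz A W Q) (psz A W Q / psz A W P) ∧
        psz A W (P - Q) = rfl2 (A.valuation W.a₄) (psz A W P * psz A W Q)) ∨
      (psz A W (P - Q) = min (psz A W P / psz A W Q) (psz A W Q / psz A W P) ∧
        psz A W (P + Q) = rfl2 (A.valuation W.a₄) (psz A W P * psz A W Q)))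
    (P : W.toAffine.Point) (n : ℕ) (hP : n • P = 0) :
    ∃ m : ℤ, psz A W P ^ n = A.valuation W.a₄ ^ (2 * m) := by
  have hη : A.valuation W.a₄ ≠ 0 := (A.valuation.ne_zero_iff).2 H.a₄0
  set ηu : A.ValueGroupˣ := Units.mk0 (A.valuation W.a₄) hη with hηu
  set u : ℕ → A.ValueGroupˣ := fun k => Units.mk0 (psz A W (k • P)) (w1_psz_ne_zero A H _) with hu
  set L : Subgroup A.ValueGroupˣ := Subgroup.zpowers (ηu ^ 2) with hL
  have hu_val : ∀ k, ((u k : A.ValueGroupˣ) : A.ValueGroup) = psz A W (k • P) := fun k => rfl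
  have hη2 : ηu ^ 2 ∈ L := Subgroup.mem_zpowers _
  have h0 : u 0 ∈ L := by
    have : u 0 = 1 := by
      apply Units.ext
      rw [hu_val, zero_smul, psz_zero, Units.val_one]
    rw [this]; exact L.one_mem
  have hstep : ∀ j : ℕ, ∃ D T : A.ValueGroupˣ, SawRel L D (u (j + 1) / u 1) ∧
      SawRel L T (u (j + 1) * u 1) ∧ ((u (j + 2) = D ∧ u j = T) ∨ (u j = D ∧ u (j + 2) = T)) := by
    intro j
    have hadd : (j + 1) • P + P = (j + 2) • P := (succ_nsmul P (j + 1)).symm
    have hsub : (j + 1) • P - P = j • P := by rw [succ_nsmul, add_sub_cancel_right]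
    have h1P : (1 : ℕ) • P = P := one_nsmul P
    -- the two candidate values
    have hmin : ∀ X : A.ValueGroupˣ,
        (X : A.ValueGroup) = min (psz A W ((j + 1) • P) / psz A W P)
          (psz A W P / psz A W ((j + 1) • P)) → SawRel L X (u (j + 1) / u 1) := by
      intro X hX
      rcases min_choice (psz A W ((j + 1) • P) / psz A W P)
        (psz A W P / psz A W ((j + 1) • P)) with hm | hm
      · left
        have : X = u (j + 1) / u 1 := by
          apply Units.ext
          rw [hX, hm, Units.val_div_eq_div_val, hu_val, hu_val, h1P]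
        rw [this, div_self']; exact L.one_mem
      · right
        have : X * (u (j + 1) / u 1) = 1 := by
          apply Units.ext
          rw [Units.val_mul, hX, hm, Units.val_div_eq_div_val, hu_val, hu_val, h1P, Units.val_one]
          have ha := w1_psz_ne_zero A H ((j + 1) • P)
          have hb := w1_psz_ne_zero A H P
          field_simp
        rw [this]; exact L.one_mem
    have hrfl : ∀ X : A.ValueGroupˣ,
        (X : A.ValueGroup) = rfl2 (A.valuation W.a₄) (psz A W ((j + 1) • P) * psz A W P) →
          SawRel L X (u (j + 1) * u 1) := by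
      intro X hX
      unfold rfl2 at hX
      split_ifs at hX with hc
      · left
        have : X = u (j + 1) * u 1 := by
          apply Units.ext
          rw [hX, Units.val_mul, hu_val, hu_val, h1P]
        rw [this, div_self']; exact L.one_mem
      · right
        have : X * (u (j + 1) * u 1) = ηu ^ 2 := by
          apply Units.ext
          rw [Units.val_mul, hX, Units.val_mul, hu_val, hu_val, h1P, Units.val_pow_eq_pow_val]
          have ha := w1_psz_ne_zero A H ((j + 1) • P)
          have hb := w1_psz_ne_zero A H P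
          show A.valuation W.a₄ ^ 2 / (psz A W ((j + 1) • P) * psz A W P) *
            (psz A W ((j + 1) • P) * psz A W P) = A.valuation W.a₄ ^ 2
          field_simp
        rw [this]; exact hη2
    rcases hpair ((j + 1) • P) P with ⟨h₁, h₂⟩ | ⟨h₁, h₂⟩
    · rw [hadd] at h₁
      rw [hsub] at h₂
      exact ⟨u (j + 2), u j, hmin _ h₁, hrfl _ h₂, Or.inl ⟨rfl, rfl⟩⟩
    · rw [hsub] at h₁
      rw [hadd] at h₂
      exact ⟨u j, u (j + 2), hmin _ h₁, hrfl _ h₂, Or.inr ⟨rfl, rfl⟩⟩
  have key := saw_induction L u h0 hstep n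
  have hun : u n = 1 := by
    apply Units.ext
    rw [hu_val, hP, psz_zero, Units.val_one]
  have hmem : u 1 ^ n ∈ L := by
    rcases key with h | h
    · rw [hun, one_div] at h
      have := L.inv_mem h
      rwa [inv_inv] at this
    · rwa [hun, one_mul] at h
  obtain ⟨m, hm⟩ := Subgroup.mem_zpowers_iff.1 hmem
  refine ⟨m, ?_⟩
  have h1 : ((u 1 ^ n : A.ValueGroupˣ) : A.ValueGroup) = psz A W P ^ n := by
    rw [Units.val_pow_eq_pow_val, hu_val, one_nsmul]
  have h2 : (((ηu ^ 2) ^ m : A.ValueGroupˣ) : A.ValueGroup) = A.valuation W.a₄ ^ (2 * m) := by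
    rw [← zpow_natCast ηu 2, ← zpow_mul, Units.val_zpow_eq_zpow_val]
    rfl
  rw [← h1, ← hm, h2]

/-- sawtooth consequence: for an `n`-torsion point, `psz P ^ n` is an even power of `v(a₄)` -/
theorem w1_psz_pow_mem (H : W1Hyp A W) (P : W.toAffine.Point) (n : ℕ) (hP : n • P = 0) :
    ∃ m : ℤ, psz A W P ^ n = A.valuation W.a₄ ^ (2 * m) :=
  w1_psz_pow_mem_of_pair A H (w1_pair_pt A H) P n hP

/-- an odd-order torsion point is never "deep in the node": `psz P ≠ v(a₄)`. -/
theorem w1_psz_ne_eta (H : W1Hyp A W) (P : W.toAffine.Point) {n : ℕ} (hodd : Odd n)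
    (hP : n • P = 0) : psz A W P ≠ A.valuation W.a₄ := by
  intro he
  obtain ⟨m, hm⟩ := w1_psz_pow_mem A H P n hP
  rw [he] at hm
  exact m7_pow_ne_zpow_two_mul (w1_val_a₄_ne_zero A H) H.a₄m hodd m hm

end Fermat.Agent.S13x
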