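import Fermat.Agent.S13x.WGen
import Fermat.Agent.S13x.W1Saw

/-!
# S13 project, 2-adic package, module C07: inertia acts unipotently (abstract local form)

Model `Y² + a₁XY = X³ + a₂X² + a₄X` over a field `K` with a valuation subring `A` of residue
characteristic `2` (`v 2 < 1`), `b₂` a unit, `a₄` a nonzero nonunit (`W1Hyp`).  `τ : K →+* K` is
trivial on the residue field and preserves `v`; `T` is the induced additive map on points.  Then
`T (T P - P) = T P - P` for every point `P` of odd order.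

Ingredients: the smooth congruence lemma (`itl_smooth`), the node tangent lemma (`itl_node`), the
sawtooth consequence `w1_psz_ne_eta` and `wg_torsion_x_integral_two`.  All names prefixed `itl_`.
-/

set_option autoImplicit false
open WeierstrassCurve WeierstrassCurve.Affine WeierstrassCurve.Affine.Point

namespace Fermat.Agent.S13x

open Fermat.Agent.S05x

variable {K : Type*} [Field K]

section Basic

variable (A : ValuationSubring K) {W : WeierstrassCurve K}

theorem W1Hyp.isIntW (H : W1Hyp A W) : IsIntW A W where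
  a₁ := H.a₁
  a₂ := H.a₂
  a₃ := by rw [H.w1.a₃, _root_.map_zero]; exact zero_le_one
  a₄ := H.a₄m.le
  a₆ := by rw [H.w1.a₆, _root_.map_zero]; exact zero_le_one

/-- in residue characteristic `2`, `a₁` is a unit (because `b₂ = a₁² + 4a₂` is). -/
theorem itl_a₁_unit (H : W1Hyp A W) (h2 : A.valuation (2 : K) < 1) : A.valuation W.a₁ = 1 := by
  have h4a2 : A.valuation (4 * W.a₂) < 1 := by
    have h : (4 : K) * W.a₂ = 2 * (2 * W.a₂) := by ring
    rw [h, map_mul]
    calc A.valuation 2 * A.valuation (2 * W.a₂) ≤ A.valuation 2 * 1 :=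
          mul_le_mul' le_rfl ((w1pv_two_mul_le A.valuation _).trans H.a₂)
      _ = A.valuation 2 := mul_one _
      _ < 1 := h2
  have hsq : A.valuation (W.a₁ ^ 2) = 1 := by
    have hb := H.b₂u
    rw [WeierstrassCurve.b₂] at hb
    have h5 : A.valuation (W.a₁ ^ 2 + 4 * W.a₂ - 4 * W.a₂) = 1 := by
      rw [← hb]
      apply Valuation.map_sub_eq_of_lt_left
      rw [hb]; exact h4a2
    rwa [add_sub_cancel_right] at h5
  rw [map_pow] at hsq
  exact pv_eq_of_sq_eq (by rw [hsq, one_pow])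

/-- integrality of `y` for a point with integral `x` -/
theorem itl_y_integral (H : W1Hyp A W) {x y : K} (h : W.toAffine.Nonsingular x y)
    (hx : A.valuation x ≤ 1) : A.valuation y ≤ 1 := by
  have e := w1_eq_of_nonsingular H.w1 h
  by_contra hy
  rw [not_le] at hy
  have hy0 : A.valuation y ≠ 0 := (lt_trans zero_lt_one hy).ne'
  have h1 : A.valuation (W.a₁ * x * y) < A.valuation (y ^ 2) := by
    rw [map_mul, map_mul, map_pow, pow_two]
    have h2 : A.valuation W.a₁ * A.valuation x ≤ 1 := by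
      calc A.valuation W.a₁ * A.valuation x ≤ 1 * 1 := mul_le_mul' H.a₁ hx
        _ = 1 := one_mul 1
    exact pv_mul_lt (lt_of_le_of_lt h2 hy) le_rfl hy0
  have h2 : A.valuation (y ^ 2 + W.a₁ * x * y) = A.valuation (y ^ 2) :=
    Valuation.map_add_eq_of_lt_left A.valuation h1
  have h3 : A.valuation (x ^ 3 + W.a₂ * x ^ 2 + W.a₄ * x) ≤ 1 := by
    apply Valuation.map_add_le A.valuation (Valuation.map_add_le A.valuation _ _) _
    · rw [map_pow]; exact pow_le_one₀ zero_le hx
    · rw [map_mul, map_pow]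
      calc A.valuation W.a₂ * A.valuation x ^ 2 ≤ 1 * 1 :=
            mul_le_mul' H.a₂ (pow_le_one₀ zero_le hx)
        _ = 1 := one_mul 1
    · rw [map_mul]
      calc A.valuation W.a₄ * A.valuation x ≤ 1 * 1 := mul_le_mul' H.a₄m.le hx
        _ = 1 := one_mul 1
  rw [e] at h2
  rw [h2, map_pow] at h3
  have : (1 : A.ValueGroup) < A.valuation y ^ 2 := by
    calc (1 : A.ValueGroup) = 1 ^ 2 := (one_pow 2).symm
      _ < A.valuation y ^ 2 := pv_sq_lt hy
  exact absurd h3 (not_le.mpr this)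

end Basic

section Lemmas

variable [DecidableEq K] (A : ValuationSubring K) {W : WeierstrassCurve K}

/-- **Smooth congruence lemma** (vertical-tangent-free form): two points with integral coordinates,
congruent modulo the maximal ideal, at which `F_Y = 2y + a₁x` is a unit, are equal or differ by a
point of the kernel of reduction. -/
theorem itl_smooth (H : W1Hyp A W) {x₁ y₁ x₂ y₂ : K} (h₁ : W.toAffine.Nonsingular x₁ y₁)
    (h₂ : W.toAffine.Nonsingular x₂ y₂) (hx : A.valuation x₁ ≤ 1)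
    (hxx : A.valuation (x₁ - x₂) < 1) (hyy : A.valuation (y₁ - y₂) < 1)
    (hns : A.valuation (2 * y₁ + W.a₁ * x₁) = 1) :
    Point.some x₁ y₁ h₁ = Point.some x₂ y₂ h₂ ∨
      ∃ (x₄ y₄ : K) (h₄ : W.toAffine.Nonsingular x₄ y₄),
        Point.some x₁ y₁ h₁ - Point.some x₂ y₂ h₂ = Point.some x₄ y₄ h₄ ∧
          1 < A.valuation x₄ := by
  by_cases hxe : x₁ = x₂
  · left
    subst hxe
    rcases w1_same_x H.w1 h₁ h₂ with hy | hy
    · subst hy; rfl
    · exfalso
      have : y₁ - y₂ = 2 * y₁ + W.a₁ * x₁ := by rw [hy]; ring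
      rw [this, hns] at hyy
      exact lt_irrefl _ hyy
  · right
    obtain ⟨x₃, y₃, h₃, x₄, y₄, h₄, -, e₄, -, -, -, hL⟩ := w1_add_sub H.w1 h₁ h₂ hxe
    refine ⟨x₄, y₄, h₄, e₄, ?_⟩
    have hd0 : x₁ - x₂ ≠ 0 := sub_ne_zero.mpr hxe
    have hdv0 : A.valuation (x₁ - x₂) ≠ 0 := (A.valuation.ne_zero_iff).mpr hd0
    have hx2 : A.valuation x₂ ≤ 1 := by
      have : x₂ = x₁ - (x₁ - x₂) := by ring
      rw [this]
      exact Valuation.map_sub_le A.valuation hx hxx.le
    -- the numerator of the slope is a unit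
    have hnum : A.valuation (y₁ + y₂ + W.a₁ * x₂) = 1 := by
      have : y₁ + y₂ + W.a₁ * x₂ = (2 * y₁ + W.a₁ * x₁) - ((y₁ - y₂) + W.a₁ * (x₁ - x₂)) := by ring
      rw [this, ← hns]
      apply Valuation.map_sub_eq_of_lt_left
      rw [hns]
      apply Valuation.map_add_lt A.valuation hyy
      rw [map_mul]
      calc A.valuation W.a₁ * A.valuation (x₁ - x₂) ≤ 1 * A.valuation (x₁ - x₂) :=
            mul_le_mul' H.a₁ le_rfl
        _ = A.valuation (x₁ - x₂) := one_mul _
        _ < 1 := hxx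
    set lam : K := (y₁ + y₂ + W.a₁ * x₂) / (x₁ - x₂) with hlam
    have hlamv : A.valuation lam * A.valuation (x₁ - x₂) = 1 := by
      rw [← map_mul, hlam, div_mul_cancel₀ _ hd0, hnum]
    have hlam1 : 1 < A.valuation lam := by
      by_contra hcon
      rw [not_lt] at hcon
      have : A.valuation lam * A.valuation (x₁ - x₂) < 1 := by
        calc A.valuation lam * A.valuation (x₁ - x₂) ≤ 1 * A.valuation (x₁ - x₂) :=
              mul_le_mul' hcon le_rfl
          _ = A.valuation (x₁ - x₂) := one_mul _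
          _ < 1 := hxx
      rw [hlamv] at this
      exact lt_irrefl _ this
    have hlam0 : A.valuation lam ≠ 0 := (lt_trans zero_lt_one hlam1).ne'
    have hsq : A.valuation lam < A.valuation (lam ^ 2) := by
      rw [map_pow, pow_two]
      calc A.valuation lam = 1 * A.valuation lam := (one_mul _).symm
        _ < A.valuation lam * A.valuation lam := pv_mul_lt hlam1 le_rfl hlam0
    have h1 : A.valuation (lam ^ 2 + W.a₁ * lam) = A.valuation (lam ^ 2) := by
      apply Valuation.map_add_eq_of_lt_left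
      rw [map_mul]
      calc A.valuation W.a₁ * A.valuation lam ≤ 1 * A.valuation lam := mul_le_mul' H.a₁ le_rfl
        _ = A.valuation lam := one_mul _
        _ < A.valuation (lam ^ 2) := hsq
    have h2 : A.valuation (W.a₂ + x₁ + x₂) ≤ 1 :=
      Valuation.map_add_le A.valuation (Valuation.map_add_le A.valuation H.a₂ hx) hx2
    have h3 : x₄ = (lam ^ 2 + W.a₁ * lam) - (W.a₂ + x₁ + x₂) := by rw [hL]; ring
    have h4 : A.valuation x₄ = A.valuation (lam ^ 2) := by
      rw [h3, ← h1]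
      apply Valuation.map_sub_eq_of_lt_left
      rw [h1]
      exact lt_of_le_of_lt h2 (hlam1.trans hsq)
    rw [h4]
    exact hlam1.trans hsq

omit [DecidableEq K] in
/-- the tangent direction `t = y/x` at a point near the node (`v a₄ < v x < 1`) is integral and
satisfies `t² + a₁t - a₂ ≡ 0`. -/
theorem itl_tangent (H : W1Hyp A W) {x y : K} (h : W.toAffine.Nonsingular x y)
    (hx1 : A.valuation x < 1) (hxe : A.valuation W.a₄ < A.valuation x) :
    A.valuation (y / x) ≤ 1 ∧
      A.valuation ((y / x) ^ 2 + W.a₁ * (y / x) - W.a₂) < 1 := by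
  have e := w1_eq_of_nonsingular H.w1 h
  have hx0v : A.valuation x ≠ 0 := (lt_of_le_of_lt zero_le hxe).ne'
  have hx0 : x ≠ 0 := (A.valuation.ne_zero_iff).mp hx0v
  have hid : (y / x) ^ 2 + W.a₁ * (y / x) - W.a₂ = x + W.a₄ / x := by
    field_simp
    linear_combination e
  have hdv : A.valuation (W.a₄ / x) < 1 := by
    rw [map_div₀, div_lt_one₀ (zero_lt_iff.mpr hx0v)]
    exact hxe
  have hδ : A.valuation (x + W.a₄ / x) < 1 := Valuation.map_add_lt A.valuation hx1 hdv
  refine ⟨?_, by rw [hid]; exact hδ⟩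
  by_contra ht
  rw [not_le] at ht
  set t := y / x with htdef
  have ht0 : A.valuation t ≠ 0 := (lt_trans zero_lt_one ht).ne'
  have h1 : A.valuation (W.a₁ * t) < A.valuation (t ^ 2) := by
    rw [map_mul, map_pow, pow_two]
    exact pv_mul_lt (lt_of_le_of_lt H.a₁ ht) le_rfl ht0
  have h2 : A.valuation (t ^ 2 + W.a₁ * t) = A.valuation (t ^ 2) :=
    Valuation.map_add_eq_of_lt_left A.valuation h1
  have hgt : (1 : A.ValueGroup) < A.valuation (t ^ 2) := by
    rw [map_pow]
    calc (1 : A.ValueGroup) = 1 ^ 2 := (one_pow 2).symm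
      _ < A.valuation t ^ 2 := pv_sq_lt ht
  have h3 : A.valuation (t ^ 2 + W.a₁ * t - W.a₂) = A.valuation (t ^ 2) := by
    rw [← h2]
    apply Valuation.map_sub_eq_of_lt_left
    rw [h2]
    exact lt_of_le_of_lt H.a₂ hgt
  rw [hid] at h3
  rw [h3] at hδ
  exact absurd hδ (not_lt.mpr hgt.le)

/-- **Node tangent lemma**: two points near the node (`v a₄ < v x₁ = v x₂ < 1`) with congruent
tangent directions are equal, or their difference has a unit (or non-integral) `x`-coordinate. -/
theorem itl_node (H : W1Hyp A W) {x₁ y₁ x₂ y₂ : K} (h₁ : W.toAffine.Nonsingular x₁ y₁)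
    (h₂ : W.toAffine.Nonsingular x₂ y₂) (hx1 : A.valuation x₁ < 1)
    (hxe : A.valuation W.a₄ < A.valuation x₁) (hv : A.valuation x₂ = A.valuation x₁)
    (ht : A.valuation (y₁ / x₁ - y₂ / x₂) < 1) :
    Point.some x₁ y₁ h₁ = Point.some x₂ y₂ h₂ ∨
      ∃ (x₄ y₄ : K) (h₄ : W.toAffine.Nonsingular x₄ y₄),
        Point.some x₁ y₁ h₁ - Point.some x₂ y₂ h₂ = Point.some x₄ y₄ h₄ ∧
          1 ≤ A.valuation x₄ := by
  obtain ⟨ht1, hδ1⟩ := itl_tangent A H h₁ hx1 hxe
  have hx10v : A.valuation x₁ ≠ 0 := (lt_of_le_of_lt zero_le hxe).ne'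
  have hx10 : x₁ ≠ 0 := (A.valuation.ne_zero_iff).mp hx10v
  have hx20 : x₂ ≠ 0 := (A.valuation.ne_zero_iff).mp (by rw [hv]; exact hx10v)
  set t₁ := y₁ / x₁ with ht₁
  set t₂ := y₂ / x₂ with ht₂
  have hy1 : y₁ = t₁ * x₁ := by rw [ht₁, div_mul_cancel₀ _ hx10]
  have hy2 : y₂ = t₂ * x₂ := by rw [ht₂, div_mul_cancel₀ _ hx20]
  have ht2 : A.valuation t₂ ≤ 1 := by
    have : t₂ = t₁ - (t₁ - t₂) := by ring
    rw [this]
    exact Valuation.map_sub_le A.valuation ht1 ht.le
  -- `(2t₁ + a₁)² ≡ b₂` is a unit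
  have hunit : A.valuation (2 * t₁ + W.a₁) = 1 := by
    have hsq : (2 * t₁ + W.a₁) ^ 2 = W.b₂ + 4 * (t₁ ^ 2 + W.a₁ * t₁ - W.a₂) := by
      rw [WeierstrassCurve.b₂]; ring
    have h1 : A.valuation ((2 * t₁ + W.a₁) ^ 2) = 1 := by
      rw [hsq, ← H.b₂u]
      apply Valuation.map_add_eq_of_lt_left
      rw [H.b₂u]
      exact (w1pv_four_mul_le A.valuation _).trans_lt hδ1
    rw [map_pow] at h1
    exact pv_eq_of_sq_eq (by rw [h1, one_pow])
  by_cases hxeq : x₁ = x₂
  · left
    subst hxeq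
    rcases w1_same_x H.w1 h₁ h₂ with hy | hy
    · subst hy; rfl
    · exfalso
      have : t₁ - t₂ = 2 * t₁ + W.a₁ := by
        rw [ht₂, hy, ht₁]
        field_simp
        ring
      rw [this, hunit] at ht
      exact lt_irrefl _ ht
  · right
    obtain ⟨x₃, y₃, h₃, x₄, y₄, h₄, -, e₄, -, -, hD, -⟩ := w1_add_sub H.w1 h₁ h₂ hxeq
    refine ⟨x₄, y₄, h₄, e₄, ?_⟩
    have hd0 : x₁ - x₂ ≠ 0 := sub_ne_zero.mpr hxeq
    have hdv0 : A.valuation (x₁ - x₂) ≠ 0 := (A.valuation.ne_zero_iff).mpr hd0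
    have hdle : A.valuation (x₁ - x₂) ≤ A.valuation x₁ :=
      Valuation.map_sub_le A.valuation le_rfl hv.le
    have hx2lt : A.valuation x₂ < 1 := by rw [hv]; exact hx1
    -- the bracket is `b₂` plus small terms
    set B : K := x₁ + x₂ + 2 * W.a₂ + W.a₁ ^ 2 + 2 * t₁ * t₂ + W.a₁ * (t₁ + t₂) with hB
    have hBeq : B = W.b₂ + (x₁ + x₂ + 2 * (t₁ ^ 2 + W.a₁ * t₁ - W.a₂) -
        (t₁ - t₂) * (2 * t₁ + W.a₁)) := by
      rw [hB, WeierstrassCurve.b₂]; ring
    have hsmall : A.valuation (x₁ + x₂ + 2 * (t₁ ^ 2 + W.a₁ * t₁ - W.a₂) -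
        (t₁ - t₂) * (2 * t₁ + W.a₁)) < 1 := by
      apply Valuation.map_sub_lt A.valuation
      · apply Valuation.map_add_lt A.valuation (Valuation.map_add_lt A.valuation hx1 hx2lt)
        exact (w1pv_two_mul_le A.valuation _).trans_lt hδ1
      · rw [map_mul, hunit, mul_one]; exact ht
    have hBv : A.valuation B = 1 := by
      rw [hBeq, ← H.b₂u]
      apply Valuation.map_add_eq_of_lt_left
      rw [H.b₂u]; exact hsmall
    have hRHS : x₄ * (x₁ - x₂) ^ 2 = x₁ * x₂ * B + W.a₄ * (x₁ + x₂) := by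
      rw [hD, hB, hy1, hy2]; ring
    have hmain : A.valuation (x₁ * x₂ * B) = A.valuation x₁ * A.valuation x₁ := by
      rw [map_mul, map_mul, hBv, mul_one, hv]
    have hsmall2 : A.valuation (W.a₄ * (x₁ + x₂)) < A.valuation x₁ * A.valuation x₁ := by
      rw [map_mul]
      exact pv_mul_lt hxe (Valuation.map_add_le A.valuation le_rfl hv.le) hx10v
    have hval : A.valuation (x₄ * (x₁ - x₂) ^ 2) = A.valuation x₁ * A.valuation x₁ := by
      rw [hRHS, ← hmain]
      apply Valuation.map_add_eq_of_lt_left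
      rw [hmain]; exact hsmall2
    rw [map_mul, map_pow] at hval
    apply pv_cancel (pow_ne_zero 2 hdv0)
    rw [hval, one_mul, ← pow_two]
    exact pv_sq_le hdle

end Lemmas

section Main

variable [DecidableEq K] (A : ValuationSubring K) {W : WeierstrassCurve K}

/-- an odd-order point with unit `x`-coordinate is fixed by `T`. -/
theorem itl_fixed_of_unit_x (H : W1Hyp A W) (h2 : A.valuation (2 : K) < 1) (τ : K →+* K)
    (hτ : ∀ a : K, A.valuation a ≤ 1 → A.valuation (τ a - a) < 1)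
    (T : W.toAffine.Point →+ W.toAffine.Point)
    (hT : ∀ (x y : K) (h : W.toAffine.Nonsingular x y),
      ∃ h' : W.toAffine.Nonsingular (τ x) (τ y), T (Point.some x y h) = Point.some (τ x) (τ y) h')
    {n : ℕ} (hodd : Odd n) {x y : K} (h : W.toAffine.Nonsingular x y)
    (hP : n • Point.some x y h = 0) (hx : A.valuation x = 1) :
    T (Point.some x y h) = Point.some x y h := by
  obtain ⟨h', e⟩ := hT x y h
  have hy := itl_y_integral A H h hx.le
  have hxx : A.valuation (x - τ x) < 1 := by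
    rw [Valuation.map_sub_swap]; exact hτ x hx.le
  have hyy : A.valuation (y - τ y) < 1 := by
    rw [Valuation.map_sub_swap]; exact hτ y hy
  have hns : A.valuation (2 * y + W.a₁ * x) = 1 := by
    have h1 : A.valuation (W.a₁ * x) = 1 := by rw [map_mul, itl_a₁_unit A H h2, hx, one_mul]
    rw [add_comm, ← h1]
    apply Valuation.map_add_eq_of_lt_left
    rw [h1, map_mul]
    calc A.valuation 2 * A.valuation y ≤ A.valuation 2 * 1 := mul_le_mul' le_rfl hy
      _ = A.valuation 2 := mul_one _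
      _ < 1 := h2
  rw [e]
  rcases itl_smooth A H h h' hx.le hxx hyy hns with heq | ⟨x₄, y₄, h₄, e₄, hlt⟩
  · exact heq.symm
  · exfalso
    have hTP : n • T (Point.some x y h) = 0 := by rw [← map_nsmul, hP, _root_.map_zero]
    have h0 : n • Point.some x₄ y₄ h₄ = 0 := by
      rw [← e₄, ← e, smul_sub, hP, hTP, sub_zero]
    have := wg_torsion_x_integral_two A (H.isIntW A) h2 hodd h₄ h0
    exact absurd hlt (not_lt.mpr this)

/-- **C07**: `(T - 1)² = 0` on points of odd order. -/
theorem itl_unipotent (H : W1Hyp A W) (h2 : A.valuation (2 : K) < 1) (τ : K →+* K)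
    (hτ : ∀ a : K, A.valuation a ≤ 1 → A.valuation (τ a - a) < 1)
    (hτv : ∀ a : K, A.valuation (τ a) = A.valuation a)
    (T : W.toAffine.Point →+ W.toAffine.Point)
    (hT : ∀ (x y : K) (h : W.toAffine.Nonsingular x y),
      ∃ h' : W.toAffine.Nonsingular (τ x) (τ y), T (Point.some x y h) = Point.some (τ x) (τ y) h')
    {n : ℕ} (hodd : Odd n) (P : W.toAffine.Point) (hP : n • P = 0) :
    T (T P - P) = T P - P := by
  have hTP : n • T P = 0 := by rw [← map_nsmul, hP, _root_.map_zero]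
  rcases P with _ | ⟨x, y, h⟩
  · show T (T 0 - 0) = T 0 - 0
    rw [_root_.map_zero, sub_zero, _root_.map_zero]
  have hx1 : A.valuation x ≤ 1 := wg_torsion_x_integral_two A (H.isIntW A) h2 hodd h hP
  by_cases hxu : A.valuation x = 1
  · rw [itl_fixed_of_unit_x A H h2 τ hτ T hT hodd h hP hxu, sub_self, _root_.map_zero]
  have hxlt : A.valuation x < 1 := lt_of_le_of_ne hx1 hxu
  -- sawtooth: not deep in the node
  have hxe : A.valuation W.a₄ < A.valuation x := by
    by_contra hcon
    rw [not_lt] at hcon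
    apply w1_psz_ne_eta A H (Point.some x y h) hodd hP
    rw [psz_some, sz, max_eq_right hcon, min_eq_right H.a₄m.le]
  obtain ⟨h', e⟩ := hT x y h
  obtain ⟨ht1, -⟩ := itl_tangent A H h hxlt hxe
  have htt : A.valuation (y / x - τ y / τ x) < 1 := by
    rw [← map_div₀, Valuation.map_sub_swap]
    exact hτ _ ht1
  rcases itl_node A H h h' hxlt hxe (hτv x) htt with heq | ⟨x₄, y₄, h₄, e₄, hge⟩
  · rw [e, ← heq, sub_self, _root_.map_zero]
  · have h0 : n • Point.some x₄ y₄ h₄ = 0 := by
      rw [← e₄, ← e, smul_sub, hP, hTP, sub_zero]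
    have hle := wg_torsion_x_integral_two A (H.isIntW A) h2 hodd h₄ h0
    have hfix := itl_fixed_of_unit_x A H h2 τ hτ T hT hodd h₄ h0 (le_antisymm hle hge)
    have hneg : T (Point.some x y h) - Point.some x y h = -(Point.some x₄ y₄ h₄) := by
      rw [← e₄, e, neg_sub]
    rw [hneg, map_neg, hfix]

end Main

end Fermat.Agent.S13x
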