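import Mathlib
import Fermat.Prelude.Def_FLTPrelim_Ramification

/-!
# S13 project: elements of the decomposition group preserve the valuation (helper42's remark R4)

For an algebraic extension `L / K`, a valuation subring `A` of `L` and `σ : L ≃ₐ[K] L` in the
decomposition group of `A` (i.e. `σ • A = A`), we have `A.valuation (σ a) = A.valuation a` for all
`a : L`.  Proof: `σ` induces an order-preserving bijection of the value group; `a` has a finite
`σ`-orbit, and an order-preserving map with a finite orbit fixes the orbit pointwise.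
-/

set_option autoImplicit false

namespace Fermat.Agent.S13x

open ValuationSubring
open scoped Pointwise

section General

variable {K L : Type*} [Field K] [Field L] [Algebra K L]

/-- membership in `A` is preserved by the decomposition group -/
theorem vi_mem_iff (A : ValuationSubring L) (σ : L ≃ₐ[K] L)
    (hσ : σ ∈ A.decompositionSubgroup K) (a : L) : σ a ∈ A ↔ a ∈ A := by
  have hσ' : σ • A = A := MulAction.mem_stabilizer_iff.mp hσ
  constructor
  · intro h
    have h1 : σ a ∈ σ • A := by rw [hσ']; exact h
    rw [ValuationSubring.mem_pointwise_smul_iff_inv_smul_mem] at h1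
    rwa [AlgEquiv.smul_def, AlgEquiv.aut_inv, AlgEquiv.symm_apply_apply] at h1
  · intro h
    have h1 : σ a ∈ σ • A := by
      rw [ValuationSubring.mem_pointwise_smul_iff_inv_smul_mem, AlgEquiv.smul_def,
        AlgEquiv.aut_inv, AlgEquiv.symm_apply_apply]
      exact h
    rwa [hσ'] at h1

/-- the decomposition group preserves the order of valuations -/
theorem vi_le_iff (A : ValuationSubring L) (σ : L ≃ₐ[K] L)
    (hσ : σ ∈ A.decompositionSubgroup K) (a b : L) :
    A.valuation (σ a) ≤ A.valuation (σ b) ↔ A.valuation a ≤ A.valuation b := by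
  by_cases hb : b = 0
  · subst hb
    simp only [map_zero, le_zero_iff, map_eq_zero]
  · have hσb : σ b ≠ 0 := by simpa using hb
    have h1 : A.valuation (σ a) ≤ A.valuation (σ b) ↔ σ (a / b) ∈ A := by
      rw [← A.valuation_le_one_iff, map_div₀, map_div₀,
        div_le_one₀ (zero_lt_iff.mpr ((A.valuation.ne_zero_iff).mpr hσb))]
    have h2 : A.valuation a ≤ A.valuation b ↔ a / b ∈ A := by
      rw [← A.valuation_le_one_iff, map_div₀,
        div_le_one₀ (zero_lt_iff.mpr ((A.valuation.ne_zero_iff).mpr hb))]
    rw [h1, h2, vi_mem_iff A σ hσ]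

theorem vi_lt_iff (A : ValuationSubring L) (σ : L ≃ₐ[K] L)
    (hσ : σ ∈ A.decompositionSubgroup K) (a b : L) :
    A.valuation (σ a) < A.valuation (σ b) ↔ A.valuation a < A.valuation b := by
  rw [← not_le, ← not_le, vi_le_iff A σ hσ]

/-- an algebraic element has a finite orbit under any automorphism -/
theorem vi_exists_pow_fix [Algebra.IsAlgebraic K L] (σ : L ≃ₐ[K] L) (a : L) :
    ∃ k : ℕ, 0 < k ∧ (σ ^ k) a = a := by
  classical
  have halg : IsAlgebraic K a := Algebra.IsAlgebraic.isAlgebraic a
  have hfin : ((minpoly K a).rootSet L).Finite := Polynomial.rootSet_finite _ _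
  have hmem : ∀ i : ℕ, (σ ^ i) a ∈ (minpoly K a).rootSet L := by
    intro i
    rw [Polynomial.mem_rootSet]
    refine ⟨minpoly.ne_zero halg.isIntegral, ?_⟩
    have h0 := minpoly.aeval K a
    have := congrArg (σ ^ i) h0
    rw [map_zero] at this
    rw [← this]
    exact (Polynomial.aeval_algHom_apply ((σ ^ i : L ≃ₐ[K] L) : L →ₐ[K] L) a _)
  have hninj : ¬ Function.Injective
      (fun i : ℕ => (⟨(σ ^ i) a, hmem i⟩ : (minpoly K a).rootSet L)) := by
    haveI : Finite ((minpoly K a).rootSet L) := hfin.to_subtype
    exact not_injective_infinite_finite _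
  obtain ⟨i, j, hij, hne⟩ : ∃ i j : ℕ, (σ ^ i) a = (σ ^ j) a ∧ i ≠ j := by
    by_contra hcon
    push_neg at hcon
    apply hninj
    intro i j h
    have := congrArg Subtype.val h
    exact hcon i j this
  wlog hlt : i < j generalizing i j
  · exact this j i hij.symm hne.symm (lt_of_le_of_ne (not_lt.mp hlt) hne.symm)
  refine ⟨j - i, Nat.sub_pos_of_lt hlt, ?_⟩
  have hj : j = i + (j - i) := by omega
  rw [hj, pow_add, AlgEquiv.mul_apply] at hij
  exact ((σ ^ i).injective hij).symm

/-- **R4**: the decomposition group preserves the valuation -/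
theorem vi_val_eq [Algebra.IsAlgebraic K L] (A : ValuationSubring L) (σ : L ≃ₐ[K] L)
    (hσ : σ ∈ A.decompositionSubgroup K) (a : L) : A.valuation (σ a) = A.valuation a := by
  obtain ⟨k, hk, hfix⟩ := vi_exists_pow_fix σ a
  have hpow : ∀ i : ℕ, σ ^ i ∈ A.decompositionSubgroup K := fun i =>
    (A.decompositionSubgroup K).pow_mem hσ i
  have hstep : ∀ i : ℕ, (σ ^ (i + 1)) a = (σ ^ i) (σ a) := by
    intro i
    rw [pow_succ, AlgEquiv.mul_apply]
  rcases lt_trichotomy (A.valuation (σ a)) (A.valuation a) with h | h | h
  · exfalso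
    -- strictly decreasing chain
    have hchain : ∀ i : ℕ, A.valuation ((σ ^ (i + 1)) a) < A.valuation ((σ ^ i) a) := by
      intro i
      rw [hstep i]
      exact (vi_lt_iff A (σ ^ i) (hpow i) (σ a) a).mpr h
    have hlt : ∀ i : ℕ, 0 < i → A.valuation ((σ ^ i) a) < A.valuation a := by
      intro i hi
      induction i with
      | zero => exact absurd hi (lt_irrefl 0)
      | succ n ih =>
        rcases Nat.eq_zero_or_pos n with hn | hn
        · subst hn
          simpa using h
        · exact lt_trans (hchain n) (ih hn)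
    have := hlt k hk
    rw [hfix] at this
    exact lt_irrefl _ this
  · exact h
  · exfalso
    have hchain : ∀ i : ℕ, A.valuation ((σ ^ i) a) < A.valuation ((σ ^ (i + 1)) a) := by
      intro i
      rw [hstep i]
      exact (vi_lt_iff A (σ ^ i) (hpow i) a (σ a)).mpr h
    have hlt : ∀ i : ℕ, 0 < i → A.valuation a < A.valuation ((σ ^ i) a) := by
      intro i hi
      induction i with
      | zero => exact absurd hi (lt_irrefl 0)
      | succ n ih =>
        rcases Nat.eq_zero_or_pos n with hn | hn
        · subst hn
          simpa using h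
        · exact lt_trans (ih hn) (hchain n)
    have := hlt k hk
    rw [hfix] at this
    exact lt_irrefl _ this

/-- elements of the inertia group (in the Prelude's sense) lie in the decomposition group -/
theorem vi_inertia_le_decomposition (A : ValuationSubring L) :
    A.inertiaSubgroupIn K ≤ A.decompositionSubgroup K := by
  rintro σ ⟨g, _, rfl⟩
  exact g.2

end General

section QbCase

local notation "Qb" => AlgebraicClosure ℚ

/-- R4 for `Qb`, decomposition group -/
theorem val_decomp_eq (A : ValuationSubring Qb) (σ : Qb ≃ₐ[ℚ] Qb)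
    (hσ : σ ∈ A.decompositionSubgroup ℚ) (a : Qb) : A.valuation (σ a) = A.valuation a := by
  haveI : Algebra.IsAlgebraic ℚ Qb := AlgebraicClosure.isAlgebraic ℚ
  exact vi_val_eq A σ hσ a

/-- R4 for `Qb`, inertia group -/
theorem val_inertia_eq (A : ValuationSubring Qb) (σ : Qb ≃ₐ[ℚ] Qb)
    (hσ : σ ∈ A.inertiaSubgroupIn ℚ) (a : Qb) : A.valuation (σ a) = A.valuation a :=
  val_decomp_eq A σ (vi_inertia_le_decomposition A hσ) a

end QbCase

end Fermat.Agent.S13x
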