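import Fermat.Agent.S13x.Defs
import Fermat.Agent.S13x.InertiaTwoLocal
import Fermat.Agent.S13x.FreyTwo
import Fermat.Agent.S13x.ValInv
import Fermat.Agent.S05x.Inertia

/-!
# S13 project, leaf C: **(C1)** inertia at `2` acts unipotently on the `p`-torsion of the Frey curve

Wrapper around `itl_unipotent` (`InertiaTwoLocal.lean`): `K = Qb`, `W = P.freyCurve⁄Qb` (already a
node model at `2`: `a₁ = 1`, `a₃ = a₆ = 0`, `b₂` odd, `2 ∣ a₄ ≠ 0`), `τ = σ`, `T = Point.map σ`.
-/

set_option autoImplicit false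
open WeierstrassCurve WeierstrassCurve.Affine WeierstrassCurve.Affine.Point

namespace Fermat.Agent.S13x

/-- the Frey curve is a node model at every valuation subring over `2` -/
theorem in2_w1Hyp (P : FreyPackage) (A : ValuationSubring Qb) (hA : A.LiesOverPrime 2) :
    W1Hyp A (P.freyCurve⁄Qb) where
  w1 := ⟨fi_a₃ P, fi_a₆ P⟩
  a₁ := by rw [fi_a₁, map_one]
  a₂ := by rw [fi_a₂]; exact S05x.val_int_le_one A _
  b₂u := ft_b₂_unit P A hA
  a₄m := ft_a₄_lt P A hA
  a₄0 := ft_a₄_ne_zero P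

/-- **(C1)** inertia at `2` acts unipotently: `(σ - 1)² = 0` on `V` -/
theorem inertia_two_unipotent (P : FreyPackage) (A : ValuationSubring Qb)
    (hA : A.LiesOverPrime 2) (σ : GQ) (hσ : σ ∈ A.inertiaSubgroupIn ℚ) (x : FreyV P) :
    σ • (σ • x - x) = σ • x - x := by
  apply Subtype.ext
  have hx : P.p • (x : FreyPt P) = 0 := by
    have h := x.2
    rw [Submodule.mem_torsionBy_iff] at h
    rw [← natCast_zsmul]
    exact h
  have hT : ∀ (a b : Qb) (h : (P.freyCurve⁄Qb).toAffine.Nonsingular a b),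
      ∃ h' : (P.freyCurve⁄Qb).toAffine.Nonsingular ((σ.toAlgHom : Qb →+* Qb) a)
          ((σ.toAlgHom : Qb →+* Qb) b),
        Point.map (W' := P.freyCurve) σ.toAlgHom (Point.some a b h) =
          Point.some ((σ.toAlgHom : Qb →+* Qb) a) ((σ.toAlgHom : Qb →+* Qb) b) h' := by
    intro a b h
    have h' : (P.freyCurve⁄Qb).Nonsingular (σ a) (σ b) :=
      (WeierstrassCurve.Affine.baseChange_nonsingular (W := P.freyCurve) (f := σ.toAlgHom)
        σ.toAlgHom.injective ..).mpr h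
    exact ⟨h', rfl⟩
  exact itl_unipotent A (in2_w1Hyp P A hA) (fi_val_two_lt A hA) (σ.toAlgHom : Qb →+* Qb)
    (S05x.inertia_facts A σ hσ) (val_inertia_eq A σ hσ)
    (Point.map (W' := P.freyCurve) σ.toAlgHom) hT P.hp_odd (x : FreyPt P) hx

end Fermat.Agent.S13x
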