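import Mathlib

/-!
# S13 project: group-law identities and the kernel of reduction for a general Weierstrass curve

Everything here is for a completely general Weierstrass curve `W` over a field `K`
(all five coefficients), so it applies to the `a₁ = 1` model at `2`, to the `Y² = X³ + a₂X² + a₄X`
model of the S05 project and to any integral model at `p`.

* `wg_add_sub`, `wg_double`, `wg_same_x`, `wg_neg_some`: `x`-only formulas with the `b`-invariants.
* `IsIntW A W`: the coefficients of `W` lie in the valuation subring `A`.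
* `wg_E1sub`: for `1 < c` the points with `c ≤ v(x)` (and the origin) form a subgroup.
* `wg_torsion_x_integral_two`: if `v(2) < 1`, a point of odd order has integral `x`-coordinate.
-/

set_option autoImplicit false
open WeierstrassCurve WeierstrassCurve.Affine WeierstrassCurve.Affine.Point

namespace Fermat.Agent.S13x

variable {K : Type*} [Field K]

section Ident
variable {W : WeierstrassCurve K}

/-- the equation of a nonsingular point -/
theorem wg_eq_of_nonsingular {x y : K} (h : W.toAffine.Nonsingular x y) :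
    y ^ 2 + W.a₁ * x * y + W.a₃ * y = x ^ 3 + W.a₂ * x ^ 2 + W.a₄ * x + W.a₆ :=
  (Affine.equation_iff x y).mp h.1

/-- `(2y + a₁x + a₃)² = 4x³ + b₂x² + 2b₄x + b₆` on the curve -/
theorem wg_psi2_sq {x y : K} (h : W.toAffine.Nonsingular x y) :
    (2 * y + W.a₁ * x + W.a₃) ^ 2 = 4 * x ^ 3 + W.b₂ * x ^ 2 + 2 * W.b₄ * x + W.b₆ := by
  have e := wg_eq_of_nonsingular h
  simp only [WeierstrassCurve.b₂, WeierstrassCurve.b₄, WeierstrassCurve.b₆]
  linear_combination 4 * e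

variable [DecidableEq K]

omit [DecidableEq K] in
theorem wg_neg_some {x y : K} (h : W.toAffine.Nonsingular x y) :
    ∃ h' : W.toAffine.Nonsingular x (W.toAffine.negY x y),
      -(Point.some x y h) = Point.some x (W.toAffine.negY x y) h' :=
  ⟨(Affine.nonsingular_neg ..).mpr h, rfl⟩

omit [DecidableEq K] in
/-- two affine points with the same `x` are equal or opposite -/
theorem wg_same_x {x y₁ y₂ : K} (h₁ : W.toAffine.Nonsingular x y₁)
    (h₂ : W.toAffine.Nonsingular x y₂) :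
    Point.some x y₂ h₂ = Point.some x y₁ h₁ ∨ Point.some x y₂ h₂ = -Point.some x y₁ h₁ := by
  rcases Affine.Y_eq_of_X_eq h₂.1 h₁.1 rfl with hy | hy
  · left; subst hy; rfl
  · right
    rw [Point.neg_some, Point.some.injEq]
    exact ⟨rfl, hy⟩

/-- duplication formula -/
theorem wg_double {x y : K} (h : W.toAffine.Nonsingular x y) (hy : y ≠ W.toAffine.negY x y) :
    ∃ (x' y' : K) (h' : W.toAffine.Nonsingular x' y'),
      Point.some x y h + Point.some x y h = Point.some x' y' h' ∧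
      x' * (2 * y + W.a₁ * x + W.a₃) ^ 2 =
        x ^ 4 - W.b₄ * x ^ 2 - 2 * W.b₆ * x - W.b₈ := by
  refine ⟨_, _, _, Point.add_self_of_Y_ne hy, ?_⟩
  have heq := wg_eq_of_nonsingular h
  have hu : y - W.toAffine.negY x y ≠ 0 := sub_ne_zero.mpr hy
  rw [Affine.slope_of_Y_ne rfl hy]
  simp only [Affine.addX]
  have hden : y - W.toAffine.negY x y = 2 * y + W.a₁ * x + W.a₃ := by
    simp only [Affine.negY]; ring
  rw [hden] at hu ⊢
  set u : K := 2 * y + W.a₁ * x + W.a₃ with hudef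
  set n : K := 3 * x ^ 2 + 2 * W.a₂ * x + W.a₄ - W.a₁ * y with hndef
  set ℓ : K := n / u with hℓdef
  have hℓ : ℓ * u = n := by rw [hℓdef, div_mul_cancel₀ _ hu]
  simp only [WeierstrassCurve.b₄, WeierstrassCurve.b₆, WeierstrassCurve.b₈]
  linear_combination (ℓ * u + n + W.a₁ * u) * hℓ + (-(W.a₁ ^ 2 + 4 * W.a₂ + 8 * x)) * heq

/-- sum and difference of two affine points with distinct `x`-coordinates -/
theorem wg_add_sub {x₁ y₁ x₂ y₂ : K} (h₁ : W.toAffine.Nonsingular x₁ y₁)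
    (h₂ : W.toAffine.Nonsingular x₂ y₂) (hx : x₁ ≠ x₂) :
    ∃ (x₃ y₃ : K) (h₃ : W.toAffine.Nonsingular x₃ y₃) (x₄ y₄ : K)
      (h₄ : W.toAffine.Nonsingular x₄ y₄),
      Point.some x₁ y₁ h₁ + Point.some x₂ y₂ h₂ = Point.some x₃ y₃ h₃ ∧
      Point.some x₁ y₁ h₁ - Point.some x₂ y₂ h₂ = Point.some x₄ y₄ h₄ ∧
      (x₃ + x₄) * (x₁ - x₂) ^ 2 =
        2 * x₁ * x₂ * (x₁ + x₂) + W.b₂ * x₁ * x₂ + W.b₄ * (x₁ + x₂) + W.b₆ ∧
      x₃ * x₄ * (x₁ - x₂) ^ 2 =
        x₁ ^ 2 * x₂ ^ 2 - W.b₄ * x₁ * x₂ - W.b₆ * (x₁ + x₂) - W.b₈ ∧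
      x₃ = ((y₁ - y₂) / (x₁ - x₂)) ^ 2 + W.a₁ * ((y₁ - y₂) / (x₁ - x₂)) - W.a₂ - x₁ - x₂ ∧
      x₄ = ((y₁ - W.toAffine.negY x₂ y₂) / (x₁ - x₂)) ^ 2
            + W.a₁ * ((y₁ - W.toAffine.negY x₂ y₂) / (x₁ - x₂)) - W.a₂ - x₁ - x₂ := by
  have e₁ := wg_eq_of_nonsingular h₁
  have e₂ := wg_eq_of_nonsingular h₂
  have hd : x₁ - x₂ ≠ 0 := sub_ne_zero.mpr hx
  obtain ⟨h₂', hneg⟩ := wg_neg_some h₂
  set x₃ : K := ((y₁ - y₂) / (x₁ - x₂)) ^ 2 + W.a₁ * ((y₁ - y₂) / (x₁ - x₂)) - W.a₂ - x₁ - x₂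
    with hx₃
  set x₄ : K := ((y₁ - W.toAffine.negY x₂ y₂) / (x₁ - x₂)) ^ 2
      + W.a₁ * ((y₁ - W.toAffine.negY x₂ y₂) / (x₁ - x₂)) - W.a₂ - x₁ - x₂ with hx₄
  have hadd : ∃ (y₃ : K) (h₃ : W.toAffine.Nonsingular x₃ y₃),
      Point.some x₁ y₁ h₁ + Point.some x₂ y₂ h₂ = Point.some x₃ y₃ h₃ := by
    have key := Point.add_of_X_ne (h₁ := h₁) (h₂ := h₂) hx
    have hxx : W.toAffine.addX x₁ x₂ (W.toAffine.slope x₁ x₂ y₁ y₂) = x₃ := by
      rw [Affine.slope_of_X_ne hx]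
      simp only [Affine.addX, hx₃]
    have hns := Affine.nonsingular_add h₁ h₂ (fun hxy => hx hxy.left)
    rw [hxx] at hns
    refine ⟨_, hns, ?_⟩
    rw [key, Point.some.injEq]
    exact ⟨hxx, rfl⟩
  have hsub : ∃ (y₄ : K) (h₄ : W.toAffine.Nonsingular x₄ y₄),
      Point.some x₁ y₁ h₁ - Point.some x₂ y₂ h₂ = Point.some x₄ y₄ h₄ := by
    rw [sub_eq_add_neg, hneg]
    have key := Point.add_of_X_ne (h₁ := h₁) (h₂ := h₂') hx
    have hxx : W.toAffine.addX x₁ x₂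
        (W.toAffine.slope x₁ x₂ y₁ (W.toAffine.negY x₂ y₂)) = x₄ := by
      rw [Affine.slope_of_X_ne hx]
      simp only [Affine.addX, hx₄]
    have hns := Affine.nonsingular_add h₁ h₂' (fun hxy => hx hxy.left)
    rw [hxx] at hns
    refine ⟨_, hns, ?_⟩
    rw [key, Point.some.injEq]
    exact ⟨hxx, rfl⟩
  obtain ⟨y₃, h₃, hP⟩ := hadd
  obtain ⟨y₄, h₄, hQ⟩ := hsub
  -- abbreviations
  set t₁ : K := W.a₁ * x₁ + W.a₃ with ht₁
  set t₂ : K := W.a₁ * x₂ + W.a₃ with ht₂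
  set G : K := (x₁ + x₂) * x₁ * x₂ + 2 * W.a₂ * x₁ * x₂ + W.a₄ * (x₁ + x₂) + 2 * W.a₆ with hG
  set M : K := 2 * y₁ * y₂ + t₂ * y₁ + t₁ * y₂ with hM
  have hA : x₃ * (x₁ - x₂) ^ 2 = G - M := by
    rw [hx₃]
    field_simp
    rw [hG, hM, ht₁, ht₂]
    linear_combination e₁ + e₂
  have hB : x₄ * (x₁ - x₂) ^ 2 = G + M + t₁ * t₂ := by
    rw [hx₄]
    simp only [Affine.negY]
    field_simp
    rw [hG, hM, ht₁, ht₂]
    linear_combination e₁ + e₂
  refine ⟨x₃, y₃, h₃, x₄, y₄, h₄, hP, hQ, ?_, ?_, rfl, rfl⟩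
  · simp only [WeierstrassCurve.b₂, WeierstrassCurve.b₄, WeierstrassCurve.b₆]
    rw [hG, hM, ht₁, ht₂] at *
    linear_combination hA + hB
  · apply mul_right_cancel₀ (pow_ne_zero 2 hd)
    simp only [WeierstrassCurve.b₄, WeierstrassCurve.b₆, WeierstrassCurve.b₈]
    rw [hG, hM, ht₁, ht₂] at *
    linear_combination (x₄ * (x₁ - x₂) ^ 2) * hA +
      ((x₁ + x₂) * x₁ * x₂ + 2 * W.a₂ * x₁ * x₂ + W.a₄ * (x₁ + x₂) + 2 * W.a₆
        - (2 * y₁ * y₂ + (W.a₁ * x₂ + W.a₃) * y₁ + (W.a₁ * x₁ + W.a₃) * y₂)) * hB +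
      (-(4 * (y₂ ^ 2 + W.a₁ * x₂ * y₂ + W.a₃ * y₂) + (W.a₁ * x₂ + W.a₃) ^ 2)) * e₁ +
      (-(4 * (x₁ ^ 3 + W.a₂ * x₁ ^ 2 + W.a₄ * x₁ + W.a₆) + (W.a₁ * x₁ + W.a₃) ^ 2)) * e₂

end Ident

/-! ## Pure valuation lemmas for non-integral `x`-coordinates -/
section Val
variable {Γ : Type*} [LinearOrderedCommGroupWithZero Γ]

theorem wg_val_two_le (v : Valuation K Γ) : v (2 : K) ≤ 1 := by
  have : (2 : K) = 1 + 1 := by norm_num
  rw [this]; exact v.map_add_le (by simp) (by simp)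

theorem wg_val_four_le (v : Valuation K Γ) : v (4 : K) ≤ 1 := by
  have : (4 : K) = 2 * 2 := by norm_num
  rw [this, map_mul]
  calc v (2 : K) * v (2 : K) ≤ 1 * 1 := mul_le_mul' (wg_val_two_le v) (wg_val_two_le v)
    _ = 1 := one_mul _

/-- numerator of the duplication formula: `v(x⁴ - b₄x² - 2b₆x - b₈) = v(x)⁴` for `v(x) > 1` -/
theorem wg_dbl_num_val (v : Valuation K Γ) {c4 c6 c8 x : K}
    (h4 : v c4 ≤ 1) (h6 : v c6 ≤ 1) (h8 : v c8 ≤ 1) (hx : 1 < v x) :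
    v (x ^ 4 - c4 * x ^ 2 - 2 * c6 * x - c8) = v x ^ 4 := by
  have hpos : 0 < v x := zero_lt_one.trans hx
  have h12 : v x < v x ^ 2 := by
    calc v x = v x ^ 1 := (pow_one _).symm
      _ < v x ^ 2 := pow_lt_pow_right₀ hx (by norm_num)
  have h24 : v x ^ 2 < v x ^ 4 := pow_lt_pow_right₀ hx (by norm_num)
  have e1 : v (c4 * x ^ 2) < v (x ^ 4) := by
    rw [map_mul, map_pow, map_pow]
    calc v c4 * v x ^ 2 ≤ 1 * v x ^ 2 := mul_le_mul_left h4 _
      _ = v x ^ 2 := one_mul _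
      _ < v x ^ 4 := h24
  have e2 : v (2 * c6 * x) < v (x ^ 4) := by
    rw [map_mul, map_mul, map_pow]
    calc v 2 * v c6 * v x ≤ 1 * 1 * v x := by
          gcongr
          · exact wg_val_two_le v
      _ = v x := by rw [one_mul, one_mul]
      _ < v x ^ 2 := h12
      _ < v x ^ 4 := h24
  have e3 : v c8 < v (x ^ 4) := by
    rw [map_pow]
    exact lt_of_le_of_lt h8 (hx.trans (h12.trans h24))
  have s1 : v (x ^ 4 - c4 * x ^ 2) = v (x ^ 4) := Valuation.map_sub_eq_of_lt_left _ e1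
  have s2 : v (x ^ 4 - c4 * x ^ 2 - 2 * c6 * x) = v (x ^ 4) := by
    rw [Valuation.map_sub_eq_of_lt_left _ (by rw [s1]; exact e2), s1]
  rw [Valuation.map_sub_eq_of_lt_left _ (by rw [s2]; exact e3), s2, map_pow]

/-- denominator of the duplication formula: `v(4x³ + b₂x² + 2b₄x + b₆) ≤ v(x)³` -/
theorem wg_dbl_den_le (v : Valuation K Γ) {c2 c4 c6 x : K}
    (h2 : v c2 ≤ 1) (h4 : v c4 ≤ 1) (h6 : v c6 ≤ 1) (hx : 1 < v x) :
    v (4 * x ^ 3 + c2 * x ^ 2 + 2 * c4 * x + c6) ≤ v x ^ 3 := by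
  have hpos : 0 < v x := zero_lt_one.trans hx
  have h12 : v x < v x ^ 2 := by
    calc v x = v x ^ 1 := (pow_one _).symm
      _ < v x ^ 2 := pow_lt_pow_right₀ hx (by norm_num)
  have h23 : v x ^ 2 < v x ^ 3 := pow_lt_pow_right₀ hx (by norm_num)
  have e0 : v (4 * x ^ 3) ≤ v x ^ 3 := by
    rw [map_mul, map_pow]
    calc v 4 * v x ^ 3 ≤ 1 * v x ^ 3 := mul_le_mul_left (wg_val_four_le v) _
      _ = v x ^ 3 := one_mul _
  have e1 : v (c2 * x ^ 2) ≤ v x ^ 3 := by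
    rw [map_mul, map_pow]
    calc v c2 * v x ^ 2 ≤ 1 * v x ^ 2 := mul_le_mul_left h2 _
      _ = v x ^ 2 := one_mul _
      _ ≤ v x ^ 3 := h23.le
  have e2 : v (2 * c4 * x) ≤ v x ^ 3 := by
    rw [map_mul, map_mul]
    calc v 2 * v c4 * v x ≤ 1 * 1 * v x := by
          gcongr
          · exact wg_val_two_le v
      _ = v x := by rw [one_mul, one_mul]
      _ ≤ v x ^ 3 := (h12.trans h23).le
  have e3 : v c6 ≤ v x ^ 3 := h6.trans (hx.trans (h12.trans h23)).le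
  exact v.map_add_le (v.map_add_le (v.map_add_le e0 e1) e2) e3

/-- denominator of the duplication formula in residue characteristic `2`:
`v(4x³ + b₂x² + 2b₄x + b₆) < v(x)³` -/
theorem wg_dbl_den_lt (v : Valuation K Γ) {c2 c4 c6 x : K} (h2lt : v (2 : K) < 1)
    (h2 : v c2 ≤ 1) (h4 : v c4 ≤ 1) (h6 : v c6 ≤ 1) (hx : 1 < v x) :
    v (4 * x ^ 3 + c2 * x ^ 2 + 2 * c4 * x + c6) < v x ^ 3 := by
  have hpos : 0 < v x := zero_lt_one.trans hx
  have h3pos : 0 < v x ^ 3 := pow_pos hpos 3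
  have h12 : v x < v x ^ 2 := by
    calc v x = v x ^ 1 := (pow_one _).symm
      _ < v x ^ 2 := pow_lt_pow_right₀ hx (by norm_num)
  have h23 : v x ^ 2 < v x ^ 3 := pow_lt_pow_right₀ hx (by norm_num)
  have h4lt : v (4 : K) < 1 := by
    have : (4 : K) = 2 * 2 := by norm_num
    rw [this, map_mul]
    calc v (2 : K) * v (2 : K) ≤ 1 * v (2 : K) := mul_le_mul_left (wg_val_two_le v) _
      _ = v (2 : K) := one_mul _
      _ < 1 := h2lt
  have e0 : v (4 * x ^ 3) < v x ^ 3 := by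
    rw [map_mul, map_pow]
    calc v 4 * v x ^ 3 < 1 * v x ^ 3 := (mul_lt_mul_iff_left₀ h3pos).mpr h4lt
      _ = v x ^ 3 := one_mul _
  have e1 : v (c2 * x ^ 2) < v x ^ 3 := by
    rw [map_mul, map_pow]
    calc v c2 * v x ^ 2 ≤ 1 * v x ^ 2 := mul_le_mul_left h2 _
      _ = v x ^ 2 := one_mul _
      _ < v x ^ 3 := h23
  have e2 : v (2 * c4 * x) < v x ^ 3 := by
    rw [map_mul, map_mul]
    calc v 2 * v c4 * v x ≤ 1 * 1 * v x :=
          mul_le_mul' (mul_le_mul' (wg_val_two_le v) h4) le_rfl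
      _ = v x := by rw [one_mul, one_mul]
      _ < v x ^ 3 := h12.trans h23
  have e3 : v c6 < v x ^ 3 := lt_of_le_of_lt h6 (hx.trans (h12.trans h23))
  exact v.map_add_lt (v.map_add_lt (v.map_add_lt e0 e1) e2) e3

/-- doubling does not decrease the valuation of a non-integral `x`-coordinate -/
theorem wg_dbl_val_le (v : Valuation K Γ) {c2 c4 c6 c8 x u x' : K}
    (h2 : v c2 ≤ 1) (h4 : v c4 ≤ 1) (h6 : v c6 ≤ 1) (h8 : v c8 ≤ 1) (hx : 1 < v x)
    (hu : u ^ 2 = 4 * x ^ 3 + c2 * x ^ 2 + 2 * c4 * x + c6)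
    (hd : x' * u ^ 2 = x ^ 4 - c4 * x ^ 2 - 2 * c6 * x - c8) : v x ≤ v x' := by
  have hpos : 0 < v x := zero_lt_one.trans hx
  have h3pos : 0 < v x ^ 3 := pow_pos hpos 3
  have key := congrArg v hd
  rw [map_mul, wg_dbl_num_val v h4 h6 h8 hx] at key
  have hden : v (u ^ 2) ≤ v x ^ 3 := by rw [hu]; exact wg_dbl_den_le v h2 h4 h6 hx
  by_contra hlt
  rw [not_le] at hlt
  have : v x' * v (u ^ 2) < v x ^ 4 := by
    calc v x' * v (u ^ 2) ≤ v x' * v x ^ 3 := mul_le_mul_right hden _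
      _ < v x * v x ^ 3 := (mul_lt_mul_iff_left₀ h3pos).mpr hlt
      _ = v x ^ 4 := by rw [← pow_succ']
  exact absurd key this.ne

/-- in residue characteristic `2` doubling strictly increases the valuation of a non-integral
`x`-coordinate -/
theorem wg_dbl_val_lt (v : Valuation K Γ) {c2 c4 c6 c8 x u x' : K} (h2lt : v (2 : K) < 1)
    (h2 : v c2 ≤ 1) (h4 : v c4 ≤ 1) (h6 : v c6 ≤ 1) (h8 : v c8 ≤ 1) (hx : 1 < v x)
    (hu : u ^ 2 = 4 * x ^ 3 + c2 * x ^ 2 + 2 * c4 * x + c6)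
    (hd : x' * u ^ 2 = x ^ 4 - c4 * x ^ 2 - 2 * c6 * x - c8) : v x < v x' := by
  have hpos : 0 < v x := zero_lt_one.trans hx
  have h3pos : 0 < v x ^ 3 := pow_pos hpos 3
  have key := congrArg v hd
  rw [map_mul, wg_dbl_num_val v h4 h6 h8 hx] at key
  have hden : v (u ^ 2) < v x ^ 3 := by rw [hu]; exact wg_dbl_den_lt v h2lt h2 h4 h6 hx
  by_contra hle
  rw [not_lt] at hle
  have hx'pos : 0 < v x' := by
    rcases eq_or_lt_of_le (zero_le (a := v x')) with h0 | h0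
    · rw [← h0, zero_mul] at key
      exact absurd key.symm (pow_pos hpos 4).ne'
    · exact h0
  have : v x' * v (u ^ 2) < v x ^ 4 := by
    calc v x' * v (u ^ 2) < v x' * v x ^ 3 := (mul_lt_mul_iff_right₀ hx'pos).mpr hden
      _ ≤ v x * v x ^ 3 := mul_le_mul_left hle _
      _ = v x ^ 4 := by rw [← pow_succ']
  exact absurd key this.ne

/-- addition does not decrease the valuation of non-integral `x`-coordinates -/
theorem wg_add_val (v : Valuation K Γ) {c2 c4 c6 c8 x₁ x₂ x₃ x₄ : K}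
    (h2 : v c2 ≤ 1) (h4 : v c4 ≤ 1) (h6 : v c6 ≤ 1) (h8 : v c8 ≤ 1)
    (hx2 : 1 < v x₂) (h21 : v x₂ ≤ v x₁)
    (hS : (x₃ + x₄) * (x₁ - x₂) ^ 2 =
      2 * x₁ * x₂ * (x₁ + x₂) + c2 * x₁ * x₂ + c4 * (x₁ + x₂) + c6)
    (hP : x₃ * x₄ * (x₁ - x₂) ^ 2 = x₁ ^ 2 * x₂ ^ 2 - c4 * x₁ * x₂ - c6 * (x₁ + x₂) - c8) :
    v x₂ ≤ v x₃ := by
  set c1 := v x₁ with hc1
  set c2' := v x₂ with hc2
  have hc2pos : 0 < c2' := zero_lt_one.trans hx2
  have hc1gt : 1 < c1 := lt_of_lt_of_le hx2 h21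
  have hc1pos : 0 < c1 := zero_lt_one.trans hc1gt
  have hδle : v (x₁ - x₂) ≤ c1 := v.map_sub_le le_rfl h21
  have hδ2le : v (x₁ - x₂) ^ 2 ≤ c1 ^ 2 := pow_le_pow_left₀ zero_le hδle 2
  have h2le : v (2 : K) ≤ 1 := wg_val_two_le v
  have h12 : 1 < c1 * c2' := by
    calc (1 : Γ) = 1 * 1 := (one_mul _).symm
      _ < c1 * c2' := mul_lt_mul'' hc1gt hx2 zero_le zero_le
  have hsumle : v (x₁ + x₂) ≤ c1 := v.map_add_le le_rfl h21
  have h12sq : c1 * c2' < (c1 * c2') ^ 2 := by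
    calc c1 * c2' = (c1 * c2') ^ 1 := (pow_one _).symm
      _ < (c1 * c2') ^ 2 := pow_lt_pow_right₀ h12 (by norm_num)
  have hc1le : c1 ≤ c1 * c2' := by
    calc c1 = c1 * 1 := (mul_one _).symm
      _ ≤ c1 * c2' := mul_le_mul_right hx2.le _
  -- the product relation
  have hPi : v x₃ * (v x₄ * v (x₁ - x₂) ^ 2) = (c1 * c2') ^ 2 := by
    have hn : v (x₁ ^ 2 * x₂ ^ 2 - c4 * x₁ * x₂ - c6 * (x₁ + x₂) - c8) = (c1 * c2') ^ 2 := by
      have hmain : v (x₁ ^ 2 * x₂ ^ 2) = (c1 * c2') ^ 2 := by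
        rw [map_mul, map_pow, map_pow, mul_pow]
      have e1 : v (c4 * x₁ * x₂) < v (x₁ ^ 2 * x₂ ^ 2) := by
        rw [hmain, map_mul, map_mul]
        calc v c4 * c1 * c2' ≤ 1 * c1 * c2' := by gcongr
          _ = c1 * c2' := by rw [one_mul]
          _ < (c1 * c2') ^ 2 := h12sq
      have e2 : v (c6 * (x₁ + x₂)) < v (x₁ ^ 2 * x₂ ^ 2) := by
        rw [hmain, map_mul]
        calc v c6 * v (x₁ + x₂) ≤ 1 * c1 := mul_le_mul' h6 hsumle
          _ = c1 := one_mul _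
          _ ≤ c1 * c2' := hc1le
          _ < (c1 * c2') ^ 2 := h12sq
      have e3 : v c8 < v (x₁ ^ 2 * x₂ ^ 2) := by
        rw [hmain]
        exact lt_of_le_of_lt h8 (h12.trans h12sq)
      have s1 : v (x₁ ^ 2 * x₂ ^ 2 - c4 * x₁ * x₂) = v (x₁ ^ 2 * x₂ ^ 2) :=
        Valuation.map_sub_eq_of_lt_left _ e1
      have s2 : v (x₁ ^ 2 * x₂ ^ 2 - c4 * x₁ * x₂ - c6 * (x₁ + x₂)) = v (x₁ ^ 2 * x₂ ^ 2) := by
        rw [Valuation.map_sub_eq_of_lt_left _ (by rw [s1]; exact e2), s1]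
      rw [Valuation.map_sub_eq_of_lt_left _ (by rw [s2]; exact e3), s2, hmain]
    have h := congrArg v hP
    rw [map_mul, map_mul, map_pow, hn] at h
    rw [← mul_assoc]; exact h
  -- the sum relation
  have hSle : v (x₃ + x₄) * v (x₁ - x₂) ^ 2 ≤ c2' * c1 ^ 2 := by
    have h := congrArg v hS
    rw [map_mul, map_pow] at h
    rw [h]
    have hT : c1 * c2' ≤ c2' * c1 ^ 2 := by
      calc c1 * c2' = c2' * c1 * 1 := by rw [mul_one, mul_comm]
        _ ≤ c2' * c1 * c1 := mul_le_mul_right hc1gt.le _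
        _ = c2' * c1 ^ 2 := by rw [pow_two, mul_assoc]
    have hA : v (2 * x₁ * x₂ * (x₁ + x₂)) ≤ c2' * c1 ^ 2 := by
      rw [map_mul, map_mul, map_mul]
      calc v 2 * c1 * c2' * v (x₁ + x₂) ≤ 1 * c1 * c2' * c1 := by gcongr
        _ = c2' * c1 ^ 2 := by rw [one_mul, pow_two, mul_comm c1 c2', mul_assoc]
    have hB : v (c2 * x₁ * x₂) ≤ c2' * c1 ^ 2 := by
      rw [map_mul, map_mul]
      calc v c2 * c1 * c2' ≤ 1 * c1 * c2' := by gcongr
        _ = c1 * c2' := by rw [one_mul]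
        _ ≤ c2' * c1 ^ 2 := hT
    have hC : v (c4 * (x₁ + x₂)) ≤ c2' * c1 ^ 2 := by
      rw [map_mul]
      calc v c4 * v (x₁ + x₂) ≤ 1 * c1 := mul_le_mul' h4 hsumle
        _ = c1 := one_mul _
        _ ≤ c1 * c2' := hc1le
        _ ≤ c2' * c1 ^ 2 := hT
    have hD : v c6 ≤ c2' * c1 ^ 2 := h6.trans (h12.le.trans hT)
    exact v.map_add_le (v.map_add_le (v.map_add_le hA hB) hC) hD
  by_contra hlt
  rw [not_le] at hlt
  have hT0 : 0 < c2' * c1 ^ 2 := mul_pos hc2pos (pow_pos hc1pos 2)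
  have h4big : c2' * c1 ^ 2 < v x₄ * v (x₁ - x₂) ^ 2 := by
    by_contra hle
    rw [not_lt] at hle
    have : v x₃ * (v x₄ * v (x₁ - x₂) ^ 2) < (c1 * c2') ^ 2 := by
      calc v x₃ * (v x₄ * v (x₁ - x₂) ^ 2) ≤ v x₃ * (c2' * c1 ^ 2) := mul_le_mul_right hle _
        _ < c2' * (c2' * c1 ^ 2) := (mul_lt_mul_iff_left₀ hT0).mpr hlt
        _ = (c1 * c2') ^ 2 := by simp only [pow_two]; ac_rfl
    exact absurd hPi this.ne
  have h4gt : c2' < v x₄ := by
    by_contra hle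
    rw [not_lt] at hle
    exact absurd h4big (not_lt.mpr (mul_le_mul' hle hδ2le))
  have hsum : v (x₃ + x₄) = v x₄ := Valuation.map_add_eq_of_lt_right _ (hlt.trans h4gt)
  rw [hsum] at hSle
  exact absurd h4big (not_lt.mpr hSle)

end Val

/-! ## Integral models and the kernel of reduction -/
section Int

/-- the coefficients of `W` lie in the valuation subring `A` -/
structure IsIntW (A : ValuationSubring K) (W : WeierstrassCurve K) : Prop where
  a₁ : A.valuation W.a₁ ≤ 1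
  a₂ : A.valuation W.a₂ ≤ 1
  a₃ : A.valuation W.a₃ ≤ 1
  a₄ : A.valuation W.a₄ ≤ 1
  a₆ : A.valuation W.a₆ ≤ 1

variable (A : ValuationSubring K) {W : WeierstrassCurve K}

theorem wg_mem_of_le {a : K} (h : A.valuation a ≤ 1) : a ∈ A :=
  (A.valuation_le_one_iff a).mp h

theorem wg_le_of_mem {a : K} (h : a ∈ A) : A.valuation a ≤ 1 :=
  (A.valuation_le_one_iff a).mpr h

theorem IsIntW.b₂ (H : IsIntW A W) : A.valuation W.b₂ ≤ 1 := by
  have h1 := wg_mem_of_le A H.a₁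
  have h2 := wg_mem_of_le A H.a₂
  have h4' : (4 : K) ∈ A := by exact_mod_cast natCast_mem A 4
  apply wg_le_of_mem
  simp only [WeierstrassCurve.b₂]
  exact add_mem (pow_mem h1 2) (mul_mem h4' h2)

theorem IsIntW.b₄ (H : IsIntW A W) : A.valuation W.b₄ ≤ 1 := by
  have h1 := wg_mem_of_le A H.a₁
  have h3 := wg_mem_of_le A H.a₃
  have h4 := wg_mem_of_le A H.a₄
  have h2' : (2 : K) ∈ A := by exact_mod_cast natCast_mem A 2
  apply wg_le_of_mem
  simp only [WeierstrassCurve.b₄]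
  exact add_mem (mul_mem h2' h4) (mul_mem h1 h3)

theorem IsIntW.b₆ (H : IsIntW A W) : A.valuation W.b₆ ≤ 1 := by
  have h3 := wg_mem_of_le A H.a₃
  have h6 := wg_mem_of_le A H.a₆
  have h4' : (4 : K) ∈ A := by exact_mod_cast natCast_mem A 4
  apply wg_le_of_mem
  simp only [WeierstrassCurve.b₆]
  exact add_mem (pow_mem h3 2) (mul_mem h4' h6)

theorem IsIntW.b₈ (H : IsIntW A W) : A.valuation W.b₈ ≤ 1 := by
  have h1 := wg_mem_of_le A H.a₁
  have h2 := wg_mem_of_le A H.a₂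
  have h3 := wg_mem_of_le A H.a₃
  have h4 := wg_mem_of_le A H.a₄
  have h6 := wg_mem_of_le A H.a₆
  have h4' : (4 : K) ∈ A := by exact_mod_cast natCast_mem A 4
  apply wg_le_of_mem
  simp only [WeierstrassCurve.b₈]
  refine sub_mem (add_mem (sub_mem (add_mem ?_ ?_) ?_) ?_) ?_
  · exact mul_mem (pow_mem h1 2) h6
  · exact mul_mem (mul_mem h4' h2) h6
  · exact mul_mem (mul_mem h1 h3) h4
  · exact mul_mem h2 (pow_mem h3 2)
  · exact pow_mem h4 2

/-- the `x`-coordinate of a point (`0` at the origin) -/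
def wgX : W.toAffine.Point → K
  | .zero => 0
  | .some x _ _ => x

@[simp] theorem wgX_some {x y : K} (h : W.toAffine.Nonsingular x y) :
    wgX (Point.some x y h) = x := rfl

theorem wg_exists_some {P : W.toAffine.Point} (hP : P ≠ 0) :
    ∃ (x y : K) (h : W.toAffine.Nonsingular x y), P = Point.some x y h := by
  cases P with
  | zero => exact absurd rfl hP
  | some x y h => exact ⟨x, y, h, rfl⟩

variable [DecidableEq K]

/-- the double of a point with non-integral `x` -/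
theorem wg_double_mem (H : IsIntW A W) {x y : K} (h : W.toAffine.Nonsingular x y)
    (hx : 1 < A.valuation x) :
    Point.some x y h + Point.some x y h = 0 ∨
      A.valuation x ≤ A.valuation (wgX (Point.some x y h + Point.some x y h)) := by
  by_cases hy : y = W.toAffine.negY x y
  · exact Or.inl (Point.add_self_of_Y_eq hy)
  · right
    obtain ⟨x', y', h', hsum, hd⟩ := wg_double h hy
    rw [hsum, wgX_some]
    exact wg_dbl_val_le A.valuation (H.b₂ A) (H.b₄ A) (H.b₆ A) (H.b₈ A) hx (wg_psi2_sq h) hd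

/-- in residue characteristic `2`, the double of a point with non-integral `x` -/
theorem wg_double_lt (H : IsIntW A W) (h2 : A.valuation (2 : K) < 1) {x y : K}
    (h : W.toAffine.Nonsingular x y) (hx : 1 < A.valuation x) :
    Point.some x y h + Point.some x y h = 0 ∨
      A.valuation x < A.valuation (wgX (Point.some x y h + Point.some x y h)) := by
  by_cases hy : y = W.toAffine.negY x y
  · exact Or.inl (Point.add_self_of_Y_eq hy)
  · right
    obtain ⟨x', y', h', hsum, hd⟩ := wg_double h hy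
    rw [hsum, wgX_some]
    exact wg_dbl_val_lt A.valuation h2 (H.b₂ A) (H.b₄ A) (H.b₆ A) (H.b₈ A) hx (wg_psi2_sq h) hd

/-- sum of two points with non-integral `x` -/
theorem wg_add_mem (H : IsIntW A W) {c : A.ValueGroup} (hc : 1 < c) {x₁ y₁ x₂ y₂ : K}
    (h₁ : W.toAffine.Nonsingular x₁ y₁) (h₂ : W.toAffine.Nonsingular x₂ y₂)
    (hv1 : c ≤ A.valuation x₁) (hv2 : c ≤ A.valuation x₂) :
    Point.some x₁ y₁ h₁ + Point.some x₂ y₂ h₂ = 0 ∨
      c ≤ A.valuation (wgX (Point.some x₁ y₁ h₁ + Point.some x₂ y₂ h₂)) := by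
  by_cases hx : x₁ = x₂
  · subst hx
    rcases wg_same_x h₁ h₂ with hpt | hpt
    · rw [hpt]
      rcases wg_double_mem A H h₁ (lt_of_lt_of_le hc hv1) with h0 | hle
      · exact Or.inl h0
      · exact Or.inr (hv1.trans hle)
    · left
      rw [hpt, add_neg_cancel]
  · right
    obtain ⟨x₃, y₃, h₃, x₄, y₄, h₄, hadd, -, hS, hP, -, -⟩ := wg_add_sub h₁ h₂ hx
    rw [hadd, wgX_some]
    rcases le_total (A.valuation x₂) (A.valuation x₁) with h21 | h12
    · exact hv2.trans (wg_add_val A.valuation (H.b₂ A) (H.b₄ A) (H.b₆ A) (H.b₈ A)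
        (lt_of_lt_of_le hc hv2) h21 hS hP)
    · have hS' : (x₃ + x₄) * (x₂ - x₁) ^ 2 =
          2 * x₂ * x₁ * (x₂ + x₁) + W.b₂ * x₂ * x₁ + W.b₄ * (x₂ + x₁) + W.b₆ := by
        linear_combination hS
      have hP' : x₃ * x₄ * (x₂ - x₁) ^ 2 =
          x₂ ^ 2 * x₁ ^ 2 - W.b₄ * x₂ * x₁ - W.b₆ * (x₂ + x₁) - W.b₈ := by
        linear_combination hP
      exact hv1.trans (wg_add_val A.valuation (H.b₂ A) (H.b₄ A) (H.b₆ A) (H.b₈ A)
        (lt_of_lt_of_le hc hv1) h12 hS' hP')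

/-- the subgroup of points with `c ≤ v(x)`, for `1 < c` (a piece of the kernel of reduction) -/
def wg_E1sub (H : IsIntW A W) {c : A.ValueGroup} (hc : 1 < c) : AddSubgroup W.toAffine.Point where
  carrier := {P | P = 0 ∨ c ≤ A.valuation (wgX P)}
  zero_mem' := Or.inl rfl
  add_mem' := by
    intro P Q hP hQ
    rcases hP with rfl | hP
    · rw [zero_add]; exact hQ
    rcases hQ with rfl | hQ
    · rw [add_zero]; exact Or.inr hP
    cases P with
    | zero => rw [show (Point.zero : W.toAffine.Point) = 0 from rfl, zero_add]; exact Or.inr hQ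
    | some x₁ y₁ h₁ =>
      cases Q with
      | zero => rw [show (Point.zero : W.toAffine.Point) = 0 from rfl, add_zero]; exact Or.inr hP
      | some x₂ y₂ h₂ => exact wg_add_mem A H hc h₁ h₂ hP hQ
  neg_mem' := by
    intro P hP
    rcases hP with rfl | hP
    · exact Or.inl _root_.neg_zero
    cases P with
    | zero => exact Or.inl _root_.neg_zero
    | some x y h =>
      right
      obtain ⟨h', hneg⟩ := wg_neg_some h
      rw [hneg]; exact hP

theorem mem_wg_E1sub (H : IsIntW A W) {c : A.ValueGroup} (hc : 1 < c) (P : W.toAffine.Point) :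
    P ∈ wg_E1sub A H hc ↔ (P = 0 ∨ c ≤ A.valuation (wgX P)) := Iff.rfl

/-- the whole kernel of reduction `E₁ = {P | P = 0 ∨ 1 < v(x P)}` as a subgroup -/
def wg_E1 (H : IsIntW A W) : AddSubgroup W.toAffine.Point where
  carrier := {P | P = 0 ∨ 1 < A.valuation (wgX P)}
  zero_mem' := Or.inl rfl
  add_mem' := by
    intro P Q hP hQ
    rcases hP with rfl | hP
    · rw [zero_add]; exact hQ
    rcases hQ with rfl | hQ
    · rw [add_zero]; exact Or.inr hP
    set c := min (A.valuation (wgX P)) (A.valuation (wgX Q)) with hcdef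
    have hc : 1 < c := lt_min hP hQ
    have hPm : P ∈ wg_E1sub A H hc := Or.inr (min_le_left _ _)
    have hQm : Q ∈ wg_E1sub A H hc := Or.inr (min_le_right _ _)
    rcases (wg_E1sub A H hc).add_mem hPm hQm with h0 | hle
    · exact Or.inl h0
    · exact Or.inr (lt_of_lt_of_le hc hle)
  neg_mem' := by
    intro P hP
    rcases hP with rfl | hP
    · exact Or.inl _root_.neg_zero
    have hPm : P ∈ wg_E1sub A H hP := Or.inr le_rfl
    rcases (wg_E1sub A H hP).neg_mem hPm with h0 | hle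
    · exact Or.inl h0
    · exact Or.inr (lt_of_lt_of_le hP hle)

theorem mem_wg_E1 (H : IsIntW A W) (P : W.toAffine.Point) :
    P ∈ wg_E1 A H ↔ (P = 0 ∨ 1 < A.valuation (wgX P)) := Iff.rfl

/-- **Residue characteristic `2`**: a point of odd order has integral `x`-coordinate
(the kernel of reduction has no odd torsion). -/
theorem wg_torsion_x_integral_two (H : IsIntW A W) (h2 : A.valuation (2 : K) < 1) {n : ℕ}
    (hn : Odd n) {x y : K} (h : W.toAffine.Nonsingular x y)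
    (hP : n • Point.some x y h = 0) : A.valuation x ≤ 1 := by
  by_contra hx
  rw [not_le] at hx
  set P := Point.some x y h with hPdef
  have hP0 : P ≠ 0 := some_ne_zero h
  -- `P = k • (2 • P)` where `2k = n + 1`
  obtain ⟨m, hm⟩ := hn
  have hback : (m + 1) • (P + P) = P := by
    rw [← two_nsmul, ← mul_nsmul', show (m + 1) * 2 = n + 1 by omega, succ_nsmul, hP, zero_add]
  have h2P0 : P + P ≠ 0 := by
    intro h0
    rw [h0, smul_zero] at hback
    exact hP0 hback.symm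
  rcases wg_double_lt A H h2 h hx with h0 | hlt
  · exact h2P0 h0
  · have hc' : 1 < A.valuation (wgX (P + P)) := hx.trans hlt
    have hmem : (m + 1) • (P + P) ∈ wg_E1sub A H hc' :=
      (wg_E1sub A H hc').nsmul_mem (Or.inr le_rfl) (m + 1)
    rw [hback] at hmem
    rcases hmem with h0 | hle
    · exact hP0 h0
    · rw [hPdef, wgX_some] at hle
      exact absurd hlt (not_lt.mpr hle)

end Int

end Fermat.Agent.S13x
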