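import Fermat.Agent.S13x.Defs
import Fermat.Agent.S13x.WGen
import Fermat.Agent.S05x.Inertia

/-!
# S13 project: the Frey model is integral at every valuation subring of `Qb`

* `fi_two_dvd_b`, `fi_four_dvd`, `fi_thirtytwo_dvd`: the integrality facts behind the coefficients
  `a₂ = (b^p - 1 - a^p)/4`, `a₄ = -(a^p b^p)/16` of the Frey curve.
* `fi_a₁ … fi_a₆`: coefficients of `P.freyCurve⁄Qb` as integer casts.
* `frey_isIntW`: `IsIntW A (P.freyCurve⁄Qb)` for EVERY valuation subring `A` of `Qb`.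
* `fi_inE1_iff`, `fi_inE1_add`, `fi_inE1_neg`, `fi_inE1_sub`, `fi_inE1_nsmul`: the kernel of reduction
  `InE1 A` of the Frey curve is a subgroup, in every residue characteristic.
* `fi_val_two_lt`, `fi_odd_torsion_not_inE1`: for `A` over `2`, a nonzero point of odd order of the
  Frey curve is not in the kernel of reduction.
-/

set_option autoImplicit false
open WeierstrassCurve WeierstrassCurve.Affine WeierstrassCurve.Affine.Point
open FreyPackage

namespace Fermat.Agent.S13x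

/-! ## integrality of the coefficients -/

theorem fi_two_dvd_b (P : FreyPackage) : (2 : ℤ) ∣ P.b :=
  (ZMod.intCast_zmod_eq_zero_iff_dvd P.b 2).1 P.hb2

/-- `32 ∣ b^p` -/
theorem fi_thirtytwo_dvd (P : FreyPackage) : (32 : ℤ) ∣ P.b ^ P.p := by
  obtain ⟨b', hb'⟩ := fi_two_dvd_b P
  obtain ⟨k, hk⟩ : ∃ k, P.p = 5 + k := ⟨P.p - 5, by have := P.hp5; omega⟩
  have h : P.b ^ P.p = 32 * (b' ^ 5 * (2 * b') ^ k) := by
    rw [hb', hk, pow_add]; ring
  exact ⟨_, h⟩

/-- `a^p ≡ 3 mod 4` -/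
theorem fi_a_pow_mod_four (P : FreyPackage) : ((P.a ^ P.p : ℤ) : ZMod 4) = 3 := by
  obtain ⟨m, hm⟩ := P.hp_odd
  push_cast
  rw [P.ha4, hm, pow_succ, pow_mul]
  have h9 : (3 : ZMod 4) ^ 2 = 1 := by decide
  rw [h9, one_pow, one_mul]

/-- `4 ∣ b^p - 1 - a^p` -/
theorem fi_four_dvd (P : FreyPackage) : (4 : ℤ) ∣ P.b ^ P.p - 1 - P.a ^ P.p := by
  have hb : ((P.b ^ P.p : ℤ) : ZMod 4) = 0 := by
    rw [ZMod.intCast_zmod_eq_zero_iff_dvd]
    exact Dvd.dvd.trans (by norm_num) (fi_thirtytwo_dvd P)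
  have ha := fi_a_pow_mod_four P
  have key : ((P.b ^ P.p - 1 - P.a ^ P.p : ℤ) : ZMod 4) = 0 := by
    rw [Int.cast_sub, Int.cast_sub, hb, ha]
    decide
  have := (ZMod.intCast_zmod_eq_zero_iff_dvd (P.b ^ P.p - 1 - P.a ^ P.p) 4).mp key
  exact_mod_cast this

/-- the integer `a₂` -/
noncomputable def fiA₂ (P : FreyPackage) : ℤ := (P.b ^ P.p - 1 - P.a ^ P.p) / 4

/-- the integer `b^p / 32` -/
noncomputable def fiB₃₂ (P : FreyPackage) : ℤ := P.b ^ P.p / 32

theorem fiA₂_spec (P : FreyPackage) : 4 * fiA₂ P = P.b ^ P.p - 1 - P.a ^ P.p :=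
  Int.mul_ediv_cancel' (fi_four_dvd P)

theorem fiB₃₂_spec (P : FreyPackage) : 32 * fiB₃₂ P = P.b ^ P.p :=
  Int.mul_ediv_cancel' (fi_thirtytwo_dvd P)

/-- the integer `a₄ = -2 a^p (b^p/32)` -/
noncomputable def fiA₄ (P : FreyPackage) : ℤ := -(2 * P.a ^ P.p * fiB₃₂ P)

theorem fiA₄_spec (P : FreyPackage) : 16 * fiA₄ P = -(P.a ^ P.p * P.b ^ P.p) := by
  rw [fiA₄, ← fiB₃₂_spec P]; ring

theorem fi_two_dvd_A₄ (P : FreyPackage) : (2 : ℤ) ∣ fiA₄ P :=
  ⟨-(P.a ^ P.p * fiB₃₂ P), by rw [fiA₄]; ring⟩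

theorem fiA₄_ne_zero (P : FreyPackage) : fiA₄ P ≠ 0 := by
  intro h0
  have h := fiA₄_spec P
  rw [h0, mul_zero] at h
  have : P.a ^ P.p * P.b ^ P.p = 0 := by linarith
  rcases mul_eq_zero.mp this with h1 | h1
  · exact P.ha0 (pow_eq_zero_iff (P.hp0) |>.mp h1)
  · exact P.hb0 (pow_eq_zero_iff (P.hp0) |>.mp h1)

/-! ## the coefficients of the Frey curve over `Qb` -/

theorem fi_a₁ (P : FreyPackage) : (P.freyCurve⁄Qb).a₁ = 1 := by
  simp [WeierstrassCurve.baseChange, freyCurve]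

theorem fi_a₃ (P : FreyPackage) : (P.freyCurve⁄Qb).a₃ = 0 := by
  simp [WeierstrassCurve.baseChange, freyCurve]

theorem fi_a₆ (P : FreyPackage) : (P.freyCurve⁄Qb).a₆ = 0 := by
  simp [WeierstrassCurve.baseChange, freyCurve]

theorem fi_a₂ (P : FreyPackage) : (P.freyCurve⁄Qb).a₂ = ((fiA₂ P : ℤ) : Qb) := by
  have h := fiA₂_spec P
  have hq : (4 : Qb) * ((fiA₂ P : ℤ) : Qb) = ((P.b : ℤ) : Qb) ^ P.p - 1 - ((P.a : ℤ) : Qb) ^ P.p := by
    have := congrArg (fun t : ℤ => (t : Qb)) h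
    simpa using this
  have h4 : (4 : Qb) ≠ 0 := by norm_num
  simp only [WeierstrassCurve.baseChange, freyCurve, WeierstrassCurve.map_a₂]
  rw [eq_comm, ← mul_right_inj' h4, hq]
  simp only [map_div₀, map_sub, map_pow, map_one, map_intCast, map_ofNat]
  field_simp

theorem fi_a₄ (P : FreyPackage) : (P.freyCurve⁄Qb).a₄ = ((fiA₄ P : ℤ) : Qb) := by
  have h := fiA₄_spec P
  have hq : (16 : Qb) * ((fiA₄ P : ℤ) : Qb) = -(((P.a : ℤ) : Qb) ^ P.p * ((P.b : ℤ) : Qb) ^ P.p) := by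
    have := congrArg (fun t : ℤ => (t : Qb)) h
    simpa using this
  have h16 : (16 : Qb) ≠ 0 := by norm_num
  simp only [WeierstrassCurve.baseChange, freyCurve, WeierstrassCurve.map_a₄]
  rw [eq_comm, ← mul_right_inj' h16, hq]
  simp only [map_div₀, map_mul, map_neg, map_pow, map_intCast, map_ofNat]
  field_simp

/-- the Frey model is integral with respect to every valuation subring of `Qb` -/
theorem frey_isIntW (P : FreyPackage) (A : ValuationSubring Qb) : IsIntW A (P.freyCurve⁄Qb) where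
  a₁ := by rw [fi_a₁]; simp
  a₂ := by rw [fi_a₂]; exact S05x.val_int_le_one A _
  a₃ := by rw [fi_a₃]; simp
  a₄ := by rw [fi_a₄]; exact S05x.val_int_le_one A _
  a₆ := by rw [fi_a₆]; simp

/-! ## the kernel of reduction of the Frey curve -/

theorem fi_inE1_iff (P : FreyPackage) (A : ValuationSubring Qb) (Q : FreyPt P) :
    InE1 A Q ↔ Q ∈ wg_E1 A (frey_isIntW P A) := by
  cases Q with
  | zero => exact ⟨fun _ => Or.inl rfl, fun _ => trivial⟩
  | some x y h =>
    rw [inE1_some, mem_wg_E1]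
    constructor
    · intro hx
      right
      rw [wgX_some]
      by_contra hle
      exact hx ((A.valuation_le_one_iff x).mp (not_lt.mp hle))
    · rintro (h0 | hlt)
      · exact absurd h0 (some_ne_zero h)
      · rw [wgX_some] at hlt
        intro hx
        exact absurd ((A.valuation_le_one_iff x).mpr hx) (not_le.mpr hlt)

/-- the kernel of reduction is closed under addition (any residue characteristic) -/
theorem fi_inE1_add (P : FreyPackage) (A : ValuationSubring Qb) {Q₁ Q₂ : FreyPt P}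
    (h₁ : InE1 A Q₁) (h₂ : InE1 A Q₂) : InE1 A (Q₁ + Q₂) := by
  rw [fi_inE1_iff] at h₁ h₂ ⊢
  exact (wg_E1 A (frey_isIntW P A)).add_mem h₁ h₂

theorem fi_inE1_neg (P : FreyPackage) (A : ValuationSubring Qb) {Q : FreyPt P}
    (h : InE1 A Q) : InE1 A (-Q) := by
  rw [fi_inE1_iff] at h ⊢
  exact (wg_E1 A (frey_isIntW P A)).neg_mem h

theorem fi_inE1_sub (P : FreyPackage) (A : ValuationSubring Qb) {Q₁ Q₂ : FreyPt P}
    (h₁ : InE1 A Q₁) (h₂ : InE1 A Q₂) : InE1 A (Q₁ - Q₂) := by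
  rw [fi_inE1_iff] at h₁ h₂ ⊢
  exact (wg_E1 A (frey_isIntW P A)).sub_mem h₁ h₂

theorem fi_inE1_nsmul (P : FreyPackage) (A : ValuationSubring Qb) {Q : FreyPt P}
    (h : InE1 A Q) (n : ℕ) : InE1 A (n • Q) := by
  rw [fi_inE1_iff] at h ⊢
  exact (wg_E1 A (frey_isIntW P A)).nsmul_mem h n

theorem fi_inE1_zsmul (P : FreyPackage) (A : ValuationSubring Qb) {Q : FreyPt P}
    (h : InE1 A Q) (n : ℤ) : InE1 A (n • Q) := by
  rw [fi_inE1_iff] at h ⊢
  exact (wg_E1 A (frey_isIntW P A)).zsmul_mem h n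

/-! ## the prime `2` -/

theorem fi_val_prime_lt (A : ValuationSubring Qb) {q : ℕ} (hA : A.LiesOverPrime q) :
    A.valuation (q : Qb) < 1 := A.mem_nonunits_iff.mp hA

theorem fi_val_two_lt (A : ValuationSubring Qb) (hA : A.LiesOverPrime 2) :
    A.valuation (2 : Qb) < 1 := by
  have := fi_val_prime_lt A hA
  simpa using this

/-- for `A` over `2`, the kernel of reduction of the Frey curve has no odd torsion -/
theorem fi_odd_torsion_not_inE1 (P : FreyPackage) (A : ValuationSubring Qb)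
    (hA : A.LiesOverPrime 2) {n : ℕ} (hn : Odd n) {Q : FreyPt P} (hQ : n • Q = 0)
    (hE : InE1 A Q) : Q = 0 := by
  cases Q with
  | zero => rfl
  | some x y h =>
    exfalso
    have hx := wg_torsion_x_integral_two A (frey_isIntW P A) (fi_val_two_lt A hA) hn h hQ
    exact (inE1_some A h).mp hE ((A.valuation_le_one_iff x).mp hx)

/-- for `A` over `2`, the `p`-torsion of the Frey curve meets the kernel of reduction trivially -/
theorem fi_freyV_not_inE1_two (P : FreyPackage) (A : ValuationSubring Qb)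
    (hA : A.LiesOverPrime 2) (x : FreyV P) (hE : InE1 A (x : FreyPt P)) : x = 0 := by
  have hx : P.p • (x : FreyPt P) = 0 := by
    have := x.2
    rw [Submodule.mem_torsionBy_iff] at this
    exact_mod_cast this
  exact Subtype.ext (fi_odd_torsion_not_inE1 P A hA P.hp_odd hx hE)

end Fermat.Agent.S13x
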