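/-
S13 leaf (d), Wronskian route, module T1: the invariant derivation on the affine coordinate ring
of a Weierstrass curve, in coordinates with respect to the `K[X]`-basis `{1, Y}`.
-/
import Mathlib

set_option autoImplicit false

open Polynomial WeierstrassCurve WeierstrassCurve.Affine
open scoped Polynomial.Bivariate

namespace Fermat.Agent.S13x

variable {K : Type*} [Field K] (W : Affine K)

/-- the class of `Y` in the coordinate ring -/
noncomputable abbrev wrY : W.CoordinateRing := CoordinateRing.mk W Y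

/-- `G = X³ + a₂X² + a₄X + a₆` -/
noncomputable def wrG : K[X] := X ^ 3 + C W.a₂ * X ^ 2 + C W.a₄ * X + C W.a₆

/-- `L = a₁X + a₃` -/
noncomputable def wrL : K[X] := C W.a₁ * X + C W.a₃

/-- `G' = 3X² + 2a₂X + a₄` -/
noncomputable def wrG' : K[X] := C 3 * X ^ 2 + C (2 * W.a₂) * X + C W.a₄

lemma wr_derivative_G : derivative (wrG W) = wrG' W := by
  simp only [wrG, wrG', derivative_add, derivative_mul, derivative_X_pow, derivative_C,
    derivative_X, C_mul]
  norm_num
  ring

lemma wr_derivative_L : derivative (wrL W) = C W.a₁ := by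
  simp [wrL]

/-- the `1`-coordinate of an element of the coordinate ring -/
noncomputable def wrP (f : W.CoordinateRing) : K[X] := (CoordinateRing.basis W).repr f 0

/-- the `Y`-coordinate of an element of the coordinate ring -/
noncomputable def wrQ (f : W.CoordinateRing) : K[X] := (CoordinateRing.basis W).repr f 1

lemma wr_repr (f : W.CoordinateRing) : wrP W f • (1 : W.CoordinateRing) + wrQ W f • wrY W = f := by
  have h := (CoordinateRing.basis W).sum_repr f
  rw [Fin.sum_univ_two, CoordinateRing.basis_zero, CoordinateRing.basis_one] at h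
  exact h

lemma wr_P_smul_basis (p q : K[X]) : wrP W (p • (1 : W.CoordinateRing) + q • wrY W) = p := by
  have h := wr_repr W (p • (1 : W.CoordinateRing) + q • wrY W)
  have h2 : (wrP W (p • (1 : W.CoordinateRing) + q • wrY W) - p) • (1 : W.CoordinateRing) +
      (wrQ W (p • (1 : W.CoordinateRing) + q • wrY W) - q) • wrY W = 0 := by
    rw [sub_smul, sub_smul]
    linear_combination h
  exact sub_eq_zero.mp (CoordinateRing.smul_basis_eq_zero h2).1

lemma wr_Q_smul_basis (p q : K[X]) : wrQ W (p • (1 : W.CoordinateRing) + q • wrY W) = q := by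
  have h := wr_repr W (p • (1 : W.CoordinateRing) + q • wrY W)
  have h2 : (wrP W (p • (1 : W.CoordinateRing) + q • wrY W) - p) • (1 : W.CoordinateRing) +
      (wrQ W (p • (1 : W.CoordinateRing) + q • wrY W) - q) • wrY W = 0 := by
    rw [sub_smul, sub_smul]
    linear_combination h
  exact sub_eq_zero.mp (CoordinateRing.smul_basis_eq_zero h2).2

lemma wr_ext {f g : W.CoordinateRing} (hP : wrP W f = wrP W g) (hQ : wrQ W f = wrQ W g) :
    f = g := by
  rw [← wr_repr W f, ← wr_repr W g, hP, hQ]

lemma wr_P_add (f g : W.CoordinateRing) : wrP W (f + g) = wrP W f + wrP W g := by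
  simp [wrP]

lemma wr_Q_add (f g : W.CoordinateRing) : wrQ W (f + g) = wrQ W f + wrQ W g := by
  simp [wrQ]

lemma wr_P_smul (c : K[X]) (f : W.CoordinateRing) : wrP W (c • f) = c * wrP W f := by
  simp [wrP]

lemma wr_Q_smul (c : K[X]) (f : W.CoordinateRing) : wrQ W (c • f) = c * wrQ W f := by
  simp [wrQ]

lemma wr_Y_mul_Y : wrY W * wrY W = wrG W • (1 : W.CoordinateRing) - wrL W • wrY W := by
  have h := CoordinateRing.smul_basis_mul_Y (W' := W) 0 1
  simp only [zero_smul, one_smul, zero_add, one_mul, zero_sub, neg_smul] at h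
  rw [h, wrG, wrL, sub_eq_add_neg]

/-- product in coordinates -/
lemma wr_mul_basis (p₁ q₁ p₂ q₂ : K[X]) :
    (p₁ • (1 : W.CoordinateRing) + q₁ • wrY W) * (p₂ • (1 : W.CoordinateRing) + q₂ • wrY W) =
      (p₁ * p₂ + q₁ * q₂ * wrG W) • (1 : W.CoordinateRing) +
        (p₁ * q₂ + p₂ * q₁ - q₁ * q₂ * wrL W) • wrY W := by
  have hYY := wr_Y_mul_Y W
  simp only [Algebra.smul_def, map_add, map_mul, map_sub, mul_one] at hYY ⊢
  linear_combination (algebraMap K[X] W.CoordinateRing q₁ * algebraMap K[X] W.CoordinateRing q₂) * hYY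

lemma wr_P_mul (f g : W.CoordinateRing) :
    wrP W (f * g) = wrP W f * wrP W g + wrQ W f * wrQ W g * wrG W := by
  conv_lhs => rw [← wr_repr W f, ← wr_repr W g, wr_mul_basis, wr_P_smul_basis]

lemma wr_Q_mul (f g : W.CoordinateRing) :
    wrQ W (f * g) = wrP W f * wrQ W g + wrP W g * wrQ W f - wrQ W f * wrQ W g * wrL W := by
  conv_lhs => rw [← wr_repr W f, ← wr_repr W g, wr_mul_basis, wr_Q_smul_basis]

lemma wr_P_zero : wrP W (0 : W.CoordinateRing) = 0 := by
  simp [wrP]

lemma wr_Q_zero : wrQ W (0 : W.CoordinateRing) = 0 := by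
  simp [wrQ]

lemma wr_P_one : wrP W (1 : W.CoordinateRing) = 1 := by
  have := wr_P_smul_basis W 1 0
  simpa using this

lemma wr_Q_one : wrQ W (1 : W.CoordinateRing) = 0 := by
  have := wr_Q_smul_basis W 1 0
  simpa using this

lemma wr_P_algebraMap (c : K) : wrP W (algebraMap K W.CoordinateRing c) = C c := by
  have h : algebraMap K W.CoordinateRing c = (C c : K[X]) • (1 : W.CoordinateRing) + (0 : K[X]) • wrY W := by
    rw [zero_smul, add_zero, Algebra.smul_def, mul_one]
    rfl
  rw [h, wr_P_smul_basis]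

lemma wr_Q_algebraMap (c : K) : wrQ W (algebraMap K W.CoordinateRing c) = 0 := by
  have h : algebraMap K W.CoordinateRing c = (C c : K[X]) • (1 : W.CoordinateRing) + (0 : K[X]) • wrY W := by
    rw [zero_smul, add_zero, Algebra.smul_def, mul_one]
    rfl
  rw [h, wr_Q_smul_basis]

/-- the `1`-coordinate of `D f` -/
noncomputable def wrDA (p q : K[X]) : K[X] :=
  derivative p * wrL W + 2 * derivative q * wrG W + q * wrG' W

/-- the `Y`-coordinate of `D f` -/
noncomputable def wrDB (p q : K[X]) : K[X] :=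
  2 * derivative p - derivative q * wrL W - C W.a₁ * q

/-- the invariant derivation as a function -/
noncomputable def wrDfun (f : W.CoordinateRing) : W.CoordinateRing :=
  wrDA W (wrP W f) (wrQ W f) • (1 : W.CoordinateRing) + wrDB W (wrP W f) (wrQ W f) • wrY W

lemma wr_P_Dfun (f : W.CoordinateRing) : wrP W (wrDfun W f) = wrDA W (wrP W f) (wrQ W f) := by
  rw [wrDfun, wr_P_smul_basis]

lemma wr_Q_Dfun (f : W.CoordinateRing) : wrQ W (wrDfun W f) = wrDB W (wrP W f) (wrQ W f) := by
  rw [wrDfun, wr_Q_smul_basis]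

lemma wr_Dfun_add (f g : W.CoordinateRing) : wrDfun W (f + g) = wrDfun W f + wrDfun W g := by
  apply wr_ext
  · simp only [wr_P_Dfun, wr_P_add, wr_Q_add, wrDA, derivative_add]; ring
  · simp only [wr_Q_Dfun, wr_P_add, wr_Q_add, wr_Q_Dfun, wrDB, derivative_add]; ring

lemma wr_Dfun_mul (f g : W.CoordinateRing) :
    wrDfun W (f * g) = f * wrDfun W g + g * wrDfun W f := by
  apply wr_ext
  · simp only [wr_P_Dfun, wr_P_add, wr_P_mul, wr_Q_mul, wr_Q_Dfun, wrDA, wrDB, derivative_add,
      derivative_sub, derivative_mul, wr_derivative_G, wr_derivative_L]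
    ring
  · simp only [wr_Q_Dfun, wr_Q_add, wr_P_mul, wr_Q_mul, wr_P_Dfun, wrDA, wrDB, derivative_add,
      derivative_sub, derivative_mul, wr_derivative_G, wr_derivative_L]
    ring

lemma wr_Dfun_algebraMap (c : K) : wrDfun W (algebraMap K W.CoordinateRing c) = 0 := by
  apply wr_ext
  · rw [wr_P_Dfun, wr_P_algebraMap, wr_Q_algebraMap, wr_P_zero]
    simp [wrDA]
  · rw [wr_Q_Dfun, wr_P_algebraMap, wr_Q_algebraMap, wr_Q_zero]
    simp [wrDB]

/-- the invariant derivation `D` of the coordinate ring: `D X = W_Y`, `D Y = -W_X`. -/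
noncomputable def wrD : Derivation K W.CoordinateRing W.CoordinateRing where
  toFun := wrDfun W
  map_add' := wr_Dfun_add W
  map_smul' c f := by
    simp only [RingHom.id_apply]
    rw [Algebra.smul_def, wr_Dfun_mul, wr_Dfun_algebraMap, mul_zero, add_zero, Algebra.smul_def]
  map_one_eq_zero' := by
    have := wr_Dfun_algebraMap W 1
    simpa using this
  leibniz' f g := by
    show wrDfun W (f * g) = f • wrDfun W g + g • wrDfun W f
    rw [wr_Dfun_mul, smul_eq_mul, smul_eq_mul]

lemma wr_D_apply (f : W.CoordinateRing) : wrD W f =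
    wrDA W (wrP W f) (wrQ W f) • (1 : W.CoordinateRing) + wrDB W (wrP W f) (wrQ W f) • wrY W := rfl

lemma wr_P_D (f : W.CoordinateRing) : wrP W (wrD W f) = wrDA W (wrP W f) (wrQ W f) := wr_P_Dfun W f

lemma wr_Q_D (f : W.CoordinateRing) : wrQ W (wrD W f) = wrDB W (wrP W f) (wrQ W f) := wr_Q_Dfun W f

end Fermat.Agent.S13x
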