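/-
S13 leaf (d), Wronskian route: shared definitions (filtration by pole order at infinity, top
coefficients, the basis `e_d`, the Wronskian `wron n`, evaluation at a point).
-/
import Fermat.Agent.S13x.WronDeriv

set_option autoImplicit false

open Polynomial WeierstrassCurve WeierstrassCurve.Affine
open scoped Polynomial.Bivariate

namespace Fermat.Agent.S13x

variable {K : Type*} [Field K] (W : Affine K)

/-- `wrFil m` = functions regular on the affine curve with a pole of order at most `m` at infinity:
`p + qY` with `2 deg p ≤ m` and `2 deg q + 3 ≤ m`. -/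
def wrFil (m : ℕ) : Submodule K W.CoordinateRing where
  carrier := {f | (wrP W f).degree < ((m / 2 + 1 : ℕ) : WithBot ℕ) ∧
    (wrQ W f).degree < (((m - 1) / 2 : ℕ) : WithBot ℕ)}
  add_mem' := by
    rintro f g ⟨hf1, hf2⟩ ⟨hg1, hg2⟩
    refine ⟨?_, ?_⟩
    · rw [wr_P_add]; exact lt_of_le_of_lt (degree_add_le _ _) (max_lt hf1 hg1)
    · rw [wr_Q_add]; exact lt_of_le_of_lt (degree_add_le _ _) (max_lt hf2 hg2)
  zero_mem' := by
    refine ⟨?_, ?_⟩
    · show (wrP W 0).degree < _
      rw [wr_P_zero, degree_zero]; exact WithBot.bot_lt_coe _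
    · show (wrQ W 0).degree < _
      rw [wr_Q_zero, degree_zero]; exact WithBot.bot_lt_coe _
  smul_mem' := by
    rintro c f ⟨hf1, hf2⟩
    have h : c • f = (C c : K[X]) • f := by
      rw [Algebra.smul_def, Algebra.smul_def]; rfl
    refine ⟨?_, ?_⟩
    · show (wrP W (c • f)).degree < _
      rw [h, wr_P_smul]
      exact lt_of_le_of_lt (degree_mul_le _ _)
        (by
          rcases eq_or_ne c 0 with rfl | hc
          · simp only [map_zero, degree_zero, WithBot.bot_add]; exact WithBot.bot_lt_coe _
          · rw [degree_C hc, zero_add]; exact hf1)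
    · show (wrQ W (c • f)).degree < _
      rw [h, wr_Q_smul]
      exact lt_of_le_of_lt (degree_mul_le _ _)
        (by
          rcases eq_or_ne c 0 with rfl | hc
          · simp only [map_zero, degree_zero, WithBot.bot_add]; exact WithBot.bot_lt_coe _
          · rw [degree_C hc, zero_add]; exact hf2)

lemma wr_mem_fil {m : ℕ} {f : W.CoordinateRing} : f ∈ wrFil W m ↔
    (wrP W f).degree < ((m / 2 + 1 : ℕ) : WithBot ℕ) ∧
    (wrQ W f).degree < (((m - 1) / 2 : ℕ) : WithBot ℕ) := Iff.rfl

/-- the coefficient of the basis element `e_m` (`m ≠ 1`) in `f`; on `wrFil m` this is the top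
coefficient. -/
noncomputable def wrTop (m : ℕ) (f : W.CoordinateRing) : K :=
  if Even m then (wrP W f).coeff (m / 2) else (wrQ W f).coeff ((m - 3) / 2)

/-- the basis element of pole order `d` (`d ≠ 1`): `X^(d/2)` for even `d`, `X^((d-3)/2) Y` for
odd `d`. -/
noncomputable def wrE (d : ℕ) : W.CoordinateRing :=
  if Even d then (X ^ (d / 2) : K[X]) • (1 : W.CoordinateRing)
  else (X ^ ((d - 3) / 2) : K[X]) • wrY W

/-- pole orders `0, 2, 3, …, n` of the standard basis of `L(n·O)` -/
def wrIdx {n : ℕ} (j : Fin n) : ℕ := if (j : ℕ) = 0 then 0 else (j : ℕ) + 1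

/-- the Wronskian of the standard basis of `L(n·O)` with respect to the invariant derivation -/
noncomputable def wron (n : ℕ) : W.CoordinateRing :=
  Matrix.det (Matrix.of fun i j : Fin n => (⇑(wrD W))^[(i : ℕ)] (wrE W (wrIdx j)))

variable {W}

lemma wr_equation_eval {a b : K} (h : W.Equation a b) :
    eval a (eval (C b) W.polynomial) = 0 := h

/-- evaluation at a point of the affine curve -/
noncomputable def wrEval {a b : K} (h : W.Equation a b) : W.CoordinateRing →ₐ[K] K :=
  ((CoordinateRing.quotientXYIdealEquiv (W' := W) (x := a) (y := C b)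
    (wr_equation_eval h)).toAlgHom).comp
    (Ideal.Quotient.mkₐ K (CoordinateRing.XYIdeal W a (C b)))

lemma wr_eval_eq_zero_iff {a b : K} (h : W.Equation a b) (f : W.CoordinateRing) :
    wrEval h f = 0 ↔ f ∈ CoordinateRing.XYIdeal W a (C b) := by
  rw [wrEval, AlgHom.comp_apply]
  constructor
  · intro h0
    have h1 : (Ideal.Quotient.mkₐ K (CoordinateRing.XYIdeal W a (C b))) f = 0 :=
      (CoordinateRing.quotientXYIdealEquiv (W' := W) (x := a) (y := C b)
        (wr_equation_eval h)).injective (by rw [map_zero]; exact h0)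
    exact Ideal.Quotient.eq_zero_iff_mem.mp h1
  · intro hf
    have h1 : (Ideal.Quotient.mkₐ K (CoordinateRing.XYIdeal W a (C b))) f = 0 :=
      Ideal.Quotient.eq_zero_iff_mem.mpr hf
    rw [h1]
    exact map_zero _

end Fermat.Agent.S13x
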