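/-
S13 leaf (d), Wronskian route, module W07 (`WronInt`): integrality of the Wronskian.

If the Weierstrass coefficients come from a ring `A` (via `φ : A →+* K`), then the coordinates
`wrP`, `wrQ` of `wron W n`, and its norm to `K[X]`, have coefficients in the image of `A`.
We also compute the top coefficient of the norm, and the evaluation at a point in coordinates.
-/
import Fermat.Agent.S13x.WronDefs

set_option autoImplicit false

open Polynomial WeierstrassCurve WeierstrassCurve.Affine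
open scoped Polynomial.Bivariate

namespace Fermat.Agent.S13x

variable {K : Type*} [Field K] (W : Affine K) {A : Type*} [CommRing A] (φ : A →+* K)

/-- polynomials over `K` with coefficients in the image of `A` -/
noncomputable def wriS : Subring K[X] := (Polynomial.mapRingHom φ).range

lemma wri_mem_S {p : K[X]} : p ∈ wriS φ ↔ ∃ q : A[X], q.map φ = p := by
  rw [wriS, RingHom.mem_range]
  simp only [coe_mapRingHom]

lemma wri_C_mem (a : A) : C (φ a) ∈ wriS φ := (wri_mem_S φ).mpr ⟨C a, map_C φ⟩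

lemma wri_X_mem : (X : K[X]) ∈ wriS φ := (wri_mem_S φ).mpr ⟨X, map_X φ⟩

lemma wri_derivative_mem {p : K[X]} (hp : p ∈ wriS φ) : derivative p ∈ wriS φ := by
  obtain ⟨q, rfl⟩ := (wri_mem_S φ).mp hp
  exact (wri_mem_S φ).mpr ⟨derivative q, (derivative_map q φ).symm⟩

lemma wri_natCast_mem (n : ℕ) : (n : K[X]) ∈ wriS φ := natCast_mem _ n

/-- the curve has coefficients in the image of `A` -/
structure WriCurve : Prop where
  a₁ : W.a₁ ∈ φ.range
  a₂ : W.a₂ ∈ φ.range
  a₃ : W.a₃ ∈ φ.range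
  a₄ : W.a₄ ∈ φ.range
  a₆ : W.a₆ ∈ φ.range

variable {W φ}

lemma wri_C_mem_of {c : K} (hc : c ∈ φ.range) : C c ∈ wriS φ := by
  obtain ⟨a, rfl⟩ := hc
  exact wri_C_mem φ a

lemma wri_G_mem (hW : WriCurve W φ) : wrG W ∈ wriS φ := by
  unfold wrG
  exact add_mem (add_mem (add_mem (pow_mem (wri_X_mem φ) 3)
    (mul_mem (wri_C_mem_of hW.a₂) (pow_mem (wri_X_mem φ) 2)))
    (mul_mem (wri_C_mem_of hW.a₄) (wri_X_mem φ))) (wri_C_mem_of hW.a₆)

lemma wri_L_mem (hW : WriCurve W φ) : wrL W ∈ wriS φ := by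
  unfold wrL
  exact add_mem (mul_mem (wri_C_mem_of hW.a₁) (wri_X_mem φ)) (wri_C_mem_of hW.a₃)

lemma wri_G'_mem (hW : WriCurve W φ) : wrG' W ∈ wriS φ := by
  unfold wrG'
  have h3 : (C 3 : K[X]) ∈ wriS φ := by
    have : (C 3 : K[X]) = ((3 : ℕ) : K[X]) := by rw [← C_eq_natCast]; norm_num
    rw [this]; exact wri_natCast_mem φ 3
  have h2 : (C (2 * W.a₂) : K[X]) ∈ wriS φ := by
    have : (C (2 * W.a₂) : K[X]) = ((2 : ℕ) : K[X]) * C W.a₂ := by
      rw [← C_eq_natCast, ← C_mul]; norm_num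
    rw [this]; exact mul_mem (wri_natCast_mem φ 2) (wri_C_mem_of hW.a₂)
  exact add_mem (add_mem (mul_mem h3 (pow_mem (wri_X_mem φ) 2)) (mul_mem h2 (wri_X_mem φ)))
    (wri_C_mem_of hW.a₄)

lemma wr_P_neg (f : W.CoordinateRing) : wrP W (-f) = -wrP W f := by simp [wrP]

lemma wr_Q_neg (f : W.CoordinateRing) : wrQ W (-f) = -wrQ W f := by simp [wrQ]

variable (W φ) in
/-- elements of the coordinate ring whose coordinates have coefficients in the image of `A` -/
def wriR (hW : WriCurve W φ) : Subring W.CoordinateRing where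
  carrier := {f | wrP W f ∈ wriS φ ∧ wrQ W f ∈ wriS φ}
  mul_mem' := by
    rintro f g ⟨hf1, hf2⟩ ⟨hg1, hg2⟩
    refine ⟨?_, ?_⟩
    · show wrP W (f * g) ∈ wriS φ
      rw [wr_P_mul]
      exact add_mem (mul_mem hf1 hg1) (mul_mem (mul_mem hf2 hg2) (wri_G_mem hW))
    · show wrQ W (f * g) ∈ wriS φ
      rw [wr_Q_mul]
      exact sub_mem (add_mem (mul_mem hf1 hg2) (mul_mem hg1 hf2))
        (mul_mem (mul_mem hf2 hg2) (wri_L_mem hW))
  one_mem' := by
    refine ⟨?_, ?_⟩
    · show wrP W 1 ∈ wriS φ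
      rw [wr_P_one]; exact one_mem _
    · show wrQ W 1 ∈ wriS φ
      rw [wr_Q_one]; exact zero_mem _
  add_mem' := by
    rintro f g ⟨hf1, hf2⟩ ⟨hg1, hg2⟩
    refine ⟨?_, ?_⟩
    · show wrP W (f + g) ∈ wriS φ
      rw [wr_P_add]; exact add_mem hf1 hg1
    · show wrQ W (f + g) ∈ wriS φ
      rw [wr_Q_add]; exact add_mem hf2 hg2
  zero_mem' := by
    refine ⟨?_, ?_⟩
    · show wrP W 0 ∈ wriS φ
      rw [wr_P_zero]; exact zero_mem _
    · show wrQ W 0 ∈ wriS φ
      rw [wr_Q_zero]; exact zero_mem _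
  neg_mem' := by
    rintro f ⟨hf1, hf2⟩
    refine ⟨?_, ?_⟩
    · show wrP W (-f) ∈ wriS φ
      rw [wr_P_neg]; exact neg_mem hf1
    · show wrQ W (-f) ∈ wriS φ
      rw [wr_Q_neg]; exact neg_mem hf2

lemma wri_mem_R (hW : WriCurve W φ) {f : W.CoordinateRing} :
    f ∈ wriR W φ hW ↔ wrP W f ∈ wriS φ ∧ wrQ W f ∈ wriS φ := Iff.rfl

lemma wri_D_mem (hW : WriCurve W φ) {f : W.CoordinateRing} (hf : f ∈ wriR W φ hW) :
    wrD W f ∈ wriR W φ hW := by
  obtain ⟨hf1, hf2⟩ := hf
  have h2 : (2 : K[X]) ∈ wriS φ := by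
    have : (2 : K[X]) = ((2 : ℕ) : K[X]) := by simp
    rw [this]; exact wri_natCast_mem φ 2
  refine ⟨?_, ?_⟩
  · rw [wr_P_D, wrDA]
    exact add_mem (add_mem (mul_mem (wri_derivative_mem φ hf1) (wri_L_mem hW))
      (mul_mem (mul_mem h2 (wri_derivative_mem φ hf2)) (wri_G_mem hW)))
      (mul_mem hf2 (wri_G'_mem hW))
  · rw [wr_Q_D, wrDB]
    exact sub_mem (sub_mem (mul_mem h2 (wri_derivative_mem φ hf1))
      (mul_mem (wri_derivative_mem φ hf2) (wri_L_mem hW)))
      (mul_mem (wri_C_mem_of hW.a₁) hf2)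

lemma wri_iterate_D_mem (hW : WriCurve W φ) {f : W.CoordinateRing} (hf : f ∈ wriR W φ hW)
    (i : ℕ) : (⇑(wrD W))^[i] f ∈ wriR W φ hW := by
  induction i with
  | zero => simpa using hf
  | succ i ih =>
    rw [Function.iterate_succ_apply']
    exact wri_D_mem hW ih

lemma wri_E_mem (hW : WriCurve W φ) (d : ℕ) : wrE W d ∈ wriR W φ hW := by
  unfold wrE
  split_ifs with h
  · refine ⟨?_, ?_⟩
    · rw [wr_P_smul, wr_P_one, mul_one]; exact pow_mem (wri_X_mem φ) _
    · rw [wr_Q_smul, wr_Q_one, mul_zero]; exact zero_mem _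
  · have hP : wrP W (wrY W) = 0 := by
      have := wr_P_smul_basis W 0 1
      simpa using this
    have hQ : wrQ W (wrY W) = 1 := by
      have := wr_Q_smul_basis W 0 1
      simpa using this
    refine ⟨?_, ?_⟩
    · rw [wr_P_smul, hP, mul_zero]; exact zero_mem _
    · rw [wr_Q_smul, hQ, mul_one]; exact pow_mem (wri_X_mem φ) _

/-- the Wronskian has coordinates with coefficients in the image of `A`. -/
theorem wri_wron_mem (hW : WriCurve W φ) (n : ℕ) : wron W n ∈ wriR W φ hW := by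
  unfold wron
  rw [Matrix.det_apply]
  refine sum_mem fun σ _ => ?_
  rw [Units.smul_def]
  refine zsmul_mem (prod_mem fun i _ => ?_) _
  exact wri_iterate_D_mem hW (wri_E_mem hW _) _

/-! ### the norm in coordinates -/

variable (W) in
lemma wri_norm_eq (f : W.CoordinateRing) : Algebra.norm K[X] f =
    wrP W f ^ 2 - wrP W f * wrQ W f * wrL W - wrQ W f ^ 2 * wrG W := by
  conv_lhs => rw [← wr_repr W f]
  rw [CoordinateRing.norm_smul_basis]
  rfl

theorem wri_norm_mem (hW : WriCurve W φ) {f : W.CoordinateRing} (hf : f ∈ wriR W φ hW) :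
    Algebra.norm K[X] f ∈ wriS φ := by
  obtain ⟨hf1, hf2⟩ := hf
  rw [wri_norm_eq]
  exact sub_mem (sub_mem (pow_mem hf1 2) (mul_mem (mul_mem hf1 hf2) (wri_L_mem hW)))
    (mul_mem (pow_mem hf2 2) (wri_G_mem hW))

/-- the norm of the Wronskian has coefficients in the image of `A`. -/
theorem wri_norm_wron_mem (hW : WriCurve W φ) (n : ℕ) :
    ∃ N : A[X], N.map φ = Algebra.norm K[X] (wron W n) :=
  (wri_mem_S φ).mp (wri_norm_mem hW (wri_wron_mem hW n))

variable (W) in
lemma wri_natDegree_L_le : (wrL W).natDegree ≤ 1 := by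
  unfold wrL
  exact natDegree_linear_le

variable (W) in
lemma wri_natDegree_G_le : (wrG W).natDegree ≤ 3 := by
  have h : wrG W = C 1 * X ^ 3 + C W.a₂ * X ^ 2 + C W.a₄ * X + C W.a₆ := by
    unfold wrG; simp
  rw [h]
  exact natDegree_cubic_le

/-- degree and top coefficient of the norm on an even step of the filtration. -/
theorem wri_norm_even {k : ℕ} {f : W.CoordinateRing} (hf : f ∈ wrFil W (2 * k)) :
    (Algebra.norm K[X] f).natDegree ≤ 2 * k ∧
      (Algebra.norm K[X] f).coeff (2 * k) = (wrTop W (2 * k) f) ^ 2 := by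
  obtain ⟨hP, hQ⟩ := (wr_mem_fil W).mp hf
  have e1 : 2 * k / 2 = k := Nat.mul_div_cancel_left k (by norm_num)
  have e2 : (2 * k - 1) / 2 = k - 1 := by omega
  rw [e1] at hP
  rw [e2] at hQ
  have hPn : (wrP W f).natDegree ≤ k := by
    have := natDegree_lt_iff_degree_lt (p := wrP W f) (n := k + 1)
    by_cases h0 : wrP W f = 0
    · rw [h0]; simp
    · exact Nat.lt_succ_iff.mp ((natDegree_lt_iff_degree_lt h0).mpr hP)
  have hQn : wrQ W f = 0 ∨ (wrQ W f).natDegree + 2 ≤ k := by
    by_cases h0 : wrQ W f = 0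
    · exact Or.inl h0
    · right
      have h1 := (natDegree_lt_iff_degree_lt h0).mpr hQ
      omega
  have htop : wrTop W (2 * k) f = (wrP W f).coeff k := by
    rw [wrTop, if_pos (even_two_mul k), e1]
  rw [wri_norm_eq, htop]
  rcases hQn with hQ0 | hQn
  · rw [hQ0]
    simp only [mul_zero, zero_mul, sub_zero, ne_eq, OfNat.ofNat_ne_zero, not_false_eq_true,
      zero_pow]
    refine ⟨natDegree_pow_le.trans (by nlinarith), ?_⟩
    rw [mul_comm 2 k, mul_comm k 2]
    exact coeff_pow_of_natDegree_le hPn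
  · have hd2 : (wrP W f * wrQ W f * wrL W).natDegree < 2 * k := by
      refine lt_of_le_of_lt (natDegree_mul_le.trans (add_le_add natDegree_mul_le
        (wri_natDegree_L_le W))) ?_
      omega
    have hd3 : (wrQ W f ^ 2 * wrG W).natDegree < 2 * k := by
      refine lt_of_le_of_lt (natDegree_mul_le.trans (add_le_add natDegree_pow_le
        (wri_natDegree_G_le W))) ?_
      omega
    have hd1 : (wrP W f ^ 2).natDegree ≤ 2 * k := natDegree_pow_le.trans (by nlinarith)
    refine ⟨?_, ?_⟩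
    · refine (natDegree_sub_le _ _).trans (max_le ((natDegree_sub_le _ _).trans
        (max_le hd1 hd2.le)) hd3.le)
    · rw [coeff_sub, coeff_sub, coeff_eq_zero_of_natDegree_lt hd2,
        coeff_eq_zero_of_natDegree_lt hd3, sub_zero, sub_zero]
      exact coeff_pow_of_natDegree_le hPn

/-! ### the integer Vandermonde determinant -/

/-- the integer Vandermonde determinant of the pole orders `0, 2, 3, …, n`. -/
def wriV (n : ℕ) : ℤ := ∏ i : Fin n, ∏ j ∈ Finset.Ioi i, ((wrIdx j : ℤ) - (wrIdx i : ℤ))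

theorem wriV_prime {p : ℕ} (hp : p.Prime) : ∃ u : ℤ, wriV p = p * u ∧ ¬ (p : ℤ) ∣ u := by
  have hp2 : 2 ≤ p := hp.two_le
  set s : Finset (Σ _ : Fin p, Fin p) := Finset.univ.sigma (fun i : Fin p => Finset.Ioi i) with hs
  set f : (Σ _ : Fin p, Fin p) → ℤ := fun x => (wrIdx x.2 : ℤ) - (wrIdx x.1 : ℤ) with hf
  have hV : wriV p = ∏ x ∈ s, f x := by
    rw [wriV, hs, Finset.prod_sigma]
  let a : (Σ _ : Fin p, Fin p) := ⟨⟨0, by omega⟩, ⟨p - 1, by omega⟩⟩
  have ha : a ∈ s := by
    rw [hs, Finset.mem_sigma]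
    refine ⟨Finset.mem_univ _, ?_⟩
    rw [Finset.mem_Ioi]
    show (⟨0, _⟩ : Fin p) < ⟨p - 1, _⟩
    rw [Fin.lt_def]
    show 0 < p - 1
    omega
  have hfa : f a = p := by
    simp only [hf, a, wrIdx]
    have h1 : ¬ (p - 1 = 0) := by omega
    simp only [h1, if_false, if_true]
    push_cast
    omega
  refine ⟨∏ x ∈ s.erase a, f x, ?_, ?_⟩
  · rw [hV, ← Finset.mul_prod_erase s f ha, hfa]
  · intro hdvd
    have hprime : Prime (p : ℤ) := Nat.prime_iff_prime_int.mp hp
    obtain ⟨x, hx, hpx⟩ := (Prime.dvd_finsetProd_iff hprime _).mp hdvd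
    rw [Finset.mem_erase] at hx
    obtain ⟨hxa, hxs⟩ := hx
    rw [hs, Finset.mem_sigma, Finset.mem_Ioi] at hxs
    obtain ⟨i, j⟩ := x
    have hij : (i : ℕ) < (j : ℕ) := hxs.2
    have hj := j.2
    have hne : ¬ ((i : ℕ) = 0 ∧ (j : ℕ) = p - 1) := by
      rintro ⟨h1, h2⟩
      apply hxa
      have e1 : i = ⟨0, by omega⟩ := Fin.ext h1
      have e2 : j = ⟨p - 1, by omega⟩ := Fin.ext h2
      rw [e1, e2]
    have hbound : 0 < f ⟨i, j⟩ ∧ f ⟨i, j⟩ < p := by
      simp only [hf, wrIdx]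
      split_ifs with h1 h2 h2
      · omega
      · omega
      · push_cast; omega
      · push_cast; omega
    have := Int.le_of_dvd hbound.1 hpx
    omega

section EvalAndRoots

/-! ### evaluation at a point, in coordinates -/

lemma wri_eval_XClass {a b : K} (h : W.Equation a b) :
    wrEval h (CoordinateRing.XClass W a) = 0 :=
  (wr_eval_eq_zero_iff h _).mpr (Ideal.subset_span (by simp))

lemma wri_eval_YClass {a b : K} (h : W.Equation a b) :
    wrEval h (CoordinateRing.YClass W (C b)) = 0 :=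
  (wr_eval_eq_zero_iff h _).mpr (Ideal.subset_span (by simp))

lemma wri_eval_algebraMap {a b : K} (h : W.Equation a b) (p : K[X]) :
    wrEval h (algebraMap K[X] W.CoordinateRing p) = p.eval a := by
  have hX : wrEval h (algebraMap K[X] W.CoordinateRing X) = a := by
    have h0 := wri_eval_XClass h
    have h1 : CoordinateRing.XClass W a =
        algebraMap K[X] W.CoordinateRing X - algebraMap K W.CoordinateRing a := by
      rw [CoordinateRing.XClass, map_sub]
      rfl
    rw [h1, map_sub, AlgHom.commutes] at h0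
    simpa [sub_eq_zero] using h0
  have key : ((wrEval h).comp (IsScalarTower.toAlgHom K K[X] W.CoordinateRing)) = aeval a := by
    apply Polynomial.algHom_ext
    simpa using hX
  have := congrArg (fun g : K[X] →ₐ[K] K => g p) key
  simpa using this

lemma wri_eval_Y {a b : K} (h : W.Equation a b) : wrEval h (wrY W) = b := by
  have h0 := wri_eval_YClass h
  have h1 : CoordinateRing.YClass W (C b) = wrY W - algebraMap K W.CoordinateRing b := by
    rw [CoordinateRing.YClass, map_sub]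
    rfl
  rw [h1, map_sub, AlgHom.commutes] at h0
  simpa [sub_eq_zero] using h0

theorem wri_eval_eq {a b : K} (h : W.Equation a b) (f : W.CoordinateRing) :
    wrEval h f = (wrP W f).eval a + (wrQ W f).eval a * b := by
  conv_lhs => rw [← wr_repr W f]
  rw [map_add, Algebra.smul_def, Algebra.smul_def, mul_one, map_mul, wri_eval_algebraMap,
    wri_eval_algebraMap, wri_eval_Y]

/-- the norm of `f`, evaluated at `r`, is the product of the values of `f` at the two points
above `r`. -/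
lemma wri_eval_norm {r b : K} (h : W.Equation r b) (f : W.CoordinateRing) :
    (Algebra.norm K[X] f).eval r =
      wrEval h f * wrEval ((W.equation_neg r b).mpr h) f := by
  rw [wri_eval_eq, wri_eval_eq, wri_norm_eq]
  have hE := (W.equation_iff r b).mp h
  simp only [eval_sub, eval_mul, eval_pow, wrL, wrG, eval_add, eval_C, eval_X, negY]
  linear_combination (eval r (wrQ W f)) ^ 2 * hE

/-- both coordinates of `f` vanish at `x` if `f` vanishes at two distinct points above `x`. -/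
lemma wri_dvd_of_eval {x y y' : K} (h : W.Equation x y) (h' : W.Equation x y') (hy : y ≠ y')
    {f : W.CoordinateRing} (h0 : wrEval h f = 0) (h0' : wrEval h' f = 0) :
    (X - C x) ∣ wrP W f ∧ (X - C x) ∣ wrQ W f := by
  rw [wri_eval_eq] at h0 h0'
  have hQ : (wrQ W f).eval x = 0 := by
    have : (wrQ W f).eval x * (y - y') = 0 := by linear_combination h0 - h0'
    rcases mul_eq_zero.mp this with h1 | h1
    · exact h1
    · exact absurd (sub_eq_zero.mp h1) hy
  have hP : (wrP W f).eval x = 0 := by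
    rw [hQ, zero_mul, add_zero] at h0
    exact h0
  exact ⟨dvd_iff_isRoot.mpr hP, dvd_iff_isRoot.mpr hQ⟩

lemma wri_sq_dvd_norm {x : K} {f : W.CoordinateRing} (hP : (X - C x) ∣ wrP W f)
    (hQ : (X - C x) ∣ wrQ W f) : (X - C x) ^ 2 ∣ Algebra.norm K[X] f := by
  obtain ⟨p, hp⟩ := hP
  obtain ⟨q, hq⟩ := hQ
  rw [wri_norm_eq, hp, hq]
  exact ⟨p ^ 2 - p * q * wrL W - q ^ 2 * wrG W, by ring⟩

/-- over an algebraically closed field every `x` is the abscissa of a point of the curve. -/
lemma wri_exists_equation [IsAlgClosed K] (r : K) : ∃ b : K, W.Equation r b := by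
  have hdeg : (X ^ 2 + C (W.a₁ * r + W.a₃) * X - C (r ^ 3 + W.a₂ * r ^ 2 + W.a₄ * r + W.a₆) :
      K[X]).degree ≠ 0 := by
    have h : (X ^ 2 + C (W.a₁ * r + W.a₃) * X - C (r ^ 3 + W.a₂ * r ^ 2 + W.a₄ * r + W.a₆) :
        K[X]) = C 1 * X ^ 2 + C (W.a₁ * r + W.a₃) * X +
          C (-(r ^ 3 + W.a₂ * r ^ 2 + W.a₄ * r + W.a₆)) := by
      simp only [C_neg, C_1]; ring
    rw [h, degree_quadratic one_ne_zero]
    norm_num
  obtain ⟨b, hb⟩ := IsAlgClosed.exists_root _ hdeg
  refine ⟨b, (W.equation_iff r b).mpr ?_⟩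
  simp only [IsRoot.def, eval_sub, eval_add, eval_pow, eval_X, eval_mul, eval_C] at hb
  linear_combination hb

/-- **The torsion polynomial** with its degree, from the degree computation (W03) and the torsion
criterion (W05) as hypotheses. -/
theorem wri_torsion_poly_deg_of [CharZero K] [IsAlgClosed K] [DecidableEq K] [W.IsElliptic]
    (hW : WriCurve W (Int.castRingHom K)) {p : ℕ} (hp : p.Prime) (hp2 : p ≠ 2)
    (hfil : wron W p ∈ wrFil W (p ^ 2 - 1))
    (htop : wrTop W (p ^ 2 - 1) (wron W p) = ((wriV p : ℤ) : K))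
    (hcrit : ∀ {a b : K} (h : W.Nonsingular a b),
      p • Point.some a b h = 0 ↔ wrEval h.1 (wron W p) = 0) :
    ∃ (N : ℤ[X]) (u : ℤ), ¬ (p : ℤ) ∣ u ∧ N.leadingCoeff = (p : ℤ) ^ 2 * u ∧
      (∀ r : K, (N.map (Int.castRingHom K)).IsRoot r →
        ∃ (y : K) (h : W.Nonsingular r y), p • Point.some r y h = 0) ∧
      (∀ (x y : K) (h : W.Nonsingular x y), p • Point.some x y h = 0 →
        (X - C x) ^ 2 ∣ N.map (Int.castRingHom K)) ∧
      N.natDegree = p ^ 2 - 1 ∧
      N.map (Int.castRingHom K) = Algebra.norm K[X] (wron W p) := by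
  obtain ⟨N, hN⟩ := wri_norm_wron_mem hW p
  obtain ⟨u₀, hu₀, hpu₀⟩ := wriV_prime hp
  have hprime : Prime (p : ℤ) := Nat.prime_iff_prime_int.mp hp
  -- `p² - 1` is even
  obtain ⟨k, hk⟩ : ∃ k, p ^ 2 - 1 = 2 * k := by
    rcases hp.eq_two_or_odd' with h | ⟨m, hm⟩
    · exact absurd h hp2
    · refine ⟨2 * m ^ 2 + 2 * m, ?_⟩
      rw [hm]
      have : (2 * m + 1) ^ 2 = 2 * (2 * m ^ 2 + 2 * m) + 1 := by ring
      omega
  rw [hk] at hfil htop
  obtain ⟨hdeg, hcoeff⟩ := wri_norm_even hfil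
  rw [htop, ← hN] at hcoeff
  rw [← hN] at hdeg
  have hinj : Function.Injective (Int.castRingHom K) := Int.cast_injective
  have hNdeg : N.natDegree ≤ 2 * k := by
    rwa [natDegree_map_eq_of_injective hinj] at hdeg
  have hNcoeff : N.coeff (2 * k) = wriV p ^ 2 := by
    apply hinj
    rw [← coeff_map, hcoeff]
    simp
  have hV0 : wriV p ≠ 0 := by
    rw [hu₀]
    refine mul_ne_zero (by exact_mod_cast hp.ne_zero) ?_
    rintro rfl
    exact hpu₀ (dvd_zero _)
  have hNdeg' : N.natDegree = 2 * k := by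
    have hne : N.coeff (2 * k) ≠ 0 := by rw [hNcoeff]; exact pow_ne_zero 2 hV0
    exact le_antisymm hNdeg (le_natDegree_of_ne_zero hne)
  have hNlead : N.leadingCoeff = wriV p ^ 2 := by
    rw [leadingCoeff, hNdeg', hNcoeff]
  refine ⟨N, u₀ ^ 2, ?_, ?_, ?_, ?_, hk ▸ hNdeg', hN⟩
  · intro h
    exact hpu₀ (hprime.dvd_of_dvd_pow h)
  · rw [hNlead, hu₀]; ring
  · intro r hr
    rw [hN] at hr
    obtain ⟨b, hb⟩ := wri_exists_equation (W := W) r
    have hb' : W.Equation r (W.negY r b) := (W.equation_neg r b).mpr hb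
    have hprod := wri_eval_norm hb (wron W p)
    rw [IsRoot.def] at hr
    rw [hr] at hprod
    rcases mul_eq_zero.mp hprod.symm with h0 | h0
    · have hns : W.Nonsingular r b := (W.equation_iff_nonsingular).mp hb
      exact ⟨b, hns, (hcrit hns).mpr h0⟩
    · have hns : W.Nonsingular r (W.negY r b) := (W.equation_iff_nonsingular).mp hb'
      exact ⟨W.negY r b, hns, (hcrit hns).mpr h0⟩
  · intro x y h htors
    rw [hN]
    have h' : W.Nonsingular x (W.negY x y) := (W.nonsingular_neg x y).mpr h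
    have hneg : p • Point.some x (W.negY x y) h' = 0 := by
      have : Point.some x (W.negY x y) h' = -Point.some x y h := (Point.neg_some h).symm
      rw [this, smul_neg, htors, neg_zero]
    have hy : y ≠ W.negY x y := by
      intro hyy
      -- then `P = -P`, so `2 • P = 0`, and `p` odd gives `P = 0`
      have hPP : Point.some x y h = -Point.some x y h := by
        rw [Point.neg_some]
        congr 1
      have h2 : 2 • Point.some x y h = 0 := by
        rw [two_nsmul]
        nth_rewrite 2 [hPP]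
        exact add_neg_cancel _
      obtain ⟨m, hm⟩ : ∃ m, p = 2 * m + 1 := by
        rcases hp.eq_two_or_odd' with h | ⟨m, hm⟩
        · exact absurd h hp2
        · exact ⟨m, hm⟩
      have h1 : Point.some x y h = 0 := by
        have := htors
        rw [hm, add_smul, mul_smul, one_smul] at this
        rw [smul_comm, h2, smul_zero, zero_add] at this
        exact this
      exact Point.some_ne_zero h h1
    obtain ⟨hP, hQ⟩ := wri_dvd_of_eval h.1 h'.1 hy ((hcrit h).mp htors) ((hcrit h').mp hneg)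
    exact wri_sq_dvd_norm hP hQ

/-- **The torsion polynomial**, from the degree computation (W03) and the torsion criterion
(W05) as hypotheses. -/
theorem wri_torsion_poly_of [CharZero K] [IsAlgClosed K] [DecidableEq K] [W.IsElliptic]
    (hW : WriCurve W (Int.castRingHom K)) {p : ℕ} (hp : p.Prime) (hp2 : p ≠ 2)
    (hfil : wron W p ∈ wrFil W (p ^ 2 - 1))
    (htop : wrTop W (p ^ 2 - 1) (wron W p) = ((wriV p : ℤ) : K))
    (hcrit : ∀ {a b : K} (h : W.Nonsingular a b),
      p • Point.some a b h = 0 ↔ wrEval h.1 (wron W p) = 0) :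
    ∃ (N : ℤ[X]) (u : ℤ), ¬ (p : ℤ) ∣ u ∧ N.leadingCoeff = (p : ℤ) ^ 2 * u ∧
      (∀ r : K, (N.map (Int.castRingHom K)).IsRoot r →
        ∃ (y : K) (h : W.Nonsingular r y), p • Point.some r y h = 0) ∧
      (∀ (x y : K) (h : W.Nonsingular x y), p • Point.some x y h = 0 →
        (X - C x) ^ 2 ∣ N.map (Int.castRingHom K)) := by
  obtain ⟨N, u, h1, h2, h3, h4, -, -⟩ := wri_torsion_poly_deg_of hW hp hp2 hfil htop hcrit
  exact ⟨N, u, h1, h2, h3, h4⟩

end EvalAndRoots

end Fermat.Agent.S13x
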