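/-
S13 leaf A_N: the torsion polynomial of the Frey curve, from the generic Wronskian theorem
`wri_torsion_poly_deg_of` (`WronInt.lean`).  The two generic inputs that are still being landed
(the top coefficient of the Wronskian, W03, and the torsion criterion, W05) are hypotheses here;
the final statement is a one-line application.
-/
import Fermat.Agent.S13x.WronInt
import Fermat.Agent.S13x.FreyInt

set_option autoImplicit false

open Polynomial WeierstrassCurve WeierstrassCurve.Affine WeierstrassCurve.Affine.Point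

namespace Fermat.Agent.S13x

/-- discriminant of the Frey curve -/
theorem ftp_freyCurve_Δ (P : FreyPackage) :
    P.freyCurve.Δ = ((P.a : ℚ) ^ P.p * (P.b : ℚ) ^ P.p * (P.c : ℚ) ^ P.p) ^ 2 / 256 := by
  have hc : (P.c : ℚ) ^ P.p = (P.a : ℚ) ^ P.p + (P.b : ℚ) ^ P.p := by
    exact_mod_cast P.hFLT.symm
  simp only [WeierstrassCurve.Δ, WeierstrassCurve.b₂, WeierstrassCurve.b₄, WeierstrassCurve.b₆,
    WeierstrassCurve.b₈, FreyPackage.freyCurve]
  rw [hc]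
  ring

theorem ftp_freyCurve_Δ_ne_zero (P : FreyPackage) : P.freyCurve.Δ ≠ 0 := by
  rw [ftp_freyCurve_Δ]
  have ha : (P.a : ℚ) ≠ 0 := by exact_mod_cast P.ha0
  have hb : (P.b : ℚ) ≠ 0 := by exact_mod_cast P.hb0
  have hc : (P.c : ℚ) ≠ 0 := by exact_mod_cast P.hc0
  positivity

theorem ftp_isElliptic (P : FreyPackage) : P.freyCurve.IsElliptic :=
  ⟨isUnit_iff_ne_zero.mpr (ftp_freyCurve_Δ_ne_zero P)⟩

theorem ftp_isElliptic_Qb (P : FreyPackage) : (P.freyCurve⁄Qb).IsElliptic := by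
  have := ftp_isElliptic P
  change (P.freyCurve.map (algebraMap ℚ Qb)).IsElliptic
  infer_instance

/-- the Frey curve over `Qb` has integer coefficients -/
theorem ftp_wriCurve (P : FreyPackage) : WriCurve (P.freyCurve⁄Qb) (Int.castRingHom Qb) where
  a₁ := ⟨1, by rw [fi_a₁]; simp⟩
  a₂ := ⟨fiA₂ P, by rw [fi_a₂]; simp⟩
  a₃ := ⟨0, by rw [fi_a₃]; simp⟩
  a₄ := ⟨fiA₄ P, by rw [fi_a₄]; simp⟩
  a₆ := ⟨0, by rw [fi_a₆]; simp⟩

/-- the cast of `wriV n` -/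
theorem ftp_cast_wriV {K : Type*} [Field K] (n : ℕ) :
    ((wriV n : ℤ) : K) =
      ∏ i : Fin n, ∏ j ∈ Finset.Ioi i, (((wrIdx j : ℕ) : K) - ((wrIdx i : ℕ) : K)) := by
  unfold wriV
  push_cast
  rfl

/-- **A_N with degree**, the two generic Wronskian inputs as hypotheses. -/
theorem ftp_exists_torsion_poly_deg_of (P : FreyPackage)
    (hfil : wron (P.freyCurve⁄Qb) P.p ∈ wrFil (P.freyCurve⁄Qb) (P.p ^ 2 - 1))
    (htop : wrTop (P.freyCurve⁄Qb) (P.p ^ 2 - 1) (wron (P.freyCurve⁄Qb) P.p) =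
      ∏ i : Fin P.p, ∏ j ∈ Finset.Ioi i, (((wrIdx j : ℕ) : Qb) - ((wrIdx i : ℕ) : Qb)))
    (hcrit : ∀ {a b : Qb} (h : (P.freyCurve⁄Qb).Nonsingular a b),
      P.p • (Point.some a b h : FreyPt P) = 0 ↔ wrEval h.1 (wron (P.freyCurve⁄Qb) P.p) = 0) :
    ∃ (N : Polynomial ℤ) (u : ℤ), ¬ (P.p : ℤ) ∣ u ∧ N.leadingCoeff = (P.p : ℤ) ^ 2 * u ∧
      (∀ r : Qb, (N.map (algebraMap ℤ Qb)).IsRoot r →
        ∃ (y : Qb) (h : (P.freyCurve⁄Qb).Nonsingular r y),
          P.p • (Point.some r y h : FreyPt P) = 0) ∧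
      (∀ (x y : Qb) (h : (P.freyCurve⁄Qb).Nonsingular x y),
        P.p • (Point.some x y h : FreyPt P) = 0 →
          (Polynomial.X - Polynomial.C x) ^ 2 ∣ N.map (algebraMap ℤ Qb)) ∧
      N.natDegree = P.p ^ 2 - 1 := by
  have := ftp_isElliptic_Qb P
  have hp2 : P.p ≠ 2 := by have := P.hp5; omega
  obtain ⟨N, u, h1, h2, h3, h4, h5, -⟩ :=
    wri_torsion_poly_deg_of (ftp_wriCurve P) P.pp hp2 hfil (by rw [htop, ftp_cast_wriV]) hcrit
  exact ⟨N, u, h1, h2, h3, h4, h5⟩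

/-- **A_N**, the two generic Wronskian inputs as hypotheses: verbatim the body of
`exists_torsion_poly`. -/
theorem ftp_exists_torsion_poly_of (P : FreyPackage)
    (hfil : wron (P.freyCurve⁄Qb) P.p ∈ wrFil (P.freyCurve⁄Qb) (P.p ^ 2 - 1))
    (htop : wrTop (P.freyCurve⁄Qb) (P.p ^ 2 - 1) (wron (P.freyCurve⁄Qb) P.p) =
      ∏ i : Fin P.p, ∏ j ∈ Finset.Ioi i, (((wrIdx j : ℕ) : Qb) - ((wrIdx i : ℕ) : Qb)))
    (hcrit : ∀ {a b : Qb} (h : (P.freyCurve⁄Qb).Nonsingular a b),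
      P.p • (Point.some a b h : FreyPt P) = 0 ↔ wrEval h.1 (wron (P.freyCurve⁄Qb) P.p) = 0) :
    ∃ (N : Polynomial ℤ) (u : ℤ), ¬ (P.p : ℤ) ∣ u ∧ N.leadingCoeff = (P.p : ℤ) ^ 2 * u ∧
      (∀ r : Qb, (N.map (algebraMap ℤ Qb)).IsRoot r →
        ∃ (y : Qb) (h : (P.freyCurve⁄Qb).Nonsingular r y),
          P.p • (Point.some r y h : FreyPt P) = 0) ∧
      (∀ (x y : Qb) (h : (P.freyCurve⁄Qb).Nonsingular x y),
        P.p • (Point.some x y h : FreyPt P) = 0 →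
          (Polynomial.X - Polynomial.C x) ^ 2 ∣ N.map (algebraMap ℤ Qb)) := by
  obtain ⟨N, u, h1, h2, h3, h4, -⟩ := ftp_exists_torsion_poly_deg_of P hfil htop hcrit
  exact ⟨N, u, h1, h2, h3, h4⟩

end Fermat.Agent.S13x
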