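import Mathlib
import Fermat.Prelude.Def_FLTPrelim_FreyPackage
import Fermat.Prelude.Def_FLTPrelim_GaloisRep
import Fermat.Prelude.Def_FLTPrelim_Ramification
import Fermat.Prelude.Def_FLTPrelim_CofixedLine

/-!
# S13 project: shared definitions (real file, no sorry; every S13x module may import it)

`Qb` is the fixed algebraic closure of `ℚ`, `FreyPt P` the group of `Qb`-points of the Frey curve,
`FreyV P` its `p`-torsion (a `ZMod p`-module with an action of `Qb ≃ₐ[ℚ] Qb`, both from the
Prelude).  `InE1 A Q` says that the point `Q` lies in the kernel of reduction with respect to the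
valuation subring `A` (it is the origin, or its `x`-coordinate is not in `A`).
-/

set_option autoImplicit false
open WeierstrassCurve WeierstrassCurve.Affine WeierstrassCurve.Affine.Point

namespace Fermat.Agent.S13x

/-- the fixed algebraic closure of `ℚ` -/
abbrev Qb := AlgebraicClosure ℚ

/-- the absolute Galois group of `ℚ` -/
abbrev GQ := Qb ≃ₐ[ℚ] Qb

/-- `Qb`-points of the Frey curve -/
noncomputable abbrev FreyPt (P : FreyPackage) := (P.freyCurve⁄Qb).Point

/-- the `p`-torsion of the Frey curve over `Qb` -/
noncomputable abbrev FreyV (P : FreyPackage) := Submodule.torsionBy ℤ (FreyPt P) P.p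

/-- kernel of reduction with respect to `A`: the origin, or a point whose `x` is not in `A` -/
def InE1 {F : Type*} [Field F] {W : WeierstrassCurve F} (A : ValuationSubring F) :
    W.toAffine.Point → Prop
  | .zero => True
  | .some x _ _ => x ∉ A

@[simp] theorem inE1_zero {F : Type*} [Field F] {W : WeierstrassCurve F} (A : ValuationSubring F) :
    InE1 A (0 : W.toAffine.Point) := trivial

@[simp] theorem inE1_some {F : Type*} [Field F] {W : WeierstrassCurve F} (A : ValuationSubring F)
    {x y : F} (h : W.toAffine.Nonsingular x y) :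
    InE1 A (Point.some x y h) ↔ x ∉ A := Iff.rfl

/-- pointwise stabiliser of a submodule `N` of the `p`-torsion -/
noncomputable def fixN (P : FreyPackage) (N : Submodule (ZMod P.p) (FreyV P)) : Subgroup GQ where
  carrier := {σ | ∀ x ∈ N, σ • x = x}
  one_mem' := fun x _ => one_smul _ x
  mul_mem' := fun {σ τ} hσ hτ x hx => by rw [mul_smul, hτ x hx, hσ x hx]
  inv_mem' := fun {σ} hσ x hx => by
    have h := hσ x hx
    calc σ⁻¹ • x = σ⁻¹ • (σ • x) := by rw [h]
      _ = x := by rw [← mul_smul, inv_mul_cancel, one_smul]

/-- elements acting trivially on the quotient by `N` -/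
noncomputable def cofixN (P : FreyPackage) (N : Submodule (ZMod P.p) (FreyV P))
    (hN : IsGaloisStable ℚ N) : Subgroup GQ where
  carrier := {σ | ∀ x : FreyV P, σ • x - x ∈ N}
  one_mem' := fun x => by simp
  mul_mem' := fun {σ τ} hσ hτ x => by
    have h1 : (σ * τ) • x - x = σ • (τ • x - x) + (σ • x - x) := by
      rw [mul_smul, smul_sub]; abel
    rw [h1]
    exact N.add_mem (hN σ _ (hτ x)) (hσ x)
  inv_mem' := fun {σ} hσ x => by
    have h1 : σ⁻¹ • x - x = -(σ⁻¹ • (σ • x - x)) := by
      rw [smul_sub, ← mul_smul, inv_mul_cancel, one_smul]; abel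
    rw [h1]
    exact N.neg_mem (hN σ⁻¹ _ (hσ x))

end Fermat.Agent.S13x
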