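import Fermat.Agent.S13x.Defs

/-!
# S13 project, row G4: Galois-fixed elements of `Qb` are rational
-/

set_option autoImplicit false

namespace Fermat.Agent.S13x

/-- `Qb` is an algebraic closure of `ℚ` for the `ℚ`-algebra structure used by the Prelude. -/
theorem fr_isAlgClosure_Qb : IsAlgClosure ℚ Qb := by
  have h : (DivisionRing.toRatAlgebra : Algebra ℚ Qb) = AlgebraicClosure.instAlgebra ℚ :=
    Subsingleton.elim _ _
  rw [h]
  infer_instance

/-- `Qb / ℚ` is Galois for the `ℚ`-algebra structure used by the Prelude. -/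
theorem fr_isGalois_Qb : IsGalois ℚ Qb :=
  haveI := fr_isAlgClosure_Qb
  IsAlgClosure.isGalois ℚ _

/-- (G4) Galois-fixed elements are rational -/
theorem fixed_mem_range (z : Qb) (hz : ∀ σ : GQ, σ z = z) : z ∈ (algebraMap ℚ Qb).range := by
  have := fr_isGalois_Qb
  exact (InfiniteGalois.mem_range_algebraMap_iff_fixed (k := ℚ) (K := Qb) z).mpr hz

end Fermat.Agent.S13x
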