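/-
S13 project, leaf (c-ss), part 1: the abstract valuation lemma behind the supersingular exclusion.
Mathlib only.  Namespace `Fermat.Agent.S13x`, prefix `ssx_`.
-/
import Mathlib

set_option autoImplicit false

namespace Fermat.Agent.S13x

open Polynomial

section Monoid

variable {Γ : Type*} [LinearOrderedCommGroupWithZero Γ]

/-- the product of a multiset of elements `> 1` is `≥ 1`. -/
theorem ssx_one_le_prod (m : Multiset Γ) (h : ∀ a ∈ m, 1 < a) : 1 ≤ m.prod := by
  induction m using Multiset.induction_on with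
  | empty => simp
  | cons a m ih =>
    rw [Multiset.prod_cons]
    have h1 : 1 < a := h a (Multiset.mem_cons_self a m)
    have h2 : 1 ≤ m.prod := ih fun b hb => h b (Multiset.mem_cons_of_mem hb)
    calc (1 : Γ) = 1 * 1 := (one_mul 1).symm
      _ ≤ a * m.prod := mul_le_mul' h1.le h2

/-- the product of a nonempty multiset of elements `> 1` is `> 1`. -/
theorem ssx_one_lt_prod (m : Multiset Γ) (h : ∀ a ∈ m, 1 < a) (hne : m ≠ 0) : 1 < m.prod := by
  obtain ⟨a, ha⟩ := Multiset.exists_mem_of_ne_zero hne
  obtain ⟨m', rfl⟩ := Multiset.exists_cons_of_mem ha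
  rw [Multiset.prod_cons]
  have h1 : 1 < a := h a (Multiset.mem_cons_self a m')
  have h2 : 1 ≤ m'.prod := ssx_one_le_prod m' fun b hb => h b (Multiset.mem_cons_of_mem hb)
  calc (1 : Γ) < a := h1
    _ = a * 1 := (mul_one a).symm
    _ ≤ a * m'.prod := mul_le_mul' le_rfl h2

end Monoid

variable {K : Type*} [Field K]

/-- **Abstract supersingular exclusion.**  Let `N` be a split polynomial with `A`-integral
coefficients whose leading coefficient has valuation `≥ π²` (`π < 1` the valuation of `p`), all of
whose roots have valuation `> 1`.  Then there is no nonempty finite set `s` of roots of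
multiplicity `≥ 2`, with `2 #s < deg N`, whose product has valuation in `π ^ ℤ`. -/
theorem ssx_core (A : ValuationSubring K) (N : K[X]) (hsplit : N.Splits)
    (hint : A.valuation (N.coeff 0) ≤ 1)
    (π : A.ValueGroup) (hπ : π < 1) (hπ0 : π ≠ 0)
    (hlead : π ^ 2 ≤ A.valuation N.leadingCoeff)
    (hroots : ∀ ρ, N.IsRoot ρ → 1 < A.valuation ρ)
    (s : Finset K) (hsne : s.Nonempty) (hs : ∀ x ∈ s, 2 ≤ N.rootMultiplicity x)
    (m : ℤ) (hm : A.valuation (∏ x ∈ s, x) = π ^ m)
    (hcard : 2 * s.card < N.natDegree) : False := by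
  classical
  have hN0 : N ≠ 0 := by
    rintro rfl
    simp at hcard
  -- the multiset of roots contains `2 • s`
  have hle : 2 • s.val ≤ N.roots := by
    rw [Multiset.le_iff_count]
    intro a
    rw [Multiset.count_nsmul, Polynomial.count_roots]
    by_cases ha : a ∈ s
    · have h1 : Multiset.count a s.val = 1 := Multiset.count_eq_one_of_mem s.nodup ha
      rw [h1]
      exact hs a ha
    · have h1 : Multiset.count a s.val = 0 := Multiset.count_eq_zero_of_notMem ha
      rw [h1]
      exact Nat.zero_le _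
  obtain ⟨rest, hrest⟩ : ∃ rest, N.roots = 2 • s.val + rest :=
    ⟨N.roots - 2 • s.val, (add_tsub_cancel_of_le hle).symm⟩
  have hcardroots : N.roots.card = N.natDegree := hsplit.natDegree_eq_card_roots.symm
  have hrestne : rest ≠ 0 := by
    rintro rfl
    rw [add_zero] at hrest
    rw [hrest, Multiset.card_nsmul] at hcardroots
    have : (s.val).card = s.card := rfl
    omega
  have hrootv : ∀ ρ ∈ N.roots, 1 < A.valuation ρ := fun ρ hρ =>
    hroots ρ ((Polynomial.mem_roots hN0).mp hρ)
  -- valuation of the constant term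
  have hc0 : N.coeff 0 = (-1) ^ N.natDegree * N.leadingCoeff * N.roots.prod :=
    hsplit.coeff_zero_eq_leadingCoeff_mul_prod_roots
  have hv0 : A.valuation (N.coeff 0) =
      A.valuation N.leadingCoeff * (N.roots.map A.valuation).prod := by
    have hneg : A.valuation ((-1 : K) ^ N.natDegree) = 1 := by
      rw [map_pow, Valuation.map_neg, map_one, one_pow]
    rw [hc0, map_mul, map_mul, hneg, one_mul]
    congr 1
    exact map_multiset_prod A.valuation N.roots
  have hprod : (N.roots.map A.valuation).prod =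
      (π ^ m) ^ 2 * (rest.map A.valuation).prod := by
    rw [hrest, Multiset.map_add, Multiset.prod_add, Multiset.map_nsmul, Multiset.prod_nsmul]
    congr 2
    rw [← hm, map_prod]
    rfl
  have hrestgt : 1 < (rest.map A.valuation).prod := by
    apply ssx_one_lt_prod
    · intro a ha
      obtain ⟨ρ, hρ, rfl⟩ := Multiset.mem_map.mp ha
      apply hrootv
      rw [hrest]
      exact Multiset.mem_add.mpr (Or.inr hρ)
    · intro h
      exact hrestne (Multiset.map_eq_zero.mp h)
  -- `π ^ m > 1`, hence `m ≤ -1`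
  have hπpos : 0 < π := zero_lt_iff.mpr hπ0
  have hsv : 1 < π ^ m := by
    rw [← hm, map_prod]
    have : ∏ x ∈ s, A.valuation x = (s.val.map A.valuation).prod := rfl
    rw [this]
    apply ssx_one_lt_prod
    · intro a ha
      obtain ⟨ρ, hρ, rfl⟩ := Multiset.mem_map.mp ha
      apply hrootv
      rw [hrest]
      refine Multiset.mem_add.mpr (Or.inl ?_)
      rw [Multiset.mem_nsmul]
      exact ⟨by norm_num, hρ⟩
    · intro h
      have := Multiset.map_eq_zero.mp h
      exact hsne.ne_empty (Finset.val_eq_zero.mp this)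
  have hm1 : m ≤ -1 := by
    by_contra hcon
    have hm0 : 0 ≤ m := by omega
    obtain ⟨k, rfl⟩ := Int.eq_ofNat_of_zero_le hm0
    rw [zpow_natCast] at hsv
    exact absurd hsv (not_lt.mpr (pow_le_one₀ hπpos.le hπ.le))
  -- `(π ^ m) ^ 2 ≥ π ^ (-2)`
  have hge : π⁻¹ ^ 2 ≤ (π ^ m) ^ 2 := by
    have h1 : π⁻¹ ≤ π ^ m := by
      have : π ^ (-1 : ℤ) ≤ π ^ m := zpow_le_zpow_right_of_le_one₀ hπpos hπ.le hm1
      simpa using this
    exact pow_le_pow_left₀ (inv_nonneg.mpr hπpos.le) h1 2
  -- assemble
  have hfinal : 1 < A.valuation (N.coeff 0) := by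
    rw [hv0, hprod]
    calc (1 : A.ValueGroup) = π ^ 2 * π⁻¹ ^ 2 := by
          rw [← mul_pow, mul_inv_cancel₀ hπ0, one_pow]
      _ ≤ A.valuation N.leadingCoeff * (π ^ m) ^ 2 := mul_le_mul' hlead hge
      _ = A.valuation N.leadingCoeff * (π ^ m) ^ 2 * 1 := (mul_one _).symm
      _ < A.valuation N.leadingCoeff * (π ^ m) ^ 2 * (rest.map A.valuation).prod := by
          apply mul_lt_mul_of_pos_left hrestgt
          apply mul_pos
          · exact lt_of_lt_of_le (pow_pos hπpos 2) hlead
          · exact pow_pos (zpow_pos hπpos m) 2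
      _ = A.valuation N.leadingCoeff * ((π ^ m) ^ 2 * (rest.map A.valuation).prod) :=
          mul_assoc _ _ _
  exact absurd hint (not_le.mpr hfinal)

end Fermat.Agent.S13x
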