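/-
S13 project, leaf (c-ss), part 2: valuations of rational numbers and of Galois-stable products.
Namespace `Fermat.Agent.S13x`, prefix `ssx_`.
-/
import Mathlib
import Fermat.Agent.S05x.Inertia

set_option autoImplicit false

namespace Fermat.Agent.S13x

open ValuationSubring

variable {L : Type*} [Field L]

/-- a nonzero integer has valuation `v(q) ^ k` for some `k : ℕ`. -/
theorem ssx_val_int (A : ValuationSubring L) {q : ℕ} (hq : q.Prime) (hA : A.LiesOverPrime q)
    (z : ℤ) (hz : z ≠ 0) : ∃ k : ℕ, A.valuation (z : L) = A.valuation (q : L) ^ k := by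
  induction' hn : z.natAbs using Nat.strong_induction_on with n ih generalizing z
  by_cases hdvd : (q : ℤ) ∣ z
  · obtain ⟨z', rfl⟩ := hdvd
    have hz' : z' ≠ 0 := by
      rintro rfl
      simp at hz
    have hq0 : (q : ℤ) ≠ 0 := by exact_mod_cast hq.ne_zero
    have hlt : z'.natAbs < n := by
      rw [← hn, Int.natAbs_mul, Int.natAbs_natCast]
      have h1 : 0 < z'.natAbs := Int.natAbs_pos.mpr hz'
      have h2 : 2 ≤ q := hq.two_le
      nlinarith
    obtain ⟨k, hk⟩ := ih z'.natAbs hlt z' hz' rfl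
    refine ⟨k + 1, ?_⟩
    push_cast
    rw [map_mul, hk, pow_succ, mul_comm]
  · exact ⟨0, by rw [pow_zero]; exact (S05x.m0_val_int_eq_one_iff_gen A hq hA z).mpr hdvd⟩

/-- a nonzero rational number has valuation `v(q) ^ m` for some `m : ℤ`. -/
theorem ssx_val_rat [CharZero L] (A : ValuationSubring L) {q : ℕ} (hq : q.Prime)
    (hA : A.LiesOverPrime q) (r : ℚ) (hr : r ≠ 0) :
    ∃ m : ℤ, A.valuation ((r : ℚ) : L) = A.valuation (q : L) ^ m := by
  have hnum : r.num ≠ 0 := Rat.num_ne_zero.mpr hr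
  have hden : (r.den : ℤ) ≠ 0 := by exact_mod_cast r.den_nz
  obtain ⟨k1, hk1⟩ := ssx_val_int A hq hA r.num hnum
  obtain ⟨k2, hk2⟩ := ssx_val_int A hq hA (r.den : ℤ) hden
  refine ⟨(k1 : ℤ) - k2, ?_⟩
  have hcast : ((r : ℚ) : L) = (r.num : L) / ((r.den : ℤ) : L) := by
    have := Rat.cast_def (K := L) r
    rw [this]
    push_cast
    rfl
  have hqv : A.valuation (q : L) ≠ 0 := by
    rw [ne_eq, map_eq_zero]
    exact_mod_cast hq.ne_zero
  rw [hcast, map_div₀, hk1, hk2, zpow_sub₀ hqv, zpow_natCast, zpow_natCast]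

/-- the same for elements in the range of `algebraMap ℚ L`. -/
theorem ssx_val_algebraMap_rat [Algebra ℚ L] (A : ValuationSubring L) {q : ℕ} (hq : q.Prime)
    (hA : A.LiesOverPrime q) {x : L} (hx : x ∈ Set.range (algebraMap ℚ L)) (hx0 : x ≠ 0) :
    ∃ m : ℤ, A.valuation x = A.valuation (q : L) ^ m := by
  have hcz : CharZero L := charZero_of_injective_algebraMap (algebraMap ℚ L).injective
  obtain ⟨r, rfl⟩ := hx
  have hr : r ≠ 0 := by
    rintro rfl
    simp at hx0
  obtain ⟨m, hm⟩ := ssx_val_rat A hq hA r hr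
  refine ⟨m, ?_⟩
  rw [← hm]
  congr 1
  exact (eq_ratCast (algebraMap ℚ L) r)

/-- the product of a Galois-stable finite set is rational. -/
theorem ssx_prod_mem_range {K : Type*} [Field K] [Algebra ℚ K] [IsGalois ℚ K] [DecidableEq K]
    (s : Finset K) (hs : ∀ σ : K ≃ₐ[ℚ] K, ∀ x ∈ s, σ x ∈ s) :
    ∏ x ∈ s, x ∈ Set.range (algebraMap ℚ K) := by
  rw [InfiniteGalois.mem_range_algebraMap_iff_fixed]
  intro σ
  rw [map_prod]
  have himg : s.image σ = s := by
    apply Finset.eq_of_subset_of_card_le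
    · intro y hy
      obtain ⟨x, hx, rfl⟩ := Finset.mem_image.mp hy
      exact hs σ x hx
    · rw [Finset.card_image_of_injective _ σ.injective]
  have h1 : ∏ y ∈ s.image σ, y = ∏ x ∈ s, σ x :=
    Finset.prod_image (s := s) (g := fun x => σ x) (f := fun y => y)
      (fun a _ b _ h => σ.injective h)
  rw [← h1, himg]

/-- valuation of the product of a Galois-stable finite set of nonzero elements. -/
theorem ssx_val_prod_stable {K : Type*} [Field K] [Algebra ℚ K] [IsGalois ℚ K] [DecidableEq K]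
    (A : ValuationSubring K) {q : ℕ} (hq : q.Prime) (hA : A.LiesOverPrime q)
    (s : Finset K) (hs : ∀ σ : K ≃ₐ[ℚ] K, ∀ x ∈ s, σ x ∈ s) (h0 : ∀ x ∈ s, x ≠ 0) :
    ∃ m : ℤ, A.valuation (∏ x ∈ s, x) = A.valuation (q : K) ^ m :=
  ssx_val_algebraMap_rat A hq hA (ssx_prod_mem_range s hs) (Finset.prod_ne_zero_iff.mpr h0)

end Fermat.Agent.S13x
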