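/-
S13 project, leaf (c-ss), part 3: the `x`-coordinates of a Galois-stable submodule of `E[n]`.
Namespace `Fermat.Agent.S13x`, prefix `ssx_`.
-/
import Mathlib
import Fermat.Prelude.Def_FLTPrelim_GaloisRep
import Fermat.Agent.S13x.SSRat

set_option autoImplicit false

namespace Fermat.Agent.S13x

open WeierstrassCurve WeierstrassCurve.Affine WeierstrassCurve.Affine.Point

variable {K : Type*} [Field K] [DecidableEq K] [Algebra ℚ K]

/-- the `x`-coordinate of a point (`0` for the point at infinity). -/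
def ssxX {W : Affine K} : W.Point → K
  | .zero => 0
  | .some x _ _ => x

@[simp] theorem ssxX_some {W : Affine K} {x y : K} (h : W.Nonsingular x y) :
    ssxX (Point.some x y h) = x := rfl

theorem ssx_exists_some {W : Affine K} {P : W.Point} (hP : P ≠ 0) :
    ∃ (x y : K) (h : W.Nonsingular x y), P = Point.some x y h := by
  cases P with
  | zero => exact absurd rfl hP
  | some x y h => exact ⟨x, y, h, rfl⟩

variable {W' : Affine ℚ} {n : ℕ}

/-- Galois action on the `x`-coordinate. -/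
theorem ssxX_smul (σ : K ≃ₐ[ℚ] K) (P : (W'⁄K).Point) (hP : P ≠ 0) :
    ssxX (σ • P) = σ (ssxX P) := by
  obtain ⟨x, y, h, rfl⟩ := ssx_exists_some hP
  rfl

theorem ssx_smul_ne_zero (σ : K ≃ₐ[ℚ] K) (P : (W'⁄K).Point) (hP : P ≠ 0) : σ • P ≠ 0 := by
  obtain ⟨x, y, h, rfl⟩ := ssx_exists_some hP
  intro h0
  cases h0

/-- the set of `x`-coordinates of the nonzero points of a submodule of `E[n]`. -/
def ssxSet (N : Submodule (ZMod n) (Submodule.torsionBy ℤ (W'⁄K).Point n)) : Set K :=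
  (fun P : Submodule.torsionBy ℤ (W'⁄K).Point n => ssxX (P : (W'⁄K).Point)) ''
    {P | P ∈ N ∧ P ≠ 0}

theorem ssxSet_finite (N : Submodule (ZMod n) (Submodule.torsionBy ℤ (W'⁄K).Point n))
    (hfin : (N : Set (Submodule.torsionBy ℤ (W'⁄K).Point n)).Finite) : (ssxSet N).Finite :=
  (hfin.subset fun _ hP => hP.1).image _

theorem mem_ssxSet_iff (N : Submodule (ZMod n) (Submodule.torsionBy ℤ (W'⁄K).Point n)) (x : K) :
    x ∈ ssxSet N ↔ ∃ (y : K) (h : (W'⁄K).Nonsingular x y)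
      (ht : Point.some x y h ∈ Submodule.torsionBy ℤ (W'⁄K).Point n),
      (⟨Point.some x y h, ht⟩ : Submodule.torsionBy ℤ (W'⁄K).Point n) ∈ N := by
  constructor
  · rintro ⟨⟨P, hPt⟩, ⟨hPN, hP0⟩, rfl⟩
    have hP0' : P ≠ 0 := fun h => hP0 (Subtype.ext h)
    obtain ⟨x, y, h, rfl⟩ := ssx_exists_some hP0'
    exact ⟨y, h, hPt, hPN⟩
  · rintro ⟨y, h, ht, hN⟩
    refine ⟨⟨Point.some x y h, ht⟩, ⟨hN, ?_⟩, rfl⟩
    intro h0
    have := congrArg Subtype.val h0
    cases this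

/-- Galois stability of the set of `x`-coordinates. -/
theorem ssxSet_stable (N : Submodule (ZMod n) (Submodule.torsionBy ℤ (W'⁄K).Point n))
    (hN : IsGaloisStable ℚ N) (σ : K ≃ₐ[ℚ] K) {x : K} (hx : x ∈ ssxSet N) : σ x ∈ ssxSet N := by
  obtain ⟨P, ⟨hPN, hP0⟩, rfl⟩ := hx
  have hP0' : (P : (W'⁄K).Point) ≠ 0 := fun h => hP0 (Subtype.ext h)
  refine ⟨σ • P, ⟨hN σ P hPN, ?_⟩, ?_⟩
  · intro h0
    have := congrArg Subtype.val h0
    exact ssx_smul_ne_zero σ (P : (W'⁄K).Point) hP0' this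
  · exact ssxX_smul σ (P : (W'⁄K).Point) hP0'

theorem ssxSet_nonempty (N : Submodule (ZMod n) (Submodule.torsionBy ℤ (W'⁄K).Point n))
    (hN : N ≠ ⊥) : (ssxSet N).Nonempty := by
  obtain ⟨P, hPN, hP0⟩ := (Submodule.ne_bot_iff N).mp hN
  exact ⟨_, P, ⟨hPN, hP0⟩, rfl⟩

/-- cardinality bound. -/
theorem ssxSet_ncard_lt (N : Submodule (ZMod n) (Submodule.torsionBy ℤ (W'⁄K).Point n))
    (hfin : (N : Set (Submodule.torsionBy ℤ (W'⁄K).Point n)).Finite) :
    (ssxSet N).ncard < (N : Set (Submodule.torsionBy ℤ (W'⁄K).Point n)).ncard := by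
  have h1 : (ssxSet N).ncard ≤ ({P | P ∈ N ∧ P ≠ 0} :
      Set (Submodule.torsionBy ℤ (W'⁄K).Point n)).ncard :=
    Set.ncard_image_le (hfin.subset fun _ hP => hP.1)
  have h2 : ({P | P ∈ N ∧ P ≠ 0} : Set (Submodule.torsionBy ℤ (W'⁄K).Point n)).ncard <
      (N : Set (Submodule.torsionBy ℤ (W'⁄K).Point n)).ncard := by
    apply Set.ncard_lt_ncard _ hfin
    refine ⟨fun _ hP => hP.1, fun hsub => ?_⟩
    exact (hsub (show (0 : Submodule.torsionBy ℤ (W'⁄K).Point n) ∈ (N : Set _) from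
      N.zero_mem)).2 rfl
  omega

end Fermat.Agent.S13x
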