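/-
S13 project, leaf (c-ss): supersingular exclusion from a "division polynomial" `Nm`.

Given a polynomial `Nm` over `K = Qbar` (in the application: the norm of the Wronskian `W_p`) with
`A`-integral constant term, degree `p² - 1`, leading coefficient of valuation `≥ v(p)²`, whose roots
are `x`-coordinates of nonzero `p`-torsion points, each `p`-torsion point giving a root of
multiplicity `≥ 2`: if `E[p]` contains a nonzero Galois-stable submodule with at most `p` elements,
then NOT all nonzero `p`-torsion points lie in the kernel of reduction (`v(x) > 1`).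

Namespace `Fermat.Agent.S13x`, prefix `ssx_`.
-/
import Mathlib
import Fermat.Agent.S13x.SSCore
import Fermat.Agent.S13x.SSLine

set_option autoImplicit false

namespace Fermat.Agent.S13x

open Polynomial WeierstrassCurve WeierstrassCurve.Affine WeierstrassCurve.Affine.Point

variable {K : Type*} [Field K] [DecidableEq K] [Algebra ℚ K] [IsGalois ℚ K] [IsAlgClosed K]

/-- **Supersingular exclusion.** -/
theorem ssx_exists_integral_torsion (A : ValuationSubring K) {p : ℕ} (hp : p.Prime)
    (hA : A.LiesOverPrime p) {W' : Affine ℚ}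
    (Nm : K[X]) (hdeg : Nm.natDegree = p ^ 2 - 1)
    (hint : A.valuation (Nm.coeff 0) ≤ 1)
    (hlead : A.valuation (p : K) ^ 2 ≤ A.valuation Nm.leadingCoeff)
    (hroot : ∀ ρ, Nm.IsRoot ρ → ∃ (y : K) (h : (W'⁄K).Nonsingular ρ y),
      Point.some ρ y h ∈ Submodule.torsionBy ℤ (W'⁄K).Point p)
    (hmult : ∀ (x y : K) (h : (W'⁄K).Nonsingular x y),
      Point.some x y h ∈ Submodule.torsionBy ℤ (W'⁄K).Point p → 2 ≤ Nm.rootMultiplicity x)
    (N0 : Submodule (ZMod p) (Submodule.torsionBy ℤ (W'⁄K).Point p))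
    (hN0 : IsGaloisStable ℚ N0) (hbot : N0 ≠ ⊥)
    (hfin : (N0 : Set (Submodule.torsionBy ℤ (W'⁄K).Point p)).Finite)
    (hcard : (N0 : Set (Submodule.torsionBy ℤ (W'⁄K).Point p)).ncard ≤ p) :
    ∃ (x y : K) (h : (W'⁄K).Nonsingular x y),
      Point.some x y h ∈ Submodule.torsionBy ℤ (W'⁄K).Point p ∧ A.valuation x ≤ 1 := by
  by_contra hcon
  push Not at hcon
  have hcz : CharZero K := charZero_of_injective_algebraMap (algebraMap ℚ K).injective
  have hπ : A.valuation (p : K) < 1 := A.mem_nonunits_iff.mp hA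
  have hπ0 : A.valuation (p : K) ≠ 0 := by
    rw [ne_eq, map_eq_zero]
    exact_mod_cast hp.ne_zero
  set s : Finset K := (ssxSet_finite N0 hfin).toFinset with hs
  have hmem : ∀ x, x ∈ s ↔ x ∈ ssxSet N0 := fun x => Set.Finite.mem_toFinset _
  have hsv : ∀ x ∈ s, 1 < A.valuation x := by
    intro x hx
    obtain ⟨y, h, ht, -⟩ := (mem_ssxSet_iff N0 x).mp ((hmem x).mp hx)
    exact hcon x y h ht
  have hstable : ∀ σ : K ≃ₐ[ℚ] K, ∀ x ∈ s, σ x ∈ s := fun σ x hx =>
    (hmem _).mpr (ssxSet_stable N0 hN0 σ ((hmem x).mp hx))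
  have h0 : ∀ x ∈ s, x ≠ 0 := by
    intro x hx hx0
    have := hsv x hx
    rw [hx0, _root_.map_zero] at this
    exact not_lt_zero this
  obtain ⟨m, hm⟩ := ssx_val_prod_stable A hp hA s hstable h0
  have hsne : s.Nonempty := by
    obtain ⟨x, hx⟩ := ssxSet_nonempty N0 hbot
    exact ⟨x, (hmem x).mpr hx⟩
  have hscard : s.card < (N0 : Set (Submodule.torsionBy ℤ (W'⁄K).Point p)).ncard := by
    have := ssxSet_ncard_lt N0 hfin
    rwa [Set.ncard_eq_toFinset_card _ (ssxSet_finite N0 hfin)] at this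
  refine ssx_core A Nm (IsAlgClosed.splits Nm) hint (A.valuation (p : K)) hπ hπ0 hlead ?_ s hsne ?_
    m hm ?_
  · intro ρ hρ
    obtain ⟨y, h, ht⟩ := hroot ρ hρ
    exact hcon ρ y h ht
  · intro x hx
    obtain ⟨y, h, ht, -⟩ := (mem_ssxSet_iff N0 x).mp ((hmem x).mp hx)
    exact hmult x y h ht
  · rw [hdeg]
    have h2 : 2 ≤ p := hp.two_le
    have h3 : s.card + 1 ≤ p := by omega
    have h4 : p * p = p ^ 2 := (sq p).symm
    have h5 : 2 * p ≤ p * p := Nat.mul_le_mul_right p h2
    have h6 : 2 * s.card + 2 ≤ 2 * p := by omega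
    omega

end Fermat.Agent.S13x
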