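/-
S13 project, leaf (B2) "LEMMA SS" in hypothesis form: from the torsion polynomial `A_N`
(`exists_torsion_poly`) and a Galois-stable line, not all of `E[p]` lies in the kernel of reduction.

Namespace `Fermat.Agent.S13x`, prefix `sst_`.
-/
import Mathlib
import Fermat.Agent.S13x.Defs
import Fermat.Agent.S13x.SSExclude
import Fermat.Agent.S13x.FixedRat

set_option autoImplicit false

namespace Fermat.Agent.S13x

open Polynomial WeierstrassCurve WeierstrassCurve.Affine WeierstrassCurve.Affine.Point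

section core

variable {K : Type*} [Field K]

/-- `ssx_core` with "one more root outside `s`" instead of the degree bound. -/
theorem sst_core (A : ValuationSubring K) (N : K[X]) (hsplit : N.Splits)
    (hint : A.valuation (N.coeff 0) ≤ 1)
    (π : A.ValueGroup) (hπ : π < 1) (hπ0 : π ≠ 0)
    (hlead : π ^ 2 ≤ A.valuation N.leadingCoeff)
    (hroots : ∀ ρ, N.IsRoot ρ → 1 < A.valuation ρ)
    (s : Finset K) (hsne : s.Nonempty) (hs : ∀ x ∈ s, 2 ≤ N.rootMultiplicity x)
    (m : ℤ) (hm : A.valuation (∏ x ∈ s, x) = π ^ m)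
    (hN0 : N ≠ 0) (ρ : K) (hρ : N.IsRoot ρ) (hρs : ρ ∉ s) : False := by
  classical
  refine ssx_core A N hsplit hint π hπ hπ0 hlead hroots s hsne hs m hm ?_
  have hle : 2 • s.val + {ρ} ≤ N.roots := by
    rw [Multiset.le_iff_count]
    intro a
    rw [Multiset.count_add, Multiset.count_nsmul, Polynomial.count_roots]
    by_cases ha : a ∈ s
    · have h1 : Multiset.count a s.val = 1 := Multiset.count_eq_one_of_mem s.nodup ha
      have h2 : Multiset.count a ({ρ} : Multiset K) = 0 := by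
        rw [Multiset.count_singleton, if_neg]
        rintro rfl
        exact hρs ha
      rw [h1, h2]
      exact hs a ha
    · have h1 : Multiset.count a s.val = 0 := Multiset.count_eq_zero_of_notMem ha
      rw [h1]
      by_cases haρ : a = ρ
      · subst haρ
        rw [Multiset.count_singleton_self]
        have := (Polynomial.rootMultiplicity_pos hN0).mpr hρ
        omega
      · rw [Multiset.count_singleton, if_neg haρ]
        omega
  have hcard := Multiset.card_le_card hle
  rw [Multiset.card_add, Multiset.card_nsmul, Multiset.card_singleton,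
    ← hsplit.natDegree_eq_card_roots] at hcard
  have : (s.val).card = s.card := rfl
  omega

end core

section general

variable {K : Type*} [Field K] [DecidableEq K] [Algebra ℚ K] [IsGalois ℚ K] [IsAlgClosed K]

omit [DecidableEq K] [Algebra ℚ K] [IsGalois ℚ K] [IsAlgClosed K] in
/-- two points with the same `x`-coordinate are equal or opposite. -/
theorem sst_eq_or_eq_neg {W : Affine K} {x y y' : K} (h : W.Nonsingular x y)
    (h' : W.Nonsingular x y') :
    Point.some x y' h' = Point.some x y h ∨ Point.some x y' h' = -Point.some x y h := by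
  rcases Y_eq_of_X_eq h'.1 h.1 rfl with hy | hy
  · left
    subst hy
    rfl
  · right
    rw [neg_some]
    subst hy
    rfl

/-- **Supersingular exclusion**, degree-free form. -/
theorem sst_exists_integral_torsion (A : ValuationSubring K) {p : ℕ} (hp : p.Prime)
    (hA : A.LiesOverPrime p) {W' : Affine ℚ}
    (Nm : K[X])
    (hint : A.valuation (Nm.coeff 0) ≤ 1)
    (hlead : A.valuation (p : K) ^ 2 ≤ A.valuation Nm.leadingCoeff)
    (hroot : ∀ ρ, Nm.IsRoot ρ → ∃ (y : K) (h : (W'⁄K).Nonsingular ρ y),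
      Point.some ρ y h ∈ Submodule.torsionBy ℤ (W'⁄K).Point p)
    (hmult : ∀ (x y : K) (h : (W'⁄K).Nonsingular x y),
      Point.some x y h ∈ Submodule.torsionBy ℤ (W'⁄K).Point p → (X - C x) ^ 2 ∣ Nm)
    (N0 : Submodule (ZMod p) (Submodule.torsionBy ℤ (W'⁄K).Point p))
    (hN0 : IsGaloisStable ℚ N0) (hbot : N0 ≠ ⊥) (htop : N0 ≠ ⊤) :
    ∃ (x y : K) (h : (W'⁄K).Nonsingular x y),
      Point.some x y h ∈ Submodule.torsionBy ℤ (W'⁄K).Point p ∧ A.valuation x ≤ 1 := by
  by_contra hcon
  push Not at hcon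
  have hπ : A.valuation (p : K) < 1 := A.mem_nonunits_iff.mp hA
  have hπ0 : A.valuation (p : K) ≠ 0 := by
    rw [ne_eq, map_eq_zero]
    have hcz : CharZero K := charZero_of_injective_algebraMap (algebraMap ℚ K).injective
    exact_mod_cast hp.ne_zero
  have hNm0 : Nm ≠ 0 := by
    rintro rfl
    rw [leadingCoeff_zero, _root_.map_zero] at hlead
    exact hπ0 ((pow_eq_zero_iff two_ne_zero).mp (le_antisymm hlead zero_le))
  have hmult' : ∀ (x y : K) (h : (W'⁄K).Nonsingular x y),
      Point.some x y h ∈ Submodule.torsionBy ℤ (W'⁄K).Point p → 2 ≤ Nm.rootMultiplicity x :=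
    fun x y h ht => (le_rootMultiplicity_iff hNm0).mpr (hmult x y h ht)
  have hisroot : ∀ (x y : K) (h : (W'⁄K).Nonsingular x y),
      Point.some x y h ∈ Submodule.torsionBy ℤ (W'⁄K).Point p → Nm.IsRoot x := by
    intro x y h ht
    have := hmult' x y h ht
    exact (rootMultiplicity_pos hNm0).mp (by omega)
  have hsub : ssxSet N0 ⊆ (Nm.roots.toFinset : Set K) := by
    intro x hx
    obtain ⟨y, h, ht, -⟩ := (mem_ssxSet_iff N0 x).mp hx
    simp only [Finset.mem_coe, Multiset.mem_toFinset]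
    exact (mem_roots hNm0).mpr (hisroot x y h ht)
  have hsfin : (ssxSet N0).Finite := (Finset.finite_toSet _).subset hsub
  set s : Finset K := hsfin.toFinset with hs
  have hmem : ∀ x, x ∈ s ↔ x ∈ ssxSet N0 := fun x => Set.Finite.mem_toFinset _
  have hsv : ∀ x ∈ s, 1 < A.valuation x := by
    intro x hx
    obtain ⟨y, h, ht, -⟩ := (mem_ssxSet_iff N0 x).mp ((hmem x).mp hx)
    exact hcon x y h ht
  have hstable : ∀ σ : K ≃ₐ[ℚ] K, ∀ x ∈ s, σ x ∈ s := fun σ x hx =>
    (hmem _).mpr (ssxSet_stable N0 hN0 σ ((hmem x).mp hx))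
  have h0 : ∀ x ∈ s, x ≠ 0 := by
    intro x hx hx0
    have := hsv x hx
    rw [hx0, _root_.map_zero] at this
    exact not_lt_zero this
  obtain ⟨m, hm⟩ := ssx_val_prod_stable A hp hA s hstable h0
  have hsne : s.Nonempty := by
    obtain ⟨x, hx⟩ := ssxSet_nonempty N0 hbot
    exact ⟨x, (hmem x).mpr hx⟩
  -- a point outside `N0`
  obtain ⟨Q, hQ⟩ : ∃ Q : Submodule.torsionBy ℤ (W'⁄K).Point p, Q ∉ N0 := by
    by_contra hall
    push Not at hall
    exact htop (eq_top_iff.mpr fun Q _ => hall Q)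
  have hQ0 : (Q : (W'⁄K).Point) ≠ 0 := by
    intro h
    have : Q = 0 := Subtype.ext h
    exact hQ (this ▸ N0.zero_mem)
  obtain ⟨xQ, yQ, hQns, hQeq⟩ := ssx_exists_some hQ0
  have hQt : Point.some xQ yQ hQns ∈ Submodule.torsionBy ℤ (W'⁄K).Point p := hQeq ▸ Q.2
  have hxQs : xQ ∉ s := by
    intro hx
    obtain ⟨y, h, ht, hN⟩ := (mem_ssxSet_iff N0 xQ).mp ((hmem xQ).mp hx)
    apply hQ
    rcases sst_eq_or_eq_neg h hQns with heq | heq
    · have : Q = ⟨Point.some xQ y h, ht⟩ := Subtype.ext (hQeq.trans heq)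
      rw [this]
      exact hN
    · have : Q = -⟨Point.some xQ y h, ht⟩ := Subtype.ext (hQeq.trans heq)
      rw [this]
      exact N0.neg_mem hN
  refine sst_core A Nm (IsAlgClosed.splits Nm) hint (A.valuation (p : K)) hπ hπ0 hlead ?_ s hsne ?_
    m hm hNm0 xQ (hisroot xQ yQ hQns hQt) hxQs
  · intro ρ hρ
    obtain ⟨y, h, ht⟩ := hroot ρ hρ
    exact hcon ρ y h ht
  · intro x hx
    obtain ⟨y, h, ht, -⟩ := (mem_ssxSet_iff N0 x).mp ((hmem x).mp hx)
    exact hmult' x y h ht

end general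

/-- `p • Q = 0` versus membership in the `p`-torsion submodule. -/
theorem sst_mem_torsionBy_iff {M : Type*} [AddCommGroup M] (p : ℕ) (Q : M) :
    Q ∈ Submodule.torsionBy ℤ M (p : ℤ) ↔ p • Q = 0 := by
  rw [Submodule.mem_torsionBy_iff, natCast_zsmul]

/-- **(B2) LEMMA SS, hypothesis form**: the torsion polynomial `A_N` and a Galois-stable line force
a `p`-torsion point outside the kernel of reduction. -/
theorem sst_not_all_inE1 (P : FreyPackage) (A : ValuationSubring Qb) (hA : A.LiesOverPrime P.p)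
    (hpoly : ∃ (N : Polynomial ℤ) (u : ℤ), ¬ (P.p : ℤ) ∣ u ∧ N.leadingCoeff = (P.p : ℤ) ^ 2 * u ∧
      (∀ r : Qb, (N.map (algebraMap ℤ Qb)).IsRoot r →
        ∃ (y : Qb) (h : (P.freyCurve⁄Qb).Nonsingular r y),
          P.p • (Point.some r y h : FreyPt P) = 0) ∧
      (∀ (x y : Qb) (h : (P.freyCurve⁄Qb).Nonsingular x y),
        P.p • (Point.some x y h : FreyPt P) = 0 →
          (Polynomial.X - Polynomial.C x) ^ 2 ∣ N.map (algebraMap ℤ Qb)))
    (N : Submodule (ZMod P.p) (FreyV P)) (hN : IsGaloisStable ℚ N) (hbot : N ≠ ⊥) (htop : N ≠ ⊤) :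
    ∃ x : FreyV P, ¬ InE1 A (x : FreyPt P) := by
  classical
  have : IsGalois ℚ Qb := fr_isGalois_Qb
  obtain ⟨Np, u, hu, hlc, hroot, hmult⟩ := hpoly
  have hinj : Function.Injective (algebraMap ℤ Qb) := (algebraMap ℤ Qb).injective_int
  have hint : A.valuation ((Np.map (algebraMap ℤ Qb)).coeff 0) ≤ 1 := by
    rw [coeff_map, A.valuation_le_one_iff, eq_intCast]
    exact intCast_mem A _
  have hlead : A.valuation ((P.p : ℕ) : Qb) ^ 2 ≤
      A.valuation (Np.map (algebraMap ℤ Qb)).leadingCoeff := by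
    rw [leadingCoeff_map_of_injective hinj, hlc, eq_intCast]
    push_cast
    rw [map_mul, map_pow]
    have hu1 : A.valuation ((u : ℤ) : Qb) = 1 :=
      (S05x.m0_val_int_eq_one_iff_gen A P.pp hA u).mpr hu
    rw [hu1, mul_one]
  obtain ⟨x, y, h, ht, hx⟩ := sst_exists_integral_torsion (W' := P.freyCurve) A P.pp hA
    (Np.map (algebraMap ℤ Qb)) hint hlead
    (fun ρ hρ => by
      obtain ⟨y, h, hy⟩ := hroot ρ hρ
      exact ⟨y, h, (sst_mem_torsionBy_iff P.p _).mpr hy⟩)
    (fun x y h ht => hmult x y h ((sst_mem_torsionBy_iff P.p _).mp ht))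
    N hN hbot htop
  refine ⟨⟨Point.some x y h, ht⟩, ?_⟩
  change ¬ InE1 A (Point.some x y h)
  rw [inE1_some, not_not]
  exact (A.valuation_le_one_iff x).mp hx

end Fermat.Agent.S13x
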