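/-
S13 leaf (d), Wronskian route: link between the pole-order filtration `wrFil` and the degree of the
norm to `K[X]` (part of module W02 / Spec section T2).  helper35.
-/
import Fermat.Agent.S13x.WronDefs

set_option autoImplicit false

open Polynomial WeierstrassCurve WeierstrassCurve.Affine
open scoped Polynomial.Bivariate

namespace Fermat.Agent.S13x

variable {K : Type*} [Field K] (W : Affine K)

/-- degree of the norm in terms of the coordinates -/
lemma wrn_degree_norm (f : W.CoordinateRing) :
    (Algebra.norm K[X] f).degree = max (2 • (wrP W f).degree) (2 • (wrQ W f).degree + 3) := by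
  conv_lhs => rw [← wr_repr W f]
  exact CoordinateRing.degree_norm_smul_basis _ _

lemma wrn_two_nsmul_coe (a : ℕ) : (2 • (a : WithBot ℕ)) = ((2 * a : ℕ) : WithBot ℕ) := by
  rw [two_nsmul, two_mul]; norm_cast

lemma wrn_degree_lt_iff (p : K[X]) (m : ℕ) :
    p.degree < ((m / 2 + 1 : ℕ) : WithBot ℕ) ↔ 2 • p.degree ≤ (m : WithBot ℕ) := by
  by_cases hp : p = 0
  · subst hp
    simp
  · rw [degree_eq_natDegree hp, wrn_two_nsmul_coe]
    norm_cast
    omega

lemma wrn_degree_lt_iff' (q : K[X]) (m : ℕ) :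
    q.degree < (((m - 1) / 2 : ℕ) : WithBot ℕ) ↔ 2 • q.degree + 3 ≤ (m : WithBot ℕ) := by
  by_cases hq : q = 0
  · subst hq
    simp
  · rw [degree_eq_natDegree hq, wrn_two_nsmul_coe]
    norm_cast
    omega

/-- membership in the filtration in terms of `2 deg p` and `2 deg q + 3` -/
lemma wrn_mem_fil_iff {m : ℕ} {f : W.CoordinateRing} : f ∈ wrFil W m ↔
    2 • (wrP W f).degree ≤ (m : WithBot ℕ) ∧ 2 • (wrQ W f).degree + 3 ≤ (m : WithBot ℕ) := by
  rw [wr_mem_fil, wrn_degree_lt_iff, wrn_degree_lt_iff']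

/-- `f ∈ L(m·O)` iff the norm has degree at most `m` -/
lemma wrn_mem_fil_iff_degree_norm_le {m : ℕ} {f : W.CoordinateRing} :
    f ∈ wrFil W m ↔ (Algebra.norm K[X] f).degree ≤ (m : WithBot ℕ) := by
  rw [wrn_mem_fil_iff, wrn_degree_norm, max_le_iff]

theorem wrn_mem_fil_of_natDegree_norm_le {m : ℕ} {f : W.CoordinateRing}
    (h : (Algebra.norm K[X] f).natDegree ≤ m) : f ∈ wrFil W m := by
  rw [wrn_mem_fil_iff_degree_norm_le]
  exact degree_le_of_natDegree_le h

theorem wrn_natDegree_norm_le_of_mem_fil {m : ℕ} {f : W.CoordinateRing} (hf : f ∈ wrFil W m) :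
    (Algebra.norm K[X] f).natDegree ≤ m := by
  rw [wrn_mem_fil_iff_degree_norm_le] at hf
  exact natDegree_le_of_degree_le hf

theorem wrn_natDegree_norm_eq_of_top_ne_zero {m : ℕ} {f : W.CoordinateRing} (hf : f ∈ wrFil W m)
    (ht : wrTop W m f ≠ 0) : (Algebra.norm K[X] f).natDegree = m := by
  apply le_antisymm (wrn_natDegree_norm_le_of_mem_fil W hf)
  have hmem := hf
  rw [wr_mem_fil] at hmem
  obtain ⟨h1, h2⟩ := hmem
  have hdeg : (m : WithBot ℕ) ≤ (Algebra.norm K[X] f).degree := by
    rw [wrn_degree_norm]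
    unfold wrTop at ht
    split_ifs at ht with hev
    · -- even case
      have hle : ((m / 2 : ℕ) : WithBot ℕ) ≤ (wrP W f).degree := le_degree_of_ne_zero ht
      refine le_trans ?_ (le_max_left _ _)
      have : (m : WithBot ℕ) = 2 • ((m / 2 : ℕ) : WithBot ℕ) := by
        rw [wrn_two_nsmul_coe]
        obtain ⟨k, hk⟩ := hev
        norm_cast; omega
      rw [this]
      exact nsmul_le_nsmul_right hle 2
    · -- odd case
      have hle : (((m - 3) / 2 : ℕ) : WithBot ℕ) ≤ (wrQ W f).degree := le_degree_of_ne_zero ht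
      have hm3 : 3 ≤ m := by
        by_contra hcon
        have hm1 : (m - 1) / 2 = 0 := by omega
        rw [hm1] at h2
        have hq0 : wrQ W f = 0 := by
          by_contra hq
          rw [degree_eq_natDegree hq] at h2
          norm_cast at h2
        rw [hq0, coeff_zero] at ht
        exact ht rfl
      refine le_trans ?_ (le_max_right _ _)
      have : (m : WithBot ℕ) = 2 • (((m - 3) / 2 : ℕ) : WithBot ℕ) + 3 := by
        rw [wrn_two_nsmul_coe]
        have hodd : Odd m := Nat.not_even_iff_odd.mp hev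
        obtain ⟨k, hk⟩ := hodd
        norm_cast; omega
      rw [this]
      exact add_le_add_left (nsmul_le_nsmul_right hle 2) 3
  have hne : Algebra.norm K[X] f ≠ 0 := by
    intro h0
    rw [h0, degree_zero] at hdeg
    exact absurd hdeg (by simp)
  rw [degree_eq_natDegree hne] at hdeg
  exact_mod_cast hdeg

end Fermat.Agent.S13x
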