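import Mathlib

/-!
# S13, Wronskian route, module 5 (first half): torsion points and principal ideals

For a nonsingular affine point `P = (x, y)` of a Weierstrass curve `W` over a field `F`, with
maximal ideal `I_P = XYIdeal W x (C y)` of the coordinate ring `R`:

* `tp_nsmul_eq_zero_iff_principal` : `n • P = 0 ↔ ∃ f ≠ 0, I_P ^ n = (f)`;
* `tp_nsmul_eq_zero_iff_exists_mem` : if `dim_F R / I_P ^ n = n`, then
  `n • P = 0 ↔ ∃ f ≠ 0, natDegree (norm f) ≤ n ∧ f ∈ I_P ^ n`.
-/

set_option autoImplicit false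

namespace Fermat.Agent.S13x

open WeierstrassCurve WeierstrassCurve.Affine Polynomial nonZeroDivisors

variable {F : Type*} [Field F] [DecidableEq F] {W : WeierstrassCurve.Affine F}

/-- `n • P = 0` iff the `n`-th power of the maximal ideal of `P` is principal. -/
theorem tp_nsmul_eq_zero_iff_principal {x y : F} (h : W.Nonsingular x y) (n : ℕ) :
    n • (Point.some _ _ h : W.Point) = 0 ↔
      ∃ f : W.CoordinateRing, f ≠ 0 ∧
        CoordinateRing.XYIdeal W x (C y) ^ n = Ideal.span {f} := by
  rw [← Point.toClass_eq_zero, map_nsmul, Point.toClass_some]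
  have hI : (((CoordinateRing.XYIdeal' (W := W) h) ^ n :
      (FractionalIdeal W.CoordinateRing⁰ W.FunctionField)ˣ) :
      FractionalIdeal W.CoordinateRing⁰ W.FunctionField) =
      ((CoordinateRing.XYIdeal W x (C y) ^ n : Ideal W.CoordinateRing) :
        FractionalIdeal W.CoordinateRing⁰ W.FunctionField) := by
    rw [Units.val_pow_eq_pow_val, CoordinateRing.XYIdeal'_eq, FractionalIdeal.coeIdeal_pow]
  rw [← ClassGroup.mk_eq_one_of_coe_ideal hI, map_pow]
  rfl

omit [DecidableEq F] in
/-- The quotient of a finite free `F[X]`-algebra which is a domain by a nonzero ideal is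
finite-dimensional over `F`. -/
theorem tp_finite_quotient {S ι : Type*} [CommRing S] [IsDomain S] [Algebra F[X] S] [Algebra F S]
    [IsScalarTower F F[X] S] [Finite ι] (b : Module.Basis ι F[X] S) {I : Ideal S} (hI : I ≠ ⊥) :
    Module.Finite F (S ⧸ I) := by
  have := Fintype.ofFinite ι
  have e := Ideal.quotientEquivDirectSum F b hI
  exact Module.Finite.equiv e.symm

omit [DecidableEq F] in
/-- If `(f) ≤ J`, `f ≠ 0` and `dim S/(f) ≤ dim S/J` (finite), then `J = (f)`. -/
theorem tp_eq_span_of_finrank_le {S ι : Type*} [CommRing S] [IsDomain S] [Algebra F[X] S]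
    [Algebra F S] [IsScalarTower F F[X] S] [Finite ι] (b : Module.Basis ι F[X] S) {f : S}
    (hf : f ≠ 0) {J : Ideal S} (hfJ : f ∈ J)
    (hle : Module.finrank F (S ⧸ Ideal.span ({f} : Set S)) ≤ Module.finrank F (S ⧸ J)) :
    J = Ideal.span {f} := by
  have hbot : Ideal.span ({f} : Set S) ≠ ⊥ := by
    rw [Ne, Ideal.span_singleton_eq_bot]
    exact hf
  have : Module.Finite F (S ⧸ Ideal.span ({f} : Set S)) := tp_finite_quotient b hbot
  have hsub : Ideal.span ({f} : Set S) ≤ J := (Ideal.span_singleton_le_iff_mem J).mpr hfJ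
  -- the canonical surjection `S/(f) → S/J`
  let g : (S ⧸ Ideal.span ({f} : Set S)) →ₗ[F] (S ⧸ J) :=
    (Ideal.Quotient.factorₐ F hsub).toLinearMap
  have hg : Function.Surjective g := Ideal.Quotient.factor_surjective hsub
  have hrank := LinearMap.finrank_range_add_finrank_ker g
  rw [LinearMap.range_eq_top.mpr hg, finrank_top] at hrank
  have hker : Module.finrank F (LinearMap.ker g) = 0 := by omega
  have hker' : LinearMap.ker g = ⊥ := Submodule.finrank_eq_zero.mp hker
  have hinj : Function.Injective g := LinearMap.ker_eq_bot.mp hker'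
  refine le_antisymm ?_ hsub
  intro a ha
  have h1 : g (Ideal.Quotient.mk _ a) = 0 := by
    change Ideal.Quotient.factor hsub (Ideal.Quotient.mk _ a) = 0
    rw [Ideal.Quotient.factor_mk, Ideal.Quotient.eq_zero_iff_mem]
    exact ha
  have h2 : (Ideal.Quotient.mk (Ideal.span ({f} : Set S)) a) = 0 := hinj (by rw [h1, map_zero])
  exact Ideal.Quotient.eq_zero_iff_mem.mp h2

/-- If `dim_F R / I_P ^ n = n`, then `n • P = 0` iff there is a nonzero `f ∈ I_P ^ n` of pole
order (`= natDegree (norm f)`) at most `n`. -/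
theorem tp_nsmul_eq_zero_iff_exists_mem {x y : F} (h : W.Nonsingular x y) (n : ℕ)
    (hdim : Module.finrank F (W.CoordinateRing ⧸ CoordinateRing.XYIdeal W x (C y) ^ n) = n) :
    n • (Point.some _ _ h : W.Point) = 0 ↔
      ∃ f : W.CoordinateRing, f ≠ 0 ∧ (Algebra.norm F[X] f).natDegree ≤ n ∧
        f ∈ CoordinateRing.XYIdeal W x (C y) ^ n := by
  rw [tp_nsmul_eq_zero_iff_principal h n]
  constructor
  · rintro ⟨f, hf, hI⟩
    refine ⟨f, hf, ?_, ?_⟩
    · rw [← finrank_quotient_span_eq_natDegree_norm (CoordinateRing.basis W) hf,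
        ← (Ideal.quotientEquivAlgOfEq F hI).toLinearEquiv.finrank_eq, hdim]
    · rw [hI]
      exact Ideal.mem_span_singleton_self f
  · rintro ⟨f, hf, hdeg, hmem⟩
    refine ⟨f, hf, tp_eq_span_of_finrank_le (CoordinateRing.basis W) hf hmem ?_⟩
    rw [finrank_quotient_span_eq_natDegree_norm (CoordinateRing.basis W) hf, hdim]
    exact hdeg

end Fermat.Agent.S13x
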