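import Mathlib
import Fermat.Agent.S13x.TorsPrincipal

/-!
# S13, Wronskian route: `dim_F R / I_P ^ n = n`

Abstract form: `R` a domain and `F`-algebra, `I` a maximal ideal with residue field `F`
(`R = F + I`) which is invertible (`I * J = (t)`, `t ≠ 0`).  Then `dim_F R / I ^ n = n`.

Application: `I = XYIdeal W x (C y)` for a nonsingular point `(x, y)` of a Weierstrass curve.
-/

set_option autoImplicit false

namespace Fermat.Agent.S13x

open Polynomial

section Abstract

variable {F R : Type*} [Field F] [CommRing R] [IsDomain R] [Algebra F R]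

/-- For an invertible maximal ideal, `I ^ (k + 1) ≠ I ^ k`. -/
theorem tld_pow_succ_ne {I J : Ideal R} {t : R} (ht : t ≠ 0) (hIJ : I * J = Ideal.span {t})
    (hI : I.IsMaximal) (k : ℕ) : I ^ (k + 1) ≠ I ^ k := by
  intro h
  have hT : I ^ k * J ^ k = Ideal.span {t ^ k} := by
    rw [← mul_pow, hIJ, Ideal.span_singleton_pow]
  have h1 : Ideal.span {t ^ k} * I = Ideal.span {t ^ k} * ⊤ := by
    rw [Ideal.mul_top, ← hT]
    calc I ^ k * J ^ k * I = I ^ (k + 1) * J ^ k := by rw [pow_succ]; ring
      _ = I ^ k * J ^ k := by rw [h]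
  have h2 := (Ideal.span_singleton_mul_right_inj (pow_ne_zero k ht)).mp h1
  exact hI.ne_top h2

/-- For an invertible maximal ideal and `a ∈ I ^ k \ I ^ (k + 1)`: `I ^ k = (a) + I ^ (k + 1)`. -/
theorem tld_pow_eq_span_sup {I J : Ideal R} {t : R} (ht : t ≠ 0) (hIJ : I * J = Ideal.span {t})
    (hI : I.IsMaximal) (k : ℕ) {a : R} (ha : a ∈ I ^ k) (ha' : a ∉ I ^ (k + 1)) :
    I ^ k = Ideal.span {a} ⊔ I ^ (k + 1) := by
  have htk : t ^ k ≠ 0 := pow_ne_zero k ht
  have hT : I ^ k * J ^ k = Ideal.span {t ^ k} := by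
    rw [← mul_pow, hIJ, Ideal.span_singleton_pow]
  have hale : Ideal.span {a} ≤ I ^ k := (Ideal.span_singleton_le_iff_mem _).mpr ha
  refine le_antisymm ?_ (sup_le hale (Ideal.pow_le_pow_right (Nat.le_succ k)))
  -- `(a) J^k` is not contained in `(t^k) I`
  have hnot : ¬ Ideal.span {a} * J ^ k ≤ Ideal.span {t ^ k} * I := by
    intro hle
    have h1 : Ideal.span {t ^ k} * Ideal.span {a} ≤ Ideal.span {t ^ k} * I ^ (k + 1) := by
      calc Ideal.span {t ^ k} * Ideal.span {a} = (Ideal.span {a} * J ^ k) * I ^ k := by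
            rw [← hT]; ring
        _ ≤ (Ideal.span {t ^ k} * I) * I ^ k := Ideal.mul_mono_left hle
        _ = Ideal.span {t ^ k} * I ^ (k + 1) := by rw [pow_succ]; ring
    have h2 := (Ideal.span_singleton_mul_right_mono htk).mp h1
    exact ha' ((Ideal.span_singleton_le_iff_mem _).mp h2)
  obtain ⟨b, hb, hb'⟩ := SetLike.not_le_iff_exists.mp hnot
  have hbT : b ∈ Ideal.span {t ^ k} := by
    rw [← hT]
    exact Ideal.mul_mono_left hale hb
  obtain ⟨r, rfl⟩ := Ideal.mem_span_singleton'.mp hbT
  have hr : r ∉ I := by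
    intro hr
    apply hb'
    rw [mul_comm r]
    exact Ideal.mul_mem_mul (Ideal.mem_span_singleton_self _) hr
  obtain ⟨s, i, hi, hsi⟩ := hI.exists_inv hr
  -- `t^k ∈ (a) J^k + (t^k) I`
  have htmem : t ^ k ∈ Ideal.span {a} * J ^ k ⊔ Ideal.span {t ^ k} * I := by
    have h3 : t ^ k = s * (r * t ^ k) + t ^ k * i := by
      have h4 : t ^ k * (s * r + i) = t ^ k := by rw [hsi, mul_one]
      calc t ^ k = t ^ k * (s * r + i) := h4.symm
        _ = s * (r * t ^ k) + t ^ k * i := by ring
    have h5 : s * (r * t ^ k) + t ^ k * i ∈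
        Ideal.span {a} * J ^ k ⊔ Ideal.span {t ^ k} * I :=
      Submodule.add_mem_sup (Ideal.mul_mem_left _ _ hb)
        (Ideal.mul_mem_mul (Ideal.mem_span_singleton_self _) hi)
    rw [← h3] at h5
    exact h5
  have hTle : Ideal.span {t ^ k} ≤ Ideal.span {a} * J ^ k ⊔ Ideal.span {t ^ k} * I :=
    (Ideal.span_singleton_le_iff_mem _).mpr htmem
  rw [← Ideal.span_singleton_mul_right_mono htk]
  calc Ideal.span {t ^ k} * I ^ k
      ≤ (Ideal.span {a} * J ^ k ⊔ Ideal.span {t ^ k} * I) * I ^ k := Ideal.mul_mono_left hTle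
    _ = Ideal.span {a} * (I ^ k * J ^ k) ⊔ Ideal.span {t ^ k} * I ^ (k + 1) := by
        rw [Ideal.sup_mul, pow_succ]; congr 1 <;> ring
    _ = Ideal.span {t ^ k} * (Ideal.span {a} ⊔ I ^ (k + 1)) := by
        rw [hT, Ideal.mul_sup, mul_comm]

/-- **Abstract dimension count**: for an invertible maximal ideal `I` with residue field `F`,
`dim_F R / I ^ n = n`. -/
theorem tld_finrank_quotient_pow {I J : Ideal R} {t : R} (ht : t ≠ 0)
    (hIJ : I * J = Ideal.span {t}) (hI : I.IsMaximal)
    (hres : ∀ r : R, ∃ c : F, r - algebraMap F R c ∈ I)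
    (hfin : ∀ n : ℕ, Module.Finite F (R ⧸ I ^ n)) (n : ℕ) :
    Module.finrank F (R ⧸ I ^ n) = n := by
  induction n with
  | zero =>
    have : Subsingleton (R ⧸ I ^ 0) := by
      rw [pow_zero, Ideal.one_eq_top]
      exact Ideal.Quotient.subsingleton_iff.mpr rfl
    exact Module.finrank_zero_of_subsingleton
  | succ k ih =>
    have hle : I ^ (k + 1) ≤ I ^ k := Ideal.pow_le_pow_right (Nat.le_succ k)
    obtain ⟨a, ha, ha'⟩ := SetLike.exists_of_lt (lt_of_le_of_ne hle (tld_pow_succ_ne ht hIJ hI k))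
    have hsup := tld_pow_eq_span_sup ht hIJ hI k ha ha'
    have := hfin (k + 1)
    let g : (R ⧸ I ^ (k + 1)) →ₗ[F] (R ⧸ I ^ k) := (Ideal.Quotient.factorₐ F hle).toLinearMap
    have hg : Function.Surjective g := Ideal.Quotient.factor_surjective hle
    have hgmk : ∀ r : R, g (Ideal.Quotient.mk _ r) = Ideal.Quotient.mk _ r := fun r => by
      change Ideal.Quotient.factor hle (Ideal.Quotient.mk _ r) = _
      rw [Ideal.Quotient.factor_mk]
    have hrank := LinearMap.finrank_range_add_finrank_ker g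
    rw [LinearMap.range_eq_top.mpr hg, finrank_top, ih] at hrank
    have hker : LinearMap.ker g = Submodule.span F {Ideal.Quotient.mk (I ^ (k + 1)) a} := by
      apply le_antisymm
      · intro q hq
        obtain ⟨r, rfl⟩ := Ideal.Quotient.mk_surjective q
        rw [LinearMap.mem_ker, hgmk, Ideal.Quotient.eq_zero_iff_mem, hsup] at hq
        obtain ⟨u, hu, i', hi', rfl⟩ := Submodule.mem_sup.mp hq
        obtain ⟨s, rfl⟩ := Ideal.mem_span_singleton'.mp hu
        obtain ⟨c, hc⟩ := hres s
        rw [Submodule.mem_span_singleton]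
        refine ⟨c, ?_⟩
        have hcq : algebraMap F (R ⧸ I ^ (k + 1)) c =
            Ideal.Quotient.mk (I ^ (k + 1)) (algebraMap F R c) := rfl
        rw [Algebra.smul_def, hcq, ← map_mul, eq_comm, Ideal.Quotient.eq]
        have : s * a + i' - algebraMap F R c * a = (s - algebraMap F R c) * a + i' := by ring
        rw [this]
        refine Ideal.add_mem _ ?_ hi'
        rw [pow_succ']
        exact Ideal.mul_mem_mul hc ha
      · rw [Submodule.span_singleton_le_iff_mem, LinearMap.mem_ker, hgmk,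
          Ideal.Quotient.eq_zero_iff_mem]
        exact ha
    have hne : Ideal.Quotient.mk (I ^ (k + 1)) a ≠ 0 := by
      rw [Ne, Ideal.Quotient.eq_zero_iff_mem]
      exact ha'
    rw [hker, finrank_span_singleton hne] at hrank
    exact hrank.symm

end Abstract

section Weierstrass

open WeierstrassCurve WeierstrassCurve.Affine

variable {F : Type*} [Field F] {W : WeierstrassCurve.Affine F}

/-- The maximal ideal of a point on the curve is maximal. -/
theorem tld_XYIdeal_isMaximal {x y : F} (h : W.Equation x y) :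
    (CoordinateRing.XYIdeal W x (C y)).IsMaximal := by
  have heq : (W.polynomial.eval (C y)).eval x = 0 := by
    rw [Affine.Equation] at h
    rwa [← evalEval] at *
  have e := CoordinateRing.quotientXYIdealEquiv (W' := W) heq
  exact Ideal.Quotient.maximal_of_isField _
    (e.toMulEquiv.isField (Field.toIsField F))

/-- Every element of the coordinate ring is congruent to a constant modulo the ideal of a point. -/
theorem tld_exists_const_sub_mem {x y : F} (h : W.Equation x y) (r : W.CoordinateRing) :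
    ∃ c : F, r - algebraMap F W.CoordinateRing c ∈ CoordinateRing.XYIdeal W x (C y) := by
  have heq : (W.polynomial.eval (C y)).eval x = 0 := by
    rw [Affine.Equation] at h
    rwa [← evalEval] at *
  let e := CoordinateRing.quotientXYIdealEquiv (W' := W) heq
  refine ⟨e (Ideal.Quotient.mk _ r), ?_⟩
  rw [← Ideal.Quotient.eq]
  apply e.injective
  have : (Ideal.Quotient.mk (CoordinateRing.XYIdeal W x (C y)))
      (algebraMap F W.CoordinateRing (e (Ideal.Quotient.mk _ r))) =
      algebraMap F (W.CoordinateRing ⧸ CoordinateRing.XYIdeal W x (C y))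
        (e (Ideal.Quotient.mk _ r)) := rfl
  rw [this, e.commutes]
  rfl

/-- **`dim_F R / I_P ^ n = n`** for a nonsingular point `P = (x, y)`. -/
theorem tld_finrank_quotient_XYIdeal_pow {x y : F} (h : W.Nonsingular x y) (n : ℕ) :
    Module.finrank F (W.CoordinateRing ⧸ CoordinateRing.XYIdeal W x (C y) ^ n) = n := by
  have hIJ : CoordinateRing.XYIdeal W x (C y) * CoordinateRing.XYIdeal W x (C <| W.negY x y) =
      Ideal.span {CoordinateRing.XClass W x} := by
    rw [mul_comm, CoordinateRing.XYIdeal_neg_mul h]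
    rfl
  have ht : CoordinateRing.XClass W x ≠ 0 := CoordinateRing.XClass_ne_zero x
  have hI0 : CoordinateRing.XYIdeal W x (C y) ≠ ⊥ := by
    intro h0
    rw [h0, Ideal.bot_mul] at hIJ
    exact ht ((Ideal.span_singleton_eq_bot).mp hIJ.symm)
  refine tld_finrank_quotient_pow ht hIJ (tld_XYIdeal_isMaximal h.left)
    (tld_exists_const_sub_mem h.left) (fun k => ?_) n
  refine tp_finite_quotient (CoordinateRing.basis W) ?_
  rw [← Ideal.zero_eq_bot]
  exact pow_ne_zero k (by rwa [Ideal.zero_eq_bot])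

/-- **Torsion criterion (module 5, D-free part).** For a nonsingular point `P = (x, y)`:
`n • P = 0` iff there is a nonzero `f ∈ I_P ^ n` with `natDegree (norm f) ≤ n`. -/
theorem tld_nsmul_eq_zero_iff [DecidableEq F] {x y : F} (h : W.Nonsingular x y) (n : ℕ) :
    n • (Point.some _ _ h : W.Point) = 0 ↔
      ∃ f : W.CoordinateRing, f ≠ 0 ∧ (Algebra.norm F[X] f).natDegree ≤ n ∧
        f ∈ CoordinateRing.XYIdeal W x (C y) ^ n :=
  tp_nsmul_eq_zero_iff_exists_mem h n (tld_finrank_quotient_XYIdeal_pow h n)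

end Weierstrass

end Fermat.Agent.S13x
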