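import Fermat.Agent.S13x.WronDefs
import Fermat.Agent.S13x.TorsLocalDim

/-!
# S13 leaf (d), Wronskian route, module T4 (Taylor criterion)

For a nonsingular point `P = (a, b)` with maximal ideal `I_P` and the invariant derivation `D`:

* `wty_D_mem_pow` : `D (I_P ^ (n + 1)) ⊆ I_P ^ n` (any derivation, any ideal);
* `wty_eval_iterate_eq_zero_of_mem_pow` : `f ∈ I_P ^ n`, `i < n` ⟹ `(D^i f)(P) = 0`;
* `wty_mem_pow_of_eval_iterate` : in characteristic zero, conversely `(D^i f)(P) = 0` for all
  `i < n` implies `f ∈ I_P ^ n`.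
-/

set_option autoImplicit false

open Polynomial WeierstrassCurve WeierstrassCurve.Affine
open scoped Polynomial.Bivariate

namespace Fermat.Agent.S13x

section General

variable {A R : Type*} [CommRing A] [CommRing R] [Algebra A R]

/-- A derivation lowers the order of vanishing along an ideal by at most one. -/
theorem wty_deriv_mem_pow (D : Derivation A R R) (I : Ideal R) (n : ℕ) {f : R}
    (hf : f ∈ I ^ (n + 1)) : D f ∈ I ^ n := by
  induction n generalizing f with
  | zero => rw [pow_zero, Ideal.one_eq_top]; exact Submodule.mem_top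
  | succ n ih =>
    rw [pow_succ] at hf
    refine Submodule.mul_induction_on hf ?_ ?_
    · intro g hg h hh
      rw [Derivation.leibniz, smul_eq_mul, smul_eq_mul]
      refine Ideal.add_mem _ (Ideal.mul_mem_right _ _ hg) ?_
      rw [pow_succ']
      exact Ideal.mul_mem_mul hh (ih hg)
    · intro x y hx hy
      rw [map_add]
      exact Ideal.add_mem _ hx hy

/-- Iterated version. -/
theorem wty_iterate_deriv_mem_pow (D : Derivation A R R) (I : Ideal R) (i n : ℕ) {f : R}
    (hf : f ∈ I ^ (n + i)) : (⇑D)^[i] f ∈ I ^ n := by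
  induction i generalizing f with
  | zero => simpa using hf
  | succ i ih =>
    rw [Function.iterate_succ_apply]
    apply ih
    apply wty_deriv_mem_pow D I (n + i)
    rwa [add_assoc] at *

/-- The iterate of a derivation as a power of the underlying linear map. -/
theorem wty_iterate_eq_pow (D : Derivation A R R) (i : ℕ) (f : R) :
    (⇑D)^[i] f = (((D : Derivation A R R) : R →ₗ[A] R) ^ i) f := by
  rw [Module.End.pow_apply]
  rfl

theorem wty_iterate_add (D : Derivation A R R) (i : ℕ) (f g : R) :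
    (⇑D)^[i] (f + g) = (⇑D)^[i] f + (⇑D)^[i] g := by
  simp only [wty_iterate_eq_pow, map_add]

theorem wty_iterate_nsmul (D : Derivation A R R) (i : ℕ) (k : ℕ) (f : R) :
    (⇑D)^[i] (k • f) = k • (⇑D)^[i] f := by
  simp only [wty_iterate_eq_pow, map_nsmul]

end General

variable {K : Type*} [Field K] {W : Affine K}

theorem wty_D_mem_pow {a b : K} (n : ℕ) {f : W.CoordinateRing}
    (hf : f ∈ CoordinateRing.XYIdeal W a (C b) ^ (n + 1)) :
    wrD W f ∈ CoordinateRing.XYIdeal W a (C b) ^ n :=
  wty_deriv_mem_pow (wrD W) _ n hf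

theorem wty_eval_iterate_eq_zero_of_mem_pow {a b : K} (h : W.Nonsingular a b) (n : ℕ)
    {f : W.CoordinateRing} (hf : f ∈ CoordinateRing.XYIdeal W a (C b) ^ n) (i : ℕ) (hi : i < n) :
    wrEval h.1 ((⇑(wrD W))^[i] f) = 0 := by
  rw [wr_eval_eq_zero_iff]
  have h1 : f ∈ CoordinateRing.XYIdeal W a (C b) ^ (1 + i + (n - 1 - i)) := by
    have : 1 + i + (n - 1 - i) = n := by omega
    rwa [this]
  have h2 : f ∈ CoordinateRing.XYIdeal W a (C b) ^ (1 + i) :=
    Ideal.pow_le_pow_right (Nat.le_add_right _ _) h1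
  have h3 := wty_iterate_deriv_mem_pow (wrD W) (CoordinateRing.XYIdeal W a (C b)) i 1 h2
  rwa [pow_one] at h3

/-- key computation: `(D^m (t^m u))(P) = m! (Dt)(P)^m u(P)` for `t ∈ I_P`. -/
theorem wty_eval_iterate_pow_mul {a b : K} (h : W.Nonsingular a b) {t : W.CoordinateRing}
    (ht : t ∈ CoordinateRing.XYIdeal W a (C b)) (m : ℕ) (u : W.CoordinateRing) :
    wrEval h.1 ((⇑(wrD W))^[m] (t ^ m * u)) =
      (m.factorial : K) * wrEval h.1 (wrD W t) ^ m * wrEval h.1 u := by
  induction m generalizing u with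
  | zero => simp
  | succ m ih =>
    rw [Function.iterate_succ_apply]
    have hD : wrD W (t ^ (m + 1) * u) =
        t ^ (m + 1) * wrD W u + (m + 1) • (t ^ m * (wrD W t * u)) := by
      rw [Derivation.leibniz, Derivation.leibniz_pow, smul_eq_mul, smul_eq_mul, smul_eq_mul,
        Nat.add_sub_cancel, nsmul_eq_mul, nsmul_eq_mul]
      ring
    rw [hD, wty_iterate_add, wty_iterate_nsmul, map_add, map_nsmul, ih]
    have hmem : t ^ (m + 1) * wrD W u ∈ CoordinateRing.XYIdeal W a (C b) ^ (m + 1) :=
      Ideal.mul_mem_right _ _ (Ideal.pow_mem_pow ht _)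
    rw [wty_eval_iterate_eq_zero_of_mem_pow h (m + 1) hmem m (Nat.lt_succ_self m), zero_add,
      map_mul, Nat.factorial_succ, nsmul_eq_mul]
    push_cast
    ring

/-! ### Evaluation in coordinates -/

theorem wty_XClass_mem (a b : K) : CoordinateRing.XClass W a ∈ CoordinateRing.XYIdeal W a (C b) :=
  Ideal.subset_span (by simp)

theorem wty_YClass_mem (a b : K) :
    CoordinateRing.YClass W (C b) ∈ CoordinateRing.XYIdeal W a (C b) :=
  Ideal.subset_span (by simp)

theorem wty_eval_algebraMap_poly {a b : K} (h : W.Equation a b) (p : K[X]) :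
    wrEval h (algebraMap K[X] W.CoordinateRing p) = p.eval a := by
  let φ : K[X] →ₐ[K] K := (wrEval h).comp (IsScalarTower.toAlgHom K K[X] W.CoordinateRing)
  have hφ : φ = Polynomial.aeval a := by
    apply Polynomial.algHom_ext
    rw [Polynomial.aeval_X]
    change wrEval h (algebraMap K[X] W.CoordinateRing X) = a
    have hX : algebraMap K[X] W.CoordinateRing X =
        CoordinateRing.XClass W a + algebraMap K W.CoordinateRing a := by
      rw [IsScalarTower.algebraMap_apply K K[X] W.CoordinateRing]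
      have hXC : CoordinateRing.XClass W a = algebraMap K[X] W.CoordinateRing (X - C a) := rfl
      rw [hXC, ← map_add]
      congr 1
      rw [Polynomial.algebraMap_apply, Algebra.algebraMap_self_apply]
      ring
    rw [hX, map_add, (wr_eval_eq_zero_iff h _).mpr (wty_XClass_mem a b), zero_add,
      AlgHom.commutes]
    rfl
  have := congrArg (fun ψ : K[X] →ₐ[K] K => ψ p) hφ
  simpa [φ, Polynomial.aeval_def] using this

theorem wty_eval_Y {a b : K} (h : W.Equation a b) : wrEval h (wrY W) = b := by
  have hY : wrY W = CoordinateRing.YClass W (C b) + algebraMap K W.CoordinateRing b := by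
    unfold wrY CoordinateRing.YClass
    rw [IsScalarTower.algebraMap_apply K K[X] W.CoordinateRing]
    change _ = CoordinateRing.mk W (Y - C (C b)) + CoordinateRing.mk W (C (C b))
    rw [← map_add]
    congr 1
    ring
  rw [hY, map_add, (wr_eval_eq_zero_iff h _).mpr (wty_YClass_mem a b), zero_add,
    AlgHom.commutes]
  rfl

theorem wty_eval_smul_basis {a b : K} (h : W.Equation a b) (p q : K[X]) :
    wrEval h (p • (1 : W.CoordinateRing) + q • wrY W) = p.eval a + q.eval a * b := by
  rw [map_add, Algebra.smul_def, Algebra.smul_def, mul_one, map_mul, wty_eval_algebraMap_poly,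
    wty_eval_algebraMap_poly, wty_eval_Y]

theorem wty_eval_D_XClass {a b : K} (h : W.Equation a b) :
    wrEval h (wrD W (CoordinateRing.XClass W a)) = 2 * b + W.a₁ * a + W.a₃ := by
  have hX : CoordinateRing.XClass W a =
      (X - C a : K[X]) • (1 : W.CoordinateRing) + (0 : K[X]) • wrY W := by
    rw [zero_smul, add_zero, Algebra.smul_def, mul_one]
    rfl
  rw [wr_D_apply, hX, wr_P_smul_basis, wr_Q_smul_basis, wty_eval_smul_basis]
  simp [wrDA, wrDB, wrL]
  ring

theorem wty_eval_D_YClass {a b : K} (h : W.Equation a b) :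
    wrEval h (wrD W (CoordinateRing.YClass W (C b))) =
      -(W.a₁ * b - (3 * a ^ 2 + 2 * W.a₂ * a + W.a₄)) := by
  have hY : CoordinateRing.YClass W (C b) =
      (-C b : K[X]) • (1 : W.CoordinateRing) + (1 : K[X]) • wrY W := by
    rw [one_smul, Algebra.smul_def, mul_one]
    unfold wrY CoordinateRing.YClass
    change CoordinateRing.mk W (Y - C (C b)) = CoordinateRing.mk W (C (-C b)) + _
    rw [← map_add]
    congr 1
    rw [map_neg]
    ring
  rw [wr_D_apply, hY, wr_P_smul_basis, wr_Q_smul_basis, wty_eval_smul_basis]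
  simp [wrDA, wrDB, wrL, wrG']
  ring

/-- a local parameter at a nonsingular point -/
theorem wty_exists_parameter {a b : K} (h : W.Nonsingular a b) :
    ∃ t : W.CoordinateRing, t ∈ CoordinateRing.XYIdeal W a (C b) ∧
      wrEval h.1 (wrD W t) ≠ 0 := by
  rcases h.2 with hx | hy
  · refine ⟨CoordinateRing.YClass W (C b), wty_YClass_mem a b, ?_⟩
    rw [wty_eval_D_YClass, neg_ne_zero, ← evalEval_polynomialX]
    exact hx
  · refine ⟨CoordinateRing.XClass W a, wty_XClass_mem a b, ?_⟩
    rw [wty_eval_D_XClass, ← evalEval_polynomialY]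
    exact hy

/-- `I_P ^ k = (g) + I_P ^ (k + 1)` for any `g ∈ I_P ^ k \ I_P ^ (k + 1)`. -/
theorem wty_pow_eq_span_sup {a b : K} (h : W.Nonsingular a b) (k : ℕ) {g : W.CoordinateRing}
    (hg : g ∈ CoordinateRing.XYIdeal W a (C b) ^ k)
    (hg' : g ∉ CoordinateRing.XYIdeal W a (C b) ^ (k + 1)) :
    CoordinateRing.XYIdeal W a (C b) ^ k =
      Ideal.span {g} ⊔ CoordinateRing.XYIdeal W a (C b) ^ (k + 1) := by
  have hIJ : CoordinateRing.XYIdeal W a (C b) * CoordinateRing.XYIdeal W a (C <| W.negY a b) =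
      Ideal.span {CoordinateRing.XClass W a} := by
    rw [mul_comm, CoordinateRing.XYIdeal_neg_mul h]
    rfl
  exact tld_pow_eq_span_sup (CoordinateRing.XClass_ne_zero a) hIJ (tld_XYIdeal_isMaximal h.left)
    k hg hg'

/-- **Taylor criterion** (characteristic zero): vanishing of the first `n` derivatives at `P`
forces order of vanishing at least `n`. -/
theorem wty_mem_pow_of_eval_iterate [CharZero K] {a b : K} (h : W.Nonsingular a b) (n : ℕ)
    {f : W.CoordinateRing} (hf : ∀ i, i < n → wrEval h.1 ((⇑(wrD W))^[i] f) = 0) :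
    f ∈ CoordinateRing.XYIdeal W a (C b) ^ n := by
  induction n with
  | zero => rw [pow_zero, Ideal.one_eq_top]; exact Submodule.mem_top
  | succ n ih =>
    have hfn := ih (fun i hi => hf i (Nat.lt_succ_of_lt hi))
    obtain ⟨t, ht, hDt⟩ := wty_exists_parameter h
    have hfact : ((n.factorial : K) * wrEval h.1 (wrD W t) ^ n) ≠ 0 :=
      mul_ne_zero (Nat.cast_ne_zero.mpr (Nat.factorial_ne_zero n)) (pow_ne_zero n hDt)
    have htn : t ^ n ∈ CoordinateRing.XYIdeal W a (C b) ^ n := Ideal.pow_mem_pow ht n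
    have htn' : t ^ n ∉ CoordinateRing.XYIdeal W a (C b) ^ (n + 1) := by
      intro hmem
      have h0 := wty_eval_iterate_eq_zero_of_mem_pow h (n + 1) hmem n (Nat.lt_succ_self n)
      have h1 := wty_eval_iterate_pow_mul h ht n 1
      rw [mul_one, h0, map_one, mul_one] at h1
      exact hfact h1.symm
    have hsup := wty_pow_eq_span_sup h n htn htn'
    rw [hsup] at hfn
    obtain ⟨u, hu, g', hg', rfl⟩ := Submodule.mem_sup.mp hfn
    obtain ⟨s, rfl⟩ := Ideal.mem_span_singleton'.mp hu
    have h2 := hf n (Nat.lt_succ_self n)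
    rw [wty_iterate_add, map_add,
      wty_eval_iterate_eq_zero_of_mem_pow h (n + 1) hg' n (Nat.lt_succ_self n), add_zero,
      mul_comm s, wty_eval_iterate_pow_mul h ht n s] at h2
    have hs : wrEval h.1 s = 0 := by
      rcases mul_eq_zero.mp h2 with h3 | h3
      · exact absurd h3 hfact
      · exact h3
    have hsI : s ∈ CoordinateRing.XYIdeal W a (C b) := (wr_eval_eq_zero_iff h.1 s).mp hs
    refine Ideal.add_mem _ ?_ hg'
    rw [pow_succ']
    exact Ideal.mul_mem_mul hsI htn

end Fermat.Agent.S13x
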