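import Fermat.Agent.S13x.WronFil
import Fermat.Agent.S13x.WronNorm
import Fermat.Agent.S13x.WronTaylor

/-!
# S13 leaf (d), Wronskian route, module T5: the torsion criterion

`wr_nsmul_eq_zero_iff` : a nonsingular affine point `P` satisfies `n • P = 0` iff the Wronskian
`wron W n` vanishes at `P`.
-/

set_option autoImplicit false

open Polynomial WeierstrassCurve WeierstrassCurve.Affine
open scoped Polynomial.Bivariate

namespace Fermat.Agent.S13x

variable {K : Type*} [Field K] {W : Affine K}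

/-! ### The index function `wrIdx` -/

lemma wt_idx_ne_one {n : ℕ} (j : Fin n) : wrIdx j ≠ 1 := by
  unfold wrIdx
  split_ifs with h
  · exact zero_ne_one
  · omega

lemma wt_idx_le {n : ℕ} (j : Fin n) : wrIdx j ≤ n := by
  unfold wrIdx
  split_ifs with h
  · exact Nat.zero_le n
  · exact j.2

lemma wt_idx_injective {n : ℕ} : Function.Injective (wrIdx : Fin n → ℕ) := by
  intro i j hij
  unfold wrIdx at hij
  apply Fin.ext
  split_ifs at hij with h1 h2 h2 <;> omega

section Basis

variable (W)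

lemma wt_P_smul_one (p : K[X]) : wrP W (p • (1 : W.CoordinateRing)) = p := by
  have := wr_P_smul_basis W p 0
  rwa [zero_smul, add_zero] at this

lemma wt_Q_smul_one (p : K[X]) : wrQ W (p • (1 : W.CoordinateRing)) = 0 := by
  have := wr_Q_smul_basis W p 0
  rwa [zero_smul, add_zero] at this

lemma wt_P_smul_Y (q : K[X]) : wrP W (q • wrY W) = 0 := by
  have := wr_P_smul_basis W 0 q
  rwa [zero_smul, zero_add] at this

lemma wt_Q_smul_Y (q : K[X]) : wrQ W (q • wrY W) = q := by
  have := wr_Q_smul_basis W 0 q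
  rwa [zero_smul, zero_add] at this

lemma wt_top_E_eq (d m : ℕ) (hd : d ≠ 1) (hm : m ≠ 1) :
    wrTop W m (wrE W d) = if d = m then 1 else 0 := by
  unfold wrTop wrE
  by_cases hde : Even d <;> by_cases hme : Even m
  · rw [if_pos hde, if_pos hme, wt_P_smul_one, coeff_X_pow]
    obtain ⟨a, rfl⟩ := hde
    obtain ⟨c, rfl⟩ := hme
    have h1 : (a + a) / 2 = a := by omega
    have h2 : (c + c) / 2 = c := by omega
    rw [h1, h2]
    by_cases hac : a = c
    · subst hac; simp
    · rw [if_neg (fun h => hac h.symm), if_neg (fun h => hac (by omega))]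
  · rw [if_pos hde, if_neg hme, wt_Q_smul_one, coeff_zero, if_neg]
    rintro rfl; exact hme hde
  · rw [if_neg hde, if_pos hme, wt_P_smul_Y, coeff_zero, if_neg]
    rintro rfl; exact hde hme
  · rw [if_neg hde, if_neg hme, wt_Q_smul_Y, coeff_X_pow]
    rw [Nat.not_even_iff_odd] at hde hme
    obtain ⟨a, rfl⟩ := hde
    obtain ⟨c, rfl⟩ := hme
    have ha : 1 ≤ a := by omega
    have hc : 1 ≤ c := by omega
    have h1 : (2 * a + 1 - 3) / 2 = a - 1 := by omega
    have h2 : (2 * c + 1 - 3) / 2 = c - 1 := by omega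
    rw [h1, h2]
    by_cases hac : a = c
    · subst hac; simp
    · rw [if_neg (fun h => hac (by omega)), if_neg (fun h => hac (by omega))]

lemma wt_E_mem_fil {d : ℕ} (hd : d ≠ 1) : wrE W d ∈ wrFil W d := by
  rw [wr_mem_fil]
  unfold wrE
  by_cases hde : Even d
  · rw [if_pos hde, wt_P_smul_one, wt_Q_smul_one, degree_zero]
    refine ⟨?_, WithBot.bot_lt_coe _⟩
    rw [degree_X_pow]
    exact_mod_cast Nat.lt_succ_self _
  · rw [if_neg hde, wt_P_smul_Y, wt_Q_smul_Y, degree_zero]
    refine ⟨WithBot.bot_lt_coe _, ?_⟩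
    rw [degree_X_pow]
    rw [Nat.not_even_iff_odd] at hde
    obtain ⟨a, rfl⟩ := hde
    have : (2 * a + 1 - 3) / 2 < (2 * a + 1 - 1) / 2 := by omega
    exact_mod_cast this

end Basis

/-! ### Linearity -/

variable (W) in
/-- the coefficient functional `wrTop m` as a linear map -/
noncomputable def wtTopLin (m : ℕ) : W.CoordinateRing →ₗ[K] K where
  toFun := wrTop W m
  map_add' := wr_top_add W m
  map_smul' c f := by
    rw [wr_top_smul, RingHom.id_apply, smul_eq_mul]

lemma wt_topLin_apply (m : ℕ) (f : W.CoordinateRing) : wtTopLin W m f = wrTop W m f := rfl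

lemma wt_iterate_D_eq_pow (i : ℕ) (f : W.CoordinateRing) :
    (⇑(wrD W))^[i] f = (((wrD W : Derivation K W.CoordinateRing W.CoordinateRing) :
      W.CoordinateRing →ₗ[K] W.CoordinateRing) ^ i) f := by
  rw [Module.End.pow_apply]
  rfl

/-- the standard element of `L(n·O)` with coordinates `v` -/
noncomputable def wtComb {n : ℕ} (v : Fin n → K) : W.CoordinateRing :=
  ∑ j : Fin n, v j • wrE W (wrIdx j)

lemma wt_comb_mem_fil {n : ℕ} (v : Fin n → K) : wtComb (W := W) v ∈ wrFil W n := by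
  unfold wtComb
  refine Submodule.sum_mem _ fun j _ => Submodule.smul_mem _ _ ?_
  exact wr_fil_mono W (wt_idx_le j) (wt_E_mem_fil W (wt_idx_ne_one j))

lemma wt_top_comb {n : ℕ} (v : Fin n → K) (i : Fin n) :
    wrTop W (wrIdx i) (wtComb (W := W) v) = v i := by
  rw [← wt_topLin_apply, wtComb, map_sum]
  rw [Finset.sum_eq_single i]
  · rw [map_smul, wt_topLin_apply, wt_top_E_eq W _ _ (wt_idx_ne_one i) (wt_idx_ne_one i), if_pos rfl,
      smul_eq_mul, mul_one]
  · intro j _ hji
    rw [map_smul, wt_topLin_apply, wt_top_E_eq W _ _ (wt_idx_ne_one j) (wt_idx_ne_one i),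
      if_neg (fun h => hji (wt_idx_injective h)), smul_zero]
  · intro hi
    exact absurd (Finset.mem_univ i) hi

lemma wt_idx_surj {n : ℕ} (hn : 1 ≤ n) {m : ℕ} (hm1 : m ≠ 1) (hmn : m ≤ n) :
    ∃ j : Fin n, wrIdx j = m := by
  rcases Nat.eq_zero_or_pos m with rfl | hm
  · exact ⟨⟨0, hn⟩, by simp [wrIdx]⟩
  · refine ⟨⟨m - 1, by omega⟩, ?_⟩
    unfold wrIdx
    rw [if_neg (by simp; omega)]
    simp; omega

/-- an element all of whose coefficient functionals vanish is zero -/
lemma wt_eq_zero_of_top {g : W.CoordinateRing} (hg : ∀ m, m ≠ 1 → wrTop W m g = 0) : g = 0 := by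
  apply wr_ext W
  · rw [wr_P_zero]
    ext k
    rw [← wr_top_even, coeff_zero]
    exact hg (2 * k) (by omega)
  · rw [wr_Q_zero]
    ext k
    have := wr_top_odd W (k + 1) g
    rw [Nat.add_sub_cancel] at this
    rw [← this, coeff_zero]
    exact hg (2 * (k + 1) + 1) (by omega)

lemma wt_comb_top {n : ℕ} (hn : 1 ≤ n) {f : W.CoordinateRing} (hf : f ∈ wrFil W n) :
    wtComb (W := W) (fun j : Fin n => wrTop W (wrIdx j) f) = f := by
  rw [← sub_eq_zero]
  apply wt_eq_zero_of_top
  intro m hm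
  rw [← wt_topLin_apply, map_sub, wt_topLin_apply, wt_topLin_apply]
  by_cases hmn : m ≤ n
  · obtain ⟨j, rfl⟩ := wt_idx_surj hn hm hmn
    rw [wt_top_comb, sub_self]
  · have h1 : wrTop W m f = 0 := wr_top_eq_zero_of_mem_fil W hf (by omega)
    have h2 : wrTop W m (wtComb (W := W) (fun j : Fin n => wrTop W (wrIdx j) f)) = 0 :=
      wr_top_eq_zero_of_mem_fil W (wt_comb_mem_fil _) (by omega)
    rw [h1, h2, sub_self]

/-- the matrix of the Taylor map `T_P` on the standard basis of `L(n·O)` -/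
noncomputable def wtMat {a b : K} (h : W.Equation a b) (n : ℕ) : Matrix (Fin n) (Fin n) K :=
  Matrix.of fun i j : Fin n => wrEval h ((⇑(wrD W))^[(i : ℕ)] (wrE W (wrIdx j)))

lemma wt_eval_wron {a b : K} (h : W.Equation a b) (n : ℕ) :
    wrEval h (wron W n) = (wtMat h n).det := by
  unfold wron wtMat
  rw [AlgHom.map_det]
  rfl

lemma wt_mulVec_apply {a b : K} (h : W.Equation a b) {n : ℕ} (v : Fin n → K) (i : Fin n) :
    (wtMat h n).mulVec v i = wrEval h ((⇑(wrD W))^[(i : ℕ)] (wtComb (W := W) v)) := by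
  rw [wt_iterate_D_eq_pow, wtComb, map_sum, map_sum]
  change ∑ j, wtMat h n i j * v j = _
  refine Finset.sum_congr rfl fun j _ => ?_
  rw [map_smul, map_smul, smul_eq_mul, mul_comm, ← wt_iterate_D_eq_pow]
  rfl

/-! ### The criterion -/

/-- T5.1 -/
theorem wr_nsmul_eq_zero_iff_isPrincipal [DecidableEq K] {a b : K} (h : W.Nonsingular a b)
    (n : ℕ) :
    n • Point.some a b h = 0 ↔
      ∃ f : W.CoordinateRing, f ≠ 0 ∧ CoordinateRing.XYIdeal W a (C b) ^ n = Ideal.span {f} :=
  tp_nsmul_eq_zero_iff_principal h n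

/-- T5.2 -/
theorem wr_isPrincipal_iff_exists_mem_fil {a b : K} (h : W.Nonsingular a b) (n : ℕ) :
    (∃ f : W.CoordinateRing, f ≠ 0 ∧ CoordinateRing.XYIdeal W a (C b) ^ n = Ideal.span {f}) ↔
      ∃ f : W.CoordinateRing, f ≠ 0 ∧ f ∈ wrFil W n ∧
        f ∈ CoordinateRing.XYIdeal W a (C b) ^ n := by
  classical
  rw [← tp_nsmul_eq_zero_iff_principal h n, tld_nsmul_eq_zero_iff h n]
  constructor
  · rintro ⟨f, hf, hdeg, hmem⟩
    exact ⟨f, hf, wrn_mem_fil_of_natDegree_norm_le W hdeg, hmem⟩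
  · rintro ⟨f, hf, hfil, hmem⟩
    exact ⟨f, hf, wrn_natDegree_norm_le_of_mem_fil W hfil, hmem⟩

/-- T5.3 -/
theorem wr_exists_mem_fil_iff_eval_wron [CharZero K] {a b : K} (h : W.Nonsingular a b) (n : ℕ)
    (hn : 1 ≤ n) :
    (∃ f : W.CoordinateRing, f ≠ 0 ∧ f ∈ wrFil W n ∧
        f ∈ CoordinateRing.XYIdeal W a (C b) ^ n) ↔
      wrEval h.1 (wron W n) = 0 := by
  rw [wt_eval_wron, ← Matrix.exists_mulVec_eq_zero_iff]
  constructor
  · rintro ⟨f, hf, hfil, hmem⟩
    refine ⟨fun j : Fin n => wrTop W (wrIdx j) f, ?_, ?_⟩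
    · intro hv
      apply hf
      rw [← wt_comb_top hn hfil, hv]
      unfold wtComb
      simp
    · funext i
      rw [wt_mulVec_apply, wt_comb_top hn hfil, Pi.zero_apply]
      exact wty_eval_iterate_eq_zero_of_mem_pow h n hmem i i.2
  · rintro ⟨v, hv, hMv⟩
    refine ⟨wtComb (W := W) v, ?_, wt_comb_mem_fil v, ?_⟩
    · intro h0
      apply hv
      funext i
      rw [← wt_top_comb (W := W) v i, h0, ← wt_topLin_apply, map_zero, Pi.zero_apply]
    · apply wty_mem_pow_of_eval_iterate h n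
      intro i hi
      have := congrFun hMv ⟨i, hi⟩
      rw [wt_mulVec_apply, Pi.zero_apply] at this
      exact this

/-- **MAIN CRITERION**: `P` is `n`-torsion iff the Wronskian vanishes at `P`. -/
theorem wr_nsmul_eq_zero_iff [DecidableEq K] [CharZero K] {a b : K} (h : W.Nonsingular a b)
    (n : ℕ) (hn : 1 ≤ n) : n • Point.some a b h = 0 ↔ wrEval h.1 (wron W n) = 0 := by
  rw [wr_nsmul_eq_zero_iff_isPrincipal h n, wr_isPrincipal_iff_exists_mem_fil h n,
    wr_exists_mem_fil_iff_eval_wron h n hn]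

end Fermat.Agent.S13x
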