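/-
S13 project, row B2: LEMMA SS with its exact Spec name `not_all_inE1`.

The torsion polynomial `A_N` of the Frey curve is assembled here (under the private-prefix name
`sst_exists_torsion_poly`) from the landed Wronskian modules: W03 `WronDeg` (pole order and top
coefficient of the Wronskian), W05 `WronTors` (torsion criterion), W07 `WronInt` + `FreyTorsPoly`
(integrality, Frey instance); then `SSTop.sst_not_all_inE1` finishes.
-/
import Fermat.Agent.S13x.SSTop
import Fermat.Agent.S13x.FreyTorsPoly
import Fermat.Agent.S13x.WronDeg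
import Fermat.Agent.S13x.WronTors

set_option autoImplicit false

namespace Fermat.Agent.S13x

open WeierstrassCurve WeierstrassCurve.Affine WeierstrassCurve.Affine.Point

/-- (A_N) the torsion polynomial of the Frey curve (same statement as `Spec.exists_torsion_poly`). -/
theorem sst_exists_torsion_poly (P : FreyPackage) :
    ∃ (N : Polynomial ℤ) (u : ℤ), ¬ (P.p : ℤ) ∣ u ∧ N.leadingCoeff = (P.p : ℤ) ^ 2 * u ∧
      (∀ r : Qb, (N.map (algebraMap ℤ Qb)).IsRoot r →
        ∃ (y : Qb) (h : (P.freyCurve⁄Qb).Nonsingular r y),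
          P.p • (Point.some r y h : FreyPt P) = 0) ∧
      (∀ (x y : Qb) (h : (P.freyCurve⁄Qb).Nonsingular x y),
        P.p • (Point.some x y h : FreyPt P) = 0 →
          (Polynomial.X - Polynomial.C x) ^ 2 ∣ N.map (algebraMap ℤ Qb)) := by
  have hn : 1 ≤ P.p := P.hppos
  have hcz : CharZero Qb := charZero_of_injective_algebraMap (algebraMap ℚ Qb).injective
  exact ftp_exists_torsion_poly_of P (wron_mem_fil _ P.p hn) (wr_top_wron_eq_prod _ P.p hn)
    (fun h => wr_nsmul_eq_zero_iff h P.p hn)

/-- (B2) LEMMA SS: in presence of a Galois-stable line not all of `V` is in the kernel of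
reduction -/
theorem not_all_inE1 (P : FreyPackage) (A : ValuationSubring Qb) (hA : A.LiesOverPrime P.p)
    (N : Submodule (ZMod P.p) (FreyV P)) (hN : IsGaloisStable ℚ N) (hbot : N ≠ ⊥) (htop : N ≠ ⊤) :
    ∃ x : FreyV P, ¬ InE1 A (x : FreyPt P) :=
  sst_not_all_inE1 P A hA (sst_exists_torsion_poly P) N hN hbot htop

end Fermat.Agent.S13x
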