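import Fermat.Agent.S13x.AssemblyB
import Fermat.Agent.S13x.SSLemma
import Fermat.Agent.S13x.InertiaTwo

/-!
# S13 project, module G5c: the final assembly with everything but C2 plugged in

`s13_of_one` proves the frozen S13 statement from the single remaining top-level statement
C2 `no_fixed_torsion` (no rational point of order `p` on the Frey curve), taken as a hypothesis.
-/

set_option autoImplicit false
open WeierstrassCurve WeierstrassCurve.Affine WeierstrassCurve.Affine.Point

namespace Fermat.Agent.S13x

theorem s13_of_one (P : FreyPackage)
    (hC2 : ∀ x : FreyV P, (∀ σ : GQ, σ • x = x) → x = 0)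
    (hred : ¬ GaloisRepIsIrreducible (K := AlgebraicClosure ℚ) ℚ P.freyCurve P.p) :
    HasGaloisStableCofixedLine (K := AlgebraicClosure ℚ) ℚ P.freyCurve P.p :=
  s13_of_three P
    (fun A hA N hN hbot htop => not_all_inE1 P A hA N hN hbot htop)
    (fun A hA σ hσ x => inertia_two_unipotent P A hA σ hσ x)
    hC2 hred

end Fermat.Agent.S13x
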