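import Mathlib

/-!
# S13 project: lifting inertia elements through a closed normal subgroup (abstract, profinite)

`G` profinite acting continuously on a discrete commutative ring `B`, `N` a closed normal
subgroup, `Q` a prime of `B`.  If `σ : G` acts trivially modulo `Q` on the `N`-invariants,
then some `n * σ` with `n ∈ N` acts trivially modulo `Q` on all of `B`.
-/

set_option autoImplicit false

namespace Fermat.Agent.S13x

open scoped Pointwise

section Abstract

variable {B : Type*} [CommRing B] {G : Type*} [Group G] [MulSemiringAction G B]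
  [TopologicalSpace G] [CompactSpace G] [TotallyDisconnectedSpace G] [IsTopologicalGroup G]
  [TopologicalSpace B] [DiscreteTopology B] [ContinuousSMul G B]

omit [TopologicalSpace G] [CompactSpace G] [TotallyDisconnectedSpace G] [IsTopologicalGroup G]
  [TopologicalSpace B] [DiscreteTopology B] [ContinuousSMul G B] in
theorem il_isInvariant (N : Subgroup G) :
    Algebra.IsInvariant (FixedPoints.subalgebra ℤ B N) B N :=
  ⟨fun x h ↦ ⟨⟨x, h⟩, rfl⟩⟩

theorem il_lift_inertia (N : Subgroup G) [hNn : N.Normal] (hN : IsClosed (N : Set G))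
    (Q : Ideal B) [Q.IsPrime] (σ : G)
    (hσ : ∀ a : B, (∀ n ∈ N, n • a = a) → σ • a - a ∈ Q) :
    ∃ n ∈ N, ∀ x : B, (n * σ) • x - x ∈ Q := by
  have : CompactSpace N := isCompact_iff_compactSpace.mp hN.isCompact
  have := il_isInvariant (B := B) N
  set A₁ := FixedPoints.subalgebra ℤ B N with hA₁
  -- fixed elements are moved to fixed elements
  have hfix : ∀ (g : G) (a : B), (∀ n ∈ N, n • a = a) → ∀ n ∈ N, n • g • a = g • a := by
    intro g a ha n hn
    have h1 : g⁻¹ * n * g ∈ N := by
      have := hNn.conj_mem n hn g⁻¹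
      simpa using this
    have h2 := ha _ h1
    calc n • g • a = g • (g⁻¹ * n * g) • a := by simp [mul_smul]
      _ = g • a := by rw [h2]
  -- step (i)
  have hunder : (σ • Q).under A₁ = Q.under A₁ := by
    ext a
    simp only [Ideal.under_def, Ideal.mem_comap]
    rw [Ideal.mem_pointwise_smul_iff_inv_smul_mem]
    have ha : ∀ n ∈ N, n • (a : B) = a := fun n hn ↦ a.2 ⟨n, hn⟩
    have hb := hσ (σ⁻¹ • (a : B)) (hfix σ⁻¹ _ ha)
    rw [smul_inv_smul] at hb
    constructor
    · intro h
      have := Q.add_mem hb h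
      simpa using this
    · intro h
      have := Q.sub_mem h hb
      simpa using this
  -- step (ii)
  obtain ⟨n₁, hn₁⟩ := Algebra.IsInvariant.exists_smul_of_under_eq_of_profinite (A := A₁) (G := N)
    (σ • Q) Q hunder
  set τ₂ : G := (n₁ : G) * σ with hτ₂
  have hτ₂Q : τ₂ • Q = Q := by
    rw [hτ₂, mul_smul]
    exact hn₁.symm
  have hτ₂A : ∀ a : B, (∀ n ∈ N, n • a = a) → τ₂ • a - a ∈ Q := by
    intro a ha
    have h1 : (n₁ : G) • (σ • a) = σ • a := hfix σ a ha _ n₁.2
    rw [hτ₂, mul_smul, h1]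
    exact hσ a ha
  -- step (iii)
  have hmap : Q = Q.map (MulSemiringAction.toRingEquiv G B τ₂) := by
    conv_lhs => rw [← hτ₂Q]
    rfl
  let φ : (B ⧸ Q) ≃ₐ[A₁ ⧸ Q.under A₁] (B ⧸ Q) :=
    { Ideal.quotientEquiv Q Q (MulSemiringAction.toRingEquiv G B τ₂) hmap with
      commutes' := by
        intro x
        obtain ⟨a, rfl⟩ := Ideal.Quotient.mk_surjective x
        have ha : ∀ n ∈ N, n • (a : B) = a := fun n hn ↦ a.2 ⟨n, hn⟩
        have := hτ₂A a ha
        exact Ideal.Quotient.eq.mpr this }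
  have hφ : ∀ x : B, φ (Ideal.Quotient.mk Q x) = Ideal.Quotient.mk Q (τ₂ • x) := fun x ↦ rfl
  -- step (iv)
  obtain ⟨g, hg⟩ := Ideal.Quotient.stabilizerHom_surjective_of_profinite (G := N)
    (Q.under A₁) Q φ.symm
  refine ⟨(g : N) * n₁, (N.mul_mem (g : N).2 n₁.2), fun x ↦ ?_⟩
  have h1 : Ideal.Quotient.stabilizerHom Q (Q.under A₁) N g (φ (Ideal.Quotient.mk Q x)) =
      Ideal.Quotient.mk Q x := by
    rw [hg]
    exact φ.symm_apply_apply _
  rw [hφ, Ideal.Quotient.stabilizerHom_apply] at h1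
  have h2 := Ideal.Quotient.eq.mp h1
  have h3 : (((g : N) : G) * n₁ * σ) • x = (g : N) • (τ₂ • x) := by
    rw [hτ₂, mul_assoc, mul_smul]
    rfl
  rw [h3]
  exact h2

end Abstract

end Fermat.Agent.S13x
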