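import Mathlib
import Fermat.Prelude.Def_FLTPrelim_Ramification
import Fermat.Agent.S54x.FrobExists
import Fermat.Agent.S13x.InertiaLift

/-!
# S13 project: the global step

A normal subgroup of `Gal(ℚ̄/ℚ)` which contains the fixing subgroup of a finite extension and all
inertia subgroups (of all valuation subrings of `ℚ̄` over all primes) is the whole group.
-/

set_option autoImplicit false

namespace Fermat.Agent.S13x

open Polynomial
open scoped Pointwise NumberField

noncomputable section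

local notation "Ω" => AlgebraicClosure ℚ
local notation "Γ" => (AlgebraicClosure ℚ ≃ₐ[ℚ] AlgebraicClosure ℚ)
local notation "𝓑" => integralClosure ℤ (AlgebraicClosure ℚ)

open Fermat.Agent.S54x

/-- An automorphism acting trivially on `𝓑 ⧸ Q` lies in the inertia group of the localization
of `𝓑` at `Q`. -/
theorem gu_mem_inertia_locVS (Q : Ideal 𝓑) [Q.IsPrime]
    (halg : ∀ x : Ω, x ≠ 0 → ∃ p : 𝓑[X], aeval x p = 0 ∧ ∃ i, p.coeff i ∉ Q)
    (τ : Γ) (hτ : ∀ b : 𝓑, τ • b - b ∈ Q) :
    τ ∈ (locVS 𝓑 mem_of_isIntegral_B Q halg).inertiaSubgroupIn ℚ := by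
  set A : ValuationSubring Ω := locVS 𝓑 mem_of_isIntegral_B Q halg with hA
  -- `τ` stabilizes `Q`
  have hτQ : τ • Q = Q := by
    ext x
    rw [Ideal.mem_pointwise_smul_iff_inv_smul_mem]
    have h1 := hτ (τ⁻¹ • x)
    rw [smul_inv_smul] at h1
    constructor
    · intro h
      have := Q.add_mem h1 h
      simpa using this
    · intro h
      have := Q.sub_mem h h1
      simpa using this
  have hτinvQ : τ⁻¹ • Q = Q := by
    conv_lhs => rw [← hτQ]
    rw [inv_smul_smul]
  have hτA : τ ∈ A.decompositionSubgroup ℚ := by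
    rw [MulAction.mem_stabilizer_iff]
    ext x
    rw [ValuationSubring.mem_pointwise_smul_iff_inv_smul_mem]
    constructor
    · intro h
      have := smul_mem_locVS Q halg τ hτQ _ h
      simpa using this
    · intro h
      exact smul_mem_locVS Q halg τ⁻¹ hτinvQ _ h
  refine ⟨⟨τ, hτA⟩, ?_, rfl⟩
  show (⟨τ, hτA⟩ : A.decompositionSubgroup ℚ) ∈ A.inertiaSubgroup ℚ
  rw [ValuationSubring.inertiaSubgroup, MonoidHom.mem_ker]
  ext x
  show (⟨τ, hτA⟩ : A.decompositionSubgroup ℚ) • x = x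
  obtain ⟨a, rfl⟩ := IsLocalRing.residue_surjective x
  rw [← IsLocalRing.ResidueField.residue_smul]
  obtain ⟨s, b, hs, hsb⟩ := a.2
  -- the inclusion of `𝓑` into `A`
  let ι : 𝓑 →+* A :=
    { toFun := fun b => ⟨(b : Ω), coe_mem_locVS 𝓑 mem_of_isIntegral_B Q halg b⟩
      map_one' := rfl
      map_mul' := fun _ _ => rfl
      map_zero' := rfl
      map_add' := fun _ _ => rfl }
  let r : 𝓑 →+* IsLocalRing.ResidueField A := (IsLocalRing.residue A).comp ι
  have hrQ : ∀ q ∈ Q, r q = 0 := by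
    intro q hq
    show IsLocalRing.residue A (ι q) = 0
    rw [IsLocalRing.residue_eq_zero_iff, ← ValuationSubring.coe_mem_nonunits_iff]
    exact coe_mem_nonunits_locVS 𝓑 mem_of_isIntegral_B Q halg hq
  have hrτ : ∀ b : 𝓑, r (τ • b) = r b := by
    intro b
    have := hrQ _ (hτ b)
    rwa [map_sub, sub_eq_zero] at this
  have hιs : ι s * a = ι b := Subtype.ext hsb
  have hιs' : ι (τ • s) * ((⟨τ, hτA⟩ : A.decompositionSubgroup ℚ) • a) = ι (τ • b) := by
    apply Subtype.ext
    show τ (s : Ω) * τ (a : Ω) = τ (b : Ω)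
    rw [← map_mul, hsb]
  have h1 := congrArg (IsLocalRing.residue A) hιs
  have h2 := congrArg (IsLocalRing.residue A) hιs'
  rw [map_mul] at h1 h2
  change r (τ • s) * _ = r (τ • b) at h2
  change r s * _ = r b at h1
  rw [hrτ, hrτ, ← h1] at h2
  have hrs : r s ≠ 0 := by
    intro h0
    have hinv : ι s * ⟨(s : Ω)⁻¹, inv_mem_locVS 𝓑 mem_of_isIntegral_B Q halg hs⟩ = 1 := by
      apply Subtype.ext
      show (s : Ω) * (s : Ω)⁻¹ = 1
      refine mul_inv_cancel₀ ?_
      intro h
      apply hs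
      have : s = 0 := Subtype.ext h
      rw [this]; exact Q.zero_mem
    have := congrArg (IsLocalRing.residue A) hinv
    rw [map_mul, map_one] at this
    change r s * _ = 1 at this
    rw [h0, zero_mul] at this
    exact zero_ne_one this
  exact mul_left_cancel₀ hrs h2


/-- the map from the ring of integers of `K` to the ring of all algebraic integers -/
def guJ (K : Type) [Field K] [NumberField K] [Algebra K Ω] : 𝓞 K →+* 𝓑 :=
  ((algebraMap K Ω).comp (algebraMap (𝓞 K) K)).codRestrict 𝓑 (fun x => by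
    have h1 : IsIntegral ℤ (algebraMap (𝓞 K) K x) := NumberField.RingOfIntegers.isIntegral_coe x
    exact h1.algebraMap)

theorem guJ_coe (K : Type) [Field K] [NumberField K] [Algebra K Ω] (x : 𝓞 K) :
    ((guJ K x : 𝓑) : Ω) = algebraMap K Ω (x : K) := rfl

/-- If every prime of `𝓞 K` over `q` is ramified, then for every prime `Q` of `𝓑` over `q` there
is an element of the absolute Galois group acting trivially on `𝓑 ⧸ Q` but not on `K`. -/
theorem gu_exists_trivial_mod_prime (K : Type) [Field K] [NumberField K] [IsGalois ℚ K]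
    [Algebra K Ω] (q : ℕ)
    (hram : ∀ (P : Ideal (𝓞 K)) (_ : P.IsPrime), (q : 𝓞 K) ∈ P → ¬ Algebra.IsUnramifiedAt ℤ P)
    (Q : Ideal 𝓑) [Q.IsPrime] (hQP : Q.comap (algebraMap ℤ 𝓑) = Ideal.span {(q : ℤ)}) :
    ∃ τ : Γ, (∀ b : 𝓑, τ • b - b ∈ Q) ∧
      ∃ x : K, τ (algebraMap K Ω x) ≠ algebraMap K Ω x := by
  have hgalΩ := isGalois_Qbar
  have hnormΩ : Normal ℚ Ω := hgalΩ.to_normal
  have hqQ : (q : 𝓑) ∈ Q := by
    have : (q : ℤ) ∈ Q.comap (algebraMap ℤ 𝓑) := by
      rw [hQP]; exact Ideal.mem_span_singleton_self _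
    simpa using this
  -- the prime of `𝓞 K` below `Q`
  let P : Ideal (𝓞 K) := Q.comap (guJ K)
  have hPprime : P.IsPrime := Ideal.comap_isPrime (guJ K) Q
  have hqP : (q : 𝓞 K) ∈ P := by
    show guJ K (q : 𝓞 K) ∈ Q
    rw [map_natCast]
    exact hqQ
  have hPram := hram P hPprime hqP
  -- a nontrivial inertia element at level `K`
  have hcard : Nat.card (P.inertia Gal(K/ℚ)) ≠ 1 := by
    rw [Ideal.card_inertia_eq_ramificationIdxIn (G := Gal(K/ℚ)) (P.under ℤ) P,
      Ideal.ramificationIdxIn_eq_ramificationIdx (P.under ℤ) P Gal(K/ℚ)]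
    intro h
    exact hPram (Ideal.ramificationIdx_eq_one_iff.mp h)
  obtain ⟨σ₀, hσ₀mem, hσ₀ne⟩ : ∃ σ₀ ∈ P.inertia Gal(K/ℚ), σ₀ ≠ 1 := by
    by_contra hcon
    push Not at hcon
    apply hcard
    have : P.inertia Gal(K/ℚ) = ⊥ := (Subgroup.eq_bot_iff_forall _).mpr hcon
    rw [this]
    simp
  -- lift `σ₀` to the absolute Galois group
  obtain ⟨σ, hσ⟩ := AlgEquiv.restrictNormalHom_surjective (F := ℚ) (K₁ := K) Ω σ₀
  have hσcomm : ∀ x : K, σ (algebraMap K Ω x) = algebraMap K Ω (σ₀ x) := by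
    intro x
    rw [← hσ]
    exact (AlgEquiv.restrictNormal_commutes σ K x).symm
  -- the closed normal subgroup fixing `K`
  let N : Subgroup Γ := (AlgEquiv.restrictNormalHom (F := ℚ) (K₁ := Ω) K).ker
  have hNnormal : N.Normal := MonoidHom.normal_ker _
  have hinj : Function.Injective (algebraMap K Ω) := (algebraMap K Ω).injective
  have hNmem : ∀ n : Γ, n ∈ N ↔ ∀ x : K, n (algebraMap K Ω x) = algebraMap K Ω x := by
    intro n
    rw [MonoidHom.mem_ker]
    constructor
    · intro h x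
      have h1 := AlgEquiv.restrictNormal_commutes n K x
      have h2 : n.restrictNormal K = 1 := h
      rw [h2] at h1
      exact h1.symm
    · intro h
      apply AlgEquiv.ext
      intro x
      apply hinj
      have h1 := AlgEquiv.restrictNormal_commutes n K x
      rw [h x] at h1
      exact h1
  let F : IntermediateField ℚ Ω := (IsScalarTower.toAlgHom ℚ K Ω).fieldRange
  have hNF : N = F.fixingSubgroup := by
    ext n
    rw [hNmem, IntermediateField.mem_fixingSubgroup_iff]
    constructor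
    · rintro h _ ⟨x, rfl⟩
      exact h x
    · intro h x
      exact h _ ⟨x, rfl⟩
  have hNclosed : IsClosed (N : Set Γ) := by
    rw [hNF]
    exact InfiniteGalois.fixingSubgroup_isClosed F
  -- the hypothesis of the lifting lemma
  have hσQ : ∀ a : 𝓑, (∀ n ∈ N, n • a = a) → σ • a - a ∈ Q := by
    intro a ha
    have haF : (a : Ω) ∈ F := by
      rw [← InfiniteGalois.fixedField_fixingSubgroup F, IntermediateField.mem_fixedField_iff]
      intro n hn
      rw [← hNF] at hn
      exact congrArg Subtype.val (ha n hn)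
    obtain ⟨y, hy⟩ := haF
    have hy' : algebraMap K Ω y = (a : Ω) := hy
    have hyint : IsIntegral ℤ y := by
      have h1 : IsIntegral ℤ (algebraMap K Ω y) := by rw [hy']; exact a.2
      exact (isIntegral_algebraMap_iff hinj).mp h1
    let y' : 𝓞 K := ⟨y, hyint⟩
    have hJy : guJ K y' = a := Subtype.ext hy'
    have h1 : σ₀ • y' - y' ∈ P := hσ₀mem y'
    have h2 : guJ K (σ₀ • y' - y') ∈ Q := h1
    have h3 : guJ K (σ₀ • y' - y') = σ • a - a := by
      apply Subtype.ext
      rw [map_sub, hJy]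
      show algebraMap K Ω (σ₀ y) - (a : Ω) = σ (a : Ω) - (a : Ω)
      rw [← hσcomm, hy']
    rwa [h3] at h2
  -- apply the lifting lemma
  let _ : TopologicalSpace 𝓑 := ⊥
  have : DiscreteTopology 𝓑 := ⟨rfl⟩
  have : ContinuousSMul Γ 𝓑 := continuousSMul_iff_stabilizer_isOpen.mpr stabilizer_isOpen_B
  obtain ⟨n, hnN, hτ⟩ := il_lift_inertia N hNclosed Q σ hσQ
  refine ⟨n * σ, hτ, ?_⟩
  obtain ⟨x, hx⟩ : ∃ x : K, σ₀ x ≠ x := by
    by_contra hcon
    push Not at hcon
    exact hσ₀ne (AlgEquiv.ext hcon)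
  refine ⟨x, ?_⟩
  show n (σ (algebraMap K Ω x)) ≠ algebraMap K Ω x
  rw [hσcomm, (hNmem n).mp hnN]
  exact fun h => hx (hinj h)

/-- the centre on `𝓑` of a valuation subring of `ℚ̄` -/
theorem gu_coe_mem_valuationSubring (A : ValuationSubring Ω) (b : 𝓑) : (b : Ω) ∈ A := by
  have h1 : IsIntegral ℤ (b : Ω) := b.2
  have h2 : IsIntegral A (b : Ω) := h1.tower_top
  obtain ⟨y, hy⟩ := IsIntegrallyClosedIn.isIntegral_iff.mp h2
  rw [← hy]
  exact y.2

/-- the inclusion of `𝓑` in a valuation subring -/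
def guIncl (A : ValuationSubring Ω) : 𝓑 →+* A :=
  (algebraMap 𝓑 Ω).codRestrict A (gu_coe_mem_valuationSubring A)

/-- the centre on `𝓑` of a valuation subring of `ℚ̄` -/
def guCenter (A : ValuationSubring Ω) : Ideal 𝓑 :=
  (IsLocalRing.maximalIdeal A).comap (guIncl A)

instance gu_center_isPrime (A : ValuationSubring Ω) : (guCenter A).IsPrime :=
  Ideal.comap_isPrime (guIncl A) _

theorem gu_mem_center_iff (A : ValuationSubring Ω) (b : 𝓑) :
    b ∈ guCenter A ↔ (b : Ω) ∈ A.nonunits := by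
  show guIncl A b ∈ IsLocalRing.maximalIdeal A ↔ _
  rw [← ValuationSubring.coe_mem_nonunits_iff]
  rfl

theorem gu_center_comap (A : ValuationSubring Ω) {q : ℕ} (hq : q.Prime)
    (hA : A.LiesOverPrime q) :
    (guCenter A).comap (algebraMap ℤ 𝓑) = Ideal.span {(q : ℤ)} := by
  have hq' : Prime (q : ℤ) := Nat.prime_iff_prime_int.mp hq
  have hmax : (Ideal.span {(q : ℤ)}).IsMaximal :=
    PrincipalIdealRing.isMaximal_of_irreducible hq'.irreducible
  have hne : (guCenter A).comap (algebraMap ℤ 𝓑) ≠ ⊤ :=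
    (Ideal.comap_isPrime (algebraMap ℤ 𝓑) (guCenter A)).ne_top
  refine (hmax.eq_of_le hne ?_).symm
  rw [Ideal.span_singleton_le_iff_mem, Ideal.mem_comap, gu_mem_center_iff]
  have : ((algebraMap ℤ 𝓑 (q : ℤ) : 𝓑) : Ω) = (q : Ω) := by simp
  rw [this]
  exact hA

/-- every valuation subring of `ℚ̄` is the localization of `𝓑` at its centre -/
theorem gu_eq_locVS (A : ValuationSubring Ω)
    (halg : ∀ x : Ω, x ≠ 0 → ∃ p : 𝓑[X], aeval x p = 0 ∧ ∃ i, p.coeff i ∉ guCenter A) :
    A = locVS 𝓑 mem_of_isIntegral_B (guCenter A) halg := by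
  have hsub : ∀ x, x ∈ locVS 𝓑 mem_of_isIntegral_B (guCenter A) halg → x ∈ A := by
    rintro x ⟨s, b, hs, hsb⟩
    rw [gu_mem_center_iff, ValuationSubring.mem_nonunits_iff_or] at hs
    push Not at hs
    obtain ⟨hs0, hsinv⟩ := hs
    have : x = (s : Ω)⁻¹ * (b : Ω) := by
      rw [← hsb, ← mul_assoc, inv_mul_cancel₀ hs0, one_mul]
    rw [this]
    exact A.mul_mem _ _ hsinv (gu_coe_mem_valuationSubring A b)
  apply le_antisymm
  · intro a ha
    rcases (locVS 𝓑 mem_of_isIntegral_B (guCenter A) halg).mem_or_inv_mem a with h | h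
    · exact h
    · by_cases ha0 : a = 0
      · rw [ha0]; exact zero_mem _
      obtain ⟨s, b, hs, hsb⟩ := h
      by_cases hb : b ∈ guCenter A
      · exfalso
        apply hs
        rw [gu_mem_center_iff] at hb ⊢
        have h1 : (s : Ω) = (b : Ω) * a := by
          rw [← hsb, mul_assoc, inv_mul_cancel₀ ha0, mul_one]
        rw [h1]
        have h2 : (⟨(b : Ω), gu_coe_mem_valuationSubring A b⟩ : A) ∈ IsLocalRing.maximalIdeal A :=
          (ValuationSubring.coe_mem_nonunits_iff).mp hb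
        have h3 := Ideal.mul_mem_right (⟨a, ha⟩ : A) _ h2
        exact (ValuationSubring.coe_mem_nonunits_iff).mpr h3
      · refine ⟨b, s, hb, ?_⟩
        rw [← hsb]
        field_simp
  · exact hsub

/-- **Finite Galois extensions of `ℚ` are ramified, in the inertia-subgroup sense.**  There is a
prime `q` such that for EVERY valuation subring of `ℚ̄` over `q` some inertia element moves `K`. -/
theorem gu_exists_prime_forall_inertia (K : Type) [Field K] [NumberField K] [IsGalois ℚ K]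
    [Algebra K Ω] (hK : 1 < Module.finrank ℚ K) :
    ∃ q : ℕ, q.Prime ∧ ∀ A : ValuationSubring Ω, A.LiesOverPrime q →
      ∃ σ ∈ A.inertiaSubgroupIn ℚ, ∃ x : K, σ (algebraMap K Ω x) ≠ algebraMap K Ω x := by
  obtain ⟨q, hq, hram⟩ :=
    NumberField.exists_not_isUnramifiedAt_int_of_isGalois (K := K) (𝒪 := 𝓞 K) hK
  refine ⟨q, hq, fun A hA => ?_⟩
  have hQP := gu_center_comap A hq hA
  have halg := exists_poly_B q hq (guCenter A) hQP
  obtain ⟨τ, hτ, x, hx⟩ := gu_exists_trivial_mod_prime K q hram (guCenter A) hQP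
  have hmem := gu_mem_inertia_locVS (guCenter A) halg τ hτ
  rw [← gu_eq_locVS A halg] at hmem
  exact ⟨τ, hmem, x, hx⟩

theorem gu_exists_inertia_not_fixing (K : Type) [Field K] [NumberField K] [IsGalois ℚ K]
    [Algebra K Ω] (hK : 1 < Module.finrank ℚ K) :
    ∃ q : ℕ, q.Prime ∧ ∃ A : ValuationSubring Ω, A.LiesOverPrime q ∧
      ∃ σ ∈ A.inertiaSubgroupIn ℚ, ∃ x : K, σ (algebraMap K Ω x) ≠ algebraMap K Ω x := by
  obtain ⟨q, hq, h⟩ := gu_exists_prime_forall_inertia K hK
  obtain ⟨A, hA, -⟩ := exists_isFrobeniusAt q hq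
  exact ⟨q, hq, A, hA, h A hA⟩

/-- transport of the native intermediate-field instances to the canonical rational ones -/
theorem gu_transport (K : Type) [Field K] [CharZero K] (a : Algebra ℚ K)
    (h1 : @FiniteDimensional ℚ K _ _ a.toModule) (h2 : @IsGalois ℚ _ K _ a)
    (h3 : 1 < @Module.finrank ℚ K _ _ a.toModule) :
    ∃ (_ : NumberField K) (_ : IsGalois ℚ K), 1 < Module.finrank ℚ K := by
  obtain rfl : a = DivisionRing.toRatAlgebra := Subsingleton.elim _ _
  exact ⟨NumberField.mk, h2, h3⟩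

/-- **Global step**, `∃`-form. A normal subgroup of the absolute Galois group of `ℚ` which contains
the pointwise stabilizer of a finite set and, for every prime `q`, the inertia subgroup of SOME
valuation subring over `q`, is everything. -/
theorem gu_eq_top_of_exists (H : Subgroup Γ) [hHn : H.Normal]
    (hfin : ∃ s : Finset Ω, ∀ g : Γ, (∀ x ∈ s, g x = x) → g ∈ H)
    (hI : ∀ q : ℕ, q.Prime → ∃ A : ValuationSubring Ω, A.LiesOverPrime q ∧
      A.inertiaSubgroupIn ℚ ≤ H) :
    H = ⊤ := by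
  have hgalΩ := isGalois_Qbar
  obtain ⟨s, hs⟩ := hfin
  let L : IntermediateField ℚ Ω := IntermediateField.adjoin ℚ (s : Set Ω)
  have hLfin : FiniteDimensional ℚ L :=
    IntermediateField.finiteDimensional_adjoin (fun x _ => Algebra.IsIntegral.isIntegral x)
  have hLH : L.fixingSubgroup ≤ H := by
    intro g hg
    apply hs
    intro x hx
    exact (IntermediateField.mem_fixingSubgroup_iff L g).mp hg x
      (IntermediateField.subset_adjoin ℚ _ hx)
  have hHopen : IsOpen (H : Set Γ) := Subgroup.isOpen_mono hLH L.fixingSubgroup_isOpen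
  have hHclosed : IsClosed (H : Set Γ) := Subgroup.isClosed_of_isOpen H hHopen
  let M : IntermediateField ℚ Ω := IntermediateField.fixedField H
  have hMH : M.fixingSubgroup = H :=
    InfiniteGalois.fixingSubgroup_fixedField ⟨H, hHclosed⟩
  have hMH' : IsOpen M.fixingSubgroup.carrier ∧ M.fixingSubgroup.Normal := by
    rw [hMH]
    exact ⟨hHopen, hHn⟩
  obtain ⟨hMfin, hMgal⟩ :=
    (InfiniteGalois.isOpen_and_normal_iff_finite_and_isGalois M).mp hMH'
  by_contra hHtop
  have hMbot : M ≠ ⊥ := by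
    intro h
    apply hHtop
    rw [← hMH, h, IntermediateField.fixingSubgroup_bot]
  have hrank : 1 < Module.finrank ℚ M := by
    have h1 : 0 < Module.finrank ℚ M := Module.finrank_pos
    have h2 : Module.finrank ℚ M ≠ 1 := fun h => hMbot (IntermediateField.finrank_eq_one_iff.mp h)
    omega
  obtain ⟨hNF, hGal, hrank'⟩ := gu_transport M _ hMfin hMgal hrank
  obtain ⟨q, hq, hall⟩ := gu_exists_prime_forall_inertia M hrank'
  obtain ⟨A, hA, hAH⟩ := hI q hq
  obtain ⟨σ, hσA, x, hx⟩ := hall A hA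
  have hσH : σ ∈ H := hAH hσA
  rw [← hMH] at hσH
  exact hx ((IntermediateField.mem_fixingSubgroup_iff M σ).mp hσH _ x.2)

/-- **Global step**, `∀`-form: a normal subgroup of the absolute Galois group of `ℚ` which contains
the pointwise stabilizer of a finite set and ALL inertia subgroups is everything. -/
theorem gu_eq_top (H : Subgroup Γ) [hHn : H.Normal]
    (hfin : ∃ s : Finset Ω, ∀ g : Γ, (∀ x ∈ s, g x = x) → g ∈ H)
    (hI : ∀ q : ℕ, q.Prime → ∀ A : ValuationSubring Ω, A.LiesOverPrime q →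
      A.inertiaSubgroupIn ℚ ≤ H) :
    H = ⊤ := by
  refine gu_eq_top_of_exists H hfin (fun q hq => ?_)
  obtain ⟨A, hA, -⟩ := exists_isFrobeniusAt q hq
  exact ⟨A, hA, hI q hq A hA⟩

/-- Character form of the global step, `∃`-form: it suffices to know, for each prime `q`, that ONE
inertia subgroup over `q` is killed. -/
theorem gu_hom_eq_one_of_exists {C : Type*} [Group C] (χ : Γ →* C)
    (hfin : ∃ s : Finset Ω, ∀ g : Γ, (∀ x ∈ s, g x = x) → χ g = 1)
    (hI : ∀ q : ℕ, q.Prime → ∃ A : ValuationSubring Ω, A.LiesOverPrime q ∧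
      ∀ σ ∈ A.inertiaSubgroupIn ℚ, χ σ = 1) (g : Γ) : χ g = 1 := by
  have h : χ.ker = ⊤ := by
    refine gu_eq_top_of_exists χ.ker ?_ ?_
    · obtain ⟨s, hs⟩ := hfin
      exact ⟨s, fun g hg => MonoidHom.mem_ker.mpr (hs g hg)⟩
    · intro q hq
      obtain ⟨A, hA, hAχ⟩ := hI q hq
      exact ⟨A, hA, fun σ hσ => MonoidHom.mem_ker.mpr (hAχ σ hσ)⟩
  have : g ∈ χ.ker := by rw [h]; trivial
  exact MonoidHom.mem_ker.mp this

/-- Character form of the global step: a homomorphism from the absolute Galois group of `ℚ`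
which factors through the action on a finite set and kills every inertia subgroup is trivial. -/
theorem gu_hom_eq_one {C : Type*} [Group C] (χ : Γ →* C)
    (hfin : ∃ s : Finset Ω, ∀ g : Γ, (∀ x ∈ s, g x = x) → χ g = 1)
    (hI : ∀ q : ℕ, q.Prime → ∀ A : ValuationSubring Ω, A.LiesOverPrime q →
      ∀ σ ∈ A.inertiaSubgroupIn ℚ, χ σ = 1) (g : Γ) : χ g = 1 := by
  have h : χ.ker = ⊤ := by
    refine gu_eq_top χ.ker ?_ ?_
    · obtain ⟨s, hs⟩ := hfin
      exact ⟨s, fun g hg => MonoidHom.mem_ker.mpr (hs g hg)⟩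
    · intro q hq A hA σ hσ
      exact MonoidHom.mem_ker.mpr (hI q hq A hA σ hσ)
  have : g ∈ χ.ker := by rw [h]; trivial
  exact MonoidHom.mem_ker.mp this

end

end Fermat.Agent.S13x
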