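import Mathlib
import Fermat.Agent.S13x.Defs
import Fermat.Agent.S13x.GlobalUnramified

/-!
# S13 project, module E: the global step (Minkowski), EXISTS-form

A normal subgroup of `Gal(ℚ̄/ℚ)` which contains the fixing subgroup of a finite extension and, for
every prime `q`, the inertia subgroup of ONE valuation subring of `ℚ̄` over `q`, is everything.

The proof reuses the `∀`-form of helper59 (`GlobalUnramified.lean`): the only new input is that an
arbitrary valuation subring `A` of `ℚ̄` over `q` is the localization of the ring `𝓑` of all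
algebraic integers at its centre `m_A ∩ 𝓑` (`mink_eq_locVS`).
-/

set_option autoImplicit false

namespace Fermat.Agent.S13x

open Polynomial
open scoped Pointwise NumberField

noncomputable section

local notation "Ω" => AlgebraicClosure ℚ
local notation "Γ" => (AlgebraicClosure ℚ ≃ₐ[ℚ] AlgebraicClosure ℚ)
local notation "𝓑" => integralClosure ℤ (AlgebraicClosure ℚ)

open Fermat.Agent.S54x

/-- algebraic integers lie in every valuation subring -/
theorem mink_coe_mem (A : ValuationSubring Ω) (b : 𝓑) : (b : Ω) ∈ A := by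
  have hb : IsIntegral ℤ (b : Ω) := b.2
  have hb' : IsIntegral A (b : Ω) := hb.tower_top
  obtain ⟨a, ha⟩ := IsIntegrallyClosed.algebraMap_eq_of_integral hb'
  rw [← ha]
  exact a.2

/-- the centre of a valuation subring on the ring of all algebraic integers -/
def minkCenter (A : ValuationSubring Ω) : Ideal 𝓑 where
  carrier := {b | (b : Ω) ∈ A.nonunits}
  add_mem' := by
    intro a b ha hb
    simp only [Set.mem_ofPred_eq, ValuationSubring.mem_nonunits_iff] at ha hb ⊢
    push_cast
    exact lt_of_le_of_lt (A.valuation.map_add _ _) (max_lt ha hb)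
  zero_mem' := by
    simp only [Set.mem_ofPred_eq, ValuationSubring.mem_nonunits_iff]
    simp
  smul_mem' := by
    intro c b hb
    simp only [Set.mem_ofPred_eq, ValuationSubring.mem_nonunits_iff, smul_eq_mul] at hb ⊢
    push_cast
    rw [map_mul]
    have hc : A.valuation (c : Ω) ≤ 1 := (A.valuation_le_one_iff _).mpr (mink_coe_mem A c)
    calc A.valuation (c : Ω) * A.valuation (b : Ω) ≤ 1 * A.valuation (b : Ω) :=
          mul_le_mul' hc le_rfl
      _ = A.valuation (b : Ω) := one_mul _
      _ < 1 := hb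

theorem mem_minkCenter_iff (A : ValuationSubring Ω) (b : 𝓑) :
    b ∈ minkCenter A ↔ (b : Ω) ∈ A.nonunits := Iff.rfl

theorem minkCenter_isPrime (A : ValuationSubring Ω) : (minkCenter A).IsPrime := by
  refine ⟨?_, ?_⟩
  · rw [Ideal.ne_top_iff_one, mem_minkCenter_iff, ValuationSubring.mem_nonunits_iff]
    simp
  · intro a b hab
    rw [mem_minkCenter_iff, ValuationSubring.mem_nonunits_iff] at hab
    simp only [mem_minkCenter_iff, ValuationSubring.mem_nonunits_iff]
    push_cast at hab
    rw [map_mul] at hab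
    by_contra hcon
    push Not at hcon
    have ha : A.valuation (a : Ω) = 1 :=
      le_antisymm ((A.valuation_le_one_iff _).mpr (mink_coe_mem A a)) hcon.1
    have hb : A.valuation (b : Ω) = 1 :=
      le_antisymm ((A.valuation_le_one_iff _).mpr (mink_coe_mem A b)) hcon.2
    rw [ha, hb, one_mul] at hab
    exact lt_irrefl _ hab

theorem minkCenter_comap (A : ValuationSubring Ω) {q : ℕ} (hq : q.Prime)
    (hA : A.LiesOverPrime q) :
    (minkCenter A).comap (algebraMap ℤ 𝓑) = Ideal.span {(q : ℤ)} := by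
  have hq' : Prime (q : ℤ) := Nat.prime_iff_prime_int.mp hq
  have hmax : (Ideal.span {(q : ℤ)}).IsMaximal :=
    PrincipalIdealRing.isMaximal_of_irreducible hq'.irreducible
  have hprime := minkCenter_isPrime A
  have hle : Ideal.span {(q : ℤ)} ≤ (minkCenter A).comap (algebraMap ℤ 𝓑) := by
    rw [Ideal.span_singleton_le_iff_mem, Ideal.mem_comap, mem_minkCenter_iff]
    have : ((algebraMap ℤ 𝓑 (q : ℤ) : 𝓑) : Ω) = (q : Ω) := by simp
    rw [this]
    exact hA
  have hne : (minkCenter A).comap (algebraMap ℤ 𝓑) ≠ ⊤ :=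
    (Ideal.comap_isPrime (algebraMap ℤ 𝓑) (minkCenter A)).ne_top
  exact (hmax.eq_of_le hne hle).symm

/-- an arbitrary valuation subring of `ℚ̄` over `q` is the localization of `𝓑` at its centre -/
theorem mink_eq_locVS (A : ValuationSubring Ω) [hp : (minkCenter A).IsPrime]
    (halg : ∀ x : Ω, x ≠ 0 → ∃ p : 𝓑[X], aeval x p = 0 ∧ ∃ i, p.coeff i ∉ minkCenter A) :
    A = locVS 𝓑 mem_of_isIntegral_B (minkCenter A) halg := by
  have key : ∀ x : Ω, x ∈ locVS 𝓑 mem_of_isIntegral_B (minkCenter A) halg → x ∈ A := by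
    rintro x ⟨s, b, hs, hsx⟩
    rw [mem_minkCenter_iff, ValuationSubring.mem_nonunits_iff, not_lt] at hs
    have hs1 : A.valuation (s : Ω) = 1 :=
      le_antisymm ((A.valuation_le_one_iff _).mpr (mink_coe_mem A s)) hs
    rw [← A.valuation_le_one_iff]
    have h1 : A.valuation ((s : Ω) * x) ≤ 1 := by
      rw [hsx]; exact (A.valuation_le_one_iff _).mpr (mink_coe_mem A b)
    rwa [map_mul, hs1, one_mul] at h1
  ext x
  constructor
  · intro hx
    rcases (locVS 𝓑 mem_of_isIntegral_B (minkCenter A) halg).mem_or_inv_mem x with h | h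
    · exact h
    · by_cases hx0 : x = 0
      · rw [hx0]; exact (locVS 𝓑 mem_of_isIntegral_B (minkCenter A) halg).zero_mem
      obtain ⟨s, b, hs, hsx⟩ := h
      -- `b * x = s`, and `b` is not in the centre
      have hbx : (b : Ω) * x = s := by
        rw [← hsx, mul_assoc, inv_mul_cancel₀ hx0, mul_one]
      refine ⟨b, s, ?_, hbx⟩
      intro hb
      apply hs
      rw [mem_minkCenter_iff, ValuationSubring.mem_nonunits_iff] at hb ⊢
      rw [← hbx, map_mul]
      have hx1 : A.valuation x ≤ 1 := (A.valuation_le_one_iff _).mpr hx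
      calc A.valuation (b : Ω) * A.valuation x ≤ A.valuation (b : Ω) * 1 :=
            mul_le_mul' le_rfl hx1
        _ = A.valuation (b : Ω) := mul_one _
        _ < 1 := hb
  · exact key x

/-- finite level + lifting, for an ARBITRARY valuation subring over a prime all of whose primes in
`K` ramify (adaptation of `gu_exists_inertia_not_fixing` of helper59). -/
theorem mink_exists_inertia_not_fixing (K : Type) [Field K] [NumberField K] [IsGalois ℚ K]
    [Algebra K Ω] (q : ℕ) (hq : q.Prime)
    (hram : ∀ (P : Ideal (𝓞 K)) (_ : P.IsPrime), (q : 𝓞 K) ∈ P → ¬ Algebra.IsUnramifiedAt ℤ P)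
    (A : ValuationSubring Ω) (hA : A.LiesOverPrime q) :
    ∃ σ ∈ A.inertiaSubgroupIn ℚ, ∃ x : K, σ (algebraMap K Ω x) ≠ algebraMap K Ω x := by
  have hgalΩ := isGalois_Qbar
  have hnormΩ : Normal ℚ Ω := hgalΩ.to_normal
  -- the centre of `A`
  let Q : Ideal 𝓑 := minkCenter A
  have hQprime : Q.IsPrime := minkCenter_isPrime A
  have hQP : Q.comap (algebraMap ℤ 𝓑) = Ideal.span {(q : ℤ)} := minkCenter_comap A hq hA
  have hqQ : (q : 𝓑) ∈ Q := by
    rw [mem_minkCenter_iff]
    have : (((q : ℕ) : 𝓑) : Ω) = (q : Ω) := by simp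
    rw [this]
    exact hA
  -- the prime of `𝓞 K` below `Q`
  let P : Ideal (𝓞 K) := Q.comap (guJ K)
  have hPprime : P.IsPrime := Ideal.comap_isPrime (guJ K) Q
  have hqP : (q : 𝓞 K) ∈ P := by
    show guJ K (q : 𝓞 K) ∈ Q
    rw [map_natCast]
    exact hqQ
  have hPram := hram P hPprime hqP
  -- a nontrivial inertia element at level `K`
  have hcard : Nat.card (P.inertia Gal(K/ℚ)) ≠ 1 := by
    rw [Ideal.card_inertia_eq_ramificationIdxIn (G := Gal(K/ℚ)) (P.under ℤ) P,
      Ideal.ramificationIdxIn_eq_ramificationIdx (P.under ℤ) P Gal(K/ℚ)]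
    intro h
    exact hPram (Ideal.ramificationIdx_eq_one_iff.mp h)
  obtain ⟨σ₀, hσ₀mem, hσ₀ne⟩ : ∃ σ₀ ∈ P.inertia Gal(K/ℚ), σ₀ ≠ 1 := by
    by_contra hcon
    push Not at hcon
    apply hcard
    have : P.inertia Gal(K/ℚ) = ⊥ := (Subgroup.eq_bot_iff_forall _).mpr hcon
    rw [this]
    simp
  -- lift `σ₀` to the absolute Galois group
  obtain ⟨σ, hσ⟩ := AlgEquiv.restrictNormalHom_surjective (F := ℚ) (K₁ := K) Ω σ₀
  have hσcomm : ∀ x : K, σ (algebraMap K Ω x) = algebraMap K Ω (σ₀ x) := by
    intro x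
    rw [← hσ]
    exact (AlgEquiv.restrictNormal_commutes σ K x).symm
  -- the closed normal subgroup fixing `K`
  let N : Subgroup Γ := (AlgEquiv.restrictNormalHom (F := ℚ) (K₁ := Ω) K).ker
  have hNnormal : N.Normal := MonoidHom.normal_ker _
  have hinj : Function.Injective (algebraMap K Ω) := (algebraMap K Ω).injective
  have hNmem : ∀ n : Γ, n ∈ N ↔ ∀ x : K, n (algebraMap K Ω x) = algebraMap K Ω x := by
    intro n
    rw [MonoidHom.mem_ker]
    constructor
    · intro h x
      have h1 := AlgEquiv.restrictNormal_commutes n K x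
      have h2 : n.restrictNormal K = 1 := h
      rw [h2] at h1
      exact h1.symm
    · intro h
      apply AlgEquiv.ext
      intro x
      apply hinj
      have h1 := AlgEquiv.restrictNormal_commutes n K x
      rw [h x] at h1
      exact h1
  let F : IntermediateField ℚ Ω := (IsScalarTower.toAlgHom ℚ K Ω).fieldRange
  have hNF : N = F.fixingSubgroup := by
    ext n
    rw [hNmem, IntermediateField.mem_fixingSubgroup_iff]
    constructor
    · rintro h _ ⟨x, rfl⟩
      exact h x
    · intro h x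
      exact h _ ⟨x, rfl⟩
  have hNclosed : IsClosed (N : Set Γ) := by
    rw [hNF]
    exact InfiniteGalois.fixingSubgroup_isClosed F
  -- the hypothesis of the lifting lemma
  have hσQ : ∀ a : 𝓑, (∀ n ∈ N, n • a = a) → σ • a - a ∈ Q := by
    intro a ha
    have haF : (a : Ω) ∈ F := by
      rw [← InfiniteGalois.fixedField_fixingSubgroup F, IntermediateField.mem_fixedField_iff]
      intro n hn
      rw [← hNF] at hn
      exact congrArg Subtype.val (ha n hn)
    obtain ⟨y, hy⟩ := haF
    have hy' : algebraMap K Ω y = (a : Ω) := hy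
    have hyint : IsIntegral ℤ y := by
      have h1 : IsIntegral ℤ (algebraMap K Ω y) := by rw [hy']; exact a.2
      exact (isIntegral_algebraMap_iff hinj).mp h1
    let y' : 𝓞 K := ⟨y, hyint⟩
    have hJy : guJ K y' = a := Subtype.ext hy'
    have h1 : σ₀ • y' - y' ∈ P := hσ₀mem y'
    have h2 : guJ K (σ₀ • y' - y') ∈ Q := h1
    have h3 : guJ K (σ₀ • y' - y') = σ • a - a := by
      apply Subtype.ext
      rw [map_sub, hJy]
      show algebraMap K Ω (σ₀ y) - (a : Ω) = σ (a : Ω) - (a : Ω)
      rw [← hσcomm, hy']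
    rwa [h3] at h2
  -- apply the lifting lemma
  let _ : TopologicalSpace 𝓑 := ⊥
  have : DiscreteTopology 𝓑 := ⟨rfl⟩
  have : ContinuousSMul Γ 𝓑 := continuousSMul_iff_stabilizer_isOpen.mpr stabilizer_isOpen_B
  obtain ⟨n, hnN, hτ⟩ := il_lift_inertia N hNclosed Q σ hσQ
  have halg := exists_poly_B q hq Q hQP
  have hAeq : A = locVS 𝓑 mem_of_isIntegral_B Q halg := mink_eq_locVS A halg
  have hmem := gu_mem_inertia_locVS Q halg (n * σ) hτ
  rw [← hAeq] at hmem
  refine ⟨n * σ, hmem, ?_⟩
  obtain ⟨x, hx⟩ : ∃ x : K, σ₀ x ≠ x := by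
    by_contra hcon
    push Not at hcon
    exact hσ₀ne (AlgEquiv.ext hcon)
  refine ⟨x, ?_⟩
  show n (σ (algebraMap K Ω x)) ≠ algebraMap K Ω x
  rw [hσcomm, (hNmem n).mp hnN]
  exact fun h => hx (hinj h)

/-- every prime has a valuation subring of `ℚ̄` above it -/
theorem exists_liesOverPrime {q : ℕ} (hq : q.Prime) :
    ∃ A : ValuationSubring Qb, A.LiesOverPrime q := by
  have hq' : Prime (q : ℤ) := Nat.prime_iff_prime_int.mp hq
  let P0 : Ideal ℤ := Ideal.span {(q : ℤ)}
  have hP0max : P0.IsMaximal := PrincipalIdealRing.isMaximal_of_irreducible hq'.irreducible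
  obtain ⟨Q, -, hQprime, hQP⟩ := Ideal.exists_ideal_over_prime_of_isIntegral P0 (⊥ : Ideal 𝓑)
    (by simp)
  have := hQprime
  have hqQ : (q : 𝓑) ∈ Q := by
    have : (q : ℤ) ∈ Q.comap (algebraMap ℤ 𝓑) := by
      rw [hQP]; exact Ideal.mem_span_singleton_self _
    simpa using this
  have halg := exists_poly_B q hq Q hQP
  refine ⟨locVS 𝓑 mem_of_isIntegral_B Q halg, ?_⟩
  have := coe_mem_nonunits_locVS 𝓑 mem_of_isIntegral_B Q halg hqQ
  simpa [ValuationSubring.LiesOverPrime] using this

/-- **Global step, EXISTS-form.** A normal subgroup of the absolute Galois group of `ℚ` which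
contains the fixing subgroup of a finite extension and, for every prime, the inertia subgroup of
one valuation subring above it, is everything. -/
theorem eq_top_of_forall_exists_inertia_le (H : Subgroup GQ) [hHn : H.Normal]
    (hopen : ∃ M : IntermediateField ℚ Qb, FiniteDimensional ℚ M ∧ M.fixingSubgroup ≤ H)
    (hI : ∀ q : ℕ, q.Prime →
      ∃ A : ValuationSubring Qb, A.LiesOverPrime q ∧ A.inertiaSubgroupIn ℚ ≤ H) : H = ⊤ := by
  have hgalΩ := isGalois_Qbar
  obtain ⟨L, hLfin, hLH⟩ := hopen
  have hHopen : IsOpen (H : Set Γ) := Subgroup.isOpen_mono hLH L.fixingSubgroup_isOpen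
  have hHclosed : IsClosed (H : Set Γ) := Subgroup.isClosed_of_isOpen H hHopen
  let M : IntermediateField ℚ Ω := IntermediateField.fixedField H
  have hMH : M.fixingSubgroup = H :=
    InfiniteGalois.fixingSubgroup_fixedField ⟨H, hHclosed⟩
  have hMH' : IsOpen M.fixingSubgroup.carrier ∧ M.fixingSubgroup.Normal := by
    rw [hMH]
    exact ⟨hHopen, hHn⟩
  obtain ⟨hMfin, hMgal⟩ :=
    (InfiniteGalois.isOpen_and_normal_iff_finite_and_isGalois M).mp hMH'
  by_contra hHtop
  have hMbot : M ≠ ⊥ := by
    intro h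
    apply hHtop
    rw [← hMH, h, IntermediateField.fixingSubgroup_bot]
  have hrank : 1 < Module.finrank ℚ M := by
    have h1 : 0 < Module.finrank ℚ M := Module.finrank_pos
    have h2 : Module.finrank ℚ M ≠ 1 := fun h => hMbot (IntermediateField.finrank_eq_one_iff.mp h)
    omega
  obtain ⟨hNF, hGal, hrank'⟩ := gu_transport M _ hMfin hMgal hrank
  obtain ⟨q, hq, hram⟩ :=
    NumberField.exists_not_isUnramifiedAt_int_of_isGalois (K := M) (𝒪 := 𝓞 M) hrank'
  obtain ⟨A, hA, hAH⟩ := hI q hq
  obtain ⟨σ, hσA, x, hx⟩ := mink_exists_inertia_not_fixing M q hq hram A hA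
  have hσH : σ ∈ H := hAH hσA
  rw [← hMH] at hσH
  exact hx ((IntermediateField.mem_fixingSubgroup_iff M σ).mp hσH _ x.2)

/-- `∀`-form corollary: it is enough to know the inertia subgroups of ALL valuation subrings. -/
theorem mink_eq_top_of_forall_inertia_le (H : Subgroup GQ) [hHn : H.Normal]
    (hopen : ∃ M : IntermediateField ℚ Qb, FiniteDimensional ℚ M ∧ M.fixingSubgroup ≤ H)
    (hI : ∀ q : ℕ, q.Prime → ∀ A : ValuationSubring Qb, A.LiesOverPrime q →
      A.inertiaSubgroupIn ℚ ≤ H) : H = ⊤ := by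
  refine eq_top_of_forall_exists_inertia_le H hopen (fun q hq => ?_)
  obtain ⟨A, hA⟩ := exists_liesOverPrime hq
  exact ⟨A, hA, hI q hq A hA⟩

end

end Fermat.Agent.S13x
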