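import Fermat.Agent.S13x.FreyInt
import Fermat.Agent.S13x.W1Saw
import Fermat.Agent.S13x.FreyTwo
import Fermat.Agent.S13x.FixedRat
import Fermat.Agent.S13x.Minkowski

/-!
# S13 project, module C09: the Frey curve has no Galois-fixed point of order `p`

`nrt_*`: the `2`-adic argument.  For `A` over `2`, the Frey model `y² + xy = x³ + a₂x² + a₄x` has a
node at `(0,0)` with `v(a₄) = v(2)^h`, `p ∤ 2h`.  A `p`-torsion point with rational `x` has
`v(x) = 1` by the sawtooth lemma (`W1Saw`) and by the absence of odd torsion in the kernel of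
reduction (`WGen`).  Rational `2`-integral numbers have only two residue classes, so two of
`Q, 2Q, 3Q` have the same (nonsingular) reduction, hence differ by an element of the kernel of
reduction, which is `p`-torsion, hence zero.
-/

set_option autoImplicit false
open WeierstrassCurve WeierstrassCurve.Affine WeierstrassCurve.Affine.Point
open FreyPackage

namespace Fermat.Agent.S13x

open Fermat.Agent.S05x

/-! ## valuation bookkeeping -/

section Val

variable {Γ : Type*} [LinearOrderedCommGroupWithZero Γ]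

theorem nrt_zpow_lt_one_iff {a : Γ} (h0 : a ≠ 0) (h1 : a < 1) (k : ℤ) : a ^ k < 1 ↔ 0 < k := by
  have ha : 0 < a := zero_lt_iff.mpr h0
  constructor
  · intro h
    by_contra hk
    rw [not_lt] at hk
    have : 1 ≤ a ^ k := by
      obtain ⟨n, rfl⟩ : ∃ n : ℕ, k = -(n : ℤ) := ⟨k.natAbs, by omega⟩
      rw [zpow_neg, zpow_natCast]
      exact (one_le_inv₀ (pow_pos ha n)).mpr (pow_le_one₀ ha.le h1.le)
    exact absurd h (not_lt.mpr this)
  · intro hk
    obtain ⟨n, rfl⟩ : ∃ n : ℕ, k = (n : ℤ) := ⟨k.toNat, by omega⟩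
    rw [zpow_natCast]
    exact pow_lt_one₀ ha.le h1 (by omega)

theorem nrt_zpow_lt_zpow_iff {a : Γ} (h0 : a ≠ 0) (h1 : a < 1) (k l : ℤ) :
    a ^ k < a ^ l ↔ l < k := by
  have hl0 : a ^ l ≠ 0 := zpow_ne_zero l h0
  have : a ^ k < a ^ l ↔ a ^ (k - l) < 1 := by
    rw [zpow_sub₀ h0, div_lt_one₀ (zero_lt_iff.mpr hl0)]
  rw [this, nrt_zpow_lt_one_iff h0 h1]
  omega

theorem nrt_zpow_inj {a : Γ} (h0 : a ≠ 0) (h1 : a < 1) {k l : ℤ} (h : a ^ k = a ^ l) : k = l := by
  rcases lt_trichotomy k l with hkl | hkl | hkl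
  · exact absurd h ((nrt_zpow_lt_zpow_iff h0 h1 l k).mpr hkl).ne'
  · exact hkl
  · exact absurd h ((nrt_zpow_lt_zpow_iff h0 h1 k l).mpr hkl).ne

/-- the arithmetic heart: `k p = 2 h m`, `p ∤ 2h`, `0 < k < h` is impossible -/
theorem nrt_arith {p : ℕ} (hp : p.Prime) {h : ℕ} (hph : ¬ p ∣ 2 * h) {k m : ℤ}
    (hk0 : 0 < k) (hkh : k < h) (e : k * p = 2 * h * m) : False := by
  have hpz : Prime (p : ℤ) := Nat.prime_iff_prime_int.mp hp
  have hdvd : (p : ℤ) ∣ 2 * h * m := ⟨k, by rw [← e]; ring⟩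
  rcases hpz.dvd_or_dvd hdvd with h1 | h1
  · exact hph (by exact_mod_cast h1)
  · obtain ⟨m', rfl⟩ := h1
    have hp0 : (p : ℤ) ≠ 0 := by exact_mod_cast hp.ne_zero
    have e' : k = 2 * h * m' := by
      have : k * p = (2 * h * m') * p := by rw [e]; ring
      exact mul_right_cancel₀ hp0 this
    rcases le_or_gt m' 0 with hm | hm
    · have : (2 * (h : ℤ)) * m' ≤ 0 := mul_nonpos_of_nonneg_of_nonpos (by positivity) hm
      omega
    · have : (2 * (h : ℤ)) * 1 ≤ 2 * h * m' := mul_le_mul_of_nonneg_left (by omega) (by positivity)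
      omega

end Val

/-! ## smooth congruence lemma in the case `F_y` a unit (general integral model) -/

section Smooth

variable {K : Type*} [Field K] [DecidableEq K] (A : ValuationSubring K) {W : WeierstrassCurve K}

/-- two points with congruent coordinates, the first one with `F_y = 2y + a₁x + a₃` a unit, differ
by an element of the kernel of reduction -/
theorem nrt_smooth (H : IsIntW A W) {x₁ y₁ x₂ y₂ : K} (h₁ : W.toAffine.Nonsingular x₁ y₁)
    (h₂ : W.toAffine.Nonsingular x₂ y₂) (hx₁ : A.valuation x₁ ≤ 1)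
    (hxx : A.valuation (x₁ - x₂) < 1) (hyy : A.valuation (y₁ - y₂) < 1)
    (hns : A.valuation (2 * y₁ + W.a₁ * x₁ + W.a₃) = 1) :
    Point.some x₁ y₁ h₁ - Point.some x₂ y₂ h₂ ∈ wg_E1 A H := by
  by_cases hx : x₁ = x₂
  · subst hx
    rcases wg_same_x h₁ h₂ with he | he
    · rw [he, sub_self]
      exact (wg_E1 A H).zero_mem
    · exfalso
      rw [Point.neg_some, Point.some.injEq] at he
      have hy : y₂ = W.toAffine.negY x₁ y₁ := he.2
      rw [Affine.negY] at hy
      have : y₁ - y₂ = 2 * y₁ + W.a₁ * x₁ + W.a₃ := by rw [hy]; simp only [toAffine]; ring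
      rw [this, hns] at hyy
      exact lt_irrefl _ hyy
  · obtain ⟨x₃, y₃, h₃, x₄, y₄, h₄, -, hsub, -, -, -, hx₄⟩ := wg_add_sub h₁ h₂ hx
    rw [hsub, mem_wg_E1]
    right
    rw [wgX_some]
    have hd0 : x₁ - x₂ ≠ 0 := sub_ne_zero.mpr hx
    have hvd0 : A.valuation (x₁ - x₂) ≠ 0 := (A.valuation.ne_zero_iff).mpr hd0
    set num : K := y₁ - W.toAffine.negY x₂ y₂ with hnum
    have hnum' : num = (2 * y₁ + W.a₁ * x₁ + W.a₃) + (-(y₁ - y₂) + -(W.a₁ * (x₁ - x₂))) := by
      rw [hnum, Affine.negY]; simp only [toAffine]; ring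
    have hvnum : A.valuation num = 1 := by
      rw [hnum', ← hns]
      apply Valuation.map_add_eq_of_lt_left
      rw [hns]
      apply Valuation.map_add_lt
      · rwa [Valuation.map_neg]
      · rw [Valuation.map_neg, map_mul]
        calc A.valuation W.a₁ * A.valuation (x₁ - x₂) ≤ 1 * A.valuation (x₁ - x₂) :=
              mul_le_mul' H.a₁ le_rfl
          _ = A.valuation (x₁ - x₂) := one_mul _
          _ < 1 := hxx
    set lam : K := num / (x₁ - x₂) with hlam
    have hvlam : 1 < A.valuation lam := by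
      rw [hlam, map_div₀, hvnum, one_div]
      exact (one_lt_inv₀ (zero_lt_iff.mpr hvd0)).mpr hxx
    have hvlam0 : A.valuation lam ≠ 0 := (lt_trans zero_lt_one hvlam).ne'
    have hlt2 : A.valuation lam < A.valuation lam ^ 2 := by
      rw [pow_two]
      calc A.valuation lam = 1 * A.valuation lam := (one_mul _).symm
        _ < A.valuation lam * A.valuation lam :=
          mul_lt_mul_of_pos_right hvlam (zero_lt_iff.mpr hvlam0)
    have hx₂ : A.valuation x₂ ≤ 1 := by
      have : x₂ = x₁ - (x₁ - x₂) := by ring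
      rw [this]
      exact Valuation.map_sub_le _ hx₁ hxx.le
    have h1lt : (1 : A.ValueGroup) < A.valuation lam ^ 2 := lt_trans hvlam hlt2
    have hx₄' : x₄ = lam ^ 2 + (W.a₁ * lam + (-W.a₂ + (-x₁ + -x₂))) := by
      rw [hx₄]; ring
    have : A.valuation x₄ = A.valuation lam ^ 2 := by
      rw [hx₄', ← map_pow]
      apply Valuation.map_add_eq_of_lt_left
      rw [map_pow]
      apply Valuation.map_add_lt
      · rw [map_mul]
        calc A.valuation W.a₁ * A.valuation lam ≤ 1 * A.valuation lam :=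
              mul_le_mul' H.a₁ le_rfl
          _ = A.valuation lam := one_mul _
          _ < A.valuation lam ^ 2 := hlt2
      · apply Valuation.map_add_lt
        · rw [Valuation.map_neg]; exact lt_of_le_of_lt H.a₂ h1lt
        · apply Valuation.map_add_lt
          · rw [Valuation.map_neg]; exact lt_of_le_of_lt hx₁ h1lt
          · rw [Valuation.map_neg]; exact lt_of_le_of_lt hx₂ h1lt
    rw [this]
    exact h1lt

omit [DecidableEq K] in
/-- integrality of `y` from integrality of `x` -/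
theorem nrt_val_y_le_one (H : IsIntW A W) {x y : K} (h : W.toAffine.Nonsingular x y)
    (hx : A.valuation x ≤ 1) : A.valuation y ≤ 1 := by
  by_contra hy
  rw [not_le] at hy
  have e := wg_eq_of_nonsingular h
  have hy0 : A.valuation y ≠ 0 := (lt_trans zero_lt_one hy).ne'
  have hlt2 : A.valuation y < A.valuation y ^ 2 := by
    rw [pow_two]
    calc A.valuation y = 1 * A.valuation y := (one_mul _).symm
      _ < A.valuation y * A.valuation y := mul_lt_mul_of_pos_right hy (zero_lt_iff.mpr hy0)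
  have hL : A.valuation (y ^ 2 + W.a₁ * x * y + W.a₃ * y) = A.valuation y ^ 2 := by
    rw [add_assoc, ← map_pow]
    apply Valuation.map_add_eq_of_lt_left
    rw [map_pow]
    apply Valuation.map_add_lt
    · rw [map_mul, map_mul]
      calc A.valuation W.a₁ * A.valuation x * A.valuation y ≤ 1 * 1 * A.valuation y :=
            mul_le_mul' (mul_le_mul' H.a₁ hx) le_rfl
        _ = A.valuation y := by rw [one_mul, one_mul]
        _ < A.valuation y ^ 2 := hlt2
    · rw [map_mul]
      calc A.valuation W.a₃ * A.valuation y ≤ 1 * A.valuation y := mul_le_mul' H.a₃ le_rfl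
        _ = A.valuation y := one_mul _
        _ < A.valuation y ^ 2 := hlt2
  have hR : A.valuation (x ^ 3 + W.a₂ * x ^ 2 + W.a₄ * x + W.a₆) ≤ 1 := by
    have h3 : A.valuation (x ^ 3) ≤ 1 := by rw [map_pow]; exact pow_le_one₀ zero_le hx
    have h2 : A.valuation (W.a₂ * x ^ 2) ≤ 1 := by
      rw [map_mul, map_pow]
      exact mul_le_one₀ H.a₂ zero_le (pow_le_one₀ zero_le hx)
    have h1 : A.valuation (W.a₄ * x) ≤ 1 := by
      rw [map_mul]; exact mul_le_one₀ H.a₄ zero_le hx
    exact Valuation.map_add_le _ (Valuation.map_add_le _ (Valuation.map_add_le _ h3 h2) h1) H.a₆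
  rw [← e, hL] at hR
  exact absurd (lt_trans hy hlt2) (not_lt.mpr hR)

end Smooth

/-! ## Step A: a `p`-torsion point with rational `x` has a unit `x` at `2` -/

section StepA

variable (P : FreyPackage) (A : ValuationSubring Qb)

/-- `2 ≠ 0` has nonzero valuation -/
theorem nrt_val_two_ne_zero : A.valuation (2 : Qb) ≠ 0 :=
  (A.valuation.ne_zero_iff).mpr (by norm_num)

theorem nrt_val_x_eq_one (hA : A.LiesOverPrime 2) (H1 : W1Hyp A (P.freyCurve⁄Qb))
    {h : ℕ} (ha4 : A.valuation (P.freyCurve⁄Qb).a₄ = A.valuation (2 : Qb) ^ h)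
    (hph : ¬ P.p ∣ 2 * h)
    {x y : Qb} (hxy : (P.freyCurve⁄Qb).toAffine.Nonsingular x y)
    (hR : P.p • (Point.some x y hxy : FreyPt P) = 0)
    (hval : x ≠ 0 → ∃ k : ℤ, A.valuation x = A.valuation (2 : Qb) ^ k) :
    A.valuation x = 1 := by
  have h2lt : A.valuation (2 : Qb) < 1 := fi_val_two_lt A hA
  have h20 := nrt_val_two_ne_zero A
  have hle : A.valuation x ≤ 1 :=
    wg_torsion_x_integral_two A (frey_isIntW P A) h2lt P.hp_odd hxy hR
  by_contra hne
  have hlt : A.valuation x < 1 := lt_of_le_of_ne hle hne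
  set η := A.valuation (P.freyCurve⁄Qb).a₄ with hη
  have hη1 : η < 1 := H1.a₄m
  -- the clipped size is `max (v x) η`
  have hpsz : psz A (P.freyCurve⁄Qb) (Point.some x y hxy) = max (A.valuation x) η := by
    rw [psz_some]
    unfold sz
    exact min_eq_right (max_le hle hη1.le)
  have hne_eta := w1_psz_ne_eta A H1 (Point.some x y hxy) P.hp_odd hR
  rw [hpsz] at hne_eta
  have hηx : η < A.valuation x := by
    by_contra hcon
    rw [not_lt] at hcon
    exact hne_eta (max_eq_right hcon)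
  have hx0 : x ≠ 0 := by
    intro h0
    rw [h0, _root_.map_zero] at hηx
    exact absurd hηx (not_lt.mpr zero_le)
  obtain ⟨k, hk⟩ := hval hx0
  obtain ⟨m, hm⟩ := w1_psz_pow_mem A H1 (Point.some x y hxy) P.p hR
  rw [hpsz, max_eq_left hηx.le, hk, ← hη, ha4] at hm
  -- exponents
  have e : k * P.p = 2 * h * m := by
    apply nrt_zpow_inj h20 h2lt
    rw [zpow_mul, zpow_natCast, hm, ← zpow_natCast (A.valuation (2 : Qb)) h, ← zpow_mul]
    congr 1
    ring
  have hk0 : 0 < k := by
    rw [hk] at hlt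
    exact (nrt_zpow_lt_one_iff h20 h2lt k).mp hlt
  have hkh : k < h := by
    rw [hk, ha4, ← zpow_natCast] at hηx
    exact (nrt_zpow_lt_zpow_iff h20 h2lt _ _).mp hηx
  exact nrt_arith P.pp hph hk0 hkh e

end StepA

/-! ## the pigeonhole core -/

section Core

/-- multiples `k • Q`, `0 < k < p`, of a nonzero point of prime order `p` are nonzero -/
theorem nrt_nsmul_ne_zero {G : Type*} [AddCommGroup G] {p : ℕ} (hp : p.Prime) {Q : G}
    (hQ0 : Q ≠ 0) (hQ : p • Q = 0) {k : ℕ} (hk0 : 0 < k) (hkp : k < p) : k • Q ≠ 0 := by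
  intro hk
  have h1 : addOrderOf Q ∣ p := addOrderOf_dvd_of_nsmul_eq_zero hQ
  have h2 : addOrderOf Q ∣ k := addOrderOf_dvd_of_nsmul_eq_zero hk
  rcases (Nat.dvd_prime hp).mp h1 with h | h
  · exact hQ0 (AddMonoid.addOrderOf_eq_one_iff.mp h)
  · rw [h] at h2
    exact absurd (Nat.le_of_dvd hk0 h2) (not_le.mpr hkp)

variable {Γ₀ : Type*} [LinearOrderedCommGroupWithZero Γ₀] {F : Type*} [Field F]

/-- among three elements each congruent to `0` or `1`, two are congruent -/
theorem nrt_pigeon (v : Valuation F Γ₀) {y₁ y₂ y₃ : F}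
    (h₁ : v y₁ < 1 ∨ v (y₁ - 1) < 1) (h₂ : v y₂ < 1 ∨ v (y₂ - 1) < 1)
    (h₃ : v y₃ < 1 ∨ v (y₃ - 1) < 1) :
    v (y₁ - y₂) < 1 ∨ v (y₁ - y₃) < 1 ∨ v (y₂ - y₃) < 1 := by
  have key0 : ∀ {a b : F}, v a < 1 → v b < 1 → v (a - b) < 1 := fun ha hb =>
    Valuation.map_sub_lt v ha hb
  have key1 : ∀ {a b : F}, v (a - 1) < 1 → v (b - 1) < 1 → v (a - b) < 1 := by
    intro a b ha hb
    have : a - b = (a - 1) - (b - 1) := by ring
    rw [this]
    exact Valuation.map_sub_lt v ha hb
  rcases h₁ with h₁ | h₁ <;> rcases h₂ with h₂ | h₂ <;> rcases h₃ with h₃ | h₃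
  · exact Or.inl (key0 h₁ h₂)
  · exact Or.inl (key0 h₁ h₂)
  · exact Or.inr (Or.inl (key0 h₁ h₃))
  · exact Or.inr (Or.inr (key1 h₂ h₃))
  · exact Or.inr (Or.inr (key0 h₂ h₃))
  · exact Or.inr (Or.inl (key1 h₁ h₃))
  · exact Or.inl (key1 h₁ h₂)
  · exact Or.inl (key1 h₁ h₂)

end Core

section Main

variable (P : FreyPackage) (A : ValuationSubring Qb)

/-- "good" points: unit `x ≡ 1`, integral `y ≡ 0, 1` -/
def NrtGood (R : FreyPt P) : Prop :=
  ∃ (x y : Qb) (h : (P.freyCurve⁄Qb).toAffine.Nonsingular x y), R = Point.some x y h ∧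
    A.valuation x = 1 ∧ A.valuation (x - 1) < 1 ∧ (A.valuation y < 1 ∨ A.valuation (y - 1) < 1)

/-- two good points with congruent `y` differ by an element of the kernel of reduction -/
theorem nrt_good_sub (hA : A.LiesOverPrime 2) {x₁ y₁ x₂ y₂ : Qb}
    (h₁ : (P.freyCurve⁄Qb).toAffine.Nonsingular x₁ y₁)
    (h₂ : (P.freyCurve⁄Qb).toAffine.Nonsingular x₂ y₂)
    (hx₁ : A.valuation x₁ = 1) (hx₁' : A.valuation (x₁ - 1) < 1) (hx₂' : A.valuation (x₂ - 1) < 1)
    (hyy : A.valuation (y₁ - y₂) < 1) :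
    InE1 A (Point.some x₁ y₁ h₁ - Point.some x₂ y₂ h₂ : FreyPt P) := by
  rw [fi_inE1_iff]
  have hy₁ : A.valuation y₁ ≤ 1 := nrt_val_y_le_one A (frey_isIntW P A) h₁ hx₁.le
  have h2lt : A.valuation (2 : Qb) < 1 := fi_val_two_lt A hA
  apply nrt_smooth A (frey_isIntW P A) h₁ h₂ hx₁.le _ hyy
  · -- `F_y = 2y + x` is a unit
    rw [fi_a₁, fi_a₃, one_mul, add_zero, add_comm, ← hx₁]
    apply Valuation.map_add_eq_of_lt_left
    rw [hx₁, map_mul]
    calc A.valuation (2 : Qb) * A.valuation y₁ ≤ A.valuation (2 : Qb) * 1 := mul_le_mul' le_rfl hy₁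
      _ = A.valuation (2 : Qb) := mul_one _
      _ < 1 := h2lt
  · have : x₁ - x₂ = (x₁ - 1) - (x₂ - 1) := by ring
    rw [this]
    exact Valuation.map_sub_lt _ hx₁' hx₂'

/-- the core: a `p`-torsion point all of whose first three multiples are good is zero -/
theorem nrt_core (hA : A.LiesOverPrime 2) (Q : FreyPt P) (hQ : P.p • Q = 0)
    (hgood : ∀ k : ℕ, 0 < k → k < P.p → k • Q ≠ 0 → NrtGood P A (k • Q)) : Q = 0 := by
  by_contra hQ0
  have hp5 := P.hp5
  have hne : ∀ k : ℕ, 0 < k → k < P.p → k • Q ≠ 0 := fun k hk0 hkp =>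
    nrt_nsmul_ne_zero P.pp hQ0 hQ hk0 hkp
  obtain ⟨x₁, y₁, h₁, e₁, hx₁, hx₁', hy₁⟩ := hgood 1 (by omega) (by omega) (hne 1 (by omega) (by omega))
  obtain ⟨x₂, y₂, h₂, e₂, hx₂, hx₂', hy₂⟩ := hgood 2 (by omega) (by omega) (hne 2 (by omega) (by omega))
  obtain ⟨x₃, y₃, h₃, e₃, hx₃, hx₃', hy₃⟩ := hgood 3 (by omega) (by omega) (hne 3 (by omega) (by omega))
  -- a difference `i • Q - j • Q` in the kernel of reduction is zero
  have hzero : ∀ i j : ℕ, InE1 A (i • Q - j • Q : FreyPt P) → i • Q = j • Q := by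
    intro i j hE
    have ht : P.p • (i • Q - j • Q) = 0 := by
      rw [nsmul_sub, nsmul_left_comm, hQ, nsmul_zero, nsmul_left_comm, hQ, nsmul_zero, sub_zero]
    exact sub_eq_zero.mp (fi_odd_torsion_not_inE1 P A hA P.hp_odd ht hE)
  rcases nrt_pigeon A.valuation hy₁ hy₂ hy₃ with h | h | h
  · have hE := nrt_good_sub P A hA h₁ h₂ hx₁ hx₁' hx₂' h
    rw [← e₁, ← e₂] at hE
    have := hzero 1 2 hE
    apply hne 1 (by omega) (by omega)
    have h2 : (2 : ℕ) • Q = 1 • Q + 1 • Q := by rw [← add_smul]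
    rw [h2] at this
    exact (add_eq_left.mp this.symm)
  · have hE := nrt_good_sub P A hA h₁ h₃ hx₁ hx₁' hx₃' h
    rw [← e₁, ← e₃] at hE
    have := hzero 1 3 hE
    apply hne 2 (by omega) (by omega)
    have h2 : (3 : ℕ) • Q = 1 • Q + 2 • Q := by rw [← add_smul]
    rw [h2] at this
    exact (add_eq_left.mp this.symm)
  · have hE := nrt_good_sub P A hA h₂ h₃ hx₂ hx₂' hx₃' h
    rw [← e₂, ← e₃] at hE
    have := hzero 2 3 hE
    apply hne 1 (by omega) (by omega)
    have h2 : (3 : ℕ) • Q = 2 • Q + 1 • Q := by rw [← add_smul]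
    rw [h2] at this
    exact (add_eq_left.mp this.symm)

end Main

/-! ## the wrapper: Galois-fixed points are rational, hence good -/

section Wrapper

variable (P : FreyPackage) (A : ValuationSubring Qb)

/-- the node hypotheses for the Frey model at `2` -/
theorem nrt_w1Hyp (hA : A.LiesOverPrime 2) : W1Hyp A (P.freyCurve⁄Qb) where
  w1 := ⟨fi_a₃ P, fi_a₆ P⟩
  a₁ := (frey_isIntW P A).a₁
  a₂ := (frey_isIntW P A).a₂
  b₂u := ft_b₂_unit P A hA
  a₄m := ft_a₄_lt P A hA
  a₄0 := ft_a₄_ne_zero P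

/-- the Galois action commutes with multiplication by `k` -/
theorem nrt_smul_nsmul (σ : GQ) (k : ℕ) (Q : FreyPt P) : σ • (k • Q) = k • (σ • Q) := by
  rw [algEquiv_smul_def, algEquiv_smul_def, map_nsmul]

/-- a Galois-fixed affine point has rational coordinates -/
theorem nrt_coords_rat {x y : Qb} (h : (P.freyCurve⁄Qb).toAffine.Nonsingular x y)
    (hfix : ∀ σ : GQ, σ • (Point.some x y h : FreyPt P) = Point.some x y h) :
    x ∈ (algebraMap ℚ Qb).range ∧ y ∈ (algebraMap ℚ Qb).range := by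
  have hx : ∀ σ : GQ, σ x = x := fun σ => by
    have := hfix σ
    rw [algEquiv_smul_def, Point.map_some] at this
    exact (Point.some.inj this).1
  have hy : ∀ σ : GQ, σ y = y := fun σ => by
    have := hfix σ
    rw [algEquiv_smul_def, Point.map_some] at this
    exact (Point.some.inj this).2
  exact ⟨fixed_mem_range x hx, fixed_mem_range y hy⟩

/-- a nonzero Galois-fixed point of order `p` is good at `2` -/
theorem nrt_good_of_fixed (hA : A.LiesOverPrime 2) (R : FreyPt P) (hR : P.p • R = 0)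
    (hR0 : R ≠ 0) (hfix : ∀ σ : GQ, σ • R = R) : NrtGood P A R := by
  cases R with
  | zero => exact absurd rfl hR0
  | some x y h =>
    obtain ⟨⟨rx, hrx⟩, ⟨ry, hry⟩⟩ := nrt_coords_rat P h hfix
    obtain ⟨e, -, ha4, hph⟩ := ft_exists_h P A hA
    have hvx : A.valuation x = 1 := by
      apply nrt_val_x_eq_one P A hA (nrt_w1Hyp P A hA) ha4 hph h hR
      intro hx0
      rw [← hrx]
      apply ft_val_rat' A hA
      rintro rfl
      rw [_root_.map_zero] at hrx
      exact hx0 hrx.symm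
    have hvy : A.valuation y ≤ 1 := nrt_val_y_le_one A (frey_isIntW P A) h hvx.le
    refine ⟨x, y, h, rfl, hvx, ?_, ?_⟩
    · have := ft_res_rat' A hA (r := rx) (by rw [hrx]; exact hvx.le)
      rw [hrx] at this
      rcases this with h1 | h1
      · exact absurd hvx h1.ne
      · exact h1
    · have := ft_res_rat' A hA (r := ry) (by rw [hry]; exact hvy)
      rw [hry] at this
      exact this

end Wrapper

/-- **(C2)** the Frey curve has no rational point of order `p` -/
theorem no_fixed_torsion (P : FreyPackage) (x : FreyV P) (hx : ∀ σ : GQ, σ • x = x) : x = 0 := by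
  obtain ⟨A, hA⟩ := exists_liesOverPrime Nat.prime_two
  have hQ : P.p • (x : FreyPt P) = 0 := by
    have := x.2
    rw [Submodule.mem_torsionBy_iff] at this
    exact_mod_cast this
  have hfix : ∀ σ : GQ, σ • (x : FreyPt P) = (x : FreyPt P) := fun σ =>
    congrArg Subtype.val (hx σ)
  apply Subtype.ext
  apply nrt_core P A hA _ hQ
  intro k _ _ hne
  apply nrt_good_of_fixed P A hA _ _ hne
  · intro σ
    rw [nrt_smul_nsmul, hfix σ]
  · rw [nsmul_left_comm, hQ, nsmul_zero]

end Fermat.Agent.S13x
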