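import Fermat.Agent.S13x.Defs

/-!
# S13 project, module G5: the final assembly from its inputs

`s13_of_inputs` proves the frozen S13 statement from the top-level interface statements of
`Spec.lean`, taken here as explicit hypotheses (so this file only depends on `Defs.lean`).
-/

set_option autoImplicit false
open WeierstrassCurve WeierstrassCurve.Affine WeierstrassCurve.Affine.Point

namespace Fermat.Agent.S13x

/-- the points of `V` in the kernel of reduction, as a submodule (given closure under `+`, `-`) -/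
noncomputable def kerRedSub (P : FreyPackage) (A : ValuationSubring Qb)
    (hadd : ∀ {Q₁ Q₂ : FreyPt P}, InE1 A Q₁ → InE1 A Q₂ → InE1 A (Q₁ + Q₂))
    (hneg : ∀ {Q : FreyPt P}, InE1 A Q → InE1 A (-Q)) :
    Submodule (ZMod P.p) (FreyV P) :=
  AddSubgroup.toZModSubmodule P.p
    { carrier := {x : FreyV P | InE1 A (x : FreyPt P)}
      zero_mem' := by
        show InE1 A ((0 : FreyV P) : FreyPt P)
        rw [Submodule.coe_zero]; exact inE1_zero A
      add_mem' := fun {x y} hx hy => by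
        show InE1 A ((x + y : FreyV P) : FreyPt P)
        rw [Submodule.coe_add]; exact hadd hx hy
      neg_mem' := fun {x} hx => by
        show InE1 A ((-x : FreyV P) : FreyPt P)
        rw [Submodule.coe_neg]; exact hneg hx }

theorem mem_kerRedSub (P : FreyPackage) (A : ValuationSubring Qb)
    (hadd : ∀ {Q₁ Q₂ : FreyPt P}, InE1 A Q₁ → InE1 A Q₂ → InE1 A (Q₁ + Q₂))
    (hneg : ∀ {Q : FreyPt P}, InE1 A Q → InE1 A (-Q)) (x : FreyV P) :
    x ∈ kerRedSub P A hadd hneg ↔ InE1 A (x : FreyPt P) := Iff.rfl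

/-- **S13 from its inputs.** -/
theorem s13_of_inputs (P : FreyPackage)
    -- A: torsion
    (hL : Nontrivial (FreyV P)) (hfin : Finite (FreyV P))
    (hU : Nat.card (FreyV P) ≤ P.p ^ 2)
    -- B: the prime p
    (hB1add : ∀ (A : ValuationSubring Qb), A.LiesOverPrime P.p →
      ∀ {Q₁ Q₂ : FreyPt P}, InE1 A Q₁ → InE1 A Q₂ → InE1 A (Q₁ + Q₂))
    (hB1neg : ∀ (A : ValuationSubring Qb) {Q : FreyPt P}, InE1 A Q → InE1 A (-Q))
    (hB1 : ∀ (A : ValuationSubring Qb), A.LiesOverPrime P.p →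
      ∀ σ : GQ, σ ∈ A.inertiaSubgroupIn ℚ → ∀ x : FreyV P,
        InE1 A ((σ • x - x : FreyV P) : FreyPt P))
    (hB2 : ∀ (A : ValuationSubring Qb), A.LiesOverPrime P.p →
      ∀ N : Submodule (ZMod P.p) (FreyV P), IsGaloisStable ℚ N → N ≠ ⊥ → N ≠ ⊤ →
        ∃ x : FreyV P, ¬ InE1 A (x : FreyPt P))
    -- C: the prime 2
    (hC1 : ∀ (A : ValuationSubring Qb), A.LiesOverPrime 2 →
      ∀ σ : GQ, σ ∈ A.inertiaSubgroupIn ℚ → ∀ x : FreyV P, σ • (σ • x - x) = σ • x - x)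
    (hC2 : ∀ x : FreyV P, (∀ σ : GQ, σ • x = x) → x = 0)
    -- D: odd primes different from p (S05)
    (hD : ∀ q : ℕ, q.Prime → q ≠ 2 → q ≠ P.p → P.GaloisRepUnramifiedAt q)
    -- E: global
    (hE0 : ∀ q : ℕ, q.Prime → ∃ A : ValuationSubring Qb, A.LiesOverPrime q)
    (hE : ∀ (H : Subgroup GQ), H.Normal →
      (∃ M : IntermediateField ℚ Qb, FiniteDimensional ℚ M ∧ M.fixingSubgroup ≤ H) →
      (∀ q : ℕ, q.Prime →
        ∃ A : ValuationSubring Qb, A.LiesOverPrime q ∧ A.inertiaSubgroupIn ℚ ≤ H) → H = ⊤)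
    -- G: glue
    (hG2 : ∃ M : IntermediateField ℚ Qb, FiniteDimensional ℚ M ∧
      ∀ σ ∈ M.fixingSubgroup, ∀ x : FreyV P, σ • x = x)
    (hG3a : ∀ (N : Submodule (ZMod P.p) (FreyV P)), IsGaloisStable ℚ N → (fixN P N).Normal)
    (hG3b : ∀ (N : Submodule (ZMod P.p) (FreyV P)) (hN : IsGaloisStable ℚ N),
      (cofixN P N hN).Normal)
    (hG1a : ∀ (N : Submodule (ZMod P.p) (FreyV P)) (hN : IsGaloisStable ℚ N), N ≠ ⊥ → N ≠ ⊤ →
      ∀ σ : GQ, (∀ x : FreyV P, σ • (σ • x - x) = σ • x - x) →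
        σ ∈ fixN P N ∧ σ ∈ cofixN P N hN)
    (hG1b : ∀ (N : Submodule (ZMod P.p) (FreyV P)) (hN : IsGaloisStable ℚ N), N ≠ ⊥ → N ≠ ⊤ →
      ∀ (I : Subgroup GQ) (M : Submodule (ZMod P.p) (FreyV P)), M ≠ ⊤ →
        (∀ σ ∈ I, ∀ x : FreyV P, σ • x - x ∈ M) → I ≤ fixN P N ∨ I ≤ cofixN P N hN)
    (hred : ¬ GaloisRepIsIrreducible (K := AlgebraicClosure ℚ) ℚ P.freyCurve P.p) :
    HasGaloisStableCofixedLine (K := AlgebraicClosure ℚ) ℚ P.freyCurve P.p := by
  have _ := hfin; have _ := hU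
  -- a stable line
  obtain ⟨N, hN, hbot, htop⟩ : ∃ N : Submodule (ZMod P.p) (FreyV P),
      IsGaloisStable ℚ N ∧ N ≠ ⊥ ∧ N ≠ ⊤ := by
    by_contra hcon
    apply hred
    refine ⟨hL, fun N hN => ?_⟩
    by_contra h
    rw [not_or] at h
    exact hcon ⟨N, hN, h.1, h.2⟩
  -- openness of both subgroups
  obtain ⟨M0, hM0fin, hM0⟩ := hG2
  have hopen1 : ∃ M : IntermediateField ℚ Qb, FiniteDimensional ℚ M ∧
      M.fixingSubgroup ≤ fixN P N := ⟨M0, hM0fin, fun σ hσ x _ => hM0 σ hσ x⟩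
  have hopen2 : ∃ M : IntermediateField ℚ Qb, FiniteDimensional ℚ M ∧
      M.fixingSubgroup ≤ cofixN P N hN := ⟨M0, hM0fin, fun σ hσ x => by
    show σ • x - x ∈ N
    rw [hM0 σ hσ x, sub_self]; exact N.zero_mem⟩
  -- primes different from p
  have hother : ∀ q : ℕ, q.Prime → q ≠ P.p →
      ∃ A : ValuationSubring Qb, A.LiesOverPrime q ∧
        A.inertiaSubgroupIn ℚ ≤ fixN P N ∧ A.inertiaSubgroupIn ℚ ≤ cofixN P N hN := by
    intro q hq hqp
    obtain ⟨A, hA⟩ := hE0 q hq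
    refine ⟨A, hA, ?_⟩
    by_cases hq2 : q = 2
    · subst hq2
      have h := fun σ (hσ : σ ∈ A.inertiaSubgroupIn ℚ) => hG1a N hN hbot htop σ (hC1 A hA σ hσ)
      exact ⟨fun σ hσ => (h σ hσ).1, fun σ hσ => (h σ hσ).2⟩
    · have hun := hD q hq hq2 hqp A hA
      refine ⟨fun σ hσ x _ => hun σ hσ x, fun σ hσ x => ?_⟩
      show σ • x - x ∈ N
      have hx : σ • x = x := hun σ hσ x
      rw [hx, sub_self]; exact N.zero_mem
  -- the prime p
  obtain ⟨A0, hA0⟩ := hE0 P.p P.pp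
  have hp : A0.inertiaSubgroupIn ℚ ≤ fixN P N ∨ A0.inertiaSubgroupIn ℚ ≤ cofixN P N hN := by
    refine hG1b N hN hbot htop (A0.inertiaSubgroupIn ℚ)
      (kerRedSub P A0 (hB1add A0 hA0) (hB1neg A0)) ?_ ?_
    · intro htopM
      obtain ⟨x, hx⟩ := hB2 A0 hA0 N hN hbot htop
      apply hx
      rw [← mem_kerRedSub P A0 (hB1add A0 hA0) (hB1neg A0), htopM]
      exact Submodule.mem_top
    · intro σ hσ x
      rw [mem_kerRedSub]
      exact hB1 A0 hA0 σ hσ x
  rcases hp with hp1 | hp2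
  · -- the line would be fixed pointwise: excluded 2-adically
    exfalso
    have htop1 : fixN P N = ⊤ := by
      refine hE _ (hG3a N hN) hopen1 (fun q hq => ?_)
      by_cases hqp : q = P.p
      · subst hqp; exact ⟨A0, hA0, hp1⟩
      · obtain ⟨A, hA, h1, _⟩ := hother q hq hqp
        exact ⟨A, hA, h1⟩
    obtain ⟨x, hxN, hx0⟩ := Submodule.exists_mem_ne_zero_of_ne_bot hbot
    apply hx0
    apply hC2 x
    intro σ
    have hσ : σ ∈ fixN P N := by rw [htop1]; exact Subgroup.mem_top σ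
    exact hσ x hxN
  · have htop2 : cofixN P N hN = ⊤ := by
      refine hE _ (hG3b N hN) hopen2 (fun q hq => ?_)
      by_cases hqp : q = P.p
      · subst hqp; exact ⟨A0, hA0, hp2⟩
      · obtain ⟨A, hA, _, h2⟩ := hother q hq hqp
        exact ⟨A, hA, h2⟩
    refine ⟨N, hN, hbot, htop, fun σ x => ?_⟩
    have hσ : σ ∈ cofixN P N hN := by rw [htop2]; exact Subgroup.mem_top σ
    exact hσ x

end Fermat.Agent.S13x
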