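import Fermat.Agent.S13x.KerRed
import Fermat.Agent.S05x.Wire
import Fermat.Agent.S05x.Frey

/-!
# S13 project, module B1: inertia at `p` moves `p`-torsion only inside the kernel of reduction

The local cores are the arguments of `S05x/Smooth.lean` and `S05x/NodeCore.lean` *without their
last step* (there, torsion-freeness of the kernel of reduction turned "`P - τP ∈ E₁`" into
"`P = τP`"; here the residue characteristic equals the torsion order, so we stop at `E₁`).

* `ip_smooth_sub`: two points with the same nonsingular reduction differ by an element of `E₁`.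
* `ip_node_sub`: a torsion point reducing to the node and its `τ`-conjugate differ by an
  element of `E₁`.
* `ip_local`: the local main theorem.
* `ip_frey_point`, `inertia_p_sub_inE1`: the Frey curve.
-/

set_option autoImplicit false
open WeierstrassCurve WeierstrassCurve.Affine WeierstrassCurve.Affine.Point

namespace Fermat.Agent.S13x

open Fermat.Agent.S05x
open Fermat.Agent.S51x (vcEquiv vc_inv_nonsingular vcEquiv_symm_some')

section Generic

variable {K : Type*} [Field K] [DecidableEq K] (A : ValuationSubring K) {W : WeierstrassCurve K}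

/-- two points with the same nonsingular reduction differ by an element of the kernel of
reduction (no torsion hypothesis) -/
theorem ip_smooth_sub (H : LocHyp A W)
    {x y x' y' : K} (h : W.toAffine.Nonsingular x y) (h' : W.toAffine.Nonsingular x' y')
    (hx : A.valuation x ≤ 1) (hxx : A.valuation (x' - x) < 1) (hyy : A.valuation (y' - y) < 1)
    (hns : A.valuation y = 1 ∨ A.valuation (3 * x ^ 2 + 2 * W.a₂ * x + W.a₄) = 1) :
    InE1 A (Point.some x y h - Point.some x' y' h') := by
  have hW := H.w2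
  have hv2 := H.two
  have ha2 := H.a₂
  have ha4 := H.a₄
  have h2 : (2 : K) ≠ 0 := by
    intro h0
    rw [h0, _root_.map_zero] at hv2
    exact zero_ne_one hv2
  have hv4 : A.valuation (4 : K) = 1 := by
    have : (4 : K) = 2 * 2 := by norm_num
    rw [this, map_mul, hv2, one_mul]
  have e1 : y ^ 2 = x ^ 3 + W.a₂ * x ^ 2 + W.a₄ * x := (w2_equation_iff hW x y).mp h.1
  have e2 : y' ^ 2 = x' ^ 3 + W.a₂ * x' ^ 2 + W.a₄ * x' :=
    (w2_equation_iff hW x' y').mp h'.1
  have hx' : A.valuation x' ≤ 1 := by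
    have : x' = x + (x' - x) := by ring
    rw [this]
    exact Valuation.map_add_le _ hx hxx.le
  have hy : A.valuation y ≤ 1 := by
    apply m8_le_one_of_sq
    rw [e1]
    exact Valuation.map_add_le _ (Valuation.map_add_le _ (m8_le_pow A hx 3)
      (m8_le_mul A ha2 (m8_le_pow A hx 2))) (m8_le_mul A ha4 hx)
  by_cases hne : x = x'
  · subst hne
    rcases w2_same_x hW h h' with hyy' | hyy'
    · subst hyy'
      rw [sub_self]; trivial
    · by_cases hy0 : y = 0
      · have : y' = y := by rw [hyy', hy0, _root_.neg_zero]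
        subst this
        rw [sub_self]; trivial
      · have hym : A.valuation y < 1 := by
          have : y' - y = -(2 * y) := by rw [hyy']; ring
          rw [this, Valuation.map_neg, map_mul, hv2, one_mul] at hyy
          exact hyy
        have hF : A.valuation (3 * x ^ 2 + 2 * W.a₂ * x + W.a₄) = 1 := by
          rcases hns with h1 | h1
          · exact absurd h1 (ne_of_lt hym)
          · exact h1
        obtain ⟨x2, y2, h2', hdbl, hform⟩ := w2_double hW h2 h hy0
        -- `P' = -P`
        obtain ⟨hneg', hneg⟩ := w2_neg_some hW h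
        have hP' : Point.some x y' h' = -Point.some x y h := by
          rw [hneg]
          subst hyy'
          rfl
        rw [hP', sub_neg_eq_add, hdbl]
        have key : (x ^ 2 - W.a₄) ^ 2 =
            (3 * x ^ 2 + 2 * W.a₂ * x + W.a₄) ^ 2 - y ^ 2 * (4 * (W.a₂ + 2 * x)) := by
          rw [e1]; ring
        have hy2 : A.valuation (y ^ 2) < 1 := by
          rw [pow_two]; exact m8_lt_mul A hym hym.le
        have hr : A.valuation ((3 * x ^ 2 + 2 * W.a₂ * x + W.a₄) ^ 2
            - y ^ 2 * (4 * (W.a₂ + 2 * x))) = 1 := by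
          have h1 : A.valuation ((3 * x ^ 2 + 2 * W.a₂ * x + W.a₄) ^ 2) = 1 := by
            rw [map_pow, hF, one_pow]
          have h3 : A.valuation (y ^ 2 * (4 * (W.a₂ + 2 * x))) < 1 := by
            refine m8_lt_mul A hy2 (m8_le_mul A hv4.le ?_)
            exact Valuation.map_add_le _ ha2 (m8_le_mul A hv2.le hx)
          rw [Valuation.map_sub_eq_of_lt_left _ (by rw [h1]; exact h3), h1]
        have h4y : A.valuation (4 * y ^ 2) < 1 := by
          rw [map_mul, hv4, one_mul]; exact hy2
        have hone : A.valuation (x2 * (4 * y ^ 2)) = 1 := by rw [hform, key, hr]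
        exact (kr_not_mem_iff A x2).mpr (m8_one_lt_of_mul A hone h4y)
  · obtain ⟨x₃, y₃, h₃, x₄, y₄, h₄, hadd, hsub, hS, hPi, hD, hL⟩ :=
      w2_add_sub hW h h' hne
    rw [hsub]
    have hd0 : x - x' ≠ 0 := sub_ne_zero.mpr hne
    have hsd : (y + y') / (x - x') * (x - x') = y + y' := div_mul_cancel₀ _ hd0
    have hxx' : A.valuation (x - x') < 1 := by rw [Valuation.map_sub_swap]; exact hxx
    have hyy' : A.valuation (y - y') < 1 := by rw [Valuation.map_sub_swap]; exact hyy
    have hs1 : 1 < A.valuation ((y + y') / (x - x')) := by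
      rcases hns with h1 | h1
      · apply m8_one_lt_of_mul A (d := x - x') _ hxx'
        rw [hsd]
        have : y + y' = 2 * y + (y' - y) := by ring
        rw [this]
        exact m8_val_add_eq_one A (by rw [map_mul, hv2, h1, one_mul]) hyy
      · have hG : A.valuation (x ^ 2 + x * x' + x' ^ 2 + W.a₂ * (x + x') + W.a₄) = 1 := by
          have : x ^ 2 + x * x' + x' ^ 2 + W.a₂ * (x + x') + W.a₄ =
              (3 * x ^ 2 + 2 * W.a₂ * x + W.a₄) + (x' - x) * (x' + 2 * x + W.a₂) := by ring
          rw [this]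
          refine m8_val_add_eq_one A h1 (m8_lt_mul A hxx ?_)
          exact Valuation.map_add_le _ (Valuation.map_add_le _ hx' (m8_le_mul A hv2.le hx)) ha2
        apply m8_one_lt_of_mul A (d := y - y') _ hyy'
        have : (y + y') / (x - x') * (y - y') =
            x ^ 2 + x * x' + x' ^ 2 + W.a₂ * (x + x') + W.a₄ := by
          have h3 : (x - x') * ((y + y') / (x - x') * (y - y')) =
              (x - x') * (x ^ 2 + x * x' + x' ^ 2 + W.a₂ * (x + x') + W.a₄) := by
            calc (x - x') * ((y + y') / (x - x') * (y - y'))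
                = ((y + y') / (x - x') * (x - x')) * (y - y') := by ring
              _ = (y + y') * (y - y') := by rw [hsd]
              _ = y ^ 2 - y' ^ 2 := by ring
              _ = _ := by rw [e1, e2]; ring
          exact mul_left_cancel₀ hd0 h3
        rw [this]
        exact hG
    have hs2 : 1 < A.valuation (((y + y') / (x - x')) ^ 2) := by
      rw [map_pow]
      exact one_lt_pow' hs1 two_ne_zero
    have hrest : A.valuation (W.a₂ + x + x') ≤ 1 :=
      Valuation.map_add_le _ (Valuation.map_add_le _ ha2 hx) hx'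
    have hx4' : 1 < A.valuation x₄ := by
      have : x₄ = ((y + y') / (x - x')) ^ 2 - (W.a₂ + x + x') := by rw [hL]; ring
      rw [this, Valuation.map_sub_eq_of_lt_left _ (lt_of_le_of_lt hrest hs2)]
      exact hs2
    exact (kr_not_mem_iff A x₄).mpr hx4'

/-- a torsion point reducing to the node and its `τ`-conjugate differ by an element of the
kernel of reduction -/
theorem ip_node_sub (H : NodeHyp A W) (τ : K →+* K)
    (hτ : ∀ a : K, A.valuation a ≤ 1 → A.valuation (τ a - a) < 1)
    {n : ℕ} (hn : n.Prime) (hn2 : n ≠ 2)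
    (c : K) (hc : τ c = c) (hca : A.valuation W.a₄ = A.valuation c ^ n)
    {x y : K} (h : W.toAffine.Nonsingular x y) (h' : W.toAffine.Nonsingular (τ x) (τ y))
    (hP : n • Point.some x y h = 0)
    (hx : A.valuation x < 1) : InE1 A (Point.some x y h - Point.some (τ x) (τ y) h') := by
  classical
  have hη1 : A.valuation W.a₄ < 1 := H.a₄m
  have hη0 : A.valuation W.a₄ ≠ 0 := (Valuation.ne_zero_iff _).2 H.a₄0
  have hodd : Odd n := (hn.eq_two_or_odd').resolve_left hn2
  have hn0 : n ≠ 0 := hn.ne_zero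
  -- Step 1: the sawtooth lemma pins down `v x`
  obtain ⟨m, hm⟩ := fin_psz_pow_mem A H (Point.some x y h) n hP
  rw [psz_some] at hm
  have hsz : sz A (A.valuation W.a₄) x = max (A.valuation x) (A.valuation W.a₄) := by
    unfold sz
    exact min_eq_right (max_le hx.le hη1.le)
  rw [hsz] at hm
  have hlt : A.valuation W.a₄ < A.valuation x := by
    by_contra hle
    rw [not_lt] at hle
    rw [max_eq_right hle] at hm
    exact m7_pow_ne_zpow_two_mul hη0 hη1 hodd m hm
  rw [max_eq_left hlt.le] at hm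
  have hvx0 : A.valuation x ≠ 0 := (lt_of_le_of_lt zero_le hlt).ne'
  have hx0 : x ≠ 0 := (Valuation.ne_zero_iff _).1 hvx0
  have hvc0 : A.valuation c ≠ 0 := by
    intro h0
    rw [h0, zero_pow hn0] at hca
    exact hη0 hca
  have hc0 : c ≠ 0 := (Valuation.ne_zero_iff _).1 hvc0
  have hvx : A.valuation x = A.valuation (c ^ (2 * m)) := by
    rw [map_zpow₀]
    apply m7_eq_of_pow_eq hn0
    rw [hm, hca, ← zpow_natCast, ← zpow_natCast, ← zpow_mul, ← zpow_mul, mul_comm]
  have hcm0 : c ^ (2 * m) ≠ 0 := zpow_ne_zero _ hc0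
  have hvcm0 : A.valuation (c ^ (2 * m)) ≠ 0 := (Valuation.ne_zero_iff _).2 hcm0
  have hu : A.valuation (x / c ^ (2 * m)) = 1 := by
    rw [map_div₀, hvx, div_self hvcm0]
  have hτu : τ (x / c ^ (2 * m)) = τ x / c ^ (2 * m) := by
    rw [map_div₀, map_zpow₀, hc]
  have hdx : A.valuation (τ x - x) < A.valuation x := by
    have h1 := hτ _ hu.le
    rw [hτu, ← sub_div, map_div₀, ← hvx] at h1
    exact (div_lt_one₀ (zero_lt_iff.2 hvx0)).1 h1
  have hvx' : A.valuation (τ x) = A.valuation x := by
    have : τ x = x + (τ x - x) := by ring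
    rw [this]
    exact Valuation.map_add_eq_of_lt_left _ hdx
  -- Step 2: `t = y / x` is a unit with `t² = a₂ + μ`, `μ` in the maximal ideal
  have heq : y ^ 2 = x ^ 3 + W.a₂ * x ^ 2 + W.a₄ * x :=
    (w2_equation_iff H.loc.w2 x y).1 h.left
  have hvx'0 : A.valuation (τ x) ≠ 0 := by rw [hvx']; exact hvx0
  have hx'0 : τ x ≠ 0 := (Valuation.ne_zero_iff _).1 hvx'0
  have hμ : A.valuation (x + W.a₄ / x) < 1 := by
    apply Valuation.map_add_lt _ hx
    rw [map_div₀]
    exact (div_lt_one₀ (zero_lt_iff.2 hvx0)).2 hlt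
  have ht2 : (y / x) ^ 2 = W.a₂ + (x + W.a₄ / x) := by
    rw [div_pow, heq]
    field_simp
    ring
  have hvt : A.valuation (y / x) = 1 := by
    have h1 : A.valuation ((y / x) ^ 2) = 1 := by
      rw [ht2, Valuation.map_add_eq_of_lt_left _ (by rw [H.a₂u]; exact hμ)]
      exact H.a₂u
    rw [map_pow] at h1
    exact (pow_eq_one_iff_of_nonneg zero_le two_ne_zero).1 h1
  have hτt : τ (y / x) = τ y / τ x := map_div₀ τ y x
  have hdt : A.valuation (τ y / τ x - y / x) < 1 := by
    rw [← hτt]
    exact hτ _ hvt.le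
  have hv2 : A.valuation (2 : K) = 1 := H.loc.two
  by_cases hxx : τ x = x
  · -- `τ x = x`: then `τ y = y`
    have h'' : W.toAffine.Nonsingular x (τ y) := by
      rw [← hxx]
      exact h'
    have hyy : τ y = y := by
      rcases w2_same_x H.loc.w2 h h'' with hy | hy
      · exact hy
      · exfalso
        rw [hxx, hy] at hdt
        have e : -y / x - y / x = -(2 * (y / x)) := by ring
        rw [e, Valuation.map_neg, map_mul, hv2, hvt, one_mul] at hdt
        exact lt_irrefl _ hdt
    have hPQ : Point.some (τ x) (τ y) h' = Point.some x y h := by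
      simp only [Point.some.injEq]
      exact ⟨hxx, hyy⟩
    rw [hPQ, sub_self]; trivial
  · -- `τ x ≠ x`: the difference has non-integral `x`
    obtain ⟨x₃, y₃, h₃, x₄, y₄, h₄, -, hsub, -, -, hD, -⟩ :=
      w2_add_sub H.loc.w2 h h' (Ne.symm hxx)
    rw [hsub]
    apply (kr_not_mem_iff A x₄).mpr
    by_contra hint
    have hint : A.valuation x₄ ≤ 1 := not_lt.mp hint
    have hδ : A.valuation ((x + W.a₄ / x) + y / x * (τ y / τ x - y / x)) < 1 := by
      apply Valuation.map_add_lt _ hμ
      rw [map_mul, hvt, one_mul]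
      exact hdt
    have hrhs : x * τ x * (x + τ x + 2 * W.a₂) + W.a₄ * (x + τ x) + 2 * y * τ y =
        x * τ x * (4 * W.a₂) +
          (x * τ x * (x + τ x + 2 * ((x + W.a₄ / x) + y / x * (τ y / τ x - y / x))) +
            W.a₄ * (x + τ x)) := by
      have e1 : y / x * (τ y / τ x - y / x) = y * τ y / (x * τ x) - (y / x) ^ 2 := by
        field_simp
      rw [e1, ht2]
      field_simp
      ring
    have hvxx : A.valuation (x + τ x) ≤ A.valuation x :=
      Valuation.map_add_le _ le_rfl hvx'.le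
    have hmain : A.valuation (x * τ x * (4 * W.a₂)) = A.valuation x * A.valuation x := by
      have h4 : A.valuation (4 : K) = 1 := by
        have : (4 : K) = 2 * 2 := by norm_num
        rw [this, map_mul, hv2, one_mul]
      rw [map_mul, map_mul, map_mul, hvx', h4, H.a₂u, one_mul, mul_one]
    have hpos : 0 < A.valuation x := zero_lt_iff.2 hvx0
    have hpos2 : 0 < A.valuation x * A.valuation x := mul_pos hpos hpos
    have hr1 : A.valuation (x * τ x * (x + τ x +
        2 * ((x + W.a₄ / x) + y / x * (τ y / τ x - y / x)))) < A.valuation x * A.valuation x := by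
      rw [map_mul, map_mul, hvx']
      have h1 : A.valuation (x + τ x +
          2 * ((x + W.a₄ / x) + y / x * (τ y / τ x - y / x))) < 1 := by
        apply Valuation.map_add_lt
        · exact lt_of_le_of_lt hvxx hx
        · rw [map_mul, hv2, one_mul]
          exact hδ
      calc A.valuation x * A.valuation x * _ < A.valuation x * A.valuation x * 1 := by
            exact mul_lt_mul_of_pos_left h1 hpos2
        _ = _ := mul_one _
    have hr2 : A.valuation (W.a₄ * (x + τ x)) < A.valuation x * A.valuation x := by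
      rw [map_mul]
      calc A.valuation W.a₄ * A.valuation (x + τ x)
          ≤ A.valuation W.a₄ * A.valuation x := mul_le_mul_right hvxx _
        _ < A.valuation x * A.valuation x := mul_lt_mul_of_pos_right hlt hpos
    have hval : A.valuation (x₄ * (x - τ x) ^ 2) = A.valuation x * A.valuation x := by
      rw [hD, hrhs, Valuation.map_add_eq_of_lt_left _ (by
        rw [hmain]
        exact Valuation.map_add_lt _ hr1 hr2)]
      exact hmain
    have hdx' : A.valuation (x - τ x) < A.valuation x := by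
      rw [Valuation.map_sub_swap]
      exact hdx
    have hlt2 : A.valuation (x₄ * (x - τ x) ^ 2) < A.valuation x * A.valuation x := by
      rw [map_mul, map_pow, pow_two]
      calc A.valuation x₄ * (A.valuation (x - τ x) * A.valuation (x - τ x))
          ≤ 1 * (A.valuation (x - τ x) * A.valuation (x - τ x)) := mul_le_mul_left hint _
        _ = A.valuation (x - τ x) * A.valuation (x - τ x) := one_mul _
        _ ≤ A.valuation (x - τ x) * A.valuation x := mul_le_mul_right hdx'.le _
        _ < A.valuation x * A.valuation x := mul_lt_mul_of_pos_right hdx' hpos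
    rw [hval] at hlt2
    exact lt_irrefl _ hlt2

omit [DecidableEq K] in
/-- a ring endomorphism close to the identity on `A` preserves non-integrality -/
theorem ip_val_map_gt (τ : K →+* K)
    (hτ : ∀ a : K, A.valuation a ≤ 1 → A.valuation (τ a - a) < 1) {x : K}
    (hx : 1 < A.valuation x) : 1 < A.valuation (τ x) := by
  have hx0 : x ≠ 0 := by
    rintro rfl
    rw [_root_.map_zero] at hx
    exact absurd hx (not_lt.mpr zero_le)
  have hinv : A.valuation x⁻¹ < 1 := by
    rw [map_inv₀]
    exact inv_lt_one_of_one_lt₀ hx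
  have h1 := hτ _ hinv.le
  have h2 : A.valuation (τ x⁻¹) < 1 := by
    have : τ x⁻¹ = x⁻¹ + (τ x⁻¹ - x⁻¹) := by ring
    rw [this]
    exact Valuation.map_add_lt _ hinv h1
  rw [map_inv₀, map_inv₀] at h2
  have hτx0 : A.valuation (τ x) ≠ 0 := by
    rw [Ne, Valuation.zero_iff]
    exact (map_ne_zero τ).mpr hx0
  by_contra hcon
  have hcon : A.valuation (τ x) ≤ 1 := not_lt.mp hcon
  have : 1 ≤ (A.valuation (τ x))⁻¹ := (one_le_inv₀ (zero_lt_iff.2 hτx0)).mpr hcon
  exact absurd h2 (not_lt.mpr this)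

/-- **Local main theorem at the residue characteristic**: a torsion point of odd prime order `n`
and its `τ`-conjugate differ by an element of the kernel of reduction (no hypothesis on `v n`). -/
theorem ip_local (H : LocHyp A W) (τ : K →+* K)
    (hτ : ∀ a : K, A.valuation a ≤ 1 → A.valuation (τ a - a) < 1)
    {n : ℕ} (hn : n.Prime) (hn2 : n ≠ 2)
    (hred : A.valuation (W.a₄ ^ 2 * (W.a₂ ^ 2 - 4 * W.a₄)) = 1 ∨
      (NodeHyp A W ∧ ∃ c : K, τ c = c ∧ A.valuation W.a₄ = A.valuation c ^ n))
    {x y : K} (h : W.toAffine.Nonsingular x y) (h' : W.toAffine.Nonsingular (τ x) (τ y))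
    (hP : n • Point.some x y h = 0) :
    InE1 A (Point.some x y h - Point.some (τ x) (τ y) h') := by
  have hW := H.w2
  by_cases hx1 : A.valuation x ≤ 1
  swap
  · -- both points are in the kernel of reduction
    have hx1 : 1 < A.valuation x := not_le.mp hx1
    exact kr_inE1_sub_w2 A H ((kr_not_mem_iff A x).mpr hx1)
      ((kr_not_mem_iff A (τ x)).mpr (ip_val_map_gt A τ hτ hx1))
  have heq : y ^ 2 = x ^ 3 + W.a₂ * x ^ 2 + W.a₄ * x := (w2_equation_iff hW x y).mp h.1
  have hxA : x ∈ A := (A.valuation_le_one_iff x).mp hx1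
  have ha2A : W.a₂ ∈ A := (A.valuation_le_one_iff _).mp H.a₂
  have ha4A : W.a₄ ∈ A := (A.valuation_le_one_iff _).mp H.a₄
  have hy1 : A.valuation y ≤ 1 := by
    apply m9_le_one_of_sq_le_one A
    rw [heq, A.valuation_le_one_iff]
    exact add_mem (add_mem (pow_mem hxA 3) (mul_mem ha2A (pow_mem hxA 2))) (mul_mem ha4A hxA)
  have hF'A : 3 * x ^ 2 + 2 * W.a₂ * x + W.a₄ ∈ A :=
    add_mem (add_mem (mul_mem (ofNat_mem A 3) (pow_mem hxA 2))
      (mul_mem (mul_mem (ofNat_mem A 2) ha2A) hxA)) ha4A
  have hF'1 : A.valuation (3 * x ^ 2 + 2 * W.a₂ * x + W.a₄) ≤ 1 :=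
    (A.valuation_le_one_iff _).mpr hF'A
  have hτx := hτ x hx1
  have hτy := hτ y hy1
  rcases hred with hgood | ⟨hnode, c, hc, hca⟩
  · -- good reduction: the reduction is nonsingular by the Bezout identity
    apply ip_smooth_sub A H h h' hx1 hτx hτy
    by_contra hcon
    rw [not_or] at hcon
    have hy_lt : A.valuation y < 1 := lt_of_le_of_ne hy1 hcon.1
    have hF_lt : A.valuation (3 * x ^ 2 + 2 * W.a₂ * x + W.a₄) < 1 := lt_of_le_of_ne hF'1 hcon.2
    have hUA : -(6 * W.a₂ ^ 2 - 18 * W.a₄) * x - (4 * W.a₂ ^ 3 - 15 * W.a₂ * W.a₄) ∈ A :=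
      sub_mem (mul_mem (neg_mem (sub_mem (mul_mem (ofNat_mem A 6) (pow_mem ha2A 2))
        (mul_mem (ofNat_mem A 18) ha4A))) hxA)
        (sub_mem (mul_mem (ofNat_mem A 4) (pow_mem ha2A 3))
          (mul_mem (mul_mem (ofNat_mem A 15) ha2A) ha4A))
    have hVA : (2 * W.a₂ ^ 2 - 6 * W.a₄) * x ^ 2 + (2 * W.a₂ ^ 3 - 7 * W.a₂ * W.a₄) * x +
        (W.a₂ ^ 2 * W.a₄ - 4 * W.a₄ ^ 2) ∈ A :=
      add_mem (add_mem (mul_mem (sub_mem (mul_mem (ofNat_mem A 2) (pow_mem ha2A 2))
        (mul_mem (ofNat_mem A 6) ha4A)) (pow_mem hxA 2))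
        (mul_mem (sub_mem (mul_mem (ofNat_mem A 2) (pow_mem ha2A 3))
          (mul_mem (mul_mem (ofNat_mem A 7) ha2A) ha4A)) hxA))
        (sub_mem (mul_mem (pow_mem ha2A 2) ha4A) (mul_mem (ofNat_mem A 4) (pow_mem ha4A 2)))
    have hy2_lt : A.valuation (x ^ 3 + W.a₂ * x ^ 2 + W.a₄ * x) < 1 := by
      rw [← heq, pow_two]
      exact m9_mul_lt_one_left A hy_lt hy1
    have hlt : A.valuation (W.a₄ ^ 2 * (W.a₂ ^ 2 - 4 * W.a₄)) < 1 := by
      rw [m9_bezout W.a₂ W.a₄ x]
      exact m9_add_lt_one A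
        (m9_mul_lt_one_right A ((A.valuation_le_one_iff _).mpr hUA) hy2_lt)
        (m9_mul_lt_one_right A ((A.valuation_le_one_iff _).mpr hVA) hF_lt)
    exact absurd hgood (ne_of_lt hlt)
  · -- nodal reduction
    rcases lt_or_eq_of_le hx1 with hxlt | hxeq
    · exact ip_node_sub A hnode τ hτ hn hn2 c hc hca h h' hP hxlt
    · apply ip_smooth_sub A H h h' hx1 hτx hτy
      by_cases hyu : A.valuation y = 1
      · exact Or.inl hyu
      · right
        have hy_lt : A.valuation y < 1 := lt_of_le_of_ne hy1 hyu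
        have hq : A.valuation (x ^ 2 + W.a₂ * x + W.a₄) < 1 := by
          have e : x * (x ^ 2 + W.a₂ * x + W.a₄) = y * y := by rw [← pow_two, heq]; ring
          have e2 := congrArg A.valuation e
          rw [map_mul, hxeq, one_mul] at e2
          rw [e2]
          exact m9_mul_lt_one_left A hy_lt hy1
        apply m9_eq_one_of_sub_lt A (b := x ^ 2) (by rw [map_pow, hxeq, one_pow])
        have e : 3 * x ^ 2 + 2 * W.a₂ * x + W.a₄ - x ^ 2 =
            2 * (x ^ 2 + W.a₂ * x + W.a₄) - W.a₄ := by ring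
        rw [e]
        exact m9_sub_lt_one A
          (m9_mul_lt_one_right A ((A.valuation_le_one_iff _).mpr (ofNat_mem A 2)) hq) hnode.a₄m

end Generic

section Frey

variable (P : FreyPackage) (A : ValuationSubring Qb)

/-- transport of `ip_local` along the variable change `fVC r` -/
theorem ip_frey_of_hyp (σ : GQ)
    (hτ : ∀ a : Qb, A.valuation a ≤ 1 → A.valuation (σ a - a) < 1) (r : Qb) (hr : σ r = r)
    (hrv : A.valuation r ≤ 1)
    (H : LocHyp A (fVC r • freyQ P)) {n : ℕ} (hn : n.Prime) (hn2 : n ≠ 2)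
    (hred : A.valuation ((fVC r • freyQ P).a₄ ^ 2 *
        ((fVC r • freyQ P).a₂ ^ 2 - 4 * (fVC r • freyQ P).a₄)) = 1 ∨
      (NodeHyp A (fVC r • freyQ P) ∧
        ∃ c : Qb, σ c = c ∧ A.valuation (fVC r • freyQ P).a₄ = A.valuation c ^ n))
    {x y : Qb} (h : (freyQ P).toAffine.Nonsingular x y)
    (h' : (freyQ P).toAffine.Nonsingular (σ x) (σ y))
    (hP : n • Point.some x y h = 0) :
    InE1 A (Point.some x y h - Point.some (σ x) (σ y) h') := by
  have h2 : σ (2 : Qb) = 2 := map_ofNat σ 2
  have hu : σ (((fVC r).u : Qbˣ) : Qb) = (fVC r).u := by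
    simp [fVC, h2]
  have hs : σ (fVC r).s = (fVC r).s := by
    simp [fVC, h2]
  have ht : σ (fVC r).t = (fVC r).t := by
    simp [fVC, hr, h2]
  have hr' : σ (fVC r).r = (fVC r).r := hr
  have hP2 := torsion_of_vc (freyQ P) (fVC r) n h hP
  have key : ∀ (X' Y' : Qb) (h'' : (fVC r • freyQ P).toAffine.Nonsingular X' Y'),
      X' = (σ : Qb →+* Qb) ((x - (fVC r).r) / ((fVC r).u : Qb) ^ 2) →
      Y' = (σ : Qb →+* Qb)
        ((y - (fVC r).s * (x - (fVC r).r) - (fVC r).t) / ((fVC r).u : Qb) ^ 3) →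
      InE1 A (Point.some _ _ (vc_inv_nonsingular (freyQ P) (fVC r) h) - Point.some X' Y' h'') := by
    intro X' Y' h'' e1 e2
    subst e1 e2
    exact ip_local A H (σ : Qb →+* Qb) (by simpa using hτ) hn hn2
      (by simpa using hred) (vc_inv_nonsingular (freyQ P) (fVC r) h) h'' hP2
  have e1 : (σ x - (fVC r).r) / ((fVC r).u : Qb) ^ 2 =
      (σ : Qb →+* Qb) ((x - (fVC r).r) / ((fVC r).u : Qb) ^ 2) := by
    simp only [RingHom.coe_coe, map_div₀, map_sub, map_pow, hu, hr']
  have e2 : (σ y - (fVC r).s * (σ x - (fVC r).r) - (fVC r).t) / ((fVC r).u : Qb) ^ 3 =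
      (σ : Qb →+* Qb)
        ((y - (fVC r).s * (x - (fVC r).r) - (fVC r).t) / ((fVC r).u : Qb) ^ 3) := by
    simp only [RingHom.coe_coe, map_div₀, map_sub, map_mul, map_pow, hu, hr', hs, ht]
  have k := key _ _ (vc_inv_nonsingular (freyQ P) (fVC r) h') e1 e2
  rw [← vcEquiv_symm_some' (freyQ P) (fVC r) h, ← vcEquiv_symm_some' (freyQ P) (fVC r) h',
    ← map_sub] at k
  exact (kr_inE1_symm_iff P A H.two r hrv _).mp k

/-- the coordinate form of (B1) -/
theorem ip_frey_point (hA : A.LiesOverPrime P.p) (σ : GQ)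
    (hτ : ∀ a : Qb, A.valuation a ≤ 1 → A.valuation (σ a - a) < 1)
    {x y : Qb} (h : (freyQ P).toAffine.Nonsingular x y)
    (h' : (freyQ P).toAffine.Nonsingular (σ x) (σ y))
    (hP : P.p • Point.some x y h = 0) :
    InE1 A (Point.some x y h - Point.some (σ x) (σ y) h') := by
  have hq : P.p.Prime := P.pp
  have hp0 : P.p ≠ 0 := P.hp0
  have hp2 : P.p ≠ 2 := by have := P.hp5; omega
  have hv2 : A.valuation (2 : Qb) = 1 := kr_val_two A hq hp2 hA
  have hv4 : A.valuation (4 : Qb) = 1 := kr_val_four A hq hp2 hA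
  have hσint : ∀ z : ℤ, σ (z : Qb) = z := fun z => map_intCast σ z
  have hσA : σ (fA P) = fA P := by simp [fA]
  have hABC := fA_add_fB P
  have hAle := kr_fA_le P A
  have hBle := kr_fB_le P A
  have hCle := kr_fC_le P A
  have hA0 : fA P ≠ 0 := pow_ne_zero _ (by exact_mod_cast P.ha0)
  have hB0 : fB P ≠ 0 := pow_ne_zero _ (by exact_mod_cast P.hb0)
  have hC0 : fC P ≠ 0 := pow_ne_zero _ (by exact_mod_cast P.hc0)
  have h0v : A.valuation (0 : Qb) ≤ 1 := by rw [_root_.map_zero]; exact zero_le
  by_cases hqc : (P.p : ℤ) ∣ P.c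
  · -- node at `X = A`: shift
    have hqa : ¬ (P.p : ℤ) ∣ P.a :=
      not_dvd_of_gcd_eq_one hq (by rw [gcd_comm']; exact P.hgcdac) hqc
    have hvA : A.valuation (fA P) = 1 := val_intpow_eq_one A hq hA hqa _
    have hvC : A.valuation (fC P) < 1 := val_intpow_lt_one A hq hA hqc hp0
    have e2 : (fVC (fA P / 4) • freyQ P).a₂ = fA P + fC P := by
      rw [vcF_a₂, ← hABC]; ring
    have e4 : (fVC (fA P / 4) • freyQ P).a₄ = fA P * fC P := by
      rw [vcF_a₄, ← hABC]; ring
    have e6 : (fVC (fA P / 4) • freyQ P).a₆ = 0 := by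
      rw [vcF_a₆]; ring
    have hr : σ (fA P / 4) = fA P / 4 := by
      rw [map_div₀, hσA, map_ofNat]
    have hrv : A.valuation (fA P / 4) ≤ 1 := by
      rw [map_div₀, hv4, div_one]; exact hAle
    have hloc : LocHyp A (fVC (fA P / 4) • freyQ P) :=
      { w2 := ⟨vcF_a₁ P _, vcF_a₃ P _, e6⟩
        two := hv2
        a₂ := by rw [e2]; exact Valuation.map_add_le _ hAle hCle
        a₄ := by rw [e4, map_mul]; exact mul_le_one' hAle hCle }
    refine ip_frey_of_hyp P A σ hτ (fA P / 4) hr hrv hloc hq hp2 (Or.inr ⟨?_, ?_⟩) h h' hP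
    · refine ⟨hloc, ?_, ?_, ?_⟩
      · rw [e2, Valuation.map_add_eq_of_lt_left _ (by rw [hvA]; exact hvC), hvA]
      · rw [e4, map_mul, hvA, one_mul]; exact hvC
      · rw [e4]; exact mul_ne_zero hA0 hC0
    · refine ⟨((P.a * P.c : ℤ) : Qb), hσint _, ?_⟩
      rw [e4, ← map_pow]; congr 1; simp [fA, fC, mul_pow]
  · have e2 : (fVC 0 • freyQ P).a₂ = fB P - fA P := kr_vc0_a₂ P
    have e4 : (fVC 0 • freyQ P).a₄ = -(fA P * fB P) := kr_vc0_a₄ P
    have hloc : LocHyp A (fVC 0 • freyQ P) := kr_frey_locHyp P A hq hp2 hA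
    have hvC : A.valuation (fC P) = 1 := val_intpow_eq_one A hq hA hqc _
    by_cases hqa : (P.p : ℤ) ∣ P.a
    · have hqb : ¬ (P.p : ℤ) ∣ P.b := not_dvd_of_gcd_eq_one hq P.hgcdab hqa
      have hvA : A.valuation (fA P) < 1 := val_intpow_lt_one A hq hA hqa hp0
      have hvB : A.valuation (fB P) = 1 := val_intpow_eq_one A hq hA hqb _
      refine ip_frey_of_hyp P A σ hτ 0 (_root_.map_zero σ) h0v hloc hq hp2
        (Or.inr ⟨?_, ?_⟩) h h' hP
      · refine ⟨hloc, ?_, ?_, ?_⟩
        · rw [e2, Valuation.map_sub_eq_of_lt_left _ (by rw [hvB]; exact hvA), hvB]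
        · rw [e4, Valuation.map_neg, map_mul, hvB, mul_one]; exact hvA
        · rw [e4]; exact neg_ne_zero.mpr (mul_ne_zero hA0 hB0)
      · refine ⟨((P.a * P.b : ℤ) : Qb), hσint _, ?_⟩
        rw [e4, Valuation.map_neg, ← map_pow]; congr 1; simp [fA, fB, mul_pow]
    · have hvA : A.valuation (fA P) = 1 := val_intpow_eq_one A hq hA hqa _
      by_cases hqb : (P.p : ℤ) ∣ P.b
      · have hvB : A.valuation (fB P) < 1 := val_intpow_lt_one A hq hA hqb hp0
        refine ip_frey_of_hyp P A σ hτ 0 (_root_.map_zero σ) h0v hloc hq hp2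
          (Or.inr ⟨?_, ?_⟩) h h' hP
        · refine ⟨hloc, ?_, ?_, ?_⟩
          · rw [e2, Valuation.map_sub_eq_of_lt_right _ (by rw [hvA]; exact hvB), hvA]
          · rw [e4, Valuation.map_neg, map_mul, hvA, one_mul]; exact hvB
          · rw [e4]; exact neg_ne_zero.mpr (mul_ne_zero hA0 hB0)
        · refine ⟨((P.a * P.b : ℤ) : Qb), hσint _, ?_⟩
          rw [e4, Valuation.map_neg, ← map_pow]; congr 1; simp [fA, fB, mul_pow]
      · have hvB : A.valuation (fB P) = 1 := val_intpow_eq_one A hq hA hqb _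
        refine ip_frey_of_hyp P A σ hτ 0 (_root_.map_zero σ) h0v hloc hq hp2 (Or.inl ?_)
          h h' hP
        have : (fVC 0 • freyQ P).a₄ ^ 2 *
            ((fVC 0 • freyQ P).a₂ ^ 2 - 4 * (fVC 0 • freyQ P).a₄) =
            (fA P * fB P * fC P) ^ 2 := by
          rw [e2, e4, ← hABC]; ring
        rw [this, map_pow, map_mul, map_mul, hvA, hvB, hvC]; simp

/-- (B1) inertia at `p` moves `p`-torsion points only inside the kernel of reduction
(good reduction `p ∤ abc` and nodal reduction `p ∣ abc` alike) -/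
theorem inertia_p_sub_inE1 (P : FreyPackage) (A : ValuationSubring Qb)
    (hA : A.LiesOverPrime P.p) (σ : GQ) (hσ : σ ∈ A.inertiaSubgroupIn ℚ) (x : FreyV P) :
    InE1 A ((σ • x - x : FreyV P) : FreyPt P) := by
  have hτ := inertia_facts A σ hσ
  obtain ⟨Q, hQ⟩ := x
  change InE1 A (σ • Q - Q)
  rw [Submodule.mem_torsionBy_iff] at hQ
  have hQ' : P.p • Q = 0 := by
    rw [← natCast_zsmul]; exact hQ
  cases Q with
  | zero =>
    have h0 : σ • (0 : FreyPt P) = 0 := rfl
    change InE1 A (σ • (0 : FreyPt P) - 0)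
    rw [h0, sub_zero]; trivial
  | some x y h =>
    have h' : (P.freyCurve⁄Qb).Nonsingular (σ x) (σ y) :=
      (WeierstrassCurve.Affine.baseChange_nonsingular (W := P.freyCurve) (f := σ.toAlgHom)
        σ.toAlgHom.injective ..).mpr h
    have he : σ • (Point.some x y h : FreyPt P) = Point.some (σ x) (σ y) h' := rfl
    rw [he]
    have key := ip_frey_point P A hA σ hτ h h' hQ'
    have : Point.some (σ x) (σ y) h' - Point.some x y h =
        -(Point.some x y h - Point.some (σ x) (σ y) h') := (neg_sub _ _).symm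
    rw [this]
    exact kr_inE1_neg A key

end Frey

end Fermat.Agent.S13x
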