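/-
S13 helper library (helper92): the abstract endgame.

`V` a `ZMod p`-vector space of dimension `≤ 2` with an additive action of a group `G`, `N` a
`G`-stable submodule with `N ≠ ⊥`, `N ≠ ⊤`.  Given one "inertia subgroup" `I q ≤ G` for every prime
`q`, a Minkowski-type principle, unipotence of `I q` for `q ≠ p`, a proper subspace `M` with `I p`
acting trivially on `V / M`, and the absence of a `G`-fixed nonzero vector in `N`, the action of
`G` on `V / N` is trivial (`N` is a cofixed line).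
-/
import Mathlib

set_option autoImplicit false

namespace Fermat.Agent.S13x

variable {G V : Type*} [Group G] [AddCommGroup V] {p : ℕ} [Fact p.Prime] [Module (ZMod p) V]
  [DistribMulAction G V]

/-- the subgroup fixing `N` pointwise -/
def gaFix (N : Submodule (ZMod p) V) : Subgroup G where
  carrier := {σ | ∀ x ∈ N, σ • x = x}
  one_mem' := fun x _ => one_smul G x
  mul_mem' := fun {a b} ha hb x hx => by rw [mul_smul, hb x hx, ha x hx]
  inv_mem' := fun {a} ha x hx => by
    have h := ha x hx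
    calc a⁻¹ • x = a⁻¹ • (a • x) := by rw [h]
      _ = x := inv_smul_smul a x

/-- the subgroup acting trivially on `V / N` -/
def gaCofix (N : Submodule (ZMod p) V) (hN : ∀ σ : G, ∀ x ∈ N, σ • x ∈ N) : Subgroup G where
  carrier := {σ | ∀ x : V, σ • x - x ∈ N}
  one_mem' := fun x => by rw [one_smul, sub_self]; exact N.zero_mem
  mul_mem' := fun {a b} ha hb x => by
    have h1 : (a * b) • x - x = (a • (b • x - x) - (b • x - x)) + ((b • x - x) + (a • x - x)) := by
      rw [mul_smul, smul_sub]; abel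
    rw [h1]
    exact N.add_mem (ha _) (N.add_mem (hb x) (ha x))
  inv_mem' := fun {a} ha x => by
    have h1 : a⁻¹ • x - x = -(a⁻¹ • (a • x - x)) := by
      rw [smul_sub, inv_smul_smul]; abel
    rw [h1]
    exact N.neg_mem (hN a⁻¹ _ (ha x))

theorem mem_gaFix {N : Submodule (ZMod p) V} {σ : G} : σ ∈ gaFix (G := G) N ↔ ∀ x ∈ N, σ • x = x :=
  Iff.rfl

theorem mem_gaCofix {N : Submodule (ZMod p) V} {hN : ∀ σ : G, ∀ x ∈ N, σ • x ∈ N} {σ : G} :
    σ ∈ gaCofix N hN ↔ ∀ x : V, σ • x - x ∈ N := Iff.rfl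

theorem gaFix_normal (N : Submodule (ZMod p) V) (hN : ∀ σ : G, ∀ x ∈ N, σ • x ∈ N) :
    (gaFix (G := G) N).Normal := by
  refine ⟨fun σ hσ g x hx => ?_⟩
  have h1 : g⁻¹ • x ∈ N := hN g⁻¹ x hx
  rw [mul_smul, mul_smul, hσ _ h1, smul_inv_smul]

theorem gaCofix_normal (N : Submodule (ZMod p) V) (hN : ∀ σ : G, ∀ x ∈ N, σ • x ∈ N) :
    (gaCofix N hN).Normal := by
  refine ⟨fun σ hσ g x => ?_⟩
  have h1 : (g * σ * g⁻¹) • x - x = g • (σ • (g⁻¹ • x) - g⁻¹ • x) := by
    rw [mul_smul, mul_smul, smul_sub, smul_inv_smul]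
  rw [h1]
  exact hN g _ (hσ _)

/-- the kernel of the action lies in both subgroups -/
theorem le_gaFix_of_trivial (N : Submodule (ZMod p) V) {σ : G} (h : ∀ x : V, σ • x = x) :
    σ ∈ gaFix (G := G) N := fun x _ => h x

theorem le_gaCofix_of_trivial (N : Submodule (ZMod p) V) (hN : ∀ σ : G, ∀ x ∈ N, σ • x ∈ N)
    {σ : G} (h : ∀ x : V, σ • x = x) : σ ∈ gaCofix N hN := fun x => by
  rw [h x, sub_self]; exact N.zero_mem

/-- In dimension `≤ 2`, a proper subspace `T` and a subspace `N ≠ ⊥, ⊤` satisfy `T ≤ N` or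
`T ⊓ N = ⊥`. -/
theorem ga_le_or_disjoint (hdim : Module.finrank (ZMod p) V ≤ 2) [Module.Finite (ZMod p) V]
    {N T : Submodule (ZMod p) V} (hN0 : N ≠ ⊥) (hN1 : N ≠ ⊤) (hT : T ≠ ⊤) :
    T ≤ N ∨ T ⊓ N = ⊥ := by
  have hNlt : Module.finrank (ZMod p) N < Module.finrank (ZMod p) V :=
    Submodule.finrank_lt hN1
  have hTlt : Module.finrank (ZMod p) T < Module.finrank (ZMod p) V :=
    Submodule.finrank_lt hT
  have hNpos : 0 < Module.finrank (ZMod p) N := by
    rw [Module.finrank_pos_iff (R := ZMod p)]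
    exact Submodule.nontrivial_iff_ne_bot.mpr hN0
  have hN1' : Module.finrank (ZMod p) N = 1 := by omega
  have hT1 : Module.finrank (ZMod p) T ≤ 1 := by omega
  by_cases hTN : T ⊓ N = ⊥
  · exact Or.inr hTN
  · left
    have hpos : 0 < Module.finrank (ZMod p) (T ⊓ N : Submodule (ZMod p) V) := by
      rw [Module.finrank_pos_iff (R := ZMod p)]
      exact Submodule.nontrivial_iff_ne_bot.mpr hTN
    have hle : Module.finrank (ZMod p) (T ⊓ N : Submodule (ZMod p) V)
        ≤ Module.finrank (ZMod p) T := Submodule.finrank_mono inf_le_left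
    have heq : (T ⊓ N : Submodule (ZMod p) V) = T :=
      Submodule.eq_of_le_of_finrank_le inf_le_left (by omega)
    rw [← heq]
    exact inf_le_right


/-- A `σ` which stabilises the line `N` and is unipotent with respect to a proper subspace `T`
(`σ - 1` maps `V` into `T` and kills `T`) fixes `N` pointwise and acts trivially on `V / N`
(dimension `≤ 2`). -/
theorem ga_unipotent (hdim : Module.finrank (ZMod p) V ≤ 2) [Module.Finite (ZMod p) V]
    {N T : Submodule (ZMod p) V} (hN0 : N ≠ ⊥) (hN1 : N ≠ ⊤) (hT : T ≠ ⊤) (σ : G)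
    (hσN : ∀ x ∈ N, σ • x ∈ N) (h1 : ∀ x : V, σ • x - x ∈ T) (h2 : ∀ x ∈ T, σ • x = x) :
    (∀ x ∈ N, σ • x = x) ∧ ∀ x : V, σ • x - x ∈ N := by
  have hNlt : Module.finrank (ZMod p) N < Module.finrank (ZMod p) V := Submodule.finrank_lt hN1
  have hTlt : Module.finrank (ZMod p) T < Module.finrank (ZMod p) V := Submodule.finrank_lt hT
  have hNpos : 0 < Module.finrank (ZMod p) N := by
    rw [Module.finrank_pos_iff (R := ZMod p)]
    exact Submodule.nontrivial_iff_ne_bot.mpr hN0
  rcases ga_le_or_disjoint hdim hN0 hN1 hT with hle | hdisj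
  · -- `T ≤ N`
    refine ⟨fun x hx => ?_, fun x => hle (h1 x)⟩
    by_cases hTN : T = N
    · exact h2 x (hTN ▸ hx)
    · -- then `T = ⊥`
      have hlt : T < N := lt_of_le_of_ne hle hTN
      have hfr : Module.finrank (ZMod p) T < Module.finrank (ZMod p) N :=
        Submodule.finrank_lt_finrank_of_lt hlt
      have hT0 : Module.finrank (ZMod p) T = 0 := by omega
      have hTbot : T = ⊥ := Submodule.finrank_eq_zero.mp hT0
      have := h1 x
      rw [hTbot, Submodule.mem_bot, sub_eq_zero] at this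
      exact this
  · -- `T ⊓ N = ⊥`
    have hfix : ∀ x ∈ N, σ • x = x := fun x hx => by
      have hmem : σ • x - x ∈ T ⊓ N := ⟨h1 x, N.sub_mem (hσN x hx) hx⟩
      rw [hdisj, Submodule.mem_bot, sub_eq_zero] at hmem
      exact hmem
    refine ⟨hfix, fun x => ?_⟩
    by_cases hTbot : T = ⊥
    · have := h1 x
      rw [hTbot, Submodule.mem_bot] at this
      rw [this]; exact N.zero_mem
    · -- `T ⊔ N = ⊤`
      have hTpos : 0 < Module.finrank (ZMod p) T := by
        rw [Module.finrank_pos_iff (R := ZMod p)]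
        exact Submodule.nontrivial_iff_ne_bot.mpr hTbot
      have hsum := Submodule.finrank_sup_add_finrank_inf_eq T N
      rw [hdisj, finrank_bot, add_zero] at hsum
      have htop : T ⊔ N = ⊤ := by
        apply Submodule.eq_top_of_finrank_eq
        have hle : Module.finrank (ZMod p) (T ⊔ N : Submodule (ZMod p) V)
            ≤ Module.finrank (ZMod p) V := Submodule.finrank_le _
        omega
      have hx : x ∈ T ⊔ N := by rw [htop]; exact Submodule.mem_top
      obtain ⟨t, ht, n, hn, rfl⟩ := Submodule.mem_sup.mp hx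
      rw [smul_add, h2 t ht, hfix n hn, sub_self]
      exact N.zero_mem

/-- **Abstract endgame of S13.** -/
theorem ga_cofixed (hdim : Module.finrank (ZMod p) V ≤ 2) [Module.Finite (ZMod p) V]
    (N : Submodule (ZMod p) V) (hN : ∀ σ : G, ∀ x ∈ N, σ • x ∈ N) (hN0 : N ≠ ⊥) (hN1 : N ≠ ⊤)
    (I : ℕ → Subgroup G)
    (hmink : ∀ H : Subgroup G, H.Normal → (∀ σ : G, (∀ x : V, σ • x = x) → σ ∈ H) →
      (∀ q : ℕ, q.Prime → I q ≤ H) → H = ⊤)
    (hloc : ∀ q : ℕ, q.Prime → q ≠ p → ∃ T : Submodule (ZMod p) V, T ≠ ⊤ ∧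
      ∀ σ ∈ I q, (∀ x : V, σ • x - x ∈ T) ∧ ∀ x ∈ T, σ • x = x)
    (hlocp : ∃ M : Submodule (ZMod p) V, M ≠ ⊤ ∧ ∀ σ ∈ I p, ∀ x : V, σ • x - x ∈ M)
    (htwo : ∃ σ : G, ∃ x ∈ N, σ • x ≠ x) :
    ∀ σ : G, ∀ x : V, σ • x - x ∈ N := by
  -- away from `p`
  have haway : ∀ q : ℕ, q.Prime → q ≠ p → I q ≤ gaFix N ⊓ gaCofix N hN := by
    intro q hq hqp σ hσ
    obtain ⟨T, hT, hT2⟩ := hloc q hq hqp
    obtain ⟨h1, h2⟩ := hT2 σ hσ
    have := ga_unipotent hdim hN0 hN1 hT σ (hN σ) h1 h2
    exact ⟨this.1, this.2⟩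
  obtain ⟨M, hM, hM2⟩ := hlocp
  rcases ga_le_or_disjoint hdim hN0 hN1 hM with hle | hdisj
  · -- `I p` acts trivially on `V / N`
    have htop : gaCofix N hN = ⊤ := by
      refine hmink _ (gaCofix_normal N hN) (fun σ h => le_gaCofix_of_trivial N hN h) ?_
      intro q hq
      by_cases hqp : q = p
      · subst hqp
        exact fun σ hσ x => hle (hM2 σ hσ x)
      · exact (haway q hq hqp).trans inf_le_right
    intro σ x
    have : σ ∈ gaCofix N hN := by rw [htop]; exact Subgroup.mem_top σ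
    exact this x
  · -- `I p` fixes `N` pointwise: contradiction with `htwo`
    exfalso
    have htop : gaFix (G := G) N = ⊤ := by
      refine hmink _ (gaFix_normal N hN) (fun σ h => le_gaFix_of_trivial N h) ?_
      intro q hq
      by_cases hqp : q = p
      · subst hqp
        intro σ hσ x hx
        have hmem : σ • x - x ∈ M ⊓ N := ⟨hM2 σ hσ x, N.sub_mem (hN σ x hx) hx⟩
        rw [hdisj, Submodule.mem_bot, sub_eq_zero] at hmem
        exact hmem
      · exact (haway q hq hqp).trans inf_le_left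
    obtain ⟨σ, x, hx, hne⟩ := htwo
    have : σ ∈ gaFix (G := G) N := by rw [htop]; exact Subgroup.mem_top σ
    exact hne (this x hx)

end Fermat.Agent.S13x
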