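/-
S13 project, rows G1 + G3 (helper92): finite linear algebra in the plane `V = E[p](Qb)` with a
Galois-stable line `N`.  Exact statements of `S13x/Spec.lean`, instantiated from the abstract
lemmas of `S13x/GlueAbstract.lean`.
-/
import Fermat.Agent.S13x.Defs
import Fermat.Agent.S13x.GlueAbstract

set_option autoImplicit false
open WeierstrassCurve WeierstrassCurve.Affine WeierstrassCurve.Affine.Point

namespace Fermat.Agent.S13x

/-- `fixN` is the abstract `gaFix` -/
theorem fixN_eq_gaFix (P : FreyPackage) [Fact P.p.Prime] (N : Submodule (ZMod P.p) (FreyV P)) :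
    fixN P N = gaFix (G := GQ) N := Subgroup.ext fun _ => Iff.rfl

/-- `cofixN` is the abstract `gaCofix` -/
theorem cofixN_eq_gaCofix (P : FreyPackage) [Fact P.p.Prime] (N : Submodule (ZMod P.p) (FreyV P))
    (hN : IsGaloisStable ℚ N) : cofixN P N hN = gaCofix (G := GQ) N hN :=
  Subgroup.ext fun _ => Iff.rfl

/-- (G3) -/
theorem fixN_normal (P : FreyPackage) (N : Submodule (ZMod P.p) (FreyV P))
    (hN : IsGaloisStable ℚ N) : (fixN P N).Normal := by
  have : Fact P.p.Prime := ⟨P.pp⟩
  rw [fixN_eq_gaFix]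
  exact gaFix_normal N hN

theorem cofixN_normal (P : FreyPackage) (N : Submodule (ZMod P.p) (FreyV P))
    (hN : IsGaloisStable ℚ N) : (cofixN P N hN).Normal := by
  have : Fact P.p.Prime := ⟨P.pp⟩
  rw [cofixN_eq_gaCofix]
  exact gaCofix_normal N hN

/-- a finite `ZMod p`-module of cardinality `≤ p ^ 2` has dimension `≤ 2` -/
theorem la_finrank_le_two {p : ℕ} [Fact p.Prime] {V : Type*} [AddCommGroup V] [Module (ZMod p) V]
    [Finite V] (hcard : Nat.card V ≤ p ^ 2) :
    Module.Finite (ZMod p) V ∧ Module.finrank (ZMod p) V ≤ 2 := by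
  have : Module.Finite (ZMod p) V := Module.Finite.of_finite
  refine ⟨inferInstance, ?_⟩
  have h1 : Nat.card V = Nat.card (ZMod p) ^ Module.finrank (ZMod p) V :=
    Module.natCard_eq_pow_finrank
  rw [Nat.card_zmod] at h1
  rw [h1] at hcard
  exact (Nat.pow_le_pow_iff_right (Fact.out : p.Prime).one_lt).mp hcard

/-- (G1a) a unipotent element fixes the stable line and acts trivially on the quotient -/
theorem mem_of_unipotent (P : FreyPackage) (hfin : Finite (FreyV P))
    (hcard : Nat.card (FreyV P) ≤ P.p ^ 2)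
    (N : Submodule (ZMod P.p) (FreyV P)) (hN : IsGaloisStable ℚ N) (hbot : N ≠ ⊥) (htop : N ≠ ⊤)
    (σ : GQ) (hσ : ∀ x : FreyV P, σ • (σ • x - x) = σ • x - x) :
    σ ∈ fixN P N ∧ σ ∈ cofixN P N hN := by
  have : Fact P.p.Prime := ⟨P.pp⟩
  obtain ⟨hmf, hdim⟩ := la_finrank_le_two (p := P.p) (V := FreyV P) hcard
  -- the fixed space of `σ`
  let T0 : AddSubgroup (FreyV P) :=
    { carrier := {x | σ • x = x}
      zero_mem' := smul_zero σ
      add_mem' := fun {a b} ha hb => by
        show σ • (a + b) = a + b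
        rw [smul_add, ha, hb]
      neg_mem' := fun {a} ha => by
        show σ • (-a) = -a
        rw [smul_neg, ha] }
  let T : Submodule (ZMod P.p) (FreyV P) := AddSubgroup.toZModSubmodule P.p T0
  have hT : ∀ x, x ∈ T ↔ σ • x = x := fun x => Iff.rfl
  by_cases hTtop : T = ⊤
  · -- `σ` acts trivially
    have htriv : ∀ x : FreyV P, σ • x = x := fun x => (hT x).mp (hTtop ▸ Submodule.mem_top)
    refine ⟨fun x _ => htriv x, fun x => ?_⟩
    rw [htriv x, sub_self]
    exact N.zero_mem
  · have := ga_unipotent (G := GQ) hdim hbot htop hTtop σ (hN σ)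
      (fun x => (hT _).mpr (hσ x)) (fun x hx => (hT x).mp hx)
    exact ⟨this.1, this.2⟩

/-- (G1b) a subgroup moving `V` only inside a proper submodule `M` fixes the line or the quotient -/
theorem le_fixN_or_le_cofixN (P : FreyPackage) (hfin : Finite (FreyV P))
    (hcard : Nat.card (FreyV P) ≤ P.p ^ 2)
    (N : Submodule (ZMod P.p) (FreyV P)) (hN : IsGaloisStable ℚ N) (hbot : N ≠ ⊥) (htop : N ≠ ⊤)
    (I : Subgroup GQ) (M : Submodule (ZMod P.p) (FreyV P)) (hM : M ≠ ⊤)
    (hI : ∀ σ ∈ I, ∀ x : FreyV P, σ • x - x ∈ M) :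
    I ≤ fixN P N ∨ I ≤ cofixN P N hN := by
  have : Fact P.p.Prime := ⟨P.pp⟩
  obtain ⟨hmf, hdim⟩ := la_finrank_le_two (p := P.p) (V := FreyV P) hcard
  rcases ga_le_or_disjoint hdim hbot htop hM with hle | hdisj
  · right
    intro σ hσ x
    exact hle (hI σ hσ x)
  · left
    intro σ hσ x hx
    have hmem : σ • x - x ∈ M ⊓ N := ⟨hI σ hσ x, N.sub_mem (hN σ x hx) hx⟩
    rw [hdisj, Submodule.mem_bot, sub_eq_zero] at hmem
    exact hmem

end Fermat.Agent.S13x
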