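import Fermat.Agent.S13x.FixedRat

/-!
# S13 project, row G2: the Galois action on the (finite) `p`-torsion factors through a finite extension
-/

set_option autoImplicit false
open WeierstrassCurve WeierstrassCurve.Affine WeierstrassCurve.Affine.Point

namespace Fermat.Agent.S13x

/-- the set of coordinates of a point -/
def ok_coords (P : FreyPackage) : FreyPt P → Set Qb
  | .zero => ∅
  | .some x y _ => {x, y}

theorem ok_coords_finite (P : FreyPackage) (Q : FreyPt P) : (ok_coords P Q).Finite := by
  cases Q with
  | zero => exact Set.finite_empty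
  | some x y h => exact Set.toFinite {x, y}

/-- an automorphism fixing the coordinates of a point fixes the point -/
theorem ok_smul_eq_of_fix (P : FreyPackage) (σ : GQ) (Q : FreyPt P)
    (h : ∀ z ∈ ok_coords P Q, σ z = z) : σ • Q = Q := by
  cases Q with
  | zero => rfl
  | some x y hxy =>
    have hx : σ x = x := h x (by simp [ok_coords])
    have hy : σ y = y := h y (by simp [ok_coords])
    rw [algEquiv_smul_def, Point.map_some]
    simp only [Point.some.injEq]
    exact ⟨hx, hy⟩

/-- (G2) the action on `V` factors through a finite extension -/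
theorem exists_finite_fixing (P : FreyPackage) (hfin : Finite (FreyV P)) :
    ∃ M : IntermediateField ℚ Qb, FiniteDimensional ℚ M ∧
      ∀ σ ∈ M.fixingSubgroup, ∀ x : FreyV P, σ • x = x := by
  classical
  let S : Set Qb := ⋃ v : FreyV P, ok_coords P (v : FreyPt P)
  have hS : S.Finite := Set.finite_iUnion fun v => ok_coords_finite P _
  refine ⟨IntermediateField.adjoin ℚ S, ?_, ?_⟩
  · have : Finite S := hS.to_subtype
    have halg : Algebra.IsAlgebraic ℚ Qb := fr_isAlgClosure_Qb.isAlgebraic
    exact IntermediateField.finiteDimensional_adjoin fun z _ =>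
      (Algebra.IsAlgebraic.isAlgebraic (R := ℚ) z).isIntegral
  · intro σ hσ x
    apply Subtype.ext
    change σ • (x : FreyPt P) = (x : FreyPt P)
    apply ok_smul_eq_of_fix
    intro z hz
    have hzS : z ∈ S := Set.mem_iUnion.mpr ⟨x, hz⟩
    have hzM : z ∈ IntermediateField.adjoin ℚ S := IntermediateField.subset_adjoin ℚ S hzS
    exact (IntermediateField.mem_fixingSubgroup_iff _ σ).mp hσ z hzM

end Fermat.Agent.S13x
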