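/-
S13 helper library, leaf (d), module D09 (`DescentQbar`): torsion points of an elliptic curve
defined over `ℚ` with values in an algebraically closed field `K ⊇ ℚ` (e.g. `ℂ`) already have
coordinates in any algebraically closed subfield `F` algebraic over `ℚ` (e.g. `AlgebraicClosure ℚ`),
as soon as the `n`-torsion of `E(K)` is finite.  Consequently `E(F)[n] ≃ E(K)[n]`.

Method: a transcendental `z : K` has an infinite orbit under `Aut(K/ℚ)` (`z ↦ z + c`), whereas the
coordinates of the points of a finite Galois-stable set have finite orbits.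
-/
import Mathlib
import Fermat.Agent.S23x.AutFixed

set_option autoImplicit false
set_option linter.unusedSectionVars false

namespace Fermat.Agent.S13x

open MvPolynomial WeierstrassCurve WeierstrassCurve.Affine

/-- a transcendental element of an algebraically closed field of characteristic zero can be
translated by any rational number by a field automorphism. -/
theorem dq_exists_shift {K : Type*} [Field K] [Algebra ℚ K] [IsAlgClosed K]
    (z : K) (hz : Transcendental ℚ z) (c : ℚ) :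
    ∃ σ : K ≃ₐ[ℚ] K, σ z = z + (c : K) := by
  classical
  have hind : AlgebraicIndepOn ℚ id ({z} : Set K) := by
    rw [AlgebraicIndepOn, algebraicIndependent_unique_type_iff]
    exact hz
  obtain ⟨t, hzt, ht⟩ := exists_isTranscendenceBasis_superset hind
  have hzmem : z ∈ t := hzt rfl
  let i₀ : t := ⟨z, hzmem⟩
  let cc : t → ℚ := fun i => if i = i₀ then c else 0
  let τ : MvPolynomial t ℚ ≃ₐ[ℚ] MvPolynomial t ℚ :=
    AlgEquiv.ofAlgHom (aeval fun i => X i + C (cc i)) (aeval fun i => X i - C (cc i))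
      (by ext i; simp) (by ext i; simp)
  obtain ⟨σ, hσ⟩ := S23x.af_exists_ringEquiv ((↑) : t → K) ht τ.toRingEquiv
  refine ⟨σ.toRatAlgEquiv, ?_⟩
  have h1 := hσ (X i₀)
  have h2 : τ.toRingEquiv (X i₀) = X i₀ + C (cc i₀) := by simp [τ]
  rw [h2] at h1
  simp only [aeval_X, map_add] at h1
  have h3 : cc i₀ = c := by simp [cc]
  rw [h3] at h1
  simp only [aeval_C] at h1
  change σ z = z + algebraMap ℚ K c at h1
  rw [RingEquiv.coe_toRatAlgEquiv, h1]
  simp

/-- an element with finite orbit under `Aut(K/ℚ)` is algebraic over `ℚ`. -/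
theorem dq_isAlgebraic_of_finite_orbit {K : Type*} [Field K] [Algebra ℚ K] [CharZero K]
    [IsAlgClosed K] (z : K) (h : (Set.range fun σ : K ≃ₐ[ℚ] K => σ z).Finite) : IsAlgebraic ℚ z := by
  by_contra hz
  have hz' : Transcendental ℚ z := hz
  have hinj : Function.Injective fun c : ℕ => z + ((c : ℚ) : K) := by
    intro a b hab
    have : ((a : ℚ) : K) = ((b : ℚ) : K) := add_left_cancel hab
    exact_mod_cast this
  have hsub : Set.range (fun c : ℕ => z + ((c : ℚ) : K)) ⊆
      Set.range fun σ : K ≃ₐ[ℚ] K => σ z := by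
    rintro _ ⟨c, rfl⟩
    obtain ⟨σ, hσ⟩ := dq_exists_shift z hz' (c : ℚ)
    exact ⟨σ, hσ⟩
  exact Set.infinite_range_of_injective hinj (h.subset hsub)

/-- algebraic elements of `K` lie in the image of any algebraically closed `F`. -/
theorem dq_mem_range_of_isAlgebraic {F K : Type*} [Field F] [Field K] [Algebra ℚ F] [Algebra ℚ K]
    [IsAlgClosed F] (ι : F →ₐ[ℚ] K) (z : K) (hz : IsAlgebraic ℚ z) : ∃ x : F, ι x = z := by
  have hint : IsIntegral ℚ z := hz.isIntegral
  have hne : (minpoly ℚ z).map (algebraMap ℚ K) ≠ 0 :=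
    Polynomial.map_ne_zero (minpoly.ne_zero hint)
  have himg := Polynomial.Splits.image_rootSet_of_map_ne_zero
    (f := minpoly ℚ z) (IsAlgClosed.splits _) ι hne
  have hzroot : z ∈ (minpoly ℚ z).rootSet K := by
    rw [Polynomial.mem_rootSet]
    exact ⟨minpoly.ne_zero hint, minpoly.aeval ℚ z⟩
  rw [← himg] at hzroot
  obtain ⟨x, _, hx⟩ := hzroot
  exact ⟨x, hx⟩

section Points

variable {F K : Type*} [Field F] [Field K] [DecidableEq F] [DecidableEq K] [Algebra ℚ F]
  [Algebra ℚ K] [CharZero K] [IsAlgClosed F] [IsAlgClosed K] (W' : Affine ℚ)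

/-- the `x`-coordinate of a point (junk value `0` at the origin). -/
def dqX : (W'⁄K).Point → K
  | 0 => 0
  | .some x _ _ => x

/-- the `y`-coordinate of a point (junk value `0` at the origin). -/
def dqY : (W'⁄K).Point → K
  | 0 => 0
  | .some _ y _ => y

theorem dq_map_mem_torsionBy (n : ℕ) (σ : K ≃ₐ[ℚ] K) {P : (W'⁄K).Point}
    (hP : P ∈ Submodule.torsionBy ℤ (W'⁄K).Point n) :
    Point.map (W' := W') σ.toAlgHom P ∈ Submodule.torsionBy ℤ (W'⁄K).Point n := by
  rw [Submodule.mem_torsionBy_iff] at hP ⊢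
  rw [← map_zsmul, hP, map_zero]

/-- **Descent**: a torsion point over `K` of a curve over `ℚ` comes from `F`, if the `n`-torsion
over `K` is finite. -/
theorem dq_exists_map_eq (ι : F →ₐ[ℚ] K) (n : ℕ)
    (hfin : (Submodule.torsionBy ℤ (W'⁄K).Point n : Set (W'⁄K).Point).Finite)
    (P : (W'⁄K).Point) (hP : P ∈ Submodule.torsionBy ℤ (W'⁄K).Point n) :
    ∃ Q : (W'⁄F).Point, Point.map (W' := W') ι Q = P := by
  rcases P with _ | ⟨x, y, h⟩
  · exact ⟨0, rfl⟩
  · have hx : (Set.range fun σ : K ≃ₐ[ℚ] K => σ x).Finite := by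
      refine (hfin.image (dqX W')).subset ?_
      rintro _ ⟨σ, rfl⟩
      exact ⟨Point.map (W' := W') σ.toAlgHom (.some x y h),
        dq_map_mem_torsionBy W' n σ hP, rfl⟩
    have hy : (Set.range fun σ : K ≃ₐ[ℚ] K => σ y).Finite := by
      refine (hfin.image (dqY W')).subset ?_
      rintro _ ⟨σ, rfl⟩
      exact ⟨Point.map (W' := W') σ.toAlgHom (.some x y h),
        dq_map_mem_torsionBy W' n σ hP, rfl⟩
    obtain ⟨x₀, rfl⟩ := dq_mem_range_of_isAlgebraic ι x (dq_isAlgebraic_of_finite_orbit x hx)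
    obtain ⟨y₀, rfl⟩ := dq_mem_range_of_isAlgebraic ι y (dq_isAlgebraic_of_finite_orbit y hy)
    have h₀ : (W'⁄F).Nonsingular x₀ y₀ := (W'.baseChange_nonsingular ι.injective x₀ y₀).mp h
    exact ⟨.some x₀ y₀ h₀, rfl⟩

/-- the `n`-torsion over `F` and over `K` are in bijection. -/
theorem dq_card_torsion (ι : F →ₐ[ℚ] K) (n : ℕ)
    (hfin : (Submodule.torsionBy ℤ (W'⁄K).Point n : Set (W'⁄K).Point).Finite) :
    Nat.card (Submodule.torsionBy ℤ (W'⁄F).Point n) =
      Nat.card (Submodule.torsionBy ℤ (W'⁄K).Point n) := by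
  have hmem : ∀ Q : (W'⁄F).Point, Q ∈ Submodule.torsionBy ℤ (W'⁄F).Point n ↔
      Point.map (W' := W') ι Q ∈ Submodule.torsionBy ℤ (W'⁄K).Point n := by
    intro Q
    rw [Submodule.mem_torsionBy_iff, Submodule.mem_torsionBy_iff, ← map_zsmul]
    constructor
    · intro h; rw [h, map_zero]
    · intro h
      apply Point.map_injective (W' := W') ι
      rw [h, map_zero]
  let f : Submodule.torsionBy ℤ (W'⁄F).Point n → Submodule.torsionBy ℤ (W'⁄K).Point n :=
    fun Q => ⟨Point.map (W' := W') ι Q.1, (hmem Q.1).mp Q.2⟩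
  have hf : Function.Bijective f := by
    constructor
    · intro Q₁ Q₂ h
      apply Subtype.ext
      apply Point.map_injective (W' := W') ι
      exact congrArg Subtype.val h
    · rintro ⟨P, hP⟩
      obtain ⟨Q, hQ⟩ := dq_exists_map_eq W' ι n hfin P hP
      refine ⟨⟨Q, (hmem Q).mpr (hQ ▸ hP)⟩, Subtype.ext hQ⟩
  exact Nat.card_congr (Equiv.ofBijective f hf)

/-- variant: a nonzero cardinality over `K` transfers to `F`. -/
theorem dq_card_torsion_of_card (ι : F →ₐ[ℚ] K) {n m : ℕ} (hm : m ≠ 0)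
    (h : Nat.card (Submodule.torsionBy ℤ (W'⁄K).Point n) = m) :
    Nat.card (Submodule.torsionBy ℤ (W'⁄F).Point n) = m := by
  have hfin : Finite (Submodule.torsionBy ℤ (W'⁄K).Point n) :=
    Nat.finite_of_card_ne_zero (h ▸ hm)
  rw [dq_card_torsion W' ι n (Set.toFinite _), h]

end Points

/-- the case `F = AlgebraicClosure ℚ`, `K = ℂ`. -/
theorem dq_card_torsion_algebraicClosure [DecidableEq (AlgebraicClosure ℚ)] [DecidableEq ℂ]
    (W' : Affine ℚ) {n m : ℕ} (hm : m ≠ 0)
    (h : Nat.card (Submodule.torsionBy ℤ (W'⁄ℂ).Point n) = m) :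
    Nat.card (Submodule.torsionBy ℤ (W'⁄(AlgebraicClosure ℚ)).Point n) = m := by
  have : Algebra.IsAlgebraic ℚ (AlgebraicClosure ℚ) := AlgebraicClosure.isAlgebraic ℚ
  exact dq_card_torsion_of_card W' (IsAlgClosed.lift : AlgebraicClosure ℚ →ₐ[ℚ] ℂ) hm h

end Fermat.Agent.S13x
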