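/-
S13 project, leaf (d) "uniformisation": every pair `(a, b)` with `a ^ 3 - 27 * b ^ 2 ≠ 0` is the
pair of invariants `(g₂, g₃)` of a period lattice (helper95).

Route: for `τ : ℍ` and `u ≠ 0` the lattice `u • (ℤ τ + ℤ)` has `G_k = u⁻ᵏ · 2 ζ(k) E_k(τ)`;
`j` is surjective (`S24x.jFun_surjective`); scaling.
-/
import Mathlib
import Fermat.Agent.S24x.JFun

set_option autoImplicit false

namespace Fermat.Agent.S13x

open UpperHalfPlane ModularForm EisensteinSeries Complex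
open scoped MatrixGroups ModularForm Real Nat

/-- the period pair `(u τ, u)`. -/
noncomputable def loiPair (u : ℂ) (hu : u ≠ 0) (τ : ℍ) : PeriodPair where
  ω₁ := u * τ
  ω₂ := u
  indep := by
    rw [LinearIndependent.pair_iff]
    intro s t h
    have h1 : u * ((s : ℂ) * τ + t) = 0 := by
      have : (s : ℂ) * (u * τ) + (t : ℂ) * u = 0 := by simpa using h
      linear_combination this
    have h2 : (s : ℂ) * τ + t = 0 := by
      rcases mul_eq_zero.mp h1 with h | h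
      · exact absurd h hu
      · exact h
    have him := congrArg Complex.im h2
    simp at him
    have hs : s = 0 := by
      rcases him with h | h
      · exact h
      · exact absurd h τ.im_ne_zero
    subst hs
    have hre := congrArg Complex.re h2
    simp at hre
    exact ⟨rfl, hre⟩

theorem loi_G (u : ℂ) (hu : u ≠ 0) (τ : ℍ) {k : ℕ} (hk : 3 ≤ k) :
    (loiPair u hu τ).G k = (u ^ k)⁻¹ * (2 * riemannZeta k * E hk τ) := by
  set L := loiPair u hu τ with hL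
  have h1 : L.G k = ∑' x : ℤ × ℤ, (((L.latticeEquivProd.symm x : L.lattice) : ℂ) ^ k)⁻¹ := by
    rw [PeriodPair.G]
    exact (L.latticeEquivProd.symm.toEquiv.tsum_eq (fun l : L.lattice => ((l : ℂ) ^ k)⁻¹)).symm
  have h2 : ∀ x : ℤ × ℤ, (((L.latticeEquivProd.symm x : L.lattice) : ℂ) ^ k)⁻¹ =
      (u ^ k)⁻¹ * eisSummand k ![x.1, x.2] τ := by
    intro x
    rw [PeriodPair.latticeEquiv_symm_apply]
    have : ((x.1 : ℂ) * L.ω₁ + x.2 * L.ω₂) = u * ((x.1 : ℂ) * τ + x.2) := by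
      simp only [hL, loiPair]; ring
    rw [this, mul_pow, mul_inv]
    simp [eisSummand]
  rw [h1]
  simp_rw [h2]
  rw [tsum_mul_left]
  congr 1
  have h3 : ∑' x : ℤ × ℤ, eisSummand k ![x.1, x.2] τ = ∑' v : Fin 2 → ℤ, eisSummand k v τ := by
    rw [← (finTwoArrowEquiv ℤ).symm.tsum_eq]
    rfl
  rw [h3, tsum_eisSummand_eq_riemannZeta_mul_eisensteinSeries hk τ]
  rw [show E hk τ = (1 / 2 : ℂ) • eisensteinSeriesSIF (N := 1) 0 k τ from rfl,
    eisensteinSeriesSIF_apply 0 k τ]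
  simp only [smul_eq_mul]
  ring

theorem loi_zeta_six : riemannZeta 6 = (π : ℂ) ^ 6 / 945 := by
  have h := riemannZeta_two_mul_nat (k := 3) (by norm_num)
  have hb : bernoulli (2 * 3) = 1 / 42 := by decide +kernel
  rw [hb] at h
  have h6 : (2 * ((3 : ℕ) : ℂ)) = 6 := by norm_num
  rw [h6] at h
  rw [h]
  have hf : (((2 * 3 : ℕ)! : ℕ) : ℂ) = 720 := by
    norm_num [Nat.factorial]
  rw [hf]
  push_cast
  ring

theorem loi_exists_scale (a b A B : ℂ) (h : a ^ 3 - 27 * b ^ 2 ≠ 0)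
    (hAB : A ^ 3 - 27 * B ^ 2 ≠ 0) (hrel : b ^ 2 * A ^ 3 = a ^ 3 * B ^ 2) :
    ∃ u : ℂ, u ≠ 0 ∧ A = u ^ 4 * a ∧ B = u ^ 6 * b := by
  by_cases ha : a = 0
  · subst ha
    have hb : b ≠ 0 := by
      rintro rfl
      simp at h
    have hA : A = 0 := by
      have : b ^ 2 * A ^ 3 = 0 := by rw [hrel]; ring
      rcases mul_eq_zero.mp this with h1 | h1
      · exact absurd (pow_eq_zero_iff (two_ne_zero)|>.mp h1) hb
      · exact pow_eq_zero_iff (three_ne_zero) |>.mp h1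
    subst hA
    have hB : B ≠ 0 := by
      rintro rfl
      simp at hAB
    obtain ⟨u, hu⟩ := IsAlgClosed.exists_pow_nat_eq (B / b) (n := 6) (by norm_num)
    refine ⟨u, ?_, by simp, ?_⟩
    · rintro rfl
      have : B / b = 0 := by rw [← hu]; simp
      exact absurd this (div_ne_zero hB hb)
    · rw [hu]; field_simp
  by_cases hb : b = 0
  · subst hb
    have hB : B = 0 := by
      have : a ^ 3 * B ^ 2 = 0 := by rw [← hrel]; ring
      rcases mul_eq_zero.mp this with h1 | h1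
      · exact absurd (pow_eq_zero_iff (three_ne_zero)|>.mp h1) ha
      · exact pow_eq_zero_iff (two_ne_zero) |>.mp h1
    subst hB
    have hA : A ≠ 0 := by
      rintro rfl
      simp at hAB
    obtain ⟨u, hu⟩ := IsAlgClosed.exists_pow_nat_eq (A / a) (n := 4) (by norm_num)
    refine ⟨u, ?_, ?_, by simp⟩
    · rintro rfl
      have : A / a = 0 := by rw [← hu]; simp
      exact absurd this (div_ne_zero hA ha)
    · rw [hu]; field_simp
  have hA : A ≠ 0 := by
    rintro rfl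
    have : a ^ 3 * B ^ 2 = 0 := by rw [← hrel]; ring
    rcases mul_eq_zero.mp this with h1 | h1
    · exact absurd (pow_eq_zero_iff (three_ne_zero)|>.mp h1) ha
    · have hB : B = 0 := pow_eq_zero_iff (two_ne_zero) |>.mp h1
      subst hB
      simp at hAB
  have hB : B ≠ 0 := by
    rintro rfl
    have : b ^ 2 * A ^ 3 = 0 := by rw [hrel]; ring
    rcases mul_eq_zero.mp this with h1 | h1
    · exact absurd (pow_eq_zero_iff (two_ne_zero)|>.mp h1) hb
    · exact hA (pow_eq_zero_iff (three_ne_zero) |>.mp h1)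
  obtain ⟨u, hu⟩ := IsAlgClosed.exists_pow_nat_eq (a * B / (b * A)) (n := 2) (by norm_num)
  have hw : a * B / (b * A) ≠ 0 := div_ne_zero (mul_ne_zero ha hB) (mul_ne_zero hb hA)
  refine ⟨u, ?_, ?_, ?_⟩
  · rintro rfl
    have : a * B / (b * A) = 0 := by rw [← hu]; simp
    exact absurd this hw
  · have : u ^ 4 = (a * B / (b * A)) ^ 2 := by rw [← hu]; ring
    rw [this]
    field_simp
    linear_combination hrel
  · have : u ^ 6 = (a * B / (b * A)) ^ 3 := by rw [← hu]; ring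
    rw [this]
    field_simp
    linear_combination hrel

theorem loi_g₂ (u : ℂ) (hu : u ≠ 0) (τ : ℍ) :
    (loiPair u hu τ).g₂ = (u ^ 4)⁻¹ * (4 * (π : ℂ) ^ 4 / 3 * E₄ τ) := by
  rw [PeriodPair.g₂, loi_G u hu τ (by norm_num : 3 ≤ 4)]
  have h4 : riemannZeta ((4 : ℕ) : ℂ) = (π : ℂ) ^ 4 / 90 := by
    have := riemannZeta_four
    simpa using this
  rw [h4]
  ring

theorem loi_g₃ (u : ℂ) (hu : u ≠ 0) (τ : ℍ) :
    (loiPair u hu τ).g₃ = (u ^ 6)⁻¹ * (8 * (π : ℂ) ^ 6 / 27 * E₆ τ) := by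
  rw [PeriodPair.g₃, loi_G u hu τ (by norm_num : 3 ≤ 6)]
  have h6 : riemannZeta ((6 : ℕ) : ℂ) = (π : ℂ) ^ 6 / 945 := by
    have := loi_zeta_six
    simpa using this
  rw [h6]
  ring

/-- **Uniformisation**: every `(a, b)` with non-zero discriminant is `(g₂ L, g₃ L)` for a period
lattice `L`. -/
theorem loi_exists_periodPair (a b : ℂ) (h : a ^ 3 - 27 * b ^ 2 ≠ 0) :
    ∃ L : PeriodPair, L.g₂ = a ∧ L.g₃ = b := by
  obtain ⟨τ, hτ⟩ := Fermat.Agent.S24x.jFun_surjective (1728 * a ^ 3 / (a ^ 3 - 27 * b ^ 2))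
  have hΔ : ModularForm.discriminant τ ≠ 0 := ModularForm.discriminant_ne_zero τ
  have hΔe := ModularForm.discriminant_eq_E₄_cube_sub_E₆_sq τ
  have hD : E₄ τ ^ 3 - E₆ τ ^ 2 ≠ 0 := by
    intro h0
    rw [h0, zero_div] at hΔe
    exact hΔ hΔe
  -- the relation `27 b² e4³ = a³ e6²`
  have hrel0 : 27 * b ^ 2 * E₄ τ ^ 3 = a ^ 3 * E₆ τ ^ 2 := by
    have hj : Fermat.Agent.S24x.jFun τ = E₄ τ ^ 3 / ModularForm.discriminant τ := rfl
    rw [hj, hΔe] at hτ
    rw [div_eq_div_iff (div_ne_zero hD (by norm_num)) h] at hτ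
    field_simp at hτ
    linear_combination (-1 : ℂ) * hτ
  have hπ : (π : ℂ) ≠ 0 := by exact_mod_cast Real.pi_ne_zero
  set A : ℂ := 4 * (π : ℂ) ^ 4 / 3 * E₄ τ with hA
  set B : ℂ := 8 * (π : ℂ) ^ 6 / 27 * E₆ τ with hB
  have hAB : A ^ 3 - 27 * B ^ 2 ≠ 0 := by
    have : A ^ 3 - 27 * B ^ 2 = 64 * (π : ℂ) ^ 12 / 27 * (E₄ τ ^ 3 - E₆ τ ^ 2) := by
      rw [hA, hB]; ring
    rw [this]
    exact mul_ne_zero (div_ne_zero (mul_ne_zero (by norm_num) (pow_ne_zero _ hπ)) (by norm_num)) hD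
  have hrel : b ^ 2 * A ^ 3 = a ^ 3 * B ^ 2 := by
    rw [hA, hB]
    linear_combination (64 * (π : ℂ) ^ 12 / 729) * hrel0
  obtain ⟨u, hu, h1, h2⟩ := loi_exists_scale a b A B h hAB hrel
  refine ⟨loiPair u hu τ, ?_, ?_⟩
  · rw [loi_g₂, ← hA, h1]
    field_simp
  · rw [loi_g₃, ← hB, h2]
    field_simp

end Fermat.Agent.S13x
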