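/-
S13 leaf (d), module D08 (helper28): the `n`-torsion of an arbitrary complex Weierstrass curve with
`Δ ≠ 0` has exactly `n²` elements, GIVEN the statement for the curves `y² = x³ - (g₂/4) x - g₃/4`
attached to period pairs (D05 + D06) and the existence of a period pair with prescribed invariants
(D07).  Reduction to short Weierstrass form by a variable change (char 0) + `S51x.vcEquiv`.
-/
import Fermat.Agent.S51x.VC

set_option autoImplicit false

open WeierstrassCurve WeierstrassCurve.Affine WeierstrassCurve.Affine.Point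

namespace Fermat.Agent.S13x

/-- an additive equivalence preserves the cardinality of the `n`-torsion. -/
theorem tc_card_torsion_congr {A B : Type} [AddCommGroup A] [AddCommGroup B] (e : A ≃+ B)
    (n : ℕ) :
    Nat.card (Submodule.torsionBy ℤ A (n : ℤ)) = Nat.card (Submodule.torsionBy ℤ B (n : ℤ)) := by
  refine Nat.card_congr ⟨fun x => ⟨e x.1, ?_⟩, fun y => ⟨e.symm y.1, ?_⟩, fun x => ?_, fun y => ?_⟩
  · have hx := x.2
    rw [Submodule.mem_torsionBy_iff] at hx ⊢
    rw [← map_zsmul, hx, _root_.map_zero]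
  · have hy := y.2
    rw [Submodule.mem_torsionBy_iff] at hy ⊢
    rw [← map_zsmul, hy, _root_.map_zero]
  · ext; simp
  · ext; simp

/-- a short Weierstrass curve is determined by `a₄`, `a₆`. -/
theorem tc_eq_of_isShortNF (W : WeierstrassCurve ℂ) [W.IsShortNF] :
    W = ⟨0, 0, 0, W.a₄, W.a₆⟩ := by
  ext
  · exact W.a₁_of_isShortNF
  · exact W.a₂_of_isShortNF
  · exact W.a₃_of_isShortNF
  · rfl
  · rfl

/-- **D08.**  Torsion count for an arbitrary complex Weierstrass curve from the count for the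
curves of period pairs and uniformisation. -/
theorem tc_card_torsion_of
    (hcard : ∀ (L : PeriodPair), L.g₂ ^ 3 - 27 * L.g₃ ^ 2 ≠ 0 → ∀ n : ℕ, 1 ≤ n →
      Nat.card (Submodule.torsionBy ℤ
        (⟨0, 0, 0, -L.g₂ / 4, -L.g₃ / 4⟩ : WeierstrassCurve ℂ).toAffine.Point (n : ℤ)) = n ^ 2)
    (hunif : ∀ a b : ℂ, a ^ 3 - 27 * b ^ 2 ≠ 0 → ∃ L : PeriodPair, L.g₂ = a ∧ L.g₃ = b)
    (W : WeierstrassCurve ℂ) (hΔ : W.Δ ≠ 0) (n : ℕ) (hn : 1 ≤ n) :
    Nat.card (Submodule.torsionBy ℤ W.toAffine.Point (n : ℤ)) = n ^ 2 := by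
  have : Invertible (2 : ℂ) := invertibleOfNonzero two_ne_zero
  have : Invertible (3 : ℂ) := invertibleOfNonzero three_ne_zero
  set C : VariableChange ℂ := W.toShortNF with hC
  set W' : WeierstrassCurve ℂ := C • W with hW'
  have : W'.IsShortNF := W.toShortNF_spec
  have hΔ' : W'.Δ ≠ 0 := by
    rw [hW', variableChange_Δ]
    exact mul_ne_zero (pow_ne_zero _ (by simp)) hΔ
  -- invariants
  have hdisc : (-4 * W'.a₄) ^ 3 - 27 * (-4 * W'.a₆) ^ 2 ≠ 0 := by
    have h := W'.Δ_of_isShortNF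
    intro h0
    apply hΔ'
    rw [h]
    linear_combination h0
  obtain ⟨L, hg2, hg3⟩ := hunif _ _ hdisc
  have hL : L.g₂ ^ 3 - 27 * L.g₃ ^ 2 ≠ 0 := by rw [hg2, hg3]; exact hdisc
  have hWL : W' = ⟨0, 0, 0, -L.g₂ / 4, -L.g₃ / 4⟩ := by
    rw [tc_eq_of_isShortNF W', hg2, hg3]
    congr 1 <;> ring
  have h1 := hcard L hL n hn
  rw [← hWL] at h1
  rw [← h1]
  exact (tc_card_torsion_congr (Fermat.Agent.S51x.vcEquiv W C) n).symm

end Fermat.Agent.S13x
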