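/-
S13 helper library (helper26): the addition theorem for the Weierstrass `℘`-function,
by Euler's method (no pole analysis beyond `℘ z = z⁻² + e z` with `e` analytic, `e 0 = 0`).
All names are prefixed `wpe_`.  Mathlib-only.
-/
import Mathlib

set_option autoImplicit false

namespace Fermat.Agent.S13x

open PeriodPair Filter Topology

variable (L : PeriodPair)

/-! ### basic calculus of `℘`, `℘'` -/

theorem wpe_isOpen_compl : IsOpen ((L.lattice : Set ℂ)ᶜ) := L.isClosed_lattice.isOpen_compl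

theorem wpe_hasDerivAt_P {z : ℂ} (hz : z ∉ L.lattice) : HasDerivAt ℘[L] (℘'[L] z) z := by
  have h := (L.differentiableOn_weierstrassP.differentiableAt
    ((wpe_isOpen_compl L).mem_nhds hz)).hasDerivAt
  rwa [L.deriv_weierstrassP] at h

theorem wpe_differentiableAt_dP {z : ℂ} (hz : z ∉ L.lattice) : DifferentiableAt ℂ ℘'[L] z :=
  L.differentiableOn_derivWeierstrassP.differentiableAt ((wpe_isOpen_compl L).mem_nhds hz)

theorem wpe_continuousAt_P {z : ℂ} (hz : z ∉ L.lattice) : ContinuousAt ℘[L] z :=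
  (wpe_hasDerivAt_P L hz).continuousAt

theorem wpe_continuousAt_dP {z : ℂ} (hz : z ∉ L.lattice) : ContinuousAt ℘'[L] z :=
  (wpe_differentiableAt_dP L hz).continuousAt

theorem wpe_countable_lattice : (L.lattice : Set ℂ).Countable := by
  have : Countable L.lattice := Countable.of_equiv _ L.latticeEquivProd.toEquiv.symm
  exact Set.countable_coe_iff.mp this

theorem wpe_rank : 1 < Module.rank ℝ ℂ := by
  rw [Complex.rank_real_complex]; norm_num

theorem wpe_isPreconnected_compl : IsPreconnected ((L.lattice : Set ℂ)ᶜ) :=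
  ((wpe_countable_lattice L).isConnected_compl_of_one_lt_rank wpe_rank).isPreconnected

/-- Laurent form at `0`: `℘ z = 1 / z ^ 2 + e z` with `e = ℘[L - 0]` analytic at `0`. -/
theorem wpe_P_eq (z : ℂ) : ℘[L] z = 1 / z ^ 2 + ℘[L - (0 : ℂ)] z := by
  have h := L.weierstrassPExcept_def (0 : L.lattice) z
  simp only [ZeroMemClass.coe_zero, sub_zero] at h
  rw [h]
  simp

theorem wpe_dP_eq (z : ℂ) : ℘'[L] z = -2 / z ^ 3 + ℘'[L - (0 : ℂ)] z := by
  have h := L.derivWeierstrassPExcept_def (0 : L.lattice) z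
  simp only [ZeroMemClass.coe_zero, sub_zero] at h
  rw [h]
  ring

theorem wpe_continuousAt_e : ContinuousAt ℘[L - (0 : ℂ)] 0 :=
  (L.analyticAt_weierstrassPExcept 0).continuousAt

theorem wpe_continuousAt_de : ContinuousAt ℘'[L - (0 : ℂ)] 0 :=
  (L.analyticAt_derivWeierstrassPExcept 0).continuousAt

theorem wpe_e_zero : ℘[L - (0 : ℂ)] 0 = 0 := L.weierstrassPExcept_zero 0


/-- `0` has a punctured neighbourhood disjoint from the lattice. -/
theorem wpe_eventually_notMem_zero : ∀ᶠ z in 𝓝[≠] (0 : ℂ), z ∉ L.lattice := by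
  have h := L.compl_lattice_sdiff_singleton_mem_nhds 0
  filter_upwards [mem_nhdsWithin_of_mem_nhds h, self_mem_nhdsWithin] with z hz hz0
  intro hmem
  exact hz ⟨hmem, hz0⟩

/-- `‖℘ z‖ → ∞` as `z → 0`. -/
theorem wpe_tendsto_norm_P_zero : Tendsto (fun z => ‖℘[L] z‖) (𝓝[≠] (0 : ℂ)) atTop := by
  have h1 : Tendsto (fun z : ℂ => ‖1 / z ^ 2‖) (𝓝[≠] (0 : ℂ)) atTop := by
    have h := tendsto_norm_inv_nhdsNE_zero_atTop (α := ℂ)
    have h2 := (tendsto_pow_atTop (α := ℝ) (n := 2) (by norm_num)).comp h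
    refine h2.congr fun z => ?_
    simp [Function.comp_apply, norm_inv, norm_pow]
  have h2 : Tendsto (fun z : ℂ => -‖℘[L - (0 : ℂ)] z‖) (𝓝[≠] (0 : ℂ)) (𝓝 (-‖℘[L - (0 : ℂ)] 0‖)) :=
    ((wpe_continuousAt_e L).norm.neg).tendsto.mono_left nhdsWithin_le_nhds
  have h3 := h1.atTop_add h2
  refine tendsto_atTop_mono (fun z => ?_) h3
  rw [wpe_P_eq L z]
  have := norm_sub_norm_le (1 / z ^ 2) (-(℘[L - (0 : ℂ)] z))
  rw [norm_neg, sub_neg_eq_add] at this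
  linarith

/-- `℘'` is not identically zero off the lattice. -/
theorem wpe_dP_not_identically_zero : ¬ ∀ z ∈ (L.lattice : Set ℂ)ᶜ, ℘'[L] z = 0 := by
  intro h
  have hconst : ∀ x ∈ (L.lattice : Set ℂ)ᶜ, ∀ y ∈ (L.lattice : Set ℂ)ᶜ, ℘[L] x = ℘[L] y := by
    intro x hx y hy
    refine (wpe_isOpen_compl L).is_const_of_deriv_eq_zero (wpe_isPreconnected_compl L)
      L.differentiableOn_weierstrassP ?_ hx hy
    intro z hz
    rw [L.deriv_weierstrassP]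
    exact h z hz
  have hω : L.ω₁ / 2 ∈ (L.lattice : Set ℂ)ᶜ := L.ω₁_div_two_notMem_lattice
  have h1 := wpe_tendsto_norm_P_zero L
  have h2 : ∀ᶠ z in 𝓝[≠] (0 : ℂ), ‖℘[L] z‖ = ‖℘[L] (L.ω₁ / 2)‖ := by
    filter_upwards [wpe_eventually_notMem_zero L] with z hz
    rw [hconst z hz _ hω]
  have h3 : Tendsto (fun z => ‖℘[L] z‖) (𝓝[≠] (0 : ℂ)) (𝓝 ‖℘[L] (L.ω₁ / 2)‖) :=
    (tendsto_const_nhds).congr' (h2.mono fun z hz => hz.symm)
  exact not_tendsto_atTop_of_tendsto_nhds h3 h1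

/-- `℘'' = 6 ℘² - g₂ / 2`. -/
theorem wpe_hasDerivAt_dP {z : ℂ} (hz : z ∉ L.lattice) :
    HasDerivAt ℘'[L] (6 * ℘[L] z ^ 2 - L.g₂ / 2) z := by
  set U : Set ℂ := (L.lattice : Set ℂ)ᶜ with hU
  have hA : AnalyticOnNhd ℂ ℘'[L] U := L.analyticOnNhd_derivWeierstrassP
  have hB : AnalyticOnNhd ℂ ℘[L] U := L.analyticOnNhd_weierstrassP
  have hF : AnalyticOnNhd ℂ (fun w => deriv ℘'[L] w - (6 * ℘[L] w ^ 2 - L.g₂ / 2)) U := by
    intro w hw
    have h1 : AnalyticAt ℂ (deriv ℘'[L]) w := (hA w hw).deriv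
    have h2 : AnalyticAt ℂ ℘[L] w := hB w hw
    fun_prop
  have hmul : ∀ w ∈ U, ℘'[L] w * (deriv ℘'[L] w - (6 * ℘[L] w ^ 2 - L.g₂ / 2)) = 0 := by
    intro w hw
    have hw' : w ∉ L.lattice := hw
    have hd1 : HasDerivAt (fun v => ℘'[L] v ^ 2) (2 * ℘'[L] w ^ 1 * deriv ℘'[L] w) w :=
      (wpe_differentiableAt_dP L hw').hasDerivAt.pow 2
    have hd2 : HasDerivAt (fun v => 4 * ℘[L] v ^ 3 - L.g₂ * ℘[L] v - L.g₃)
        (4 * (3 * ℘[L] w ^ 2 * ℘'[L] w) - L.g₂ * ℘'[L] w) w :=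
      ((((wpe_hasDerivAt_P L hw').pow 3).const_mul 4).sub
        ((wpe_hasDerivAt_P L hw').const_mul L.g₂)).sub_const L.g₃
    have heq : (fun v => ℘'[L] v ^ 2) =ᶠ[𝓝 w] fun v => 4 * ℘[L] v ^ 3 - L.g₂ * ℘[L] v - L.g₃ := by
      filter_upwards [(wpe_isOpen_compl L).mem_nhds hw] with v hv
      exact L.derivWeierstrassP_sq v hv
    have := (hd1.congr_of_eventuallyEq heq.symm).unique hd2
    linear_combination (1 / 2 : ℂ) * this
  rcases hA.eq_zero_or_eq_zero_of_mul_eq_zero hF hmul (wpe_isPreconnected_compl L) with h | h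
  · exact absurd h (wpe_dP_not_identically_zero L)
  · have h1 := (wpe_differentiableAt_dP L hz).hasDerivAt
    have h2 := h z hz
    have h3 : deriv ℘'[L] z = 6 * ℘[L] z ^ 2 - L.g₂ / 2 := by linear_combination h2
    rwa [h3] at h1


/-! ### Euler's first integral -/

theorem wpe_isPreconnected_punctured_ball (r : ℝ) :
    IsPreconnected {z : ℂ | z ≠ 0 ∧ ‖z‖ < r} := by
  have h1 : IsPreconnected ((Set.Ioo (0 : ℝ) r) ×ˢ (Set.univ : Set ℝ)) :=
    isPreconnected_Ioo.prod isPreconnected_univ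
  have hcont : Continuous (fun p : ℝ × ℝ => (p.1 : ℂ) * Complex.exp (p.2 * Complex.I)) := by
    fun_prop
  have h2 := h1.image _ hcont.continuousOn
  convert h2 using 1
  ext z
  simp only [Set.mem_ofPred_eq, Set.mem_image, Set.mem_prod, Set.mem_Ioo, Set.mem_univ, and_true,
    Prod.exists]
  constructor
  · rintro ⟨hz0, hzr⟩
    refine ⟨‖z‖, Complex.arg z, ⟨norm_pos_iff.mpr hz0, hzr⟩, ?_⟩
    exact Complex.norm_mul_exp_arg_mul_I z
  · rintro ⟨ρ, θ, ⟨hρ0, hρr⟩, rfl⟩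
    constructor
    · apply mul_ne_zero
      · exact_mod_cast hρ0.ne'
      · exact Complex.exp_ne_zero _
    · rw [norm_mul, Complex.norm_exp_ofReal_mul_I, mul_one, Complex.norm_real, Real.norm_eq_abs,
        abs_of_pos hρ0]
      exact hρr

theorem wpe_isOpen_punctured_ball (r : ℝ) : IsOpen {z : ℂ | z ≠ 0 ∧ ‖z‖ < r} := by
  have h1 : IsOpen {z : ℂ | z ≠ 0} := isOpen_ne
  have h2 : IsOpen {z : ℂ | ‖z‖ < r} := isOpen_lt continuous_norm continuous_const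
  exact h1.inter h2

/-- the auxiliary function of Euler's method -/
noncomputable def wpe_h (c z : ℂ) : ℂ :=
  ((℘'[L] z - ℘'[L] (c - z)) / (℘[L] z - ℘[L] (c - z))) ^ 2 / 4 - ℘[L] z - ℘[L] (c - z)

theorem wpe_hasDerivAt_h (c : ℂ) {z : ℂ} (hz : z ∉ L.lattice) (hcz : c - z ∉ L.lattice)
    (hne : ℘[L] z ≠ ℘[L] (c - z)) : HasDerivAt (wpe_h L c) 0 z := by
  have hA := wpe_hasDerivAt_P L hz
  have ha := wpe_hasDerivAt_dP L hz
  have hB : HasDerivAt (fun v => ℘[L] (c - v)) (-℘'[L] (c - z)) z :=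
    HasDerivAt.comp_const_sub c z (wpe_hasDerivAt_P L hcz)
  have hb : HasDerivAt (fun v => ℘'[L] (c - v)) (-(6 * ℘[L] (c - z) ^ 2 - L.g₂ / 2)) z :=
    HasDerivAt.comp_const_sub c z (wpe_hasDerivAt_dP L hcz)
  have hD : ℘[L] z - ℘[L] (c - z) ≠ 0 := sub_ne_zero.mpr hne
  have h1 := (((ha.sub hb).div (hA.sub hB) hD).pow 2).div_const 4
  have h2 := (h1.sub hA).sub hB
  have ea := L.derivWeierstrassP_sq z hz
  have eb := L.derivWeierstrassP_sq (c - z) hcz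
  -- abbreviations
  set A := ℘[L] z
  set B := ℘[L] (c - z)
  set a := ℘'[L] z
  set b := ℘'[L] (c - z)
  have key : ((6 * A ^ 2 - L.g₂ / 2) - -(6 * B ^ 2 - L.g₂ / 2)) * (A - B) - (a - b) * (a - -b)
      = 2 * (A - B) ^ 3 := by
    linear_combination (-1 : ℂ) * ea + eb
  have e1 : (2 : ℂ) * (A - B) ^ 3 / (A - B) ^ 2 = 2 * (A - B) := by
    field_simp
  have hxt : (a - b) / (A - B) * (A - B) = a - b := div_mul_cancel₀ _ hD
  have hval : 2 * ((a - b) / (A - B)) ^ (2 - 1) *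
      ((((6 * A ^ 2 - L.g₂ / 2) - -(6 * B ^ 2 - L.g₂ / 2)) * (A - B) - (a - b) * (a - -b)) /
        (A - B) ^ 2) / 4 - a - -b = 0 := by
    rw [key, e1]
    simp only [Nat.add_one_sub_one, pow_one]
    linear_combination hxt
  have h3 : HasDerivAt (wpe_h L c) _ z := h2
  exact h3.congr_deriv hval


/-- `℘ z ≠ ℘ (c - z)` for `z` close to `0` (`c ∉ L`). -/
theorem wpe_eventually_P_ne {c : ℂ} (hc : c ∉ L.lattice) :
    ∀ᶠ z in 𝓝[≠] (0 : ℂ), ℘[L] z ≠ ℘[L] (c - z) := by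
  have hB : ContinuousAt (fun z => ℘[L] (c - z)) 0 := by
    have h1 : ContinuousAt ℘[L] (c - 0) := by rw [sub_zero]; exact wpe_continuousAt_P L hc
    exact ContinuousAt.comp (f := fun z : ℂ => c - z) h1 (by fun_prop)
  have h2 : ∀ᶠ z in 𝓝[≠] (0 : ℂ), ‖℘[L] (c - z)‖ < ‖℘[L] (c - 0)‖ + 1 :=
    (hB.norm.tendsto.mono_left nhdsWithin_le_nhds).eventually (gt_mem_nhds (by linarith))
  have h3 := (wpe_tendsto_norm_P_zero L).eventually_ge_atTop (‖℘[L] (c - 0)‖ + 1)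
  filter_upwards [h2, h3] with z hz2 hz3 heq
  rw [heq] at hz3
  linarith

theorem wpe_eventually_sub_notMem {c : ℂ} (hc : c ∉ L.lattice) :
    ∀ᶠ z in 𝓝 (0 : ℂ), c - z ∉ L.lattice := by
  have h1 : ContinuousAt (fun z : ℂ => c - z) 0 := by fun_prop
  have h2 : (L.lattice : Set ℂ)ᶜ ∈ 𝓝 (c - 0) := by
    rw [sub_zero]; exact (wpe_isOpen_compl L).mem_nhds hc
  exact h1.eventually h2

theorem wpe_alg_limit (z e e' B b : ℂ) (hz : z ≠ 0) (hD : 1 + z ^ 2 * (e - B) ≠ 0) :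
    (-2 * (e - B) - z * (e' - b) - z ^ 2 * (e - B) ^ 2 + z ^ 4 * (e' - b) ^ 2 / 4) /
      (1 + z ^ 2 * (e - B)) ^ 2 - e - B =
    ((-2 / z ^ 3 + e' - b) / (1 / z ^ 2 + e - B)) ^ 2 / 4 - (1 / z ^ 2 + e) - B := by
  have h1 : 1 / z ^ 2 + e - B = (1 + z ^ 2 * (e - B)) / z ^ 2 := by field_simp; ring
  have h2 : -2 / z ^ 3 + e' - b = (-2 + z ^ 3 * (e' - b)) / z ^ 3 := by field_simp; ring
  rw [h1, h2]
  obtain ⟨D, hDdef⟩ : ∃ D, D = 1 + z ^ 2 * (e - B) := ⟨_, rfl⟩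
  rw [← hDdef] at hD ⊢
  have h3 : (-2 + z ^ 3 * (e' - b)) / z ^ 3 / (D / z ^ 2) = (-2 + z ^ 3 * (e' - b)) / (z * D) := by
    field_simp
  rw [h3]
  field_simp
  rw [hDdef]
  ring

theorem wpe_tendsto_h {c : ℂ} (hc : c ∉ L.lattice) :
    Tendsto (wpe_h L c) (𝓝[≠] (0 : ℂ)) (𝓝 (℘[L] c)) := by
  set e : ℂ → ℂ := ℘[L - (0 : ℂ)] with he
  set e' : ℂ → ℂ := ℘'[L - (0 : ℂ)] with he'
  set B : ℂ → ℂ := fun z => ℘[L] (c - z) with hB
  set b : ℂ → ℂ := fun z => ℘'[L] (c - z) with hb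
  set R : ℂ → ℂ := fun z =>
    (-2 * (e z - B z) - z * (e' z - b z) - z ^ 2 * (e z - B z) ^ 2 + z ^ 4 * (e' z - b z) ^ 2 / 4) /
      (1 + z ^ 2 * (e z - B z)) ^ 2 - e z - B z with hR
  have hce : ContinuousAt e 0 := wpe_continuousAt_e L
  have hce' : ContinuousAt e' 0 := wpe_continuousAt_de L
  have hcB : ContinuousAt B 0 := by
    have h1 : ContinuousAt ℘[L] (c - 0) := by rw [sub_zero]; exact wpe_continuousAt_P L hc
    exact ContinuousAt.comp (f := fun z : ℂ => c - z) h1 (by fun_prop)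
  have hcb : ContinuousAt b 0 := by
    have h1 : ContinuousAt ℘'[L] (c - 0) := by rw [sub_zero]; exact wpe_continuousAt_dP L hc
    exact ContinuousAt.comp (f := fun z : ℂ => c - z) h1 (by fun_prop)
  have hcz : ContinuousAt (fun z : ℂ => z) 0 := continuousAt_id
  have hden : ContinuousAt (fun z => (1 + z ^ 2 * (e z - B z)) ^ 2) 0 :=
    ((continuousAt_const.add ((hcz.pow 2).mul (hce.sub hcB))).pow 2)
  have hnum : ContinuousAt (fun z => -2 * (e z - B z) - z * (e' z - b z) -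
      z ^ 2 * (e z - B z) ^ 2 + z ^ 4 * (e' z - b z) ^ 2 / 4) 0 :=
    (((continuousAt_const.mul (hce.sub hcB)).sub (hcz.mul (hce'.sub hcb))).sub
      ((hcz.pow 2).mul ((hce.sub hcB).pow 2))).add
      (((hcz.pow 4).mul ((hce'.sub hcb).pow 2)).div_const 4)
  have hcR : ContinuousAt R 0 := by
    refine ((hnum.div hden ?_).sub hce).sub hcB
    simp
  have hR0 : R 0 = ℘[L] c := by
    simp only [hR, hB, he, wpe_e_zero L]
    simp
    ring
  have hev : ∀ᶠ z in 𝓝[≠] (0 : ℂ), R z = wpe_h L c z := by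
    filter_upwards [wpe_eventually_P_ne L hc, self_mem_nhdsWithin] with z hne hz0
    have hz0' : z ≠ 0 := hz0
    have hD : ℘[L] z - ℘[L] (c - z) ≠ 0 := sub_ne_zero.mpr hne
    rw [wpe_P_eq L z] at hD
    have hD' : 1 + z ^ 2 * (e z - B z) ≠ 0 := by
      intro h0
      apply hD
      have : 1 / z ^ 2 + ℘[L - (0 : ℂ)] z - ℘[L] (c - z) =
          (1 + z ^ 2 * (e z - B z)) / z ^ 2 := by
        simp only [he, hB]
        field_simp
        ring
      rw [this, h0, zero_div]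
    simp only [hR, wpe_h]
    rw [wpe_P_eq L z, wpe_dP_eq L z]
    exact wpe_alg_limit z (e z) (e' z) (B z) (b z) hz0' hD'
  have := hcR.tendsto.mono_left (nhdsWithin_le_nhds (s := {(0 : ℂ)}ᶜ))
  rw [hR0] at this
  exact this.congr' hev


/-- Euler: on a punctured disc around `0`, `wpe_h c = ℘ c`. -/
theorem wpe_h_eq_near_zero {c : ℂ} (hc : c ∉ L.lattice) :
    ∃ r : ℝ, 0 < r ∧ ∀ z : ℂ, z ≠ 0 → ‖z‖ < r →
      (z ∉ L.lattice ∧ c - z ∉ L.lattice ∧ ℘[L] z ≠ ℘[L] (c - z)) ∧ wpe_h L c z = ℘[L] c := by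
  have hev : ∀ᶠ z in 𝓝[≠] (0 : ℂ), z ∉ L.lattice ∧ c - z ∉ L.lattice ∧ ℘[L] z ≠ ℘[L] (c - z) := by
    filter_upwards [wpe_eventually_notMem_zero L, wpe_eventually_P_ne L hc,
      mem_nhdsWithin_of_mem_nhds (wpe_eventually_sub_notMem L hc)] with z h1 h2 h3
    exact ⟨h1, h3, h2⟩
  rw [eventually_nhdsWithin_iff, Metric.eventually_nhds_iff] at hev
  obtain ⟨r, hr, hball⟩ := hev
  refine ⟨r, hr, ?_⟩
  have hV : ∀ z : ℂ, z ≠ 0 → ‖z‖ < r →
      z ∉ L.lattice ∧ c - z ∉ L.lattice ∧ ℘[L] z ≠ ℘[L] (c - z) := by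
    intro z hz0 hzr
    exact hball (by simpa [dist_zero_right] using hzr) hz0
  set V : Set ℂ := {z : ℂ | z ≠ 0 ∧ ‖z‖ < r} with hVdef
  have hVopen : IsOpen V := wpe_isOpen_punctured_ball r
  have hVconn : IsPreconnected V := wpe_isPreconnected_punctured_ball r
  have hderiv : ∀ z ∈ V, HasDerivAt (wpe_h L c) 0 z := by
    intro z hz
    obtain ⟨h1, h2, h3⟩ := hV z hz.1 hz.2
    exact wpe_hasDerivAt_h L c h1 h2 h3
  have hdiff : DifferentiableOn ℂ (wpe_h L c) V := fun z hz =>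
    (hderiv z hz).differentiableAt.differentiableWithinAt
  have hconst : ∀ x ∈ V, ∀ y ∈ V, wpe_h L c x = wpe_h L c y := fun x hx y hy =>
    hVopen.is_const_of_deriv_eq_zero hVconn hdiff (fun z hz => (hderiv z hz).deriv) hx hy
  -- a base point
  have hz1 : ((r / 2 : ℝ) : ℂ) ∈ V := by
    constructor
    · exact_mod_cast (by positivity : (r / 2 : ℝ) ≠ 0)
    · rw [Complex.norm_real, Real.norm_eq_abs, abs_of_pos (by positivity)]
      linarith
  have hVmem : V ∈ 𝓝[≠] (0 : ℂ) := by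
    rw [mem_nhdsWithin]
    refine ⟨Metric.ball 0 r, Metric.isOpen_ball, Metric.mem_ball_self hr, ?_⟩
    rintro z ⟨hz1, hz2⟩
    exact ⟨hz2, by simpa [dist_zero_right] using hz1⟩
  have hk : Tendsto (wpe_h L c) (𝓝[≠] (0 : ℂ)) (𝓝 (wpe_h L c ((r / 2 : ℝ) : ℂ))) := by
    refine tendsto_const_nhds.congr' ?_
    filter_upwards [hVmem] with z hz
    exact hconst _ hz1 z hz
  have hkc : wpe_h L c ((r / 2 : ℝ) : ℂ) = ℘[L] c := tendsto_nhds_unique hk (wpe_tendsto_h L hc)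
  intro z hz0 hzr
  refine ⟨hV z hz0 hzr, ?_⟩
  rw [← hkc]
  exact hconst z ⟨hz0, hzr⟩ _ hz1

theorem wpe_alg_poly (A B a b C : ℂ) (hD : A - B ≠ 0)
    (h : ((a - b) / (A - B)) ^ 2 / 4 - A - B = C) :
    (a - b) ^ 2 = 4 * (C + A + B) * (A - B) ^ 2 := by
  have h1 : ((a - b) / (A - B)) ^ 2 = 4 * (C + A + B) := by linear_combination 4 * h
  rw [div_pow, div_eq_iff (pow_ne_zero 2 hD)] at h1
  exact h1

/-- the (polynomial form of the) addition theorem, in the variables `z`, `c - z`. -/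
theorem wpe_add_poly_sub {c z : ℂ} (hc : c ∉ L.lattice) (hz : z ∉ L.lattice)
    (hcz : c - z ∉ L.lattice) :
    (℘'[L] z - ℘'[L] (c - z)) ^ 2 =
      4 * (℘[L] c + ℘[L] z + ℘[L] (c - z)) * (℘[L] z - ℘[L] (c - z)) ^ 2 := by
  set U : Set ℂ := {v : ℂ | v ∉ L.lattice ∧ c - v ∉ L.lattice} with hUdef
  have hUc : U = ((L.lattice : Set ℂ) ∪ (fun l => c - l) '' (L.lattice : Set ℂ))ᶜ := by
    ext v
    simp only [hUdef, Set.mem_ofPred_eq, Set.mem_compl_iff, Set.mem_union, Set.mem_image,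
      SetLike.mem_coe, not_or, not_exists, not_and]
    constructor
    · rintro ⟨h1, h2⟩
      refine ⟨h1, fun l hl hlv => h2 ?_⟩
      have : c - v = l := by rw [← hlv]; ring
      rw [this]; exact hl
    · rintro ⟨h1, h2⟩
      refine ⟨h1, fun hmem => h2 (c - v) hmem (by ring)⟩
  have hUconn : IsPreconnected U := by
    rw [hUc]
    exact (((wpe_countable_lattice L).union ((wpe_countable_lattice L).image _)
      ).isConnected_compl_of_one_lt_rank wpe_rank).isPreconnected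
  set G : ℂ → ℂ := fun v => (℘'[L] v - ℘'[L] (c - v)) ^ 2 -
      4 * (℘[L] c + ℘[L] v + ℘[L] (c - v)) * (℘[L] v - ℘[L] (c - v)) ^ 2 with hG
  have hGan : AnalyticOnNhd ℂ G U := by
    intro v hv
    have h1 : AnalyticAt ℂ ℘[L] v := L.analyticOnNhd_weierstrassP v hv.1
    have h2 : AnalyticAt ℂ ℘'[L] v := L.analyticOnNhd_derivWeierstrassP v hv.1
    have h3 : AnalyticAt ℂ (fun v => ℘[L] (c - v)) v :=
      AnalyticAt.fun_comp (f := fun v : ℂ => c - v) (L.analyticOnNhd_weierstrassP (c - v) hv.2)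
        (by fun_prop)
    have h4 : AnalyticAt ℂ (fun v => ℘'[L] (c - v)) v :=
      AnalyticAt.fun_comp (f := fun v : ℂ => c - v) (L.analyticOnNhd_derivWeierstrassP (c - v) hv.2)
        (by fun_prop)
    simp only [hG]
    fun_prop
  obtain ⟨r, hr, hnear⟩ := wpe_h_eq_near_zero L hc
  -- base point
  set z₁ : ℂ := ((r / 2 : ℝ) : ℂ) with hz₁
  have hz₁0 : z₁ ≠ 0 := by
    rw [hz₁]; exact_mod_cast (by positivity : (r / 2 : ℝ) ≠ 0)
  have hz₁r : ‖z₁‖ < r := by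
    rw [hz₁, Complex.norm_real, Real.norm_eq_abs, abs_of_pos (by positivity)]
    linarith
  have hz₁U : z₁ ∈ U := ⟨(hnear z₁ hz₁0 hz₁r).1.1, (hnear z₁ hz₁0 hz₁r).1.2.1⟩
  have hGev : G =ᶠ[𝓝 z₁] 0 := by
    have hopen : {z : ℂ | z ≠ 0 ∧ ‖z‖ < r} ∈ 𝓝 z₁ :=
      (wpe_isOpen_punctured_ball r).mem_nhds ⟨hz₁0, hz₁r⟩
    filter_upwards [hopen] with v hv
    obtain ⟨⟨_, _, h3⟩, h4⟩ := hnear v hv.1 hv.2
    have := wpe_alg_poly _ _ _ _ _ (sub_ne_zero.mpr h3) h4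
    simp only [hG, Pi.zero_apply]
    rw [this]
    ring
  have hzero := hGan.eqOn_zero_of_preconnected_of_eventuallyEq_zero hUconn hz₁U hGev
  have := hzero (show z ∈ U from ⟨hz, hcz⟩)
  simp only [hG, Pi.zero_apply] at this
  linear_combination this

/-- **Addition theorem** (polynomial form): for `z, w, z + w ∉ L`,
`(℘' z - ℘' w)² = 4 (℘ (z + w) + ℘ z + ℘ w) (℘ z - ℘ w)²`. -/
theorem wpe_add_poly {z w : ℂ} (hz : z ∉ L.lattice) (hw : w ∉ L.lattice)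
    (hzw : z + w ∉ L.lattice) :
    (℘'[L] z - ℘'[L] w) ^ 2 = 4 * (℘[L] (z + w) + ℘[L] z + ℘[L] w) * (℘[L] z - ℘[L] w) ^ 2 := by
  have h := wpe_add_poly_sub L (c := z + w) (z := z) hzw hz (by simpa using hw)
  simpa using h


/-- **Generic addition theorem, `x`-coordinate.** -/
theorem wpe_add_x {z w : ℂ} (hz : z ∉ L.lattice) (hw : w ∉ L.lattice)
    (hzw : z + w ∉ L.lattice) (hne : ℘[L] z ≠ ℘[L] w) :
    ℘[L] (z + w) =
      ((℘'[L] z - ℘'[L] w) / (℘[L] z - ℘[L] w)) ^ 2 / 4 - ℘[L] z - ℘[L] w := by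
  have h := wpe_add_poly L hz hw hzw
  have hD : ℘[L] z - ℘[L] w ≠ 0 := sub_ne_zero.mpr hne
  rw [div_pow, h]
  field_simp
  ring

/-- **Generic addition theorem, `y`-coordinate** (in terms of `℘'`). -/
theorem wpe_add_y {z w : ℂ} (hz : z ∉ L.lattice) (hw : w ∉ L.lattice)
    (hzw : z + w ∉ L.lattice) (hne : ℘[L] z ≠ ℘[L] w) :
    ℘'[L] (z + w) =
      -((℘'[L] z - ℘'[L] w) / (℘[L] z - ℘[L] w) * (℘[L] (z + w) - ℘[L] z) + ℘'[L] z) := by
  -- the identity `wpe_add_x` holds for all `v` near `z`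
  have hev : ∀ᶠ v in 𝓝 z, ℘[L] (v + w) =
      ((℘'[L] v - ℘'[L] w) / (℘[L] v - ℘[L] w)) ^ 2 / 4 - ℘[L] v - ℘[L] w := by
    have h1 : ∀ᶠ v in 𝓝 z, v ∉ L.lattice := (wpe_isOpen_compl L).mem_nhds hz
    have h2 : ∀ᶠ v in 𝓝 z, v + w ∉ L.lattice := by
      have hc : ContinuousAt (fun v : ℂ => v + w) z := by fun_prop
      exact hc.eventually ((wpe_isOpen_compl L).mem_nhds hzw)
    have h3 : ∀ᶠ v in 𝓝 z, ℘[L] v ≠ ℘[L] w :=
      (wpe_continuousAt_P L hz).eventually_ne hne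
    filter_upwards [h1, h2, h3] with v hv1 hv2 hv3
    exact wpe_add_x L hv1 hw hv2 hv3
  have hA := wpe_hasDerivAt_P L hz
  have ha := wpe_hasDerivAt_dP L hz
  have hD : ℘[L] z - ℘[L] w ≠ 0 := sub_ne_zero.mpr hne
  have hL : HasDerivAt (fun v => ℘[L] (v + w)) (℘'[L] (z + w)) z :=
    HasDerivAt.comp_add_const z w (wpe_hasDerivAt_P L hzw)
  have h1 := ((((ha.sub_const (℘'[L] w)).div (hA.sub_const (℘[L] w)) hD).pow 2).div_const 4)
  have h2 := (h1.sub hA).sub_const (℘[L] w)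
  have h3 : HasDerivAt (fun v => ((℘'[L] v - ℘'[L] w) / (℘[L] v - ℘[L] w)) ^ 2 / 4 -
      ℘[L] v - ℘[L] w) _ z := h2
  have hx := wpe_add_x L hz hw hzw hne
  have ea := L.derivWeierstrassP_sq z hz
  have eb := L.derivWeierstrassP_sq w hw
  have huniq : ℘'[L] (z + w) = 2 * ((℘'[L] z - ℘'[L] w) / (℘[L] z - ℘[L] w)) ^ (2 - 1) *
      (((6 * ℘[L] z ^ 2 - L.g₂ / 2) * (℘[L] z - ℘[L] w) - (℘'[L] z - ℘'[L] w) * ℘'[L] z) /
        (℘[L] z - ℘[L] w) ^ 2) / 4 - ℘'[L] z :=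
    (hL.congr_of_eventuallyEq (hev.mono fun v hv => hv.symm)).unique h3
  rw [huniq, hx]
  set A := ℘[L] z
  set B := ℘[L] w
  set a := ℘'[L] z
  set b := ℘'[L] w
  have key : (6 * A ^ 2 - L.g₂ / 2) * (A - B) - (a - b) * a
      = -(a - b) ^ 2 / 2 + (4 * A + 2 * B) * (A - B) ^ 2 := by
    linear_combination (-1 / 2 : ℂ) * ea + (1 / 2 : ℂ) * eb
  rw [key]
  simp only [Nat.add_one_sub_one, pow_one]
  field_simp
  ring

end Fermat.Agent.S13x
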