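/-
S13 project, part (d) (helper17): the Weierstrass `℘`-function, consequences of the differential
equation.  Uniqueness for `y'' = 6 y² - g₂/2` gives `℘ u = ℘ w ↔ u ≡ ± w` without any
zero counting.  Mathlib only.
-/
import Mathlib

set_option autoImplicit false

open Filter Topology

namespace Fermat.Agent.S13x

/-- **Uniqueness core.** An analytic germ `d` with `d z₀ = d' z₀ = 0` and `d'' = a d` vanishes. -/
theorem wpi_uniq_core {d a : ℂ → ℂ} {z₀ : ℂ} (hd : AnalyticAt ℂ d z₀) (ha : AnalyticAt ℂ a z₀)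
    (h0 : d z₀ = 0) (h1 : deriv d z₀ = 0)
    (hode : ∀ᶠ z in 𝓝 z₀, deriv (deriv d) z = a z * d z) :
    ∀ᶠ z in 𝓝 z₀, d z = 0 := by
  rw [← analyticOrderAt_eq_top]
  by_contra htop
  -- orders
  have e1 : analyticOrderAt (deriv d) z₀ + 1 = analyticOrderAt d z₀ := by
    simpa [h0] using hd.analyticOrderAt_deriv_add_one
  have e2 : analyticOrderAt (deriv (deriv d)) z₀ + 1 = analyticOrderAt (deriv d) z₀ := by
    simpa [h1] using hd.deriv.analyticOrderAt_deriv_add_one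
  have e3 : analyticOrderAt (deriv (deriv d)) z₀ = analyticOrderAt a z₀ + analyticOrderAt d z₀ := by
    rw [analyticOrderAt_congr hode]
    exact analyticOrderAt_mul ha hd
  -- arithmetic in `ℕ∞`
  obtain ⟨n, hn⟩ := ENat.ne_top_iff_exists.mp htop
  rw [← hn] at e1 e3
  have h2 : analyticOrderAt (deriv (deriv d)) z₀ + 1 + 1 = n := by rw [e2, e1]
  rw [e3] at h2
  cases hA : analyticOrderAt a z₀ with
  | top => simp [hA] at h2
  | coe m =>
    rw [hA] at h2
    have : (m + n + 1 + 1 : ℕ) = n := by exact_mod_cast h2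
    omega

open PeriodPair

variable (L : PeriodPair)

theorem wpi_countable_lattice : (L.lattice : Set ℂ).Countable := by
  have : Countable L.lattice := Countable.of_equiv _ L.latticeEquivProd.toEquiv.symm
  exact Set.countable_coe_iff.mp this

theorem wpi_isPreconnected_compl_lattice : IsPreconnected (L.lattice : Set ℂ)ᶜ :=
  (Set.Countable.isConnected_compl_of_one_lt_rank (by simp) (wpi_countable_lattice L)).2

theorem wpi_isOpen_compl_lattice : IsOpen (L.lattice : Set ℂ)ᶜ :=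
  L.isClosed_lattice.isOpen_compl

theorem wpi_analyticAt {z : ℂ} (hz : z ∉ L.lattice) : AnalyticAt ℂ ℘[L] z :=
  L.analyticOnNhd_weierstrassP z hz

theorem wpi_analyticAt_deriv {z : ℂ} (hz : z ∉ L.lattice) : AnalyticAt ℂ ℘'[L] z :=
  L.analyticOnNhd_derivWeierstrassP z hz

theorem wpi_hasDerivAt {z : ℂ} (hz : z ∉ L.lattice) : HasDerivAt ℘[L] (℘'[L] z) z := by
  have := (wpi_analyticAt L hz).differentiableAt.hasDerivAt
  rwa [L.deriv_weierstrassP] at this

/-- `℘'` is not identically zero near any point. -/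
theorem wpi_deriv_not_eventually_zero : ¬ ∀ z ∈ (L.lattice : Set ℂ)ᶜ, ℘'[L] z = 0 := by
  intro h
  -- then `℘` is constant off the lattice, contradicting the pole at `0`
  have hconst : ∀ z ∈ (L.lattice : Set ℂ)ᶜ, ℘[L] z = ℘[L] (L.ω₁ / 2) := by
    intro z hz
    refine (wpi_isOpen_compl_lattice L).is_const_of_deriv_eq_zero
      (wpi_isPreconnected_compl_lattice L) L.differentiableOn_weierstrassP ?_ hz
      L.ω₁_div_two_notMem_lattice
    intro x hx
    rw [L.deriv_weierstrassP]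
    exact h x hx
  have hord := L.order_weierstrassP 0 (zero_mem _)
  have hcongr : ℘[L] =ᶠ[𝓝[≠] (0 : ℂ)] fun _ => ℘[L] (L.ω₁ / 2) := by
    have h1 : ∀ᶠ z in 𝓝[≠] (0 : ℂ), z ∈ ((L.lattice : Set ℂ) \ {0})ᶜ :=
      mem_nhdsWithin_of_mem_nhds (L.compl_lattice_sdiff_singleton_mem_nhds 0)
    filter_upwards [h1, self_mem_nhdsWithin] with z hz hz0
    refine hconst z ?_
    intro hzl
    exact hz ⟨hzl, hz0⟩
  rw [meromorphicOrderAt_congr hcongr] at hord
  have hnn : (0 : WithTop ℤ) ≤ meromorphicOrderAt (fun _ : ℂ => ℘[L] (L.ω₁ / 2)) 0 :=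
    (analyticAt_const (v := ℘[L] (L.ω₁ / 2)) (x := (0 : ℂ))).meromorphicOrderAt_nonneg
  rw [hord] at hnn
  exact absurd hnn (by decide)

/-- the second order differential equation `℘'' = 6 ℘² - g₂ / 2`. -/
theorem wpi_deriv_deriv {z : ℂ} (hz : z ∉ L.lattice) :
    deriv ℘'[L] z = 6 * ℘[L] z ^ 2 - L.g₂ / 2 := by
  have hU := wpi_isOpen_compl_lattice L
  have hf : AnalyticOnNhd ℂ ℘'[L] (L.lattice : Set ℂ)ᶜ := L.analyticOnNhd_derivWeierstrassP
  have hg : AnalyticOnNhd ℂ (fun z => deriv ℘'[L] z - (6 * ℘[L] z ^ 2 - L.g₂ / 2))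
      (L.lattice : Set ℂ)ᶜ := by
    intro x hx
    have h1 : AnalyticAt ℂ (deriv ℘'[L]) x := (wpi_analyticAt_deriv L hx).deriv
    have h2 : AnalyticAt ℂ ℘[L] x := wpi_analyticAt L hx
    fun_prop
  have hmul : ∀ x ∈ (L.lattice : Set ℂ)ᶜ,
      ℘'[L] x * (deriv ℘'[L] x - (6 * ℘[L] x ^ 2 - L.g₂ / 2)) = 0 := by
    intro x hx
    -- differentiate the first order equation
    have hrel : (fun z => ℘'[L] z ^ 2) =ᶠ[𝓝 x]
        fun z => 4 * ℘[L] z ^ 3 - L.g₂ * ℘[L] z - L.g₃ := by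
      filter_upwards [hU.mem_nhds hx] with y hy using L.derivWeierstrassP_sq y hy
    have hd1 : HasDerivAt (fun z => ℘'[L] z ^ 2) (2 * ℘'[L] x * deriv ℘'[L] x) x := by
      have := ((wpi_analyticAt_deriv L hx).differentiableAt.hasDerivAt).fun_pow 2
      simpa using this
    have hd2 : HasDerivAt (fun z => 4 * ℘[L] z ^ 3 - L.g₂ * ℘[L] z - L.g₃)
        (4 * (3 * ℘[L] x ^ 2 * ℘'[L] x) - L.g₂ * ℘'[L] x) x := by
      have h := wpi_hasDerivAt L hx
      have := (((h.pow 3).const_mul 4).sub (h.const_mul L.g₂)).sub_const L.g₃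
      simpa using this
    have := (hd1.congr_of_eventuallyEq hrel.symm).unique hd2
    linear_combination (1 / 2 : ℂ) * this
  rcases AnalyticOnNhd.eq_zero_or_eq_zero_of_mul_eq_zero hf hg hmul
    (wpi_isPreconnected_compl_lattice L) with h | h
  · exact absurd h (wpi_deriv_not_eventually_zero L)
  · exact sub_eq_zero.mp (h z hz)

/-- the open set on which both `℘` and `℘(· + t)` are analytic. -/
theorem wpi_isOpen_shift (t : ℂ) :
    IsOpen {z : ℂ | z ∉ L.lattice ∧ z + t ∉ L.lattice} := by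
  have h1 := wpi_isOpen_compl_lattice L
  have h2 : IsOpen ((fun z : ℂ => z + t) ⁻¹' (L.lattice : Set ℂ)ᶜ) :=
    h1.preimage (by fun_prop)
  exact h1.inter h2

theorem wpi_isPreconnected_shift (t : ℂ) :
    IsPreconnected {z : ℂ | z ∉ L.lattice ∧ z + t ∉ L.lattice} := by
  have hc : ((L.lattice : Set ℂ) ∪ (fun z : ℂ => z + t) ⁻¹' (L.lattice : Set ℂ)).Countable :=
    (wpi_countable_lattice L).union
      ((wpi_countable_lattice L).preimage (add_left_injective t))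
  have := (Set.Countable.isConnected_compl_of_one_lt_rank (by simp) hc).2
  convert this using 1
  ext z
  simp

/-- **Key lemma.** If `℘` and `℘'` agree at `u` and `w` then `u - w` is a period. -/
theorem wpi_sub_mem_of_eq {u w : ℂ} (hu : u ∉ L.lattice) (hw : w ∉ L.lattice)
    (h0 : ℘[L] u = ℘[L] w) (h1 : ℘'[L] u = ℘'[L] w) : u - w ∈ L.lattice := by
  by_contra ht
  set t : ℂ := u - w with htdef
  have hut : w + t = u := by rw [htdef]; ring
  set U : Set ℂ := {z : ℂ | z ∉ L.lattice ∧ z + t ∉ L.lattice} with hUdef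
  have hUo : IsOpen U := wpi_isOpen_shift L t
  have hUc : IsPreconnected U := wpi_isPreconnected_shift L t
  have hwU : w ∈ U := ⟨hw, by rw [hut]; exact hu⟩
  set d : ℂ → ℂ := fun z => ℘[L] (z + t) - ℘[L] z with hddef
  set a : ℂ → ℂ := fun z => 6 * (℘[L] (z + t) + ℘[L] z) with hadef
  have hshift : ∀ z, z + t ∉ L.lattice → AnalyticAt ℂ (fun z => ℘[L] (z + t)) z := by
    intro z hz
    have h1 : AnalyticAt ℂ ℘[L] ((fun z : ℂ => z + t) z) := wpi_analyticAt L hz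
    have h2 : AnalyticAt ℂ (fun z : ℂ => z + t) z := by fun_prop
    exact AnalyticAt.comp (g := ℘[L]) (f := fun z : ℂ => z + t) h1 h2
  have hshift' : ∀ z, z + t ∉ L.lattice → AnalyticAt ℂ (fun z => ℘'[L] (z + t)) z := by
    intro z hz
    have h1 : AnalyticAt ℂ ℘'[L] ((fun z : ℂ => z + t) z) := wpi_analyticAt_deriv L hz
    have h2 : AnalyticAt ℂ (fun z : ℂ => z + t) z := by fun_prop
    exact AnalyticAt.comp (g := ℘'[L]) (f := fun z : ℂ => z + t) h1 h2
  have hdU : AnalyticOnNhd ℂ d U := by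
    intro z hz
    exact (hshift z hz.2).sub (wpi_analyticAt L hz.1)
  have haU : AnalyticOnNhd ℂ a U := by
    intro z hz
    exact analyticAt_const.mul ((hshift z hz.2).add (wpi_analyticAt L hz.1))
  -- derivatives of `d` on `U`
  have hd1 : ∀ z ∈ U, HasDerivAt d (℘'[L] (z + t) - ℘'[L] z) z := by
    intro z hz
    have h1 : HasDerivAt (fun z => ℘[L] (z + t)) (℘'[L] (z + t)) z :=
      (wpi_hasDerivAt L hz.2).comp_add_const z t
    exact h1.sub (wpi_hasDerivAt L hz.1)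
  have hd1' : ∀ z ∈ U, deriv d z = ℘'[L] (z + t) - ℘'[L] z := fun z hz => (hd1 z hz).deriv
  have hd2 : ∀ z ∈ U, deriv (deriv d) z = a z * d z := by
    intro z hz
    have hev : deriv d =ᶠ[𝓝 z] fun y => ℘'[L] (y + t) - ℘'[L] y := by
      filter_upwards [hUo.mem_nhds hz] with y hy using hd1' y hy
    rw [hev.deriv_eq]
    have h1 : HasDerivAt (fun z => ℘'[L] (z + t)) (deriv ℘'[L] (z + t)) z :=
      ((wpi_analyticAt_deriv L hz.2).differentiableAt.hasDerivAt).comp_add_const z t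
    have h2 : HasDerivAt ℘'[L] (deriv ℘'[L] z) z :=
      (wpi_analyticAt_deriv L hz.1).differentiableAt.hasDerivAt
    have h3 : HasDerivAt (fun y => ℘'[L] (y + t) - ℘'[L] y)
        (deriv ℘'[L] (z + t) - deriv ℘'[L] z) z := h1.sub h2
    rw [h3.deriv, wpi_deriv_deriv L hz.1, wpi_deriv_deriv L hz.2]
    simp only [hadef, hddef]
    ring
  -- uniqueness near `w`
  have hzero : ∀ᶠ z in 𝓝 w, d z = 0 := by
    refine wpi_uniq_core (hdU w hwU) (haU w hwU) ?_ ?_ ?_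
    · simp only [hddef, hut, h0, sub_self]
    · rw [hd1' w hwU, hut, h1, sub_self]
    · filter_upwards [hUo.mem_nhds hwU] with z hz using hd2 z hz
  -- identity principle on `U`
  have hall : ∀ z ∈ U, d z = 0 := fun z hz =>
    hdU.eqOn_zero_of_preconnected_of_eventuallyEq_zero hUc hwU hzero hz
  -- contradiction with the pole at `0`
  have htU : ∀ᶠ z in 𝓝 (0 : ℂ), z + t ∉ L.lattice := by
    have : Tendsto (fun z : ℂ => z + t) (𝓝 0) (𝓝 t) := by
      have : Continuous fun z : ℂ => z + t := by fun_prop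
      simpa using this.tendsto 0
    exact this.eventually ((wpi_isOpen_compl_lattice L).mem_nhds ht)
  have hord := L.order_weierstrassP 0 (zero_mem _)
  have hcongr : ℘[L] =ᶠ[𝓝[≠] (0 : ℂ)] fun z => ℘[L] (z + t) := by
    have h1 : ∀ᶠ z in 𝓝[≠] (0 : ℂ), z ∈ ((L.lattice : Set ℂ) \ {0})ᶜ :=
      mem_nhdsWithin_of_mem_nhds (L.compl_lattice_sdiff_singleton_mem_nhds 0)
    filter_upwards [h1, self_mem_nhdsWithin, mem_nhdsWithin_of_mem_nhds htU] with z hz hz0 hzt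
    have hzl : z ∉ L.lattice := fun hzl => hz ⟨hzl, hz0⟩
    have := hall z ⟨hzl, hzt⟩
    simp only [hddef] at this
    exact (sub_eq_zero.mp this).symm
  rw [meromorphicOrderAt_congr hcongr] at hord
  have hnn : (0 : WithTop ℤ) ≤ meromorphicOrderAt (fun z : ℂ => ℘[L] (z + t)) 0 :=
    (hshift 0 (by simpa using ht)).meromorphicOrderAt_nonneg
  rw [hord] at hnn
  exact absurd hnn (by decide)

/-- **Injectivity of `℘` modulo `±`.** -/
theorem wpi_eq_imp {u w : ℂ} (hu : u ∉ L.lattice) (hw : w ∉ L.lattice)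
    (h0 : ℘[L] u = ℘[L] w) : u - w ∈ L.lattice ∨ u + w ∈ L.lattice := by
  have hsq : ℘'[L] u ^ 2 = ℘'[L] w ^ 2 := by
    rw [L.derivWeierstrassP_sq u hu, L.derivWeierstrassP_sq w hw, h0]
  rcases sq_eq_sq_iff_eq_or_eq_neg.mp hsq with h | h
  · exact Or.inl (wpi_sub_mem_of_eq L hu hw h0 h)
  · right
    have hw' : -w ∉ L.lattice := fun h => hw (by simpa using neg_mem h)
    have := wpi_sub_mem_of_eq L hu hw' (by rw [L.weierstrassP_neg, h0])
      (by rw [L.derivWeierstrassP_neg, h])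
    simpa using this

theorem wpi_eq_of_sub_mem {u w : ℂ} (h : u - w ∈ L.lattice) : ℘[L] u = ℘[L] w := by
  have := L.weierstrassP_add_coe w ⟨u - w, h⟩
  simpa using this

theorem wpi_eq_of_add_mem {u w : ℂ} (h : u + w ∈ L.lattice) : ℘[L] u = ℘[L] w := by
  have := L.weierstrassP_add_coe (-w) ⟨u + w, h⟩
  rw [L.weierstrassP_neg] at this
  rw [← this]
  congr 1
  simp

theorem wpi_eq_iff {u w : ℂ} (hu : u ∉ L.lattice) (hw : w ∉ L.lattice) :
    ℘[L] u = ℘[L] w ↔ u - w ∈ L.lattice ∨ u + w ∈ L.lattice :=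
  ⟨wpi_eq_imp L hu hw, fun h => h.elim (wpi_eq_of_sub_mem L) (wpi_eq_of_add_mem L)⟩

theorem wpi_deriv_eq_of_sub_mem {u w : ℂ} (h : u - w ∈ L.lattice) : ℘'[L] u = ℘'[L] w := by
  have := L.derivWeierstrassP_add_coe w ⟨u - w, h⟩
  simpa using this

theorem wpi_deriv_eq_neg_of_add_mem {u w : ℂ} (h : u + w ∈ L.lattice) :
    ℘'[L] u = - ℘'[L] w := by
  have := L.derivWeierstrassP_add_coe (-w) ⟨u + w, h⟩
  rw [L.derivWeierstrassP_neg] at this
  rw [← this]
  congr 1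
  simp

/-- zeros of `℘'` are the two-division points. -/
theorem wpi_two_mul_mem_of_deriv_eq_zero {z : ℂ} (hz : z ∉ L.lattice) (h : ℘'[L] z = 0) :
    2 * z ∈ L.lattice := by
  have hz' : -z ∉ L.lattice := fun h => hz (by simpa using neg_mem h)
  have := wpi_sub_mem_of_eq L hz hz' (L.weierstrassP_neg z).symm
    (by rw [L.derivWeierstrassP_neg, h, neg_zero])
  convert this using 1
  ring

theorem wpi_deriv_eq_zero_of_two_mul_mem {z : ℂ} (h : 2 * z ∈ L.lattice) : ℘'[L] z = 0 := by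
  have h2 : z + z ∈ L.lattice := by rwa [← two_mul]
  have := wpi_deriv_eq_neg_of_add_mem L h2
  have h3 : (2 : ℂ) * ℘'[L] z = 0 := by linear_combination this
  simpa using h3

theorem wpi_deriv_eq_zero_iff {z : ℂ} (hz : z ∉ L.lattice) :
    ℘'[L] z = 0 ↔ 2 * z ∈ L.lattice :=
  ⟨wpi_two_mul_mem_of_deriv_eq_zero L hz, wpi_deriv_eq_zero_of_two_mul_mem L⟩

/-- **ODE uniqueness** in the form of the plan: two analytic solutions of `y'' = 6 y² - c` with the
same value and derivative at `z₀` agree near `z₀`. -/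
theorem wpi_ode_unique {y₁ y₂ : ℂ → ℂ} {z₀ c : ℂ} (h1 : AnalyticAt ℂ y₁ z₀)
    (h2 : AnalyticAt ℂ y₂ z₀)
    (e1 : ∀ᶠ z in 𝓝 z₀, deriv (deriv y₁) z = 6 * y₁ z ^ 2 - c)
    (e2 : ∀ᶠ z in 𝓝 z₀, deriv (deriv y₂) z = 6 * y₂ z ^ 2 - c)
    (h0 : y₁ z₀ = y₂ z₀) (h0' : deriv y₁ z₀ = deriv y₂ z₀) : y₁ =ᶠ[𝓝 z₀] y₂ := by
  have hd : AnalyticAt ℂ (fun z => y₁ z - y₂ z) z₀ := h1.sub h2
  have ha : AnalyticAt ℂ (fun z => 6 * (y₁ z + y₂ z)) z₀ := analyticAt_const.mul (h1.add h2)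
  have hderiv : ∀ᶠ z in 𝓝 z₀, deriv (fun z => y₁ z - y₂ z) z = deriv y₁ z - deriv y₂ z := by
    filter_upwards [h1.eventually_analyticAt, h2.eventually_analyticAt] with z hz1 hz2
    exact (hz1.differentiableAt.hasDerivAt.sub hz2.differentiableAt.hasDerivAt).deriv
  have hderiv2 : ∀ᶠ z in 𝓝 z₀, deriv (deriv fun z => y₁ z - y₂ z) z =
      deriv (deriv y₁) z - deriv (deriv y₂) z := by
    filter_upwards [hderiv.eventually_nhds, h1.deriv.eventually_analyticAt,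
      h2.deriv.eventually_analyticAt] with z hz hz1 hz2
    rw [Filter.EventuallyEq.deriv_eq hz]
    exact (hz1.differentiableAt.hasDerivAt.sub hz2.differentiableAt.hasDerivAt).deriv
  have := wpi_uniq_core hd ha (by simp [h0]) (by rw [hderiv.self_of_nhds, h0', sub_self]) (by
    filter_upwards [hderiv2, e1, e2] with z hz hz1 hz2
    rw [hz, hz1, hz2]; ring)
  filter_upwards [this] with z hz using sub_eq_zero.mp hz

/-- the chord slope tends to the tangent slope. -/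
theorem wpi_tendsto_slope {z : ℂ} (hz : z ∉ L.lattice) (hy : ℘'[L] z ≠ 0) :
    Tendsto (fun w => (℘'[L] z - ℘'[L] w) / (℘[L] z - ℘[L] w)) (𝓝[≠] z)
      (𝓝 ((6 * ℘[L] z ^ 2 - L.g₂ / 2) / ℘'[L] z)) := by
  have h1 : Tendsto (slope ℘'[L] z) (𝓝[≠] z) (𝓝 (deriv ℘'[L] z)) :=
    ((wpi_analyticAt_deriv L hz).differentiableAt.hasDerivAt).tendsto_slope
  have h2 : Tendsto (slope ℘[L] z) (𝓝[≠] z) (𝓝 (℘'[L] z)) :=
    (wpi_hasDerivAt L hz).tendsto_slope
  have h3 := h1.div h2 hy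
  rw [wpi_deriv_deriv L hz] at h3
  refine h3.congr' ?_
  filter_upwards [self_mem_nhdsWithin] with w hw
  have hw' : w - z ≠ 0 := sub_ne_zero.mpr hw
  simp only [Pi.div_apply, slope_def_field]
  rw [div_div_div_cancel_right₀ hw', ← neg_sub (℘'[L] z) (℘'[L] w), ← neg_sub (℘[L] z) (℘[L] w),
    neg_div_neg_eq]

/-- **Duplication formula** (both coordinates), as the limit `w → z` of the generic addition
formula, which is taken as a hypothesis here (it is proved in the `D02` module). -/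
theorem wpi_dup_of_add
    (hadd : ∀ z w : ℂ, z ∉ L.lattice → w ∉ L.lattice → z + w ∉ L.lattice → ℘[L] z ≠ ℘[L] w →
      ℘[L] (z + w) = ((℘'[L] z - ℘'[L] w) / (℘[L] z - ℘[L] w)) ^ 2 / 4 - ℘[L] z - ℘[L] w ∧
      ℘'[L] (z + w) = -(((℘'[L] z - ℘'[L] w) / (℘[L] z - ℘[L] w)) *
        (℘[L] (z + w) - ℘[L] z) + ℘'[L] z))
    {z : ℂ} (hz : z ∉ L.lattice) (h2z : 2 * z ∉ L.lattice) :
    ℘[L] (2 * z) = ((6 * ℘[L] z ^ 2 - L.g₂ / 2) / ℘'[L] z) ^ 2 / 4 - 2 * ℘[L] z ∧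
    ℘'[L] (2 * z) = -(((6 * ℘[L] z ^ 2 - L.g₂ / 2) / ℘'[L] z) *
        (℘[L] (2 * z) - ℘[L] z) + ℘'[L] z) := by
  have hy : ℘'[L] z ≠ 0 := fun h => h2z (wpi_two_mul_mem_of_deriv_eq_zero L hz h)
  have hlam := wpi_tendsto_slope L hz hy
  have hev1 : ∀ᶠ w in 𝓝[≠] z, w ∉ L.lattice :=
    mem_nhdsWithin_of_mem_nhds ((wpi_isOpen_compl_lattice L).mem_nhds hz)
  have hcont : Tendsto (fun w : ℂ => z + w) (𝓝 z) (𝓝 (2 * z)) := by
    have h : Continuous fun w : ℂ => z + w := by fun_prop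
    have := h.tendsto z
    rwa [← two_mul] at this
  have hev2 : ∀ᶠ w in 𝓝[≠] z, z + w ∉ L.lattice :=
    mem_nhdsWithin_of_mem_nhds (hcont.eventually ((wpi_isOpen_compl_lattice L).mem_nhds h2z))
  have hev3 : ∀ᶠ w in 𝓝[≠] z, ℘[L] w ≠ ℘[L] z := (wpi_hasDerivAt L hz).eventually_ne hy
  have hL : Tendsto (fun w => ℘[L] (z + w)) (𝓝[≠] z) (𝓝 (℘[L] (2 * z))) :=
    ((wpi_analyticAt L h2z).continuousAt.tendsto.comp hcont).mono_left nhdsWithin_le_nhds
  have hL' : Tendsto (fun w => ℘'[L] (z + w)) (𝓝[≠] z) (𝓝 (℘'[L] (2 * z))) :=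
    ((wpi_analyticAt_deriv L h2z).continuousAt.tendsto.comp hcont).mono_left nhdsWithin_le_nhds
  have hw : Tendsto ℘[L] (𝓝[≠] z) (𝓝 (℘[L] z)) :=
    (wpi_analyticAt L hz).continuousAt.tendsto.mono_left nhdsWithin_le_nhds
  have hR : Tendsto (fun w => ((℘'[L] z - ℘'[L] w) / (℘[L] z - ℘[L] w)) ^ 2 / 4 - ℘[L] z - ℘[L] w)
      (𝓝[≠] z) (𝓝 (((6 * ℘[L] z ^ 2 - L.g₂ / 2) / ℘'[L] z) ^ 2 / 4 - ℘[L] z - ℘[L] z)) :=
    (((hlam.pow 2).div_const 4).sub_const _).sub hw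
  have hR' : Tendsto (fun w => -(((℘'[L] z - ℘'[L] w) / (℘[L] z - ℘[L] w)) *
        (℘[L] (z + w) - ℘[L] z) + ℘'[L] z))
      (𝓝[≠] z) (𝓝 (-(((6 * ℘[L] z ^ 2 - L.g₂ / 2) / ℘'[L] z) *
        (℘[L] (2 * z) - ℘[L] z) + ℘'[L] z))) :=
    ((hlam.mul (hL.sub_const _)).add_const _).neg
  have hE : ∀ᶠ w in 𝓝[≠] z,
      ℘[L] (z + w) = ((℘'[L] z - ℘'[L] w) / (℘[L] z - ℘[L] w)) ^ 2 / 4 - ℘[L] z - ℘[L] w ∧
      ℘'[L] (z + w) = -(((℘'[L] z - ℘'[L] w) / (℘[L] z - ℘[L] w)) *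
        (℘[L] (z + w) - ℘[L] z) + ℘'[L] z) := by
    filter_upwards [hev1, hev2, hev3] with w h1 h2 h3 using hadd z w hz h1 h2 h3.symm
  constructor
  · have := tendsto_nhds_unique (hL.congr' (hE.mono fun w h => h.1)) hR
    rw [this]; ring
  · exact tendsto_nhds_unique (hL'.congr' (hE.mono fun w h => h.2)) hR'

/-! ### Names of the plan (`WpSpec.lean`) -/

theorem wpi_deriv_eq_zero_imp {z : ℂ} (hz : z ∉ L.lattice) (h : ℘'[L] z = 0) :
    2 * z ∈ L.lattice :=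
  wpi_two_mul_mem_of_deriv_eq_zero L hz h

theorem wpi_deriv_eq_zero_of {z : ℂ} (_hz : z ∉ L.lattice) (h : 2 * z ∈ L.lattice) :
    ℘'[L] z = 0 :=
  wpi_deriv_eq_zero_of_two_mul_mem L h

end Fermat.Agent.S13x
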