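/-
S13 project, leaf (d) analytic route, module D05 `WpPoint.lean` (helper95).

For a period pair `L` with `g₂³ - 27 g₃² ≠ 0`, the map `z ↦ (℘ z, ℘' z / 2)` (and `Λ ↦ O`) is a
surjective group homomorphism `ℂ → E_L(ℂ)` with kernel `Λ`, where `E_L : y² = x³ - (g₂/4) x - g₃/4`.

The analytic inputs (generic addition theorem, injectivity of `℘` modulo `±`, duplication formula,
surjectivity of `℘`) are taken as the explicit hypothesis package `WppInputs L`; they are provided
by the modules D02 (`WpAdd`/`WpEuler`), D03 (`WpInj`) and D04 (`WpSurj`).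
-/
import Mathlib

set_option autoImplicit false

namespace Fermat.Agent.S13x

open WeierstrassCurve PeriodPair

/-- The analytic inputs about `℘`, `℘'` used to build the point map. -/
structure WppInputs (L : PeriodPair) : Prop where
  add_x : ∀ z w : ℂ, z ∉ L.lattice → w ∉ L.lattice → z + w ∉ L.lattice → ℘[L] z ≠ ℘[L] w →
    ℘[L] (z + w) = ((℘'[L] z - ℘'[L] w) / (℘[L] z - ℘[L] w)) ^ 2 / 4 - ℘[L] z - ℘[L] w
  add_y : ∀ z w : ℂ, z ∉ L.lattice → w ∉ L.lattice → z + w ∉ L.lattice → ℘[L] z ≠ ℘[L] w →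
    ℘'[L] (z + w) = -(((℘'[L] z - ℘'[L] w) / (℘[L] z - ℘[L] w)) * (℘[L] (z + w) - ℘[L] z)
      + ℘'[L] z)
  inj : ∀ z w : ℂ, z ∉ L.lattice → w ∉ L.lattice → ℘[L] z = ℘[L] w →
    z - w ∈ L.lattice ∨ z + w ∈ L.lattice
  deriv_zero : ∀ z : ℂ, z ∉ L.lattice → ℘'[L] z = 0 → 2 * z ∈ L.lattice
  dup_x : ∀ z : ℂ, z ∉ L.lattice → 2 * z ∉ L.lattice →
    ℘[L] (2 * z) = ((6 * ℘[L] z ^ 2 - L.g₂ / 2) / ℘'[L] z) ^ 2 / 4 - 2 * ℘[L] z
  dup_y : ∀ z : ℂ, z ∉ L.lattice → 2 * z ∉ L.lattice →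
    ℘'[L] (2 * z) = -(((6 * ℘[L] z ^ 2 - L.g₂ / 2) / ℘'[L] z) * (℘[L] (2 * z) - ℘[L] z)
      + ℘'[L] z)
  surj : ∀ c : ℂ, ∃ z : ℂ, z ∉ L.lattice ∧ ℘[L] z = c

/-- The Weierstrass curve `y² = x³ - (g₂/4) x - g₃/4` attached to a period pair. -/
noncomputable def wppCurve (L : PeriodPair) : WeierstrassCurve ℂ :=
  ⟨0, 0, 0, -L.g₂ / 4, -L.g₃ / 4⟩

theorem wpp_Δ (L : PeriodPair) : (wppCurve L).Δ = L.g₂ ^ 3 - 27 * L.g₃ ^ 2 := by
  simp only [wppCurve, WeierstrassCurve.Δ, WeierstrassCurve.b₂, WeierstrassCurve.b₄,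
    WeierstrassCurve.b₆, WeierstrassCurve.b₈]
  ring

theorem wpp_equation (L : PeriodPair) (z : ℂ) (hz : z ∉ L.lattice) :
    (wppCurve L).toAffine.Equation (℘[L] z) (℘'[L] z / 2) := by
  rw [Affine.equation_iff]
  have h := L.derivWeierstrassP_sq z hz
  simp only [wppCurve]
  linear_combination h / 4

theorem wpp_nonsingular (L : PeriodPair) (hΔ : L.g₂ ^ 3 - 27 * L.g₃ ^ 2 ≠ 0) (z : ℂ)
    (hz : z ∉ L.lattice) : (wppCurve L).toAffine.Nonsingular (℘[L] z) (℘'[L] z / 2) :=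
  (Affine.equation_iff_nonsingular_of_Δ_ne_zero (by rw [wpp_Δ]; exact hΔ)).mp
    (wpp_equation L z hz)

open Classical in
/-- The point map `z ↦ (℘ z, ℘' z / 2)`, lattice points going to `0`. -/
noncomputable def wppPoint (L : PeriodPair) (hΔ : L.g₂ ^ 3 - 27 * L.g₃ ^ 2 ≠ 0) (z : ℂ) :
    (wppCurve L).toAffine.Point :=
  if hz : z ∈ L.lattice then 0 else .some _ _ (wpp_nonsingular L hΔ z hz)

variable {L : PeriodPair} (hΔ : L.g₂ ^ 3 - 27 * L.g₃ ^ 2 ≠ 0)

theorem wppPoint_of_mem {z : ℂ} (hz : z ∈ L.lattice) : wppPoint L hΔ z = 0 := by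
  simp [wppPoint, hz]

theorem wppPoint_of_notMem {z : ℂ} (hz : z ∉ L.lattice) :
    wppPoint L hΔ z = .some _ _ (wpp_nonsingular L hΔ z hz) := by
  simp [wppPoint, hz]

theorem wppPoint_eq_zero_iff (z : ℂ) : wppPoint L hΔ z = 0 ↔ z ∈ L.lattice := by
  constructor
  · intro h
    by_contra hz
    rw [wppPoint_of_notMem hΔ hz] at h
    exact Affine.Point.some_ne_zero _ h
  · exact wppPoint_of_mem hΔ

theorem wpp_some_congr {W : Affine ℂ} {x y x' y' : ℂ} (h : W.Nonsingular x y)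
    (h' : W.Nonsingular x' y') (hx : x = x') (hy : y = y') :
    Affine.Point.some x y h = Affine.Point.some x' y' h' := by
  subst hx hy
  rfl

theorem wppPoint_add_of_mem (z : ℂ) {l : ℂ} (hl : l ∈ L.lattice) :
    wppPoint L hΔ (z + l) = wppPoint L hΔ z := by
  by_cases hz : z ∈ L.lattice
  · rw [wppPoint_of_mem hΔ hz, wppPoint_of_mem hΔ (L.lattice.add_mem hz hl)]
  · have hzl : z + l ∉ L.lattice := fun h => hz (by simpa using L.lattice.sub_mem h hl)
    rw [wppPoint_of_notMem hΔ hz, wppPoint_of_notMem hΔ hzl]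
    refine wpp_some_congr _ _ ?_ ?_
    · exact L.weierstrassP_add_coe z ⟨l, hl⟩
    · rw [show ℘'[L] (z + l) = ℘'[L] z from L.derivWeierstrassP_add_coe z ⟨l, hl⟩]

theorem wppPoint_neg (z : ℂ) : wppPoint L hΔ (-z) = -wppPoint L hΔ z := by
  by_cases hz : z ∈ L.lattice
  · rw [wppPoint_of_mem hΔ hz, wppPoint_of_mem hΔ (L.lattice.neg_mem hz), neg_zero]
  · have hnz : -z ∉ L.lattice := fun h => hz (by simpa using L.lattice.neg_mem h)
    rw [wppPoint_of_notMem hΔ hz, wppPoint_of_notMem hΔ hnz, Affine.Point.neg_some]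
    refine wpp_some_congr _ _ (L.weierstrassP_neg z) ?_
    rw [L.derivWeierstrassP_neg]
    simp only [Affine.negY, wppCurve]
    ring


/-- duplication on the point level. -/
theorem wppPoint_two_mul (I : WppInputs L) (w : ℂ) (hw : w ∉ L.lattice)
    (h2 : 2 * w ∉ L.lattice) :
    wppPoint L hΔ (2 * w) = wppPoint L hΔ w + wppPoint L hΔ w := by
  have hd : ℘'[L] w ≠ 0 := fun h => h2 (I.deriv_zero w hw h)
  rw [wppPoint_of_notMem hΔ hw, wppPoint_of_notMem hΔ h2]
  have hy : ℘'[L] w / 2 ≠ (wppCurve L).toAffine.negY (℘[L] w) (℘'[L] w / 2) := by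
    simp only [Affine.negY, wppCurve]
    intro h
    apply hd
    linear_combination h
  rw [Affine.Point.add_self_of_Y_ne hy]
  have hsl : (wppCurve L).toAffine.slope (℘[L] w) (℘[L] w) (℘'[L] w / 2) (℘'[L] w / 2) =
      (6 * ℘[L] w ^ 2 - L.g₂ / 2) / ℘'[L] w / 2 := by
    rw [Affine.slope_of_Y_ne rfl hy]
    simp only [Affine.negY, wppCurve]
    have e : ℘'[L] w / 2 - (-(℘'[L] w / 2) - 0 * ℘[L] w - 0) = ℘'[L] w := by ring
    rw [e]
    field_simp
    ring
  refine wpp_some_congr _ _ ?_ ?_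
  · rw [hsl, I.dup_x w hw h2]
    simp only [Affine.addX, wppCurve]
    ring
  · rw [hsl, I.dup_y w hw h2]
    simp only [Affine.addY, Affine.negAddY, Affine.negY, Affine.addX, wppCurve]
    rw [I.dup_x w hw h2]
    ring

/-- generic addition on the point level. -/
theorem wppPoint_add_generic (I : WppInputs L) (z w : ℂ) (hz : z ∉ L.lattice)
    (hw : w ∉ L.lattice) (hzw : z + w ∉ L.lattice) (hx : ℘[L] z ≠ ℘[L] w) :
    wppPoint L hΔ (z + w) = wppPoint L hΔ z + wppPoint L hΔ w := by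
  rw [wppPoint_of_notMem hΔ hz, wppPoint_of_notMem hΔ hw, wppPoint_of_notMem hΔ hzw,
    Affine.Point.add_of_X_ne hx]
  have hsl : (wppCurve L).toAffine.slope (℘[L] z) (℘[L] w) (℘'[L] z / 2) (℘'[L] w / 2) =
      (℘'[L] z - ℘'[L] w) / (℘[L] z - ℘[L] w) / 2 := by
    rw [Affine.slope_of_X_ne hx]
    ring
  refine wpp_some_congr _ _ ?_ ?_
  · rw [hsl, I.add_x z w hz hw hzw hx]
    simp only [Affine.addX, wppCurve]
    ring
  · rw [hsl, I.add_y z w hz hw hzw hx]
    simp only [Affine.addY, Affine.negAddY, Affine.negY, Affine.addX, wppCurve]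
    rw [I.add_x z w hz hw hzw hx]
    ring

/-- **additivity** of the point map. -/
theorem wppPoint_add (I : WppInputs L) (z w : ℂ) :
    wppPoint L hΔ (z + w) = wppPoint L hΔ z + wppPoint L hΔ w := by
  by_cases hz : z ∈ L.lattice
  · rw [add_comm z w, wppPoint_add_of_mem hΔ w hz, wppPoint_of_mem hΔ hz, zero_add]
  by_cases hw : w ∈ L.lattice
  · rw [wppPoint_add_of_mem hΔ z hw, wppPoint_of_mem hΔ hw, add_zero]
  by_cases hzw : z + w ∈ L.lattice
  · rw [wppPoint_of_mem hΔ hzw]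
    have : wppPoint L hΔ w = -wppPoint L hΔ z := by
      rw [← wppPoint_neg, ← wppPoint_add_of_mem hΔ (-z) hzw]
      congr 1
      ring
    rw [this, add_neg_cancel]
  by_cases hx : ℘[L] z = ℘[L] w
  · rcases I.inj z w hz hw hx with h | h
    · -- `z = w + l`
      have e1 : wppPoint L hΔ z = wppPoint L hΔ w := by
        rw [← wppPoint_add_of_mem hΔ w h]
        congr 1
        ring
      have e2 : wppPoint L hΔ (z + w) = wppPoint L hΔ (2 * w) := by
        rw [← wppPoint_add_of_mem hΔ (2 * w) h]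
        congr 1
        ring
      have h2 : 2 * w ∉ L.lattice := by
        intro h2
        apply hzw
        have : z + w = 2 * w + (z - w) := by ring
        rw [this]
        exact L.lattice.add_mem h2 h
      rw [e1, e2, wppPoint_two_mul hΔ I w hw h2]
    · exact absurd h hzw
  · exact wppPoint_add_generic hΔ I z w hz hw hzw hx


/-- The point map as an additive homomorphism. -/
noncomputable def wppHom (I : WppInputs L) : ℂ →+ (wppCurve L).toAffine.Point where
  toFun := wppPoint L hΔ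
  map_zero' := wppPoint_of_mem hΔ L.lattice.zero_mem
  map_add' := wppPoint_add hΔ I

@[simp]
theorem wppHom_apply (I : WppInputs L) (z : ℂ) : wppHom hΔ I z = wppPoint L hΔ z := rfl

theorem wppHom_ker (I : WppInputs L) : (wppHom hΔ I).ker = L.lattice.toAddSubgroup := by
  ext z
  rw [AddMonoidHom.mem_ker, wppHom_apply, wppPoint_eq_zero_iff]
  rfl

theorem wppPoint_surjective (I : WppInputs L) : Function.Surjective (wppPoint L hΔ) := by
  rintro (_ | ⟨x, y, h⟩)
  · exact ⟨0, wppPoint_of_mem hΔ L.lattice.zero_mem⟩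
  · obtain ⟨z, hz, hzx⟩ := I.surj x
    have heq : (wppCurve L).toAffine.Equation x y := h.1
    rw [Affine.equation_iff] at heq
    have hsq := L.derivWeierstrassP_sq z hz
    rw [hzx] at hsq
    simp only [wppCurve] at heq
    have h2 : (℘'[L] z / 2 - y) * (℘'[L] z / 2 + y) = 0 := by
      linear_combination hsq / 4 - heq
    rcases mul_eq_zero.mp h2 with h3 | h3
    · refine ⟨z, ?_⟩
      rw [wppPoint_of_notMem hΔ hz]
      exact wpp_some_congr _ _ hzx (by linear_combination h3)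
    · refine ⟨-z, ?_⟩
      have hnz : -z ∉ L.lattice := fun h => hz (by simpa using L.lattice.neg_mem h)
      rw [wppPoint_of_notMem hΔ hnz]
      refine wpp_some_congr _ _ ?_ ?_
      · rw [L.weierstrassP_neg, hzx]
      · rw [L.derivWeierstrassP_neg]
        linear_combination -h3

/-- **Uniformisation of `E_L(ℂ)`**: `ℂ ⧸ Λ ≃+ E_L(ℂ)`. -/
noncomputable def wppEquiv (I : WppInputs L) :
    ℂ ⧸ L.lattice.toAddSubgroup ≃+ (wppCurve L).toAffine.Point :=
  (QuotientAddGroup.quotientAddEquivOfEq (wppHom_ker hΔ I).symm).trans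
    (QuotientAddGroup.quotientKerEquivOfSurjective (wppHom hΔ I) (wppPoint_surjective hΔ I))

theorem wppEquiv_mk (I : WppInputs L) (z : ℂ) :
    wppEquiv hΔ I (QuotientAddGroup.mk z) = wppPoint L hΔ z := rfl


/-- torsion subgroups of isomorphic groups have the same cardinality. -/
theorem wpp_card_torsionBy_congr {A B : Type*} [AddCommGroup A] [AddCommGroup B] (e : A ≃+ B)
    (a : ℤ) : Nat.card (Submodule.torsionBy ℤ A a) = Nat.card (Submodule.torsionBy ℤ B a) := by
  refine Nat.card_congr ⟨fun x => ⟨e x, ?_⟩, fun y => ⟨e.symm y, ?_⟩, ?_, ?_⟩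
  · rw [Submodule.mem_torsionBy_iff, ← map_zsmul, (Submodule.mem_torsionBy_iff _ _).mp x.2,
      map_zero]
  · rw [Submodule.mem_torsionBy_iff, ← map_zsmul, (Submodule.mem_torsionBy_iff _ _).mp y.2,
      map_zero]
  · intro x
    ext
    simp
  · intro y
    ext
    simp

include hΔ in
/-- the `a`-torsion of `E_L(ℂ)` has the cardinality of the `a`-torsion of `ℂ ⧸ Λ`. -/
theorem wpp_card_torsionBy (I : WppInputs L) (a : ℤ) :
    Nat.card (Submodule.torsionBy ℤ (wppCurve L).toAffine.Point a) =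
      Nat.card (Submodule.torsionBy ℤ (ℂ ⧸ L.lattice.toAddSubgroup) a) :=
  (wpp_card_torsionBy_congr (wppEquiv hΔ I) a).symm

end Fermat.Agent.S13x
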