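/-
S13 leaf (d), analytic route, module D04: `℘` takes every complex value (Liouville).
-/
import Mathlib.Analysis.SpecialFunctions.Elliptic.Weierstrass
import Mathlib.Analysis.Meromorphic.Order
import Mathlib.Analysis.Complex.Liouville

set_option autoImplicit false

open scoped PeriodPair Topology
open Filter

namespace Fermat.Agent.S13x

open Classical in
/-- auxiliary function: `1 / (℘ - c)` extended by `0` on the lattice -/
noncomputable def wpsAux (L : PeriodPair) (c : ℂ) (z : ℂ) : ℂ :=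
  if z ∈ L.lattice then 0 else (℘[L] z - c)⁻¹

theorem wps_aux_of_mem (L : PeriodPair) (c : ℂ) {z : ℂ} (hz : z ∈ L.lattice) :
    wpsAux L c z = 0 := by simp [wpsAux, hz]

theorem wps_aux_of_notMem (L : PeriodPair) (c : ℂ) {z : ℂ} (hz : z ∉ L.lattice) :
    wpsAux L c z = (℘[L] z - c)⁻¹ := by simp [wpsAux, hz]

theorem wps_aux_add (L : PeriodPair) (c : ℂ) (z : ℂ) {l : ℂ} (hl : l ∈ L.lattice) :
    wpsAux L c (z + l) = wpsAux L c z := by
  by_cases hz : z ∈ L.lattice
  · rw [wps_aux_of_mem L c hz, wps_aux_of_mem L c (add_mem hz hl)]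
  · have hz' : z + l ∉ L.lattice := fun h => hz (by simpa using sub_mem h hl)
    rw [wps_aux_of_notMem L c hz, wps_aux_of_notMem L c hz',
      show ℘[L] (z + l) = ℘[L] z from L.weierstrassP_add_coe z ⟨l, hl⟩]

theorem wps_order_sub_const (L : PeriodPair) (c : ℂ) {l : ℂ} (hl : l ∈ L.lattice) :
    meromorphicOrderAt (℘[L] + fun _ => -c) l = -2 := by
  classical
  have h2 : MeromorphicAt (fun _ : ℂ => -c) l := MeromorphicAt.const _ _
  have hlt : meromorphicOrderAt ℘[L] l < meromorphicOrderAt (fun _ : ℂ => -c) l := by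
    rw [L.order_weierstrassP l hl, meromorphicOrderAt_const]
    split_ifs
    · exact WithTop.coe_lt_top _
    · have h : ((-2 : ℤ) : WithTop ℤ) < ((0 : ℤ) : WithTop ℤ) := WithTop.coe_lt_coe.2 (by norm_num)
      simpa using h
  rw [meromorphicOrderAt_add_eq_left_of_lt h2 hlt, L.order_weierstrassP l hl]

theorem wps_aux_analyticAt (L : PeriodPair) (c : ℂ) (hc : ∀ z, z ∉ L.lattice → ℘[L] z ≠ c)
    (z : ℂ) : AnalyticAt ℂ (wpsAux L c) z := by
  by_cases hz : z ∈ L.lattice
  · -- at a lattice point: positive order and value zero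
    refine AnalyticAt.of_meromorphicOrderAt_pos ?_ (wps_aux_of_mem L c hz)
    have hcongr : wpsAux L c =ᶠ[𝓝[≠] z] (℘[L] + fun _ => -c)⁻¹ := by
      filter_upwards [mem_nhdsWithin_of_mem_nhds (L.compl_lattice_sdiff_singleton_mem_nhds z),
        self_mem_nhdsWithin] with w hw hwz
      have hw' : w ∉ L.lattice := fun h => hw ⟨h, hwz⟩
      rw [wps_aux_of_notMem L c hw']
      simp [sub_eq_add_neg]
    rw [meromorphicOrderAt_congr hcongr, meromorphicOrderAt_inv, wps_order_sub_const L c hz]
    norm_num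
  · have hA : AnalyticAt ℂ (fun w => (℘[L] w - c)⁻¹) z := by
      have h1 : AnalyticAt ℂ ℘[L] z := L.analyticOnNhd_weierstrassP z hz
      have h2 : AnalyticAt ℂ (fun w => ℘[L] w - c) z := h1.sub analyticAt_const
      exact h2.inv (sub_ne_zero.2 (hc z hz))
    refine hA.congr ?_
    filter_upwards [L.isClosed_lattice.isOpen_compl.mem_nhds hz] with w hw
    exact (wps_aux_of_notMem L c hw).symm

/-- **D04**: `℘` is surjective onto `ℂ`. -/
theorem wps_surj (L : PeriodPair) (c : ℂ) : ∃ z : ℂ, z ∉ L.lattice ∧ ℘[L] z = c := by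
  by_contra hcon
  have hc : ∀ z, z ∉ L.lattice → ℘[L] z ≠ c := fun z hz h => hcon ⟨z, hz, h⟩
  have hdiff : Differentiable ℂ (wpsAux L c) :=
    fun z => (wps_aux_analyticAt L c hc z).differentiableAt
  have hbdd : Bornology.IsBounded (Set.range (wpsAux L c)) :=
    (IsZLattice.isCompact_range_of_periodic L.lattice _ hdiff.continuous
      fun z w hw => wps_aux_add L c z hw).isBounded
  have heq := hdiff.apply_eq_apply_of_bounded hbdd (L.ω₁ / 2) 0
  rw [wps_aux_of_mem L c (zero_mem _), wps_aux_of_notMem L c L.ω₁_div_two_notMem_lattice] at heq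
  exact (inv_ne_zero (sub_ne_zero.2 (hc _ L.ω₁_div_two_notMem_lattice))) heq

end Fermat.Agent.S13x
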