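/-
S13 project, leaf (d), module D06_TorsionLattice (helper62): the `n`-torsion of `ℂ ⧸ Λ` has
exactly `n ^ 2` elements, for the lattice `Λ` of a `PeriodPair`.  Mathlib only.
-/
import Mathlib

set_option autoImplicit false

namespace Fermat.Agent.S13x

open Complex

section Abstract

variable {M : Type*} [AddCommGroup M]

/-- the homomorphism `(a, b) ↦ a • x₁ + b • x₂` from `(ℤ/n)²`, for `x₁ x₂` killed by `n`. -/
noncomputable def wptHom (n : ℕ) (x₁ x₂ : M) (h₁ : (n : ℤ) • x₁ = 0) (h₂ : (n : ℤ) • x₂ = 0) :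
    ZMod n × ZMod n →+ M :=
  AddMonoidHom.coprod
    (ZMod.lift n ⟨zmultiplesHom M x₁, by simpa using h₁⟩)
    (ZMod.lift n ⟨zmultiplesHom M x₂, by simpa using h₂⟩)

theorem wptHom_intCast (n : ℕ) (x₁ x₂ : M) (h₁ : (n : ℤ) • x₁ = 0) (h₂ : (n : ℤ) • x₂ = 0)
    (a b : ℤ) : wptHom n x₁ x₂ h₁ h₂ ((a : ZMod n), (b : ZMod n)) = a • x₁ + b • x₂ := by
  simp [wptHom, ZMod.lift_coe]

end Abstract

variable (L : PeriodPair)

/-- the quotient `ℂ ⧸ Λ` -/
abbrev wptQuot : Type := ℂ ⧸ L.lattice.toAddSubgroup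

theorem wpt_mk_eq_zero_iff (z : ℂ) :
    ((z : ℂ) : wptQuot L) = 0 ↔ ∃ m k : ℤ, (m : ℂ) * L.ω₁ + (k : ℂ) * L.ω₂ = z := by
  rw [QuotientAddGroup.eq_zero_iff]
  exact PeriodPair.mem_lattice

theorem wpt_indep (s t : ℝ) (h : (s : ℂ) * L.ω₁ + (t : ℂ) * L.ω₂ = 0) : s = 0 ∧ t = 0 := by
  have := LinearIndependent.pair_iff.mp L.indep s t
  apply this
  simpa [Complex.real_smul] using h

/-- the two generators `ω₁/n`, `ω₂/n` of the `n`-torsion -/
noncomputable def wptGen₁ (n : ℕ) : wptQuot L := ((L.ω₁ / n : ℂ) : wptQuot L)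
noncomputable def wptGen₂ (n : ℕ) : wptQuot L := ((L.ω₂ / n : ℂ) : wptQuot L)

theorem wpt_zsmul_gen₁ (n : ℕ) (hn : 0 < n) : (n : ℤ) • wptGen₁ L n = 0 := by
  have hn' : (n : ℂ) ≠ 0 := by exact_mod_cast hn.ne'
  rw [wptGen₁, ← QuotientAddGroup.mk_zsmul, wpt_mk_eq_zero_iff]
  refine ⟨1, 0, ?_⟩
  rw [zsmul_eq_mul]
  push_cast
  field_simp
  ring

theorem wpt_zsmul_gen₂ (n : ℕ) (hn : 0 < n) : (n : ℤ) • wptGen₂ L n = 0 := by
  have hn' : (n : ℂ) ≠ 0 := by exact_mod_cast hn.ne'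
  rw [wptGen₂, ← QuotientAddGroup.mk_zsmul, wpt_mk_eq_zero_iff]
  refine ⟨0, 1, ?_⟩
  rw [zsmul_eq_mul]
  push_cast
  field_simp
  ring

/-- `(a, b) ↦ (a ω₁ + b ω₂) / n` from `(ℤ/n)²` to `ℂ ⧸ Λ`. -/
noncomputable def wptMap (n : ℕ) (hn : 0 < n) : ZMod n × ZMod n →+ wptQuot L :=
  wptHom n (wptGen₁ L n) (wptGen₂ L n) (wpt_zsmul_gen₁ L n hn) (wpt_zsmul_gen₂ L n hn)

theorem wptMap_intCast (n : ℕ) (hn : 0 < n) (a b : ℤ) :
    wptMap L n hn ((a : ZMod n), (b : ZMod n)) =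
      (((a : ℂ) * L.ω₁ + (b : ℂ) * L.ω₂) / n : ℂ) := by
  rw [wptMap, wptHom_intCast, wptGen₁, wptGen₂, ← QuotientAddGroup.mk_zsmul,
    ← QuotientAddGroup.mk_zsmul, ← QuotientAddGroup.mk_add]
  congr 1
  simp only [zsmul_eq_mul]
  ring

theorem wptMap_injective (n : ℕ) (hn : 0 < n) : Function.Injective (wptMap L n hn) := by
  have : NeZero n := ⟨hn.ne'⟩
  have hn' : (n : ℝ) ≠ 0 := by exact_mod_cast hn.ne'
  rw [injective_iff_map_eq_zero]
  rintro ⟨a, b⟩ h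
  obtain ⟨a', rfl⟩ := ZMod.intCast_surjective a
  obtain ⟨b', rfl⟩ := ZMod.intCast_surjective b
  rw [wptMap_intCast, wpt_mk_eq_zero_iff] at h
  obtain ⟨m, k, hmk⟩ := h
  have key : (((m : ℝ) - a' / n : ℝ) : ℂ) * L.ω₁ + (((k : ℝ) - b' / n : ℝ) : ℂ) * L.ω₂ = 0 := by
    push_cast
    have hn'' : (n : ℂ) ≠ 0 := by exact_mod_cast hn.ne'
    rw [eq_div_iff hn''] at hmk
    field_simp
    linear_combination hmk
  obtain ⟨h1, h2⟩ := wpt_indep L _ _ key
  have ha : (a' : ℝ) = n * m := by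
    field_simp at h1
    linarith
  have hb : (b' : ℝ) = n * k := by
    field_simp at h2
    linarith
  have ha' : a' = n * m := by exact_mod_cast ha
  have hb' : b' = n * k := by exact_mod_cast hb
  rw [Prod.mk_eq_zero]
  constructor
  · rw [ZMod.intCast_zmod_eq_zero_iff_dvd]; exact ⟨m, ha'⟩
  · rw [ZMod.intCast_zmod_eq_zero_iff_dvd]; exact ⟨k, hb'⟩

theorem wpt_range_wptMap (n : ℕ) (hn : 0 < n) :
    Set.range (wptMap L n hn) = (Submodule.torsionBy ℤ (wptQuot L) (n : ℤ) : Set (wptQuot L)) := by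
  have hn' : (n : ℂ) ≠ 0 := by exact_mod_cast hn.ne'
  ext x
  simp only [Set.mem_range, SetLike.mem_coe, Submodule.mem_torsionBy_iff]
  constructor
  · rintro ⟨⟨a, b⟩, rfl⟩
    rw [← map_zsmul]
    have : (n : ℤ) • ((a, b) : ZMod n × ZMod n) = 0 := by
      rw [Prod.smul_mk, Prod.mk_eq_zero]
      constructor <;> simp
    rw [this, map_zero]
  · intro hx
    obtain ⟨z, rfl⟩ := QuotientAddGroup.mk_surjective x
    rw [← QuotientAddGroup.mk_zsmul, wpt_mk_eq_zero_iff] at hx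
    obtain ⟨m, k, hmk⟩ := hx
    refine ⟨((m : ZMod n), (k : ZMod n)), ?_⟩
    rw [wptMap_intCast, hmk, zsmul_eq_mul]
    congr 1
    push_cast
    field_simp

/-- **D06**: the `n`-torsion of `ℂ ⧸ Λ` has `n ^ 2` elements. -/
theorem wpt_card_torsionBy (n : ℕ) (hn : 0 < n) :
    Nat.card (Submodule.torsionBy ℤ (ℂ ⧸ L.lattice.toAddSubgroup) (n : ℤ)) = n ^ 2 := by
  have h1 : Nat.card (Submodule.torsionBy ℤ (wptQuot L) (n : ℤ)) =
      Nat.card (Set.range (wptMap L n hn)) := by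
    rw [wpt_range_wptMap]
    rfl
  rw [h1, Nat.card_range_of_injective (wptMap_injective L n hn), Nat.card_prod, Nat.card_zmod, sq]

/-- **D06**, exact `WpSpec` name and shape. -/
theorem wpt_card_torsion_quot {n : ℕ} (hn : 0 < n) :
    Nat.card (Submodule.torsionBy ℤ (ℂ ⧸ L.lattice.toAddSubgroup) (n : ℤ)) = n ^ 2 :=
  wpt_card_torsionBy L n hn

/-- torsion counts are invariant under additive equivalences -/
theorem wpt_card_torsionBy_congr {A B : Type*} [AddCommGroup A] [AddCommGroup B] (e : A ≃+ B)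
    (a : ℤ) : Nat.card (Submodule.torsionBy ℤ A a) = Nat.card (Submodule.torsionBy ℤ B a) := by
  refine Nat.card_congr ⟨fun x => ⟨e x.1, ?_⟩, fun y => ⟨e.symm y.1, ?_⟩, ?_, ?_⟩
  · have := x.2
    rw [Submodule.mem_torsionBy_iff] at this ⊢
    rw [← map_zsmul, this, map_zero]
  · have := y.2
    rw [Submodule.mem_torsionBy_iff] at this ⊢
    rw [← map_zsmul, this, map_zero]
  · intro x; ext; simp
  · intro y; ext; simp

/-- transfer along an additive equivalence `ℂ ⧸ Λ ≃+ P` (e.g. `P` = points of the Weierstrass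
curve of `Λ`, module D05). -/
theorem wpt_card_torsionBy_of_addEquiv {P : Type*} [AddCommGroup P]
    (e : (ℂ ⧸ L.lattice.toAddSubgroup) ≃+ P) (n : ℕ) (hn : 0 < n) :
    Nat.card (Submodule.torsionBy ℤ P (n : ℤ)) = n ^ 2 := by
  rw [← wpt_card_torsionBy_congr e, wpt_card_torsionBy L n hn]

/-- transfer along a surjective additive map `ℂ → P` with kernel `Λ`. -/
theorem wpt_card_torsionBy_of_surjective {P : Type*} [AddCommGroup P] (f : ℂ →+ P)
    (hf : Function.Surjective f) (hker : ∀ z : ℂ, f z = 0 ↔ z ∈ L.lattice) (n : ℕ) (hn : 0 < n) :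
    Nat.card (Submodule.torsionBy ℤ P (n : ℤ)) = n ^ 2 := by
  have hk : f.ker = L.lattice.toAddSubgroup := by
    ext z
    rw [AddMonoidHom.mem_ker, hker]
    rfl
  have e1 : (ℂ ⧸ f.ker) ≃+ P := QuotientAddGroup.quotientKerEquivOfSurjective f hf
  have e2 : (ℂ ⧸ L.lattice.toAddSubgroup) ≃+ (ℂ ⧸ f.ker) :=
    QuotientAddGroup.quotientAddEquivOfEq hk.symm
  exact wpt_card_torsionBy_of_addEquiv L (e2.trans e1) n hn

/-- the `n`-torsion of `ℂ ⧸ Λ` is nontrivial for `n ≥ 2`. -/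
theorem wpt_nontrivial_torsionBy (n : ℕ) (hn : 2 ≤ n) :
    Nontrivial (Submodule.torsionBy ℤ (ℂ ⧸ L.lattice.toAddSubgroup) (n : ℤ)) := by
  have hcard := wpt_card_torsionBy L n (by omega)
  have h1 : 1 < Nat.card (Submodule.torsionBy ℤ (ℂ ⧸ L.lattice.toAddSubgroup) (n : ℤ)) := by
    rw [hcard]; nlinarith
  have hfin : Finite (Submodule.torsionBy ℤ (ℂ ⧸ L.lattice.toAddSubgroup) (n : ℤ)) :=
    Nat.finite_of_card_ne_zero (by omega)
  exact Finite.one_lt_card_iff_nontrivial.mp h1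

end Fermat.Agent.S13x
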