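/-
S13 leaf (d), analytic route, module D10 (final): for an elliptic curve `W` over `ℚ` and `n ≥ 1`,
`E[n](Qbar)` has exactly `n²` elements.  Application to the Frey curve: `Nontrivial`, `Finite`,
`card = p²` for `FreyV P` (statements (L), (U) of `S13x/Spec.lean`).

Wiring: D02 `WpEuler` (addition theorem), D03 `WpInj` (injectivity mod ±, duplication),
D04 `WpSurj` (surjectivity of ℘), D05 `WpPoint` (ℂ/Λ ≃+ E_L(ℂ)), D06 `WpTorsion` ((ℂ/Λ)[n]),
D07 `LatticeOfInvariants` (uniformisation), D08 `TorsionC` (short normal form), D09 `DescentQbar`.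
-/
import Fermat.Agent.S13x.WpEuler
import Fermat.Agent.S13x.WpInj
import Fermat.Agent.S13x.WpSurj
import Fermat.Agent.S13x.WpPoint
import Fermat.Agent.S13x.WpTorsion
import Fermat.Agent.S13x.TorsionC
import Fermat.Agent.S13x.LatticeOfInvariants
import Fermat.Agent.S13x.DescentQbar
import Fermat.Agent.S13x.Defs

set_option autoImplicit false

open scoped PeriodPair
open WeierstrassCurve WeierstrassCurve.Affine

namespace Fermat.Agent.S13x

/-- all analytic inputs of the point map -/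
theorem tq_wppInputs (L : PeriodPair) : WppInputs L where
  add_x := fun _ _ hz hw hzw hne => wpe_add_x L hz hw hzw hne
  add_y := fun _ _ hz hw hzw hne => wpe_add_y L hz hw hzw hne
  inj := fun _ _ hz hw h => wpi_eq_imp L hz hw h
  deriv_zero := fun _ hz h => wpi_deriv_eq_zero_imp L hz h
  dup_x := fun _ hz h2 =>
    (wpi_dup_of_add L (fun _ _ hz hw hzw hne =>
      ⟨wpe_add_x L hz hw hzw hne, wpe_add_y L hz hw hzw hne⟩) hz h2).1
  dup_y := fun _ hz h2 =>
    (wpi_dup_of_add L (fun _ _ hz hw hzw hne =>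
      ⟨wpe_add_x L hz hw hzw hne, wpe_add_y L hz hw hzw hne⟩) hz h2).2
  surj := wps_surj L

/-- `n`-torsion of the curve of a period pair -/
theorem tq_card_torsion_wppCurve (L : PeriodPair) (hΔ : L.g₂ ^ 3 - 27 * L.g₃ ^ 2 ≠ 0) (n : ℕ)
    (hn : 1 ≤ n) :
    Nat.card (Submodule.torsionBy ℤ (wppCurve L).toAffine.Point (n : ℤ)) = n ^ 2 := by
  rw [wpp_card_torsionBy hΔ (tq_wppInputs L) (n : ℤ)]
  exact wpt_card_torsionBy L n hn

/-- `n`-torsion of an arbitrary complex elliptic curve -/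
theorem tq_card_torsion_complex (W : WeierstrassCurve ℂ) (hΔ : W.Δ ≠ 0) (n : ℕ) (hn : 1 ≤ n) :
    Nat.card (Submodule.torsionBy ℤ W.toAffine.Point (n : ℤ)) = n ^ 2 :=
  tc_card_torsion_of (fun L hL n hn => tq_card_torsion_wppCurve L hL n hn)
    loi_exists_periodPair W hΔ n hn

/-- **D10**: `E[n](Qbar)` has `n²` elements. -/
theorem tq_card_torsion (W : WeierstrassCurve ℚ) (hΔ : W.Δ ≠ 0) (n : ℕ) (hn : 1 ≤ n) :
    Nat.card (Submodule.torsionBy ℤ (W⁄(AlgebraicClosure ℚ)).Point (n : ℤ)) = n ^ 2 := by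
  have hΔ' : (W⁄ℂ).Δ ≠ 0 := by
    rw [show (W⁄ℂ).Δ = algebraMap ℚ ℂ W.Δ from WeierstrassCurve.map_Δ W _]
    simpa using hΔ
  have h := tq_card_torsion_complex (W⁄ℂ) hΔ' n hn
  exact dq_card_torsion_algebraicClosure W (pow_ne_zero 2 (by omega)) h

theorem tq_finite_torsion (W : WeierstrassCurve ℚ) (hΔ : W.Δ ≠ 0) (n : ℕ) (hn : 1 ≤ n) :
    Finite (Submodule.torsionBy ℤ (W⁄(AlgebraicClosure ℚ)).Point (n : ℤ)) :=
  Nat.finite_of_card_ne_zero (by rw [tq_card_torsion W hΔ n hn]; exact pow_ne_zero 2 (by omega))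

theorem tq_nontrivial_torsion (W : WeierstrassCurve ℚ) (hΔ : W.Δ ≠ 0) (n : ℕ) (hn : 2 ≤ n) :
    Nontrivial (Submodule.torsionBy ℤ (W⁄(AlgebraicClosure ℚ)).Point (n : ℤ)) := by
  have hfin := tq_finite_torsion W hΔ n (by omega)
  have h1 : 1 < Nat.card (Submodule.torsionBy ℤ (W⁄(AlgebraicClosure ℚ)).Point (n : ℤ)) := by
    rw [tq_card_torsion W hΔ n (by omega)]; nlinarith
  exact Finite.one_lt_card_iff_nontrivial.mp h1

/-! ### the Frey curve -/

theorem tq_freyCurve_Δ (P : FreyPackage) :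
    P.freyCurve.Δ = ((P.a : ℚ) ^ P.p * (P.b : ℚ) ^ P.p * (P.c : ℚ) ^ P.p) ^ 2 / 256 := by
  have hc : (P.c : ℚ) ^ P.p = (P.a : ℚ) ^ P.p + (P.b : ℚ) ^ P.p := by
    exact_mod_cast P.hFLT.symm
  simp only [WeierstrassCurve.Δ, WeierstrassCurve.b₂, WeierstrassCurve.b₄, WeierstrassCurve.b₆,
    WeierstrassCurve.b₈, FreyPackage.freyCurve]
  rw [hc]
  ring

theorem tq_freyCurve_Δ_ne_zero (P : FreyPackage) : P.freyCurve.Δ ≠ 0 := by
  rw [tq_freyCurve_Δ]
  have ha : (P.a : ℚ) ≠ 0 := by exact_mod_cast P.ha0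
  have hb : (P.b : ℚ) ≠ 0 := by exact_mod_cast P.hb0
  have hc : (P.c : ℚ) ≠ 0 := by exact_mod_cast P.hc0
  positivity

/-- (U), exact form -/
theorem tq_freyV_card (P : FreyPackage) : Nat.card (FreyV P) = P.p ^ 2 :=
  tq_card_torsion P.freyCurve (tq_freyCurve_Δ_ne_zero P) P.p P.hppos

/-- (U) = `Spec.freyV_card_le` of `S13x/Spec.lean` -/
theorem tq_freyV_card_le (P : FreyPackage) : Nat.card (FreyV P) ≤ P.p ^ 2 :=
  (tq_freyV_card P).le

/-- (U), finiteness = `Spec.freyV_finite` of `S13x/Spec.lean` -/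
theorem tq_freyV_finite (P : FreyPackage) : Finite (FreyV P) :=
  tq_finite_torsion P.freyCurve (tq_freyCurve_Δ_ne_zero P) P.p P.hppos

/-- (L) = `Spec.freyV_nontrivial` of `S13x/Spec.lean` -/
theorem tq_freyV_nontrivial (P : FreyPackage) : Nontrivial (FreyV P) :=
  tq_nontrivial_torsion P.freyCurve (tq_freyCurve_Δ_ne_zero P) P.p (by have := P.hp5; omega)

end Fermat.Agent.S13x
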