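import Fermat.Agent.S13x.Assembly
import Fermat.Agent.S13x.TorsionQbar
import Fermat.Agent.S13x.Minkowski
import Fermat.Agent.S13x.LinAlg
import Fermat.Agent.S13x.FixedRat
import Fermat.Agent.S13x.OpenKer
import Fermat.Agent.S13x.InertiaP
import Fermat.Agent.S13x.FreyInt
import Fermat.Agent.S05

/-!
# S13 project, module G5b: the final assembly with all landed inputs plugged in

`s13_of_three` proves the frozen S13 statement from the three remaining top-level statements
(B2 `not_all_inE1`, C1 `inertia_two_unipotent`, C2 `no_fixed_torsion`), taken as hypotheses.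
Everything else (torsion structure, inertia at `p`, odd primes `≠ p`, Minkowski, glue) is the
landed real code.
-/

set_option autoImplicit false
open WeierstrassCurve WeierstrassCurve.Affine WeierstrassCurve.Affine.Point

namespace Fermat.Agent.S13x

theorem s13_of_three (P : FreyPackage)
    (hB2 : ∀ (A : ValuationSubring Qb), A.LiesOverPrime P.p →
      ∀ N : Submodule (ZMod P.p) (FreyV P), IsGaloisStable ℚ N → N ≠ ⊥ → N ≠ ⊤ →
        ∃ x : FreyV P, ¬ InE1 A (x : FreyPt P))
    (hC1 : ∀ (A : ValuationSubring Qb), A.LiesOverPrime 2 →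
      ∀ σ : GQ, σ ∈ A.inertiaSubgroupIn ℚ → ∀ x : FreyV P, σ • (σ • x - x) = σ • x - x)
    (hC2 : ∀ x : FreyV P, (∀ σ : GQ, σ • x = x) → x = 0)
    (hred : ¬ GaloisRepIsIrreducible (K := AlgebraicClosure ℚ) ℚ P.freyCurve P.p) :
    HasGaloisStableCofixedLine (K := AlgebraicClosure ℚ) ℚ P.freyCurve P.p :=
  s13_of_inputs P (tq_freyV_nontrivial P) (tq_freyV_finite P) (tq_freyV_card_le P)
    (fun A _ _ _ h₁ h₂ => fi_inE1_add P A h₁ h₂)
    (fun A _ h => fi_inE1_neg P A h)
    (fun A hA σ hσ x => inertia_p_sub_inE1 P A hA σ hσ x)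
    hB2 hC1 hC2
    (fun _ hq hq2 hqp => Fermat.Agent.S05.result P hq hq2 hqp)
    (fun _ hq => exists_liesOverPrime hq)
    (fun H hH hopen hI => by
      have := hH
      exact eq_top_of_forall_exists_inertia_le H hopen hI)
    (exists_finite_fixing P (tq_freyV_finite P))
    (fun N hN => fixN_normal P N hN)
    (fun N hN => cofixN_normal P N hN)
    (fun N hN hbot htop σ hσ =>
      mem_of_unipotent P (tq_freyV_finite P) (tq_freyV_card_le P) N hN hbot htop σ hσ)
    (fun N hN hbot htop I M hM hI =>
      le_fixN_or_le_cofixN P (tq_freyV_finite P) (tq_freyV_card_le P) N hN hbot htop I M hM hI)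
    hred

end Fermat.Agent.S13x
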