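import Fermat.Agent.S13x.EllSeq
import Fermat.Agent.S13x.WGen

/-!
# S13 project, module DIV/D1-D4: division polynomials vanish at torsion points

For a completely general Weierstrass curve `W` over a field `K` and an affine point
`P = (x, y)` with `j • P ≠ 0` for `0 < j < M`, the sequence
`a 0 = 0, a 1 = 1, a 2 = 2y + a₁x + a₃, a (j+3) = a (j+2)² (x(P) - x((j+2)P)) / a (j+1)`
satisfies the hypotheses of the abstract lemma of `EllSeq.lean` (the `x`-only addition formulas
of `WGen.lean` are encoded by a totally symmetric biquadratic `dsΦ`), hence coincides with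
Mathlib's `normEDS (ψ₂(P)) (Ψ₃(x)) (preΨ₄(x))` up to index `M`.  Consequences:

* `ds_normEDS_ne_zero` : `ψ_j(P) ≠ 0` for `0 < j < M`;
* `ds_normEDS_eq_zero` : `ψ_M(P) = 0` if `M • P = 0`;
* `ds_preΨ_eval_eq_zero` : for odd `n ≥ 5`, `P` of exact order `n`: `(W.preΨ n).eval x = 0`;
* `ds_preΨ_eval_eq_zero_of_prime` : the same for a prime `p ≥ 5`, `P ≠ 0`, `p • P = 0`.
-/

set_option autoImplicit false
open WeierstrassCurve WeierstrassCurve.Affine WeierstrassCurve.Affine.Point

namespace Fermat.Agent.S13x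

variable {K : Type*} [Field K]

/-- the totally symmetric biquadratic encoding the `x`-only addition formulas -/
def dsΦ (W : WeierstrassCurve K) (T u w : K) : K :=
  T ^ 2 * (u - w) ^ 2 - T * (2 * u * w * (u + w) + W.b₂ * u * w + W.b₄ * (u + w) + W.b₆) +
    (u ^ 2 * w ^ 2 - W.b₄ * u * w - W.b₆ * (u + w) - W.b₈)

theorem dsΦ_symm (W : WeierstrassCurve K) (T u w : K) : dsΦ W T u w = dsΦ W u T w := by
  unfold dsΦ; ring

variable {W : WeierstrassCurve K} [DecidableEq K]

/-- `x`-coordinates of the multiples of `P` -/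
def dsx (P : W.toAffine.Point) (j : ℕ) : K := wgX (j • P)

/-- the sequence `a` attached to `P` and the initial value `b = ψ₂(P)` -/
noncomputable def dsa (P : W.toAffine.Point) (b : K) : ℕ → K
  | 0 => 0
  | 1 => 1
  | 2 => b
  | (j + 3) => dsa P b (j + 2) ^ 2 * (dsx P 1 - dsx P (j + 2)) / dsa P b (j + 1)

theorem dsa_zero (P : W.toAffine.Point) (b : K) : dsa P b 0 = 0 := by rw [dsa]
theorem dsa_one (P : W.toAffine.Point) (b : K) : dsa P b 1 = 1 := by rw [dsa]
theorem dsa_two (P : W.toAffine.Point) (b : K) : dsa P b 2 = b := by rw [dsa]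
theorem dsa_succ (P : W.toAffine.Point) (b : K) (j : ℕ) :
    dsa P b (j + 3) = dsa P b (j + 2) ^ 2 * (dsx P 1 - dsx P (j + 2)) / dsa P b (j + 1) := by
  rw [dsa]

/-- two multiples with the same `x` are equal or opposite -/
theorem ds_same_x {P : W.toAffine.Point} {i j : ℕ} (hi : i • P ≠ 0) (hj : j • P ≠ 0)
    (hx : dsx P i = dsx P j) : i • P = j • P ∨ i • P = -(j • P) := by
  obtain ⟨xi, yi, h_i, ei⟩ := wg_exists_some hi
  obtain ⟨xj, yj, h_j, ej⟩ := wg_exists_some hj
  have hxx : xi = xj := by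
    simpa [dsx, ei, ej] using hx
  subst hxx
  rw [ei, ej]
  exact wg_same_x h_j h_i

/-- standing hypothesis: `j • P ≠ 0` for `0 < j < M` -/
def DsOrd (P : W.toAffine.Point) (M : ℕ) : Prop := ∀ j, 0 < j → j < M → j • P ≠ 0

theorem ds_x_ne {P : W.toAffine.Point} {M : ℕ} (hord : DsOrd P M) {i : ℕ} (hi : 1 ≤ i)
    (hiM : i + 2 < M) : dsx P (i + 1) ≠ dsx P 1 := by
  intro hx
  have h1 : (i + 1) • P ≠ 0 := hord _ (by omega) (by omega)
  have h2 : 1 • P ≠ 0 := hord _ (by omega) (by omega)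
  rcases ds_same_x h1 h2 hx with e | e
  · -- (i+1)P = P  ⇒ iP = 0
    have : i • P = 0 := by
      have := e
      rw [succ_nsmul, one_nsmul] at this
      simpa using this
    exact hord i (by omega) (by omega) this
  · -- (i+1)P = -P ⇒ (i+2)P = 0
    have : (i + 2) • P = 0 := by
      have e' := e
      rw [one_nsmul] at e'
      rw [show i + 2 = (i + 1) + 1 by ring, succ_nsmul _ (i + 1), e']
      simp
    exact hord (i + 2) (by omega) hiM this

section Main

variable {x y : K} (h : W.toAffine.Nonsingular x y)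

/-- `ψ₂(P) = 2y + a₁x + a₃` -/
def dsb (W : WeierstrassCurve K) (x y : K) : K := 2 * y + W.a₁ * x + W.a₃

theorem dsb_ne_zero {M : ℕ} (hord : DsOrd (Point.some x y h) M) (hM : 2 < M) :
    dsb W x y ≠ 0 := by
  intro hb
  have hy : y = W.toAffine.negY x y := by
    simp only [Affine.negY]
    unfold dsb at hb
    linear_combination hb
  have := Point.add_self_of_Y_eq (h₁ := h) hy
  apply hord 2 (by omega) hM
  rw [two_nsmul]
  exact this

theorem dsx_one : dsx (Point.some x y h) 1 = x := by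
  simp [dsx]

/-- nonvanishing of the sequence -/
theorem dsa_ne_zero {M : ℕ} (hord : DsOrd (Point.some x y h) M) :
    ∀ j, 0 < j → j < M → dsa (Point.some x y h) (dsb W x y) j ≠ 0 := by
  intro j
  induction j using Nat.strong_induction_on with
  | _ j ih =>
    intro hj hjM
    match j, hj, hjM, ih with
    | 1, _, _, _ => rw [dsa_one]; exact one_ne_zero
    | 2, _, hjM, _ => rw [dsa_two]; exact dsb_ne_zero h hord hjM
    | (i + 3), _, hjM, ih =>
      rw [dsa_succ]
      have h1 := ih (i + 2) (by omega) (by omega) (by omega)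
      have h2 := ih (i + 1) (by omega) (by omega) (by omega)
      have hx : dsx (Point.some x y h) (i + 1 + 1) ≠ dsx (Point.some x y h) 1 :=
        ds_x_ne hord (i := i + 1) (by omega) (by omega)
      refine div_ne_zero (mul_ne_zero (pow_ne_zero 2 h1) ?_) h2
      exact sub_ne_zero.mpr (Ne.symm hx)

/-- the recursion -/
theorem dsa_rc {M : ℕ} (hord : DsOrd (Point.some x y h) M) (j : ℕ) (hj : 1 ≤ j)
    (hjM : j + 1 ≤ M) :
    dsa (Point.some x y h) (dsb W x y) (j + 1) * dsa (Point.some x y h) (dsb W x y) (j - 1) =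
      dsa (Point.some x y h) (dsb W x y) j ^ 2 *
        (dsx (Point.some x y h) 1 - dsx (Point.some x y h) j) := by
  match j, hj, hjM with
  | 1, _, _ => simp [dsa_zero]
  | (i + 2), _, hjM =>
    have h2 := dsa_ne_zero h hord (i + 1) (by omega) (by omega)
    rw [show i + 2 + 1 = i + 3 by ring, show i + 2 - 1 = i + 1 by omega, dsa_succ]
    field_simp

/-- the pair formula -/
theorem ds_pair {M : ℕ} (hord : DsOrd (Point.some x y h) M) (m : ℕ) (hm : 2 ≤ m)
    (hmM : m + 1 < M) (T : K) :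
    (dsx (Point.some x y h) (m + 1) - T) * (dsx (Point.some x y h) (m - 1) - T) *
        (dsx (Point.some x y h) m - dsx (Point.some x y h) 1) ^ 2 =
      dsΦ W T (dsx (Point.some x y h) m) (dsx (Point.some x y h) 1) := by
  obtain ⟨i, rfl⟩ : ∃ i, m = i + 1 := ⟨m - 1, by omega⟩
  have hi : 1 ≤ i := by omega
  rw [show i + 1 - 1 = i by omega]
  have hne := ds_x_ne hord hi (by omega)
  have hm0 : (i + 1) • (Point.some x y h) ≠ 0 := hord _ (by omega) (by omega)
  obtain ⟨xm, ym, h_m, em⟩ := wg_exists_some hm0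
  have hxm : dsx (Point.some x y h) (i + 1) = xm := by simp [dsx, em]
  rw [hxm, dsx_one] at hne ⊢
  obtain ⟨x₃, y₃, h₃, x₄, y₄, h₄, hadd, hsub, hS, hP, -, -⟩ := wg_add_sub h_m h hne
  have e3 : dsx (Point.some x y h) (i + 1 + 1) = x₃ := by
    simp only [dsx]
    rw [succ_nsmul _ (i + 1), em, hadd]
    rfl
  have e4 : dsx (Point.some x y h) i = x₄ := by
    simp only [dsx]
    have : i • (Point.some x y h) = (i + 1) • (Point.some x y h) - Point.some x y h := by
      rw [succ_nsmul]; simp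
    rw [this, em, hsub]
    rfl
  rw [e3, e4]
  unfold dsΦ
  linear_combination (-T) * hS + hP

/-- the duplication formula -/
theorem ds_dbl {M : ℕ} (hord : DsOrd (Point.some x y h) M) (hM : 2 < M) (T : K) :
    dsΦ W T (dsx (Point.some x y h) 1) (dsx (Point.some x y h) 1) =
      dsa (Point.some x y h) (dsb W x y) 2 ^ 2 * (dsx (Point.some x y h) 2 - T) := by
  rw [dsx_one, dsa_two]
  have hb := dsb_ne_zero h hord hM
  have hy : y ≠ W.toAffine.negY x y := by
    intro hy
    apply hb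
    unfold dsb
    simp only [Affine.negY] at hy
    linear_combination hy
  obtain ⟨x', y', h', e, hx'⟩ := wg_double h hy
  have e2 : dsx (Point.some x y h) 2 = x' := by
    simp only [dsx]
    rw [two_nsmul, e]
    rfl
  have hpsi := wg_psi2_sq h
  rw [e2]
  unfold dsΦ dsb
  linear_combination T * hpsi - hx'

/-- the data of the abstract lemma -/
theorem ds_esData {M : ℕ} (hord : DsOrd (Point.some x y h) M) (hM : 2 < M) :
    EsData M (dsx (Point.some x y h)) (dsa (Point.some x y h) (dsb W x y)) (dsΦ W) where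
  symm := dsΦ_symm W
  a0 := dsa_zero _ _
  a1 := dsa_one _ _
  ne := dsa_ne_zero h hord
  rc := dsa_rc h hord
  pair := ds_pair h hord
  dbl := ds_dbl h hord hM

/-- `x((M-1)P) = x(P)` when `M • P = 0` -/
theorem dsx_pred_of_nsmul_eq_zero {M1 : ℕ} (hP : (M1 + 1) • (Point.some x y h) = 0) :
    dsx (Point.some x y h) M1 = dsx (Point.some x y h) 1 := by
  have e : M1 • (Point.some x y h) = -(Point.some x y h) := by
    rw [succ_nsmul] at hP
    exact eq_neg_of_add_eq_zero_left hP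
  simp only [dsx, e, one_nsmul, Point.neg_some]
  rfl

/-- `a 3 = Ψ₃(x)` -/
theorem dsa_three {M : ℕ} (hord : DsOrd (Point.some x y h) M) (hM : 2 < M) :
    dsa (Point.some x y h) (dsb W x y) 3 = (W.Ψ₃).eval x := by
  have hb := dsb_ne_zero h hord hM
  have hy : y ≠ W.toAffine.negY x y := by
    intro hy
    apply hb
    unfold dsb
    simp only [Affine.negY] at hy
    linear_combination hy
  obtain ⟨x', y', h', e, hx'⟩ := wg_double h hy
  have e2 : dsx (Point.some x y h) 2 = x' := by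
    simp only [dsx]
    rw [two_nsmul, e]
    rfl
  have hpsi := wg_psi2_sq h
  rw [show (3 : ℕ) = 0 + 3 by rfl, dsa_succ]
  simp only [zero_add, dsa_two, dsa_one, div_one, dsx_one, e2]
  simp only [WeierstrassCurve.Ψ₃, Polynomial.eval_add, Polynomial.eval_mul, Polynomial.eval_pow,
    Polynomial.eval_X, Polynomial.eval_C, Polynomial.eval_ofNat]
  unfold dsb
  linear_combination x * hpsi - hx'

/-- `preΨ₄(x) * a 2 = a 4` -/
theorem dsa_four {M : ℕ} (hord : DsOrd (Point.some x y h) M) (hM : 3 < M) :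
    (W.preΨ₄).eval x * dsa (Point.some x y h) (dsb W x y) 2 =
      dsa (Point.some x y h) (dsb W x y) 4 := by
  have hb := dsb_ne_zero h hord (by omega : 2 < M)
  have h3 := dsa_three h hord (by omega : 2 < M)
  have hy : y ≠ W.toAffine.negY x y := by
    intro hy
    apply hb
    unfold dsb
    simp only [Affine.negY] at hy
    linear_combination hy
  obtain ⟨x', y', h', e, hx'⟩ := wg_double h hy
  have e2 : dsx (Point.some x y h) 2 = x' := by
    simp only [dsx]
    rw [two_nsmul, e]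
    rfl
  have e2' : (1 + 1) • (Point.some x y h) = Point.some x' y' h' := by
    rw [show (1 + 1 : ℕ) = 2 by rfl, two_nsmul, e]
  have hpsi := wg_psi2_sq h
  have hne : x' ≠ x := by
    have := ds_x_ne hord (i := 1) le_rfl (by omega)
    rwa [e2, dsx_one] at this
  obtain ⟨x₃, y₃, h₃, x₄, y₄, h₄, hadd, hsub, hS, -, -, -⟩ := wg_add_sub h' h hne
  have e3 : dsx (Point.some x y h) 3 = x₃ := by
    simp only [dsx]
    rw [show (3 : ℕ) = (1 + 1) + 1 by rfl, succ_nsmul _ (1 + 1), e2', hadd]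
    rfl
  have e4 : x₄ = x := by
    have : Point.some x' y' h' - Point.some x y h = Point.some x y h := by
      rw [← e]; simp
    rw [this] at hsub
    have := congrArg wgX hsub
    simpa using this.symm
  rw [e4] at hS
  rw [show (4 : ℕ) = 1 + 3 by rfl, dsa_succ]
  simp only [show 1 + 2 = 3 by rfl, show 1 + 1 = 2 by rfl, h3, dsa_two, dsx_one, e3]
  rw [hpsi] at hx'
  rw [eq_div_iff hb]
  have hΨ : (W.Ψ₃).eval x =
      3 * x ^ 4 + W.b₂ * x ^ 3 + 3 * W.b₄ * x ^ 2 + 3 * W.b₆ * x + W.b₈ := by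
    simp only [WeierstrassCurve.Ψ₃, Polynomial.eval_add, Polynomial.eval_mul, Polynomial.eval_pow,
      Polynomial.eval_X, Polynomial.eval_C, Polynomial.eval_ofNat]
  have hΨ4 : (W.preΨ₄).eval x =
      2 * x ^ 6 + W.b₂ * x ^ 5 + 5 * W.b₄ * x ^ 4 + 10 * W.b₆ * x ^ 3 + 10 * W.b₈ * x ^ 2 +
        (W.b₂ * W.b₈ - W.b₄ * W.b₆) * x + (W.b₄ * W.b₈ - W.b₆ ^ 2) := by
    simp only [WeierstrassCurve.preΨ₄, Polynomial.eval_add, Polynomial.eval_mul,
      Polynomial.eval_pow, Polynomial.eval_X, Polynomial.eval_C, Polynomial.eval_ofNat]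
  rw [hΨ, hΨ4]
  have hbsq : dsb W x y * dsb W x y = 4 * x ^ 3 + W.b₂ * x ^ 2 + 2 * W.b₄ * x + W.b₆ := by
    unfold dsb
    linear_combination hpsi
  set F : K := 4 * x ^ 3 + W.b₂ * x ^ 2 + 2 * W.b₄ * x + W.b₆ with hF
  set P3 : K := 3 * x ^ 4 + W.b₂ * x ^ 3 + 3 * W.b₄ * x ^ 2 + 3 * W.b₆ * x + W.b₈ with hP3
  rw [mul_assoc, hbsq]
  linear_combination (x ^ 2 * W.b₆ + 2 * x ^ 3 * W.b₄ + x ^ 4 * W.b₂ + 4 * x ^ 5) * W.b_relation +
    (F * (6 * x ^ 2 + W.b₂ * x + W.b₄) - (P3 + F * (x - x')) * (x - x₃)) * hx' + F ^ 2 * hS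

/-- **Identification**: `a j = normEDS (ψ₂(P)) (Ψ₃(x)) (preΨ₄(x)) j` for `j ≤ M`. -/
theorem dsa_eq_normEDS {M : ℕ} (hord : DsOrd (Point.some x y h) M) (hM : 3 < M) :
    ∀ j : ℕ, j ≤ M → dsa (Point.some x y h) (dsb W x y) j =
      normEDS (dsb W x y) ((W.Ψ₃).eval x) ((W.preΨ₄).eval x) (j : ℤ) := by
  have hD := ds_esData h hord (by omega : 2 < M)
  have := hD.es_eq_normEDS ((W.preΨ₄).eval x) (dsa_four h hord hM)
  rwa [dsa_two, dsa_three h hord (by omega : 2 < M)] at this

/-- `ψ_j(P) ≠ 0` for `0 < j < M` -/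
theorem ds_normEDS_ne_zero {M : ℕ} (hord : DsOrd (Point.some x y h) M) (hM : 3 < M)
    (j : ℕ) (hj : 0 < j) (hjM : j < M) :
    normEDS (dsb W x y) ((W.Ψ₃).eval x) ((W.preΨ₄).eval x) (j : ℤ) ≠ 0 := by
  rw [← dsa_eq_normEDS h hord hM j hjM.le]
  exact dsa_ne_zero h hord j hj hjM

/-- `ψ_M(P) = 0` if `M • P = 0` -/
theorem ds_normEDS_eq_zero {M : ℕ} (hord : DsOrd (Point.some x y h) M) (hM : 3 < M)
    (hP : M • (Point.some x y h) = 0) :
    normEDS (dsb W x y) ((W.Ψ₃).eval x) ((W.preΨ₄).eval x) (M : ℤ) = 0 := by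
  rw [← dsa_eq_normEDS h hord hM M le_rfl]
  obtain ⟨M2, rfl⟩ : ∃ M2, M = M2 + 1 + 1 := ⟨M - 2, by omega⟩
  have hD := ds_esData h hord (by omega : 2 < M2 + 1 + 1)
  exact hD.es_last_eq_zero (M1 := M2 + 1) (M2 := M2) rfl rfl (by omega)
    (dsx_pred_of_nsmul_eq_zero h hP)

/-- the `x`-coordinate of `j • P` in terms of division polynomials:
`(x - x(jP)) ψ_j² = ψ_{j+1} ψ_{j-1}` for `0 < j < M` -/
theorem ds_x_formula {M : ℕ} (hord : DsOrd (Point.some x y h) M) (hM : 3 < M)
    (j : ℕ) (hjM : j + 2 ≤ M) :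
    normEDS (dsb W x y) ((W.Ψ₃).eval x) ((W.preΨ₄).eval x) ((j + 2 : ℕ) : ℤ) *
        normEDS (dsb W x y) ((W.Ψ₃).eval x) ((W.preΨ₄).eval x) (j : ℤ) =
      normEDS (dsb W x y) ((W.Ψ₃).eval x) ((W.preΨ₄).eval x) ((j + 1 : ℕ) : ℤ) ^ 2 *
        (x - dsx (Point.some x y h) (j + 1)) := by
  have hD := ds_esData h hord (by omega : 2 < M)
  have := hD.rc' j hjM
  rw [dsa_eq_normEDS h hord hM _ hjM, dsa_eq_normEDS h hord hM _ (by omega : j ≤ M),
    dsa_eq_normEDS h hord hM _ (by omega : j + 1 ≤ M), dsx_one] at this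
  exact this

include h in
/-- evaluation of `preΨ` as a `preNormEDS` -/
theorem ds_eval_preΨ (n : ℤ) :
    (W.preΨ n).eval x =
      preNormEDS (dsb W x y ^ 4) ((W.Ψ₃).eval x) ((W.preΨ₄).eval x) n := by
  have hpsi := wg_psi2_sq h
  have h2 : (W.Ψ₂Sq).eval x = dsb W x y ^ 2 := by
    simp only [WeierstrassCurve.Ψ₂Sq, Polynomial.eval_add, Polynomial.eval_mul,
      Polynomial.eval_pow, Polynomial.eval_X, Polynomial.eval_C]
    unfold dsb
    linear_combination -hpsi
  have := map_preNormEDS (Polynomial.evalRingHom x) (W.Ψ₂Sq ^ 2) W.Ψ₃ W.preΨ₄ n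
  simp only [Polynomial.coe_evalRingHom, Polynomial.eval_pow] at this
  rw [WeierstrassCurve.preΨ, this, h2]
  ring_nf

/-- **(N1)**: for odd `n ≥ 5`, a point of exact order `n` is a root of `preΨ n`. -/
theorem ds_preΨ_eval_eq_zero {n : ℕ} (hn : Odd n) (hn5 : 5 ≤ n)
    (hord : DsOrd (Point.some x y h) n) (hP : n • (Point.some x y h) = 0) :
    (W.preΨ (n : ℤ)).eval x = 0 := by
  have h0 := ds_normEDS_eq_zero h hord (by omega) hP
  rw [ds_eval_preΨ h]
  have hodd : ¬ Even (n : ℤ) := by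
    rw [Int.not_even_iff_odd]
    exact_mod_cast hn
  rw [normEDS, if_neg hodd, mul_one] at h0
  exact h0

/-- **(N1)** for primes: a nonzero point killed by a prime `p ≥ 5` is a root of `preΨ p`. -/
theorem ds_preΨ_eval_eq_zero_of_prime {p : ℕ} (hp : p.Prime) (hp5 : 5 ≤ p)
    (hP : p • (Point.some x y h) = 0) :
    (W.preΨ (p : ℤ)).eval x = 0 := by
  have hodd : Odd p := hp.odd_of_ne_two (by omega)
  refine ds_preΨ_eval_eq_zero h hodd hp5 ?_ hP
  intro j hj hjp hjP
  -- the order of the point divides both `j` and `p`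
  have hcop : Nat.Coprime p j :=
    (Nat.Prime.coprime_iff_not_dvd hp).2 (Nat.not_dvd_of_pos_of_lt hj hjp)
  have h1 : addOrderOf (Point.some x y h) ∣ j := addOrderOf_dvd_of_nsmul_eq_zero hjP
  have h2 : addOrderOf (Point.some x y h) ∣ p := addOrderOf_dvd_of_nsmul_eq_zero hP
  have h3 : addOrderOf (Point.some x y h) ∣ 1 := by
    have := Nat.dvd_gcd h2 h1
    rwa [hcop] at this
  have h4 : Point.some x y h = 0 := by
    rw [← AddMonoid.addOrderOf_eq_one_iff]
    exact Nat.dvd_one.mp h3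
  exact Point.some_ne_zero h h4

end Main

end Fermat.Agent.S13x
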