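/-
S13 project (wave 3), leaf EDS: Mathlib's normalised elliptic divisibility sequence `normEDS b c d`
is an elliptic net (hence an elliptic sequence).  Mathlib only.

Method: universal ring `ℤ[b, c, d]` (a domain, `b ≠ 0`); strong induction on the level
`(|p| + |q|) / 2` of the pair relations `atomRel W p q 2 0` (even indices) and `atomRel W p q 3 1`
(odd indices), using Mathlib's `atomRel_avg_sub` and the determinantal (Plücker) identity
`eds_det`; then every relation follows from the pair relations by `eds_det` again.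
-/
import Mathlib

set_option autoImplicit false

namespace Fermat.Agent.S13x

open IsEllipticNet

variable {R : Type*} [CommRing R] (W : ℤ → R)

/-- determinantal identity: the Plücker relation for `x y z w` is a combination of the six
relations `atomRel i j e f`, up to the factor `(atom e f) ^ 2`. -/
theorem eds_det (x y z w e f : ℤ) :
    atom W e f ^ 2 * atomRel W x y z w =
      (atomRel W x y e f * (atom W e f * atom W z w) +
        (atom W x e * atom W y f - atom W x f * atom W y e) * atomRel W z w e f)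
      - (atomRel W x z e f * (atom W e f * atom W y w) +
        (atom W x e * atom W z f - atom W x f * atom W z e) * atomRel W y w e f)
      + (atomRel W x w e f * (atom W e f * atom W y z) +
        (atom W x e * atom W w f - atom W x f * atom W w e) * atomRel W y z e f) := by
  simp only [atomRel]
  ring

/-- The hypotheses on a normalised sequence used in the induction. -/
structure EDSHyp (W : ℤ → R) : Prop where
  odd : W.Odd
  zero : W 0 = 0
  one : W 1 = 1
  recO : ∀ k : ℤ, W (2 * k + 1) = W (k + 2) * W k ^ 3 - W (k - 1) * W (k + 1) ^ 3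
  recE : ∀ k : ℤ, W (2 * k) * W 2 =
    W (k - 1) ^ 2 * W k * W (k + 2) - W (k - 2) * W k * W (k + 1) ^ 2
  reg : ∀ x : R, W 2 ^ 2 * x = 0 → x = 0

variable {W}

theorem eds_atom_two_zero (h : EDSHyp W) : atom W 2 0 = 1 := by
  have e1 : ((2 : ℤ) + 0).tdiv 2 = 1 := by decide
  have e2 : ((2 : ℤ) - 0).tdiv 2 = 1 := by decide
  rw [atom, e1, e2, h.one, one_mul]

theorem eds_atom_three_one (h : EDSHyp W) : atom W 3 1 = W 2 := by
  have e1 : ((3 : ℤ) + 1).tdiv 2 = 2 := by decide
  have e2 : ((3 : ℤ) - 1).tdiv 2 = 1 := by decide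
  rw [atom, e1, e2, h.one, mul_one]

theorem eds_cancel (h : EDSHyp W) {ε : ℤ} (hε : ε = 0 ∨ ε = 1) {x : R}
    (hx : atom W (2 + ε) ε ^ 2 * x = 0) : x = 0 := by
  rcases hε with rfl | rfl
  · rw [show (2 : ℤ) + 0 = 2 by norm_num, eds_atom_two_zero h, one_pow, one_mul] at hx
    exact hx
  · rw [show (2 : ℤ) + 1 = 3 by norm_num, eds_atom_three_one h] at hx
    exact h.reg x hx

theorem eds_swap (h : EDSHyp W) (i j e f : ℤ) :
    atomRel W j i e f = -atomRel W i j e f := by
  simp only [atomRel, ← neg_atom h.odd i j]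
  ring

/-- the defining recursions, as pair relations at the top pair `(m + 1, m - 1)`. -/
theorem eds_rec (h : EDSHyp W) (m : ℤ) :
    atomRel W (m + 1) (m - 1) (2 + (m + 1) % 2) ((m + 1) % 2) = 0 := by
  rcases Int.emod_two_eq_zero_or_one (m + 1) with h0 | h1
  · -- `m + 1` even: `m = 2 k + 1`
    obtain ⟨k, rfl⟩ : ∃ k, m = 2 * k + 1 := ⟨(m - 1) / 2, by omega⟩
    rw [h0]
    have hr := rel_eq W (k + 1) k 1 0
    rw [show 2 * (k + 1) + 0 = 2 * k + 1 + 1 by ring, show 2 * k + 0 = 2 * k + 1 - 1 by ring,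
      show (2 : ℤ) * 1 + 0 = 2 + 0 by norm_num] at hr
    rw [← hr, rel_odd, h.recO k, h.one]
    ring
  · -- `m + 1` odd: `m = 2 k`
    obtain ⟨k, rfl⟩ : ∃ k, m = 2 * k := ⟨m / 2, by omega⟩
    rw [h1]
    have hr := rel_eq W k (k - 1) 1 1
    rw [show 2 * (k - 1) + 1 = 2 * k - 1 by ring, show (2 : ℤ) * 1 + 1 = 2 + 1 by norm_num] at hr
    rw [← hr, rel]
    have hE := h.recE k
    rw [show k + (k - 1) + 1 = 2 * k by ring, show k - (k - 1) = 1 by ring,
      show (1 : ℤ) + 1 = 2 by norm_num, show k + 1 + 1 = k + 2 by ring,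
      show k - 1 + 1 = k by ring,
      show k - 1 - 1 = k - 2 by ring, h.one]
    linear_combination hE

theorem eds_abs_emod_two (p : ℤ) : |p| % 2 = p % 2 := by
  rcases abs_choice p with h | h <;> rw [h]
  omega

/-- the pair relations, by strong induction on the level. -/
theorem eds_pair (h : EDSHyp W) : ∀ n : ℕ, ∀ p q : ℤ, p % 2 = q % 2 → |p| + |q| ≤ 2 * n →
    atomRel W p q (2 + p % 2) (p % 2) = 0 := by
  intro n
  induction n using Nat.strong_induction_on with
  | _ n IH =>
  -- the sorted case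
  have key : ∀ p q : ℤ, 0 ≤ q → q < p → p % 2 = q % 2 → p + q ≤ 2 * n →
      atomRel W p q (2 + p % 2) (p % 2) = 0 := by
    intro p q hq hqp hpar hle
    by_cases hlt : p + q < 2 * n
    · -- lower level
      have hn : 1 ≤ n := by omega
      have := IH (n - 1) (by omega) p q hpar (by
        rw [abs_of_nonneg (by omega : (0 : ℤ) ≤ p), abs_of_nonneg hq]
        push_cast [Nat.cast_sub hn]
        omega)
      exact this
    · have hsum : p + q = 2 * n := by omega
      set ε := p % 2 with hεdef
      have hε : ε = 0 ∨ ε = 1 := Int.emod_two_eq_zero_or_one p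
      by_cases hqa : q = ε
      · rw [hqa, atomRel_same₂₄ h.odd, h.zero]
        ring
      by_cases hqb : q = 2 + ε
      · rw [hqb, atomRel_same₂₃, h.zero]
        ring
      by_cases hd : p - q = 2
      · have hp : p = (n : ℤ) + 1 := by omega
        have hq' : q = (n : ℤ) - 1 := by omega
        have := eds_rec h (n : ℤ)
        rw [hεdef, hp, hq']
        exact this
      -- the general case
      have hq4 : 4 + ε ≤ q := by omega
      have hd4 : 4 ≤ p - q := by omega
      have havg := atomRel_avg_sub W (a := p) (b := q) (c := 2 + ε) (d := ε)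
        ⟨by omega, by omega, by omega⟩
      have hs : (p + q + (2 + ε) + ε) / 2 = (n : ℤ) + 1 + ε := by omega
      rw [hs] at havg
      rw [← havg]
      have e1 : (n : ℤ) + 1 + ε - ε = n + 1 := by ring
      have e2 : (n : ℤ) + 1 + ε - (2 + ε) = n - 1 := by ring
      have e3 : (n : ℤ) + 1 + ε - p = -(p - n - 1 - ε) := by ring
      rw [e1, e2, e3, atomRel_neg₄]
      set c' : ℤ := (n : ℤ) + 1 + ε - q with hc'
      set d' : ℤ := p - n - 1 - ε with hd'
      set ε' : ℤ := ((n : ℤ) + 1) % 2 with hε'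
      have hε'01 : ε' = 0 ∨ ε' = 1 := Int.emod_two_eq_zero_or_one _
      have hn : 1 ≤ n := by omega
      have IH' : ∀ x y : ℤ, x % 2 = ε' → y % 2 = ε' → |x| + |y| ≤ 2 * ((n : ℤ) - 1) →
          atomRel W x y (2 + ε') ε' = 0 := by
        intro x y hx hy hxy
        have := IH (n - 1) (by omega) x y (by rw [hx, hy]) (by
          push_cast [Nat.cast_sub hn]
          exact hxy)
        rwa [hx] at this
      have hc'nn : 0 ≤ c' := by omega
      have hd'nn : 0 ≤ d' := by omega
      have t1 : atomRel W ((n : ℤ) + 1) ((n : ℤ) - 1) (2 + ε') ε' = 0 := eds_rec h (n : ℤ)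
      have t2 : atomRel W ((n : ℤ) + 1) c' (2 + ε') ε' = 0 := IH' _ _ rfl (by omega) (by
        rw [abs_of_nonneg (by omega : (0 : ℤ) ≤ (n : ℤ) + 1), abs_of_nonneg hc'nn]; omega)
      have t3 : atomRel W ((n : ℤ) + 1) d' (2 + ε') ε' = 0 := IH' _ _ rfl (by omega) (by
        rw [abs_of_nonneg (by omega : (0 : ℤ) ≤ (n : ℤ) + 1), abs_of_nonneg hd'nn]; omega)
      have t4 : atomRel W ((n : ℤ) - 1) c' (2 + ε') ε' = 0 := IH' _ _ (by omega) (by omega) (by
        rw [abs_of_nonneg (by omega : (0 : ℤ) ≤ (n : ℤ) - 1), abs_of_nonneg hc'nn]; omega)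
      have t5 : atomRel W ((n : ℤ) - 1) d' (2 + ε') ε' = 0 := IH' _ _ (by omega) (by omega) (by
        rw [abs_of_nonneg (by omega : (0 : ℤ) ≤ (n : ℤ) - 1), abs_of_nonneg hd'nn]; omega)
      have t6 : atomRel W c' d' (2 + ε') ε' = 0 := IH' _ _ (by omega) (by omega) (by
        rw [abs_of_nonneg hc'nn, abs_of_nonneg hd'nn]; omega)
      have hdet := eds_det W ((n : ℤ) + 1) ((n : ℤ) - 1) c' d' (2 + ε') ε'
      rw [t1, t2, t3, t4, t5, t6] at hdet
      apply eds_cancel h hε'01
      rw [hdet]
      ring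
  -- the general case, by symmetry
  intro p q hpar hle
  have hp2 : |p| % 2 = p % 2 := eds_abs_emod_two p
  have hq2 : |q| % 2 = q % 2 := eds_abs_emod_two q
  rw [← atomRel_abs₁ h.odd, ← atomRel_abs₂ h.odd, ← hp2]
  rcases lt_trichotomy |p| |q| with hlt | heq | hgt
  · rw [eds_swap h, neg_eq_zero]
    have := key |q| |p| (abs_nonneg p) hlt (by omega) (by omega)
    rwa [show |q| % 2 = |p| % 2 by omega] at this
  · rw [heq, atomRel_same₁₂, h.zero]
    ring
  · exact key |p| |q| (abs_nonneg q) hgt (by omega) (by omega)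

/-- all relations between indices of the same parity. -/
theorem eds_atomRel_eq_zero (h : EDSHyp W) (a b c d : ℤ) (hb : a % 2 = b % 2)
    (hc : a % 2 = c % 2) (hd : a % 2 = d % 2) : atomRel W a b c d = 0 := by
  set ε := a % 2 with hεdef
  have hε : ε = 0 ∨ ε = 1 := Int.emod_two_eq_zero_or_one a
  have T : ∀ x y : ℤ, x % 2 = ε → y % 2 = ε → atomRel W x y (2 + ε) ε = 0 := by
    intro x y hx hy
    have hnn : 0 ≤ |x| + |y| := add_nonneg (abs_nonneg x) (abs_nonneg y)
    have := eds_pair h (|x| + |y|).toNat x y (by rw [hx, hy]) (by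
      rw [Int.toNat_of_nonneg hnn]
      omega)
    rwa [hx] at this
  have hdet := eds_det W a b c d (2 + ε) ε
  rw [T a b rfl hb.symm, T c d hc.symm hd.symm, T a c rfl hc.symm, T b d hb.symm hd.symm,
    T a d rfl hd.symm, T b c hb.symm hc.symm] at hdet
  apply eds_cancel h hε
  rw [hdet]
  ring

theorem eds_isEllipticNet (h : EDSHyp W) : IsEllipticNet W := fun p q r s => by
  rw [rel_eq]
  exact eds_atomRel_eq_zero h _ _ _ _ (by omega) (by omega) (by omega)

open MvPolynomial in
/-- the universal normalised EDS satisfies the hypotheses. -/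
theorem eds_hyp_universal :
    EDSHyp (normEDS (X 0 : MvPolynomial (Fin 3) ℤ) (X 1) (X 2)) where
  odd := normEDS_neg _ _ _
  zero := normEDS_zero _ _ _
  one := normEDS_one _ _ _
  recO := normEDS_odd _ _ _
  recE := fun k => by
    rw [normEDS_two]
    exact normEDS_even _ _ _ k
  reg := fun x hx => by
    have h0 : (X 0 : MvPolynomial (Fin 3) ℤ) ≠ 0 := X_ne_zero 0
    rw [normEDS_two] at hx
    rcases mul_eq_zero.mp hx with h1 | h1
    · exact absurd (pow_eq_zero_iff two_ne_zero |>.mp h1) h0
    · exact h1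

/-- **Ward's theorem**: the canonical normalised EDS is an elliptic net. -/
theorem isEllipticNet_normEDS {S : Type*} [CommRing S] (b c d : S) :
    IsEllipticNet (normEDS b c d) := by
  intro p q r s
  let φ : MvPolynomial (Fin 3) ℤ →+* S := MvPolynomial.eval₂Hom (Int.castRingHom S) ![b, c, d]
  have hu := eds_isEllipticNet eds_hyp_universal p q r s
  have h1 := congrArg φ hu
  rw [IsEllipticNet.map_rel, map_zero] at h1
  have hW : (φ ∘ normEDS (MvPolynomial.X 0 : MvPolynomial (Fin 3) ℤ) (MvPolynomial.X 1)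
      (MvPolynomial.X 2)) = normEDS b c d := by
    funext n
    have e0 : φ (MvPolynomial.X 0) = b := by simp [φ]
    have e1 : φ (MvPolynomial.X 1) = c := by simp [φ]
    have e2 : φ (MvPolynomial.X 2) = d := by simp [φ]
    rw [Function.comp_apply, map_normEDS, e0, e1, e2]
  rwa [hW] at h1

theorem isEllipticSequence_normEDS {S : Type*} [CommRing S] (b c d : S) :
    IsEllipticSequence (normEDS b c d) :=
  (isEllipticNet_normEDS b c d).isEllipticSequence

/-- working form: `W(m+n) W(m-n) = W(m+1) W(m-1) W(n)² - W(n+1) W(n-1) W(m)²`. -/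
theorem normEDS_add_mul_sub {S : Type*} [CommRing S] (b c d : S) (m n : ℤ) :
    normEDS b c d (m + n) * normEDS b c d (m - n) =
      normEDS b c d (m + 1) * normEDS b c d (m - 1) * normEDS b c d n ^ 2 -
        normEDS b c d (n + 1) * normEDS b c d (n - 1) * normEDS b c d m ^ 2 := by
  have h := isEllipticSequence_normEDS b c d m n 1
  rw [rel] at h
  simp only [add_zero, normEDS_one, mul_one] at h
  linear_combination h

end Fermat.Agent.S13x
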