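/-
S13 project (wave 3), hedge leaf: rank of apparition in a normalised elliptic divisibility sequence
over a domain.  If `W = normEDS b c d` has `W N = 0`, `W (N + 1) ≠ 0`, `W (N - 1) ≠ 0` then
`W m ≠ 0 → W (m ± N) ≠ 0`; if moreover `W j ≠ 0` for `0 < j < N` then `W j = 0 → N ∣ j`.
(Used for the converse direction `ψ_p(P) = 0 → p • P = 0` of the division polynomial route.)
-/
import Fermat.Agent.S13x.EDSNet

set_option autoImplicit false

namespace Fermat.Agent.S13x

variable {S : Type*} [CommRing S] [IsDomain S] (b c d : S)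

/-- shifting by a zero `N` of the sequence preserves non-vanishing. -/
theorem eds_ne_zero_shift {N : ℤ} (hN : normEDS b c d N = 0)
    (hN1 : normEDS b c d (N + 1) ≠ 0) (hNm : normEDS b c d (N - 1) ≠ 0) {m : ℤ}
    (hm : normEDS b c d m ≠ 0) :
    normEDS b c d (m + N) ≠ 0 ∧ normEDS b c d (m - N) ≠ 0 := by
  have h := normEDS_add_mul_sub b c d m N
  rw [hN] at h
  have h2 : normEDS b c d (m + N) * normEDS b c d (m - N) ≠ 0 := by
    rw [h]
    have : normEDS b c d (N + 1) * normEDS b c d (N - 1) * normEDS b c d m ^ 2 ≠ 0 :=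
      mul_ne_zero (mul_ne_zero hN1 hNm) (pow_ne_zero 2 hm)
    intro h0
    apply this
    linear_combination -h0
  exact ⟨left_ne_zero_of_mul h2, right_ne_zero_of_mul h2⟩

theorem eds_ne_zero_add_mul {N : ℤ} (hN : normEDS b c d N = 0)
    (hN1 : normEDS b c d (N + 1) ≠ 0) (hNm : normEDS b c d (N - 1) ≠ 0) {r : ℤ}
    (hr : normEDS b c d r ≠ 0) (q : ℕ) : normEDS b c d (r + q * N) ≠ 0 := by
  induction q with
  | zero => simpa using hr
  | succ q ih =>
    have := (eds_ne_zero_shift b c d hN hN1 hNm ih).1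
    have e : r + (q : ℤ) * N + N = r + ((q + 1 : ℕ) : ℤ) * N := by push_cast; ring
    rwa [e] at this

/-- rank of apparition: every zero of the sequence is a multiple of `N`. -/
theorem eds_dvd_of_eq_zero {N : ℤ} (hNpos : 0 < N) (hN : normEDS b c d N = 0)
    (hN1 : normEDS b c d (N + 1) ≠ 0) (hNm : normEDS b c d (N - 1) ≠ 0)
    (hmin : ∀ j : ℤ, 0 < j → j < N → normEDS b c d j ≠ 0) {j : ℤ}
    (hj : normEDS b c d j = 0) : N ∣ j := by
  by_contra hdvd
  have key : ∀ i : ℤ, 0 ≤ i → ¬ N ∣ i → normEDS b c d i ≠ 0 := by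
    intro i hi hd
    have hr0 : 0 < i % N := by
      rcases (Int.emod_nonneg i hNpos.ne').lt_or_eq with h | h
      · exact h
      · exact absurd (Int.dvd_of_emod_eq_zero h.symm) hd
    have hrN : i % N < N := Int.emod_lt_of_pos i hNpos
    have hq : 0 ≤ i / N := Int.ediv_nonneg hi hNpos.le
    have := eds_ne_zero_add_mul b c d hN hN1 hNm (hmin _ hr0 hrN) (i / N).toNat
    rw [Int.toNat_of_nonneg hq] at this
    have e : i % N + i / N * N = i := by
      have := Int.mul_ediv_add_emod i N
      linarith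
    rwa [e] at this
  rcases le_or_gt 0 j with h0 | h0
  · exact key j h0 hdvd hj
  · have : normEDS b c d (-j) ≠ 0 := key (-j) (by omega) (by rwa [dvd_neg])
    rw [normEDS_neg, neg_ne_zero] at this
    exact this hj

end Fermat.Agent.S13x
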