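import Mathlib

/-!
# S13 project, module DIV/D2: an abstract "elliptic sequence" lemma (pure field algebra)

Let `x : ℕ → k` (think `x j = x(jP)`) and `a : ℕ → k` satisfy `a 0 = 0`, `a 1 = 1`,
`a (j+1) * a (j-1) = a j ^ 2 * (x 1 - x j)`, with `a j ≠ 0` for `0 < j < M`, and suppose that a
function `Φ` symmetric in its first two arguments encodes the `x`-only addition formulas
`(x (m+1) - T) (x (m-1) - T) (x m - x 1)² = Φ T (x m) (x 1)` and the duplication formula
`Φ T (x 1) (x 1) = a 2 ^ 2 * (x 2 - T)`.  Then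
`a (2n+k) * a k = (a (n+k) * a n)² * (x n - x (n+k))` for all `n, k ≥ 1` with `2n+k ≤ M`
(`es_main`), and consequently `a j = normEDS (a 2) (a 3) d j` for `j ≤ M` whenever
`d * a 2 = a 4` (`es_eq_normEDS`).  No elliptic-net theory is used.
-/

set_option autoImplicit false

namespace Fermat.Agent.S13x

variable {k : Type*} [Field k]

/-- The hypotheses of the abstract elliptic-sequence lemma. -/
structure EsData (M : ℕ) (x a : ℕ → k) (Φ : k → k → k → k) : Prop where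
  symm : ∀ T u w, Φ T u w = Φ u T w
  a0 : a 0 = 0
  a1 : a 1 = 1
  ne : ∀ j, 0 < j → j < M → a j ≠ 0
  rc : ∀ j, 1 ≤ j → j + 1 ≤ M → a (j + 1) * a (j - 1) = a j ^ 2 * (x 1 - x j)
  pair : ∀ m, 2 ≤ m → m + 1 < M → ∀ T,
    (x (m + 1) - T) * (x (m - 1) - T) * (x m - x 1) ^ 2 = Φ T (x m) (x 1)
  dbl : ∀ T, Φ T (x 1) (x 1) = a 2 ^ 2 * (x 2 - T)

namespace EsData

variable {M : ℕ} {x a : ℕ → k} {Φ : k → k → k → k}

/-- recursion in successor form -/
theorem rc' (h : EsData M x a Φ) (j : ℕ) (hj : j + 2 ≤ M) :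
    a (j + 2) * a j = a (j + 1) ^ 2 * (x 1 - x (j + 1)) := by
  have := h.rc (j + 1) (by omega) (by omega)
  simpa using this

/-- pair formula in successor form -/
theorem pair' (h : EsData M x a Φ) (m : ℕ) (hm : m + 3 < M) (T : k) :
    (x (m + 3) - T) * (x (m + 1) - T) * (x (m + 2) - x 1) ^ 2 = Φ T (x (m + 2)) (x 1) := by
  have := h.pair (m + 2) (by omega) (by omega) T
  simpa using this

/-- the case `n = 2` -/
theorem es_two (h : EsData M x a Φ) (k' : ℕ) (hk : k' + 5 ≤ M) :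
    a (k' + 5) * a (k' + 1) = (a (k' + 3) * a 2) ^ 2 * (x 2 - x (k' + 3)) := by
  -- m = k'+3
  have r1 := h.rc' (k' + 3) (by omega)   -- a (k'+5) a (k'+3) = a (k'+4)^2 (x1 - x (k'+4))
  have r2 := h.rc' (k' + 2) (by omega)   -- a (k'+4) a (k'+2) = a (k'+3)^2 (x1 - x (k'+3))
  have r3 := h.rc' (k' + 1) (by omega)   -- a (k'+3) a (k'+1) = a (k'+2)^2 (x1 - x (k'+2))
  have hp := h.pair' (k' + 1) (by omega) (x 1)
  have hd := h.dbl (x (k' + 3))
  have hs := h.symm (x (k' + 3)) (x 1) (x 1)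
  have hC : a (k' + 3) ≠ 0 := h.ne _ (by omega) (by omega)
  have hC2 : a (k' + 3) ^ 2 ≠ 0 := pow_ne_zero 2 hC
  simp only [show k' + 1 + 3 = k' + 4 by ring, show k' + 1 + 1 = k' + 2 by ring,
    show k' + 1 + 2 = k' + 3 by ring, show k' + 3 + 2 = k' + 5 by ring] at r1 r2 r3 hp
  apply mul_left_cancel₀ hC2
  -- a2^2 (x2 - x_m) = Φ (x_m) x1 x1 = Φ x1 x_m x1 = (x_{m+1} - x1)(x_{m-1}-x1)(x_m - x1)^2
  have key : a 2 ^ 2 * (x 2 - x (k' + 3)) =
      (x (k' + 4) - x 1) * (x (k' + 2) - x 1) * (x (k' + 3) - x 1) ^ 2 := by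
    rw [← hd, hs, ← hp]
  linear_combination (a (k' + 3) * a (k' + 1)) * r1 +
    (a (k' + 4) ^ 2 * (x 1 - x (k' + 4))) * r3 +
    ((x 1 - x (k' + 4)) * (x 1 - x (k' + 2)) *
      (a (k' + 4) * a (k' + 2) + a (k' + 3) ^ 2 * (x 1 - x (k' + 3)))) * r2 -
    (a (k' + 3) ^ 4) * key

/-- recursion with free indices -/
theorem rcI (h : EsData M x a Φ) {j j1 j2 : ℕ} (h1 : j1 = j + 1) (h2 : j = j2 + 1)
    (hM : j1 ≤ M) : a j1 * a j2 = a j ^ 2 * (x 1 - x j) := by
  subst h1 h2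
  have := h.rc (j2 + 1) (by omega) hM
  simpa using this

/-- pair formula with free indices -/
theorem pairI (h : EsData M x a Φ) {m m1 m2 : ℕ} (h1 : m1 = m + 1) (h2 : m = m2 + 1)
    (hm : 1 ≤ m2) (hM : m1 < M) (T : k) :
    (x m1 - T) * (x m2 - T) * (x m - x 1) ^ 2 = Φ T (x m) (x 1) := by
  subst h1 h2
  have := h.pair (m2 + 1) (by omega) hM T
  simpa using this

/-- the purely algebraic heart of the induction step -/
theorem es_step_alg (p1 p2 q0 q2 A0 A1 A2 B1 B2 B3 X0 X1 X2 Y1 Y2 Y3 x1 : k)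
    (h1 : p1 * q2 = (B2 * A0) ^ 2 * (X0 - Y2))
    (h2 : p2 * q2 = (B3 * A1) ^ 2 * (X1 - Y3))
    (h3 : p1 * q0 = (B1 * A1) ^ 2 * (X1 - Y1))
    (h4 : A2 * A0 = A1 ^ 2 * (x1 - X1))
    (h5 : B3 * B1 = B2 ^ 2 * (x1 - Y2))
    (h6 : (X2 - Y2) * (X0 - Y2) * (X1 - x1) ^ 2 = (Y3 - X1) * (Y1 - X1) * (Y2 - x1) ^ 2)
    (hq2 : q2 ≠ 0) (hp1 : p1 ≠ 0) (hA0 : A0 ≠ 0) :
    p2 * q0 = (B2 * A2) ^ 2 * (X2 - Y2) := by
  have hne : q2 * p1 * A0 ^ 2 ≠ 0 := mul_ne_zero (mul_ne_zero hq2 hp1) (pow_ne_zero 2 hA0)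
  apply mul_left_cancel₀ hne
  linear_combination (p1 * q0 * A0 ^ 2) * h2 + ((B3 * A1) ^ 2 * (X1 - Y3) * A0 ^ 2) * h3 +
    (A1 ^ 4 * A0 ^ 2 * (X1 - Y3) * (X1 - Y1) * (B3 * B1 + B2 ^ 2 * (x1 - Y2))) * h5 -
    (A1 ^ 4 * A0 ^ 2 * B2 ^ 4) * h6 -
    (B2 ^ 2 * A2 ^ 2 * A0 ^ 2 * (X2 - Y2)) * h1 -
    (B2 ^ 4 * A0 ^ 2 * (X2 - Y2) * (X0 - Y2) * (A2 * A0 + A1 ^ 2 * (x1 - X1))) * h4

/-- **Main relation** with free indices: for `1 ≤ n`, `1 ≤ k'`, `m = n + k'`, `s = m + n ≤ M`: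
`a s * a k' = (a m * a n)² * (x n - x m)`. -/
theorem es_mainI (h : EsData M x a Φ) :
    ∀ n k' m s : ℕ, 1 ≤ n → 1 ≤ k' → m = n + k' → s = m + n → s ≤ M →
      a s * a k' = (a m * a n) ^ 2 * (x n - x m) := by
  intro n
  induction n using Nat.strong_induction_on with
  | _ n ih =>
    intro k' m s hn hk hm hs hsM
    rcases Nat.lt_or_ge n 3 with hn3 | hn3
    · interval_cases n
      · -- n = 1
        have := h.rcI (j := m) (j1 := s) (j2 := k') (by omega) (by omega) hsM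
        rw [this, h.a1, mul_one]
      · -- n = 2
        obtain ⟨k'', rfl⟩ : ∃ k'', k' = k'' + 1 := ⟨k' - 1, by omega⟩
        have := h.es_two k'' (by omega)
        have e1 : s = k'' + 5 := by omega
        have e2 : m = k'' + 3 := by omega
        rw [e1, e2]
        exact this
    · -- n = R + 2, R ≥ 1
      obtain ⟨R, rfl⟩ : ∃ R, n = R + 2 := ⟨n - 2, by omega⟩
      have hR : 1 ≤ R := by omega
      obtain ⟨m2, hm2⟩ : ∃ m2, m = m2 + 1 := ⟨m - 1, by omega⟩
      obtain ⟨s2, hs2⟩ : ∃ s2, s = s2 + 2 := ⟨s - 2, by omega⟩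
      have h1 := ih R (by omega) (k' + 2) m s2 hR (by omega) (by omega) (by omega) (by omega)
      have h2 := ih (R + 1) (by omega) (k' + 2) (m + 1) s (by omega) (by omega) (by omega)
        (by omega) hsM
      have h3 := ih (R + 1) (by omega) k' m2 s2 (by omega) hk (by omega) (by omega) (by omega)
      have h4 := h.rcI (j := R + 1) (j1 := R + 2) (j2 := R) rfl rfl (by omega)
      have h5 := h.rcI (j := m) (j1 := m + 1) (j2 := m2) rfl hm2 (by omega)
      have h6a := h.pairI (m := R + 1) (m1 := R + 2) (m2 := R) rfl rfl hR (by omega) (x m)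
      have h6b := h.pairI (m := m) (m1 := m + 1) (m2 := m2) rfl hm2 (by omega) (by omega)
        (x (R + 1))
      have h6 : (x (R + 2) - x m) * (x R - x m) * (x (R + 1) - x 1) ^ 2 =
          (x (m + 1) - x (R + 1)) * (x m2 - x (R + 1)) * (x m - x 1) ^ 2 := by
        rw [h6a, h6b, h.symm]
      exact es_step_alg (a s2) (a s) (a k') (a (k' + 2)) (a R) (a (R + 1)) (a (R + 2))
        (a m2) (a m) (a (m + 1)) (x R) (x (R + 1)) (x (R + 2)) (x m2) (x m) (x (m + 1)) (x 1)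
        h1 h2 h3 h4 h5 h6 (h.ne _ (by omega) (by omega)) (h.ne _ (by omega) (by omega))
        (h.ne _ (by omega) (by omega))

/-- **Main relation**: `a (2n+k) * a k = (a (n+k) * a n)² * (x n - x (n+k))`. -/
theorem es_main (h : EsData M x a Φ) (n k' : ℕ) (hn : 1 ≤ n) (hk : 1 ≤ k')
    (hM : 2 * n + k' ≤ M) :
    a (2 * n + k') * a k' = (a (n + k') * a n) ^ 2 * (x n - x (n + k')) :=
  h.es_mainI n k' (n + k') (2 * n + k') hn hk rfl (by ring) hM

/-- odd-index recursion of the sequence `a` (this is Mathlib's `normEDS_odd` shape) -/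
theorem es_odd (h : EsData M x a Φ) (r : ℕ) (hM : 2 * (r + 1) + 1 ≤ M) :
    a (2 * (r + 1) + 1) = a (r + 3) * a (r + 1) ^ 3 - a r * a (r + 2) ^ 3 := by
  have e := h.es_main (r + 1) 1 (by omega) le_rfl hM
  have r1 := h.rcI (j := r + 1) (j1 := r + 2) (j2 := r) rfl rfl (by omega)
  have r2 := h.rcI (j := r + 2) (j1 := r + 3) (j2 := r + 1) rfl rfl (by omega)
  rw [h.a1, mul_one] at e
  simp only [show r + 1 + 1 = r + 2 by ring] at e
  linear_combination e - a (r + 1) ^ 2 * r2 + a (r + 2) ^ 2 * r1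

/-- even-index recursion of the sequence `a` (this is Mathlib's `normEDS_even` shape) -/
theorem es_even (h : EsData M x a Φ) (r : ℕ) (hM : 2 * (r + 1) + 2 ≤ M) :
    a (2 * (r + 1) + 2) * a 2 =
      a (r + 1) ^ 2 * a (r + 2) * a (r + 4) - a r * a (r + 2) * a (r + 3) ^ 2 := by
  have e := h.es_main (r + 1) 2 (by omega) (by omega) hM
  have r1 := h.rcI (j := r + 1) (j1 := r + 2) (j2 := r) rfl rfl (by omega)
  have r3 := h.rcI (j := r + 3) (j1 := r + 4) (j2 := r + 2) rfl rfl (by omega)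
  simp only [show r + 1 + 2 = r + 3 by ring] at e
  linear_combination e - a (r + 1) ^ 2 * r3 + a (r + 3) ^ 2 * r1

/-- **Identification with Mathlib's normalised EDS**: if `d * a 2 = a 4` then
`a j = normEDS (a 2) (a 3) d j` for all `j ≤ M`. -/
theorem es_eq_normEDS (h : EsData M x a Φ) (d : k) (hd : d * a 2 = a 4) :
    ∀ j : ℕ, j ≤ M → a j = normEDS (a 2) (a 3) d (j : ℤ) := by
  intro j
  induction j using Nat.strong_induction_on with
  | _ j ih =>
    intro hj
    rcases Nat.lt_or_ge j 5 with hj5 | hj5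
    · interval_cases j
      · simp [h.a0]
      · simp [h.a1]
      · simp
      · simp
      · simp [hd]
    · have hb : a 2 ≠ 0 := h.ne 2 (by omega) (by omega)
      rcases Nat.even_or_odd' j with ⟨n, rfl | rfl⟩
      · -- j = 2 n, n ≥ 3; write n = r + 2, r ≥ 1
        obtain ⟨r, rfl⟩ : ∃ r, n = r + 2 := ⟨n - 2, by omega⟩
        have hr : 1 ≤ r := by omega
        have e := h.es_even r (by omega)
        have i0 := ih r (by omega) (by omega)
        have i1 := ih (r + 1) (by omega) (by omega)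
        have i2 := ih (r + 2) (by omega) (by omega)
        have i3 := ih (r + 3) (by omega) (by omega)
        have i4 := ih (r + 4) (by omega) (by omega)
        have key := normEDS_even (a 2) (a 3) d ((r : ℤ) + 2)
        have c0 : ((r : ℤ) + 2 - 2) = ((r : ℕ) : ℤ) := by ring
        have c1 : ((r : ℤ) + 2 - 1) = ((r + 1 : ℕ) : ℤ) := by push_cast; ring
        have c2 : ((r : ℤ) + 2) = ((r + 2 : ℕ) : ℤ) := by push_cast; ring
        have c3 : ((r : ℤ) + 2 + 1) = ((r + 3 : ℕ) : ℤ) := by push_cast; ring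
        have c4 : ((r : ℤ) + 2 + 2) = ((r + 4 : ℕ) : ℤ) := by push_cast; ring
        have c5 : (2 * ((r : ℤ) + 2)) = ((2 * (r + 2) : ℕ) : ℤ) := by push_cast; ring
        rw [c0, c1, c3, c4, c5] at key
        rw [c2] at key
        rw [← i0, ← i1, ← i2, ← i3, ← i4] at key
        apply mul_right_cancel₀ hb
        have e' : a (2 * (r + 2)) * a 2 =
            a (r + 1) ^ 2 * a (r + 2) * a (r + 4) - a r * a (r + 2) * a (r + 3) ^ 2 := by
          have : 2 * (r + 1) + 2 = 2 * (r + 2) := by ring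
          rw [this] at e
          exact e
        rw [e', key]
      · -- j = 2 n + 1, n ≥ 2; write n = r + 1, r ≥ 1
        obtain ⟨r, rfl⟩ : ∃ r, n = r + 1 := ⟨n - 1, by omega⟩
        have hr : 1 ≤ r := by omega
        have e := h.es_odd r (by omega)
        have i0 := ih r (by omega) (by omega)
        have i1 := ih (r + 1) (by omega) (by omega)
        have i2 := ih (r + 2) (by omega) (by omega)
        have i3 := ih (r + 3) (by omega) (by omega)
        have key := normEDS_odd (a 2) (a 3) d ((r : ℤ) + 1)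
        have c0 : ((r : ℤ) + 1 - 1) = ((r : ℕ) : ℤ) := by ring
        have c1 : ((r : ℤ) + 1) = ((r + 1 : ℕ) : ℤ) := by push_cast; ring
        have c2 : ((r : ℤ) + 1 + 1) = ((r + 2 : ℕ) : ℤ) := by push_cast; ring
        have c3 : ((r : ℤ) + 1 + 2) = ((r + 3 : ℕ) : ℤ) := by push_cast; ring
        have c5 : (2 * ((r : ℤ) + 1) + 1) = ((2 * (r + 1) + 1 : ℕ) : ℤ) := by push_cast; ring
        rw [c0, c2, c3, c5] at key
        rw [c1] at key
        rw [← i0, ← i1, ← i2, ← i3] at key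
        rw [e, key]

/-- The sequence vanishes at `M` as soon as `x (M-1) = x 1` (think `M P = 0`). -/
theorem es_last_eq_zero (h : EsData M x a Φ) {M1 M2 : ℕ} (hM : M = M1 + 1) (hM1 : M1 = M2 + 1)
    (hM2 : 1 ≤ M2) (hx : x M1 = x 1) : a M = 0 := by
  have r := h.rcI (j := M1) (j1 := M) (j2 := M2) hM hM1 le_rfl
  rw [hx, sub_self, mul_zero] at r
  rcases mul_eq_zero.mp r with h0 | h0
  · exact h0
  · exact absurd h0 (h.ne M2 (by omega) (by omega))

end EsData

end Fermat.Agent.S13x
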