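import Mathlib

set_option autoImplicit false
open scoped NumberField

namespace Fermat.Agent.S13x

/-- A prime of a Galois number field which is ramified over `ℤ` has a nontrivial inertia element. -/
theorem fli_exists_mem_inertia_ne_one (K : Type*) [Field K] [NumberField K] [IsGalois ℚ K]
    (P : Ideal (𝓞 K)) [P.IsPrime] (hP : ¬ Algebra.IsUnramifiedAt ℤ P) :
    ∃ τ ∈ P.inertia Gal(K/ℚ), τ ≠ 1 := by
  have hcard : Nat.card (P.inertia Gal(K/ℚ)) ≠ 1 := by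
    rw [Ideal.card_inertia_eq_ramificationIdxIn (G := Gal(K/ℚ)) (P.under ℤ) P,
      Ideal.ramificationIdxIn_eq_ramificationIdx (P.under ℤ) P Gal(K/ℚ)]
    intro h
    exact hP (Ideal.ramificationIdx_eq_one_iff.mp h)
  by_contra hcon
  push Not at hcon
  apply hcard
  have : P.inertia Gal(K/ℚ) = ⊥ := (Subgroup.eq_bot_iff_forall _).mpr hcon
  rw [this]
  simp

/-- **Finite-level Minkowski, uniform in the prime above `p`.** A Galois number field `K ≠ ℚ` has a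
rational prime `p` such that EVERY prime `P` of `𝓞 K` containing `p` has a nontrivial inertia
element: `τ ≠ 1` with `τ • x - x ∈ P` for all `x : 𝓞 K`. -/
theorem fli_exists_prime_forall_inertia_ne_one (K : Type*) [Field K] [NumberField K] [IsGalois ℚ K]
    (hK : 1 < Module.finrank ℚ K) :
    ∃ p : ℕ, p.Prime ∧ ∀ P : Ideal (𝓞 K), P.IsPrime → (p : 𝓞 K) ∈ P →
      ∃ τ : Gal(K/ℚ), τ ≠ 1 ∧ ∀ x : 𝓞 K, τ • x - x ∈ P := by
  obtain ⟨p, hp, hram⟩ :=
    NumberField.exists_not_isUnramifiedAt_int_of_isGalois (K := K) (𝒪 := 𝓞 K) hK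
  refine ⟨p, hp, fun P hP hpP => ?_⟩
  obtain ⟨τ, hτ, hτ1⟩ := fli_exists_mem_inertia_ne_one K P (hram P hP hpP)
  exact ⟨τ, hτ1, hτ⟩

/-- the action of `Gal(K/ℚ)` on `𝓞 K` is the restriction of the action on `K` -/
theorem fli_coe_smul (K : Type*) [Field K] [NumberField K] (τ : Gal(K/ℚ)) (x : 𝓞 K) :
    ((τ • x : 𝓞 K) : K) = τ (x : K) := rfl

/-- coordinate form of `fli_exists_prime_forall_inertia_ne_one` -/
theorem fli_exists_prime_forall_inertia_ne_one' (K : Type*) [Field K] [NumberField K] [IsGalois ℚ K]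
    (hK : 1 < Module.finrank ℚ K) :
    ∃ p : ℕ, p.Prime ∧ ∀ P : Ideal (𝓞 K), P.IsPrime → (p : 𝓞 K) ∈ P →
      ∃ τ : K ≃ₐ[ℚ] K, τ ≠ 1 ∧ ∀ x : 𝓞 K, ∃ y ∈ P, (y : K) = τ (x : K) - (x : K) := by
  obtain ⟨p, hp, h⟩ := fli_exists_prime_forall_inertia_ne_one K hK
  refine ⟨p, hp, fun P hP hpP => ?_⟩
  obtain ⟨τ, hτ1, hτ⟩ := h P hP hpP
  refine ⟨τ, hτ1, fun x => ⟨τ • x - x, hτ x, ?_⟩⟩
  rfl

end Fermat.Agent.S13x
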