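import Fermat.Agent.S13x.Defs
import Fermat.Agent.S05x.Inertia

/-!
# S13 project, 2-adic leaf: the Frey curve at the prime `2` (instantiation data)

The Frey curve `Y² + XY = X³ + a₂X² + a₄X`, `a₂ = (b^p - 1 - a^p)/4`, `a₄ = -(ab)^p/16`, is already
in the generic node shape at `2`:

* `fr2_a₁ … fr2_a₆` : `a₁ = 1`, `a₃ = a₆ = 0`, and `a₂`, `a₄` are (casts of) integers;
* `fr2_val_a₂_le`, `fr2_val_b₂`, `fr2_val_a₄_lt`, `fr2_a₄_ne_zero` : for a valuation subring `A`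
  of `Qb` over `2`: `a₂ ∈ A`, `b₂ = a₁² + 4a₂` is a unit, `a₄` is a nonzero element of the maximal
  ideal;
* `fr2_a₄_eq` : `a₄ = 2^h · u` with `u` an odd integer, `0 < h`, `p ∤ 2h`
  (in fact `h = p·v₂(b) - 4`), hence `fr2_val_a₄ : v(a₄) = v(2)^h`;
* `fr2_val_rat` : the valuation of a nonzero rational number is an integral power of `v(q)`
  (any prime `q`);
* `fr2_pow_arith` : the arithmetic behind "a rational point of order `p` lies in `E₀`":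
  if `π^(j·p) = π^(h·2m)`, `0 ≤ j ≤ h`, `p ∤ 2h`, `π < 1`, then `j = 0`.
-/

set_option autoImplicit false
open WeierstrassCurve

namespace Fermat.Agent.S13x

open Fermat.Agent.S05x (m0_val_int_le_one_gen m0_val_int_eq_one_iff_gen)

/-! ### integer facts -/

section IntFacts
variable (P : FreyPackage)

theorem fr2_two_dvd_b : (2 : ℤ) ∣ P.b :=
  (ZMod.intCast_zmod_eq_zero_iff_dvd P.b 2).1 P.hb2

theorem fr2_four_dvd_a_add_one : (4 : ℤ) ∣ P.a + 1 := by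
  have h : ((P.a + 1 : ℤ) : ZMod 4) = 0 := by
    push_cast
    rw [P.ha4]
    decide
  exact (ZMod.intCast_zmod_eq_zero_iff_dvd (P.a + 1) 4).1 h

theorem fr2_not_two_dvd_a : ¬ (2 : ℤ) ∣ P.a := by
  obtain ⟨k, hk⟩ := fr2_four_dvd_a_add_one P
  rintro ⟨m, hm⟩
  omega

theorem fr2_four_dvd_apow_add_one : (4 : ℤ) ∣ P.a ^ P.p + 1 := by
  have h := Odd.add_dvd_pow_add_pow P.a 1 P.hp_odd
  rw [one_pow] at h
  exact (fr2_four_dvd_a_add_one P).trans h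

theorem fr2_not_two_dvd_apow : ¬ (2 : ℤ) ∣ P.a ^ P.p := fun h =>
  fr2_not_two_dvd_a P (Int.prime_two.dvd_of_dvd_pow h)

/-- `b = 2^e · b'` with `b'` odd and `1 ≤ e` -/
theorem fr2_b_decomp : ∃ (e : ℕ) (b' : ℤ), 0 < e ∧ ¬ (2 : ℤ) ∣ b' ∧ P.b = 2 ^ e * b' := by
  have hfin : FiniteMultiplicity (2 : ℤ) P.b :=
    Int.finiteMultiplicity_iff.2 ⟨by decide, P.hb0⟩
  obtain ⟨c, hc, hnd⟩ := hfin.exists_eq_pow_mul_and_not_dvd
  refine ⟨multiplicity (2 : ℤ) P.b, c, ?_, hnd, hc⟩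
  rcases Nat.eq_zero_or_pos (multiplicity (2 : ℤ) P.b) with h0 | h0
  · exfalso
    rw [h0, pow_zero, one_mul] at hc
    exact hnd (hc ▸ fr2_two_dvd_b P)
  · exact h0

/-- `b^p = 16 · 2^h · u`, `u` odd, `0 < h`, `p ∤ 2h` -/
theorem fr2_bpow_decomp : ∃ (h : ℕ) (u : ℤ), 0 < h ∧ ¬ P.p ∣ 2 * h ∧ ¬ (2 : ℤ) ∣ u ∧
    P.b ^ P.p = 16 * (2 ^ h * u) := by
  obtain ⟨e, b', he, hb', hb⟩ := fr2_b_decomp P
  have hp5 := P.hp5
  have h4 : 4 < e * P.p := by nlinarith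
  refine ⟨e * P.p - 4, b' ^ P.p, by omega, ?_, ?_, ?_⟩
  · intro hd
    have hpp := P.pp
    rcases (Nat.Prime.dvd_mul hpp).1 hd with h2 | h2
    · have := Nat.le_of_dvd (by norm_num) h2
      omega
    · have h3 : P.p ∣ e * P.p := Dvd.intro_left e rfl
      have h5 : P.p ∣ 4 := by
        have h6 : e * P.p = (e * P.p - 4) + 4 := by omega
        rw [h6] at h3
        exact (Nat.dvd_add_right h2).1 h3
      have := Nat.le_of_dvd (by norm_num) h5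
      omega
  · intro hd
    exact hb' (Int.prime_two.dvd_of_dvd_pow hd)
  · rw [hb, mul_pow, ← pow_mul]
    have h6 : e * P.p = 4 + (e * P.p - 4) := by omega
    rw [h6, pow_add]
    have h7 : 4 + (e * P.p - 4) - 4 = e * P.p - 4 := by omega
    rw [h7]
    norm_num
    ring

/-- the integer `a₂` -/
def fr2_a2Z : ℤ := (P.b ^ P.p - 1 - P.a ^ P.p) / 4

/-- the integer `a₄` -/
def fr2_a4Z : ℤ := -(P.a ^ P.p) * (P.b ^ P.p) / 16

theorem fr2_four_mul_a2Z : 4 * fr2_a2Z P = P.b ^ P.p - 1 - P.a ^ P.p := by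
  obtain ⟨h, u, -, -, -, hb⟩ := fr2_bpow_decomp P
  obtain ⟨k, hk⟩ := fr2_four_dvd_apow_add_one P
  have hd : (4 : ℤ) ∣ P.b ^ P.p - 1 - P.a ^ P.p := ⟨4 * (2 ^ h * u) - k, by rw [hb]; linarith⟩
  unfold fr2_a2Z
  exact Int.mul_ediv_cancel' hd

theorem fr2_sixteen_mul_a4Z : 16 * fr2_a4Z P = -(P.a ^ P.p) * (P.b ^ P.p) := by
  obtain ⟨h, u, -, -, -, hb⟩ := fr2_bpow_decomp P
  have hd : (16 : ℤ) ∣ -(P.a ^ P.p) * (P.b ^ P.p) := ⟨-(P.a ^ P.p) * (2 ^ h * u), by rw [hb]; ring⟩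
  unfold fr2_a4Z
  exact Int.mul_ediv_cancel' hd

/-- `b₂ = 1 + 4a₂ = b^p - a^p` is odd -/
theorem fr2_b2Z_odd : ¬ (2 : ℤ) ∣ 1 + 4 * fr2_a2Z P := by
  rw [fr2_four_mul_a2Z]
  obtain ⟨h, u, -, -, -, hb⟩ := fr2_bpow_decomp P
  intro hd
  apply fr2_not_two_dvd_apow P
  have h2 : (2 : ℤ) ∣ P.b ^ P.p := ⟨8 * (2 ^ h * u), by rw [hb]; ring⟩
  have h3 : P.a ^ P.p = P.b ^ P.p - (1 + (P.b ^ P.p - 1 - P.a ^ P.p)) := by ring
  rw [h3]
  exact dvd_sub h2 hd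

/-- `a₄ = 2^h · u`, `u` odd, `0 < h`, `p ∤ 2h` -/
theorem fr2_a4Z_decomp : ∃ (h : ℕ) (u : ℤ), 0 < h ∧ ¬ P.p ∣ 2 * h ∧ ¬ (2 : ℤ) ∣ u ∧
    fr2_a4Z P = 2 ^ h * u := by
  obtain ⟨h, u, h0, hp, hu, hb⟩ := fr2_bpow_decomp P
  refine ⟨h, -(P.a ^ P.p) * u, h0, hp, ?_, ?_⟩
  · intro hd
    rcases Int.prime_two.dvd_or_dvd hd with h1 | h1
    · exact fr2_not_two_dvd_apow P ((dvd_neg).1 h1)
    · exact hu h1
  · have h16 := fr2_sixteen_mul_a4Z P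
    rw [hb] at h16
    linarith

end IntFacts

/-! ### the coefficients of the Frey curve over `Qb` -/

section Coeff
variable (P : FreyPackage)

theorem fr2_a₁ : (P.freyCurve⁄Qb).a₁ = 1 := by
  simp [WeierstrassCurve.baseChange, FreyPackage.freyCurve]

theorem fr2_a₃ : (P.freyCurve⁄Qb).a₃ = 0 := by
  simp [WeierstrassCurve.baseChange, FreyPackage.freyCurve]

theorem fr2_a₆ : (P.freyCurve⁄Qb).a₆ = 0 := by
  simp [WeierstrassCurve.baseChange, FreyPackage.freyCurve]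

theorem fr2_a₂ : (P.freyCurve⁄Qb).a₂ = ((fr2_a2Z P : ℤ) : Qb) := by
  have h := congrArg (fun z : ℤ => (z : Qb)) (fr2_four_mul_a2Z P)
  simp only [Int.cast_mul, Int.cast_ofNat, Int.cast_sub, Int.cast_pow, Int.cast_one] at h
  have h4 : (4 : Qb) ≠ 0 := by norm_num
  have e : (P.freyCurve⁄Qb).a₂ = ((P.b : Qb) ^ P.p - 1 - (P.a : Qb) ^ P.p) / 4 := by
    simp [WeierstrassCurve.baseChange, FreyPackage.freyCurve]
  rw [e, ← h]
  field_simp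

theorem fr2_a₄ : (P.freyCurve⁄Qb).a₄ = ((fr2_a4Z P : ℤ) : Qb) := by
  have h := congrArg (fun z : ℤ => (z : Qb)) (fr2_sixteen_mul_a4Z P)
  simp only [Int.cast_mul, Int.cast_ofNat, Int.cast_neg, Int.cast_pow] at h
  have e : (P.freyCurve⁄Qb).a₄ = -((P.a : Qb) ^ P.p) * (P.b : Qb) ^ P.p / 16 := by
    simp [WeierstrassCurve.baseChange, FreyPackage.freyCurve]
  rw [e, ← h]
  field_simp

theorem fr2_b₂ : (P.freyCurve⁄Qb).a₁ ^ 2 + 4 * (P.freyCurve⁄Qb).a₂ =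
    ((1 + 4 * fr2_a2Z P : ℤ) : Qb) := by
  rw [fr2_a₁, fr2_a₂]
  push_cast
  ring

end Coeff

/-! ### valuations at `2` -/

section Val
variable (P : FreyPackage) (A : ValuationSubring Qb) (hA : A.LiesOverPrime 2)
include hA

theorem fr2_val_two_lt : A.valuation (2 : Qb) < 1 := by
  have h : A.valuation (((2 : ℕ) : Qb)) < 1 := A.mem_nonunits_iff.mp hA
  simpa using h

omit hA in
theorem fr2_val_two_ne_zero : A.valuation (2 : Qb) ≠ 0 :=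
  (Valuation.ne_zero_iff _).2 (by norm_num)

theorem fr2_val_odd {z : ℤ} (hz : ¬ (2 : ℤ) ∣ z) : A.valuation ((z : ℤ) : Qb) = 1 :=
  (m0_val_int_eq_one_iff_gen A Nat.prime_two hA z).2 (by simpa using hz)

omit hA in
theorem fr2_val_a₂_le : A.valuation (P.freyCurve⁄Qb).a₂ ≤ 1 := by
  rw [fr2_a₂]
  exact m0_val_int_le_one_gen A _

theorem fr2_val_b₂ :
    A.valuation ((P.freyCurve⁄Qb).a₁ ^ 2 + 4 * (P.freyCurve⁄Qb).a₂) = 1 := by
  rw [fr2_b₂]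
  exact fr2_val_odd A hA (fr2_b2Z_odd P)

omit hA in
/-- `a₄ = 2^h · u` in `Qb` -/
theorem fr2_a₄_eq : ∃ (h : ℕ) (u : ℤ), 0 < h ∧ ¬ P.p ∣ 2 * h ∧ ¬ (2 : ℤ) ∣ u ∧
    (P.freyCurve⁄Qb).a₄ = (2 : Qb) ^ h * ((u : ℤ) : Qb) := by
  obtain ⟨h, u, h0, hp, hu, e⟩ := fr2_a4Z_decomp P
  refine ⟨h, u, h0, hp, hu, ?_⟩
  rw [fr2_a₄, e]
  push_cast
  ring

/-- `v(a₄) = v(2)^h` with `0 < h`, `p ∤ 2h` -/
theorem fr2_val_a₄ : ∃ h : ℕ, 0 < h ∧ ¬ P.p ∣ 2 * h ∧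
    A.valuation (P.freyCurve⁄Qb).a₄ = A.valuation (2 : Qb) ^ h := by
  obtain ⟨h, u, h0, hp, hu, e⟩ := fr2_a₄_eq P
  refine ⟨h, h0, hp, ?_⟩
  rw [e, map_mul, map_pow, fr2_val_odd A hA hu, mul_one]

theorem fr2_val_a₄_lt : A.valuation (P.freyCurve⁄Qb).a₄ < 1 := by
  obtain ⟨h, h0, -, e⟩ := fr2_val_a₄ P A hA
  rw [e]
  exact pow_lt_one₀ zero_le (fr2_val_two_lt A hA) h0.ne'

omit hA in
theorem fr2_a₄_ne_zero : (P.freyCurve⁄Qb).a₄ ≠ 0 := by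
  obtain ⟨h, u, -, -, hu, e⟩ := fr2_a₄_eq P
  rw [e]
  refine mul_ne_zero (pow_ne_zero _ (by norm_num)) ?_
  intro h0
  have : u = 0 := by exact_mod_cast h0
  exact hu (this ▸ dvd_zero _)

end Val

/-! ### valuations of rational numbers -/

section Rat
variable (A : ValuationSubring Qb) {q : ℕ} (hq : q.Prime) (hA : A.LiesOverPrime q)
include hq hA

omit hq in
theorem fr2_val_q_lt : A.valuation ((q : ℕ) : Qb) < 1 := A.mem_nonunits_iff.mp hA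

omit hA in
theorem fr2_val_q_ne_zero : A.valuation ((q : ℕ) : Qb) ≠ 0 :=
  (Valuation.ne_zero_iff _).2 (by exact_mod_cast hq.ne_zero)

/-- the valuation of a nonzero integer is a natural power of `v(q)` -/
theorem fr2_val_int {z : ℤ} (hz : z ≠ 0) :
    ∃ k : ℕ, A.valuation ((z : ℤ) : Qb) = A.valuation ((q : ℕ) : Qb) ^ k := by
  have hfin : FiniteMultiplicity ((q : ℕ) : ℤ) z :=
    Int.finiteMultiplicity_iff.2 ⟨by simpa using hq.ne_one, hz⟩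
  obtain ⟨c, hc, hnd⟩ := hfin.exists_eq_pow_mul_and_not_dvd
  refine ⟨multiplicity ((q : ℕ) : ℤ) z, ?_⟩
  have hc' : ((z : ℤ) : Qb) = ((q : ℕ) : Qb) ^ multiplicity ((q : ℕ) : ℤ) z * ((c : ℤ) : Qb) := by
    conv_lhs => rw [hc]
    push_cast
    ring
  rw [hc', map_mul, map_pow, (m0_val_int_eq_one_iff_gen A hq hA c).2 hnd, mul_one]

/-- the valuation of a nonzero rational number is an integral power of `v(q)` -/
theorem fr2_val_rat {r : ℚ} (hr : r ≠ 0) :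
    ∃ k : ℤ, A.valuation (algebraMap ℚ Qb r) = A.valuation ((q : ℕ) : Qb) ^ k := by
  have hnum : r.num ≠ 0 := Rat.num_ne_zero.2 hr
  have hden : (r.den : ℤ) ≠ 0 := by exact_mod_cast r.den_ne_zero
  obtain ⟨k₁, h₁⟩ := fr2_val_int A hq hA hnum
  obtain ⟨k₂, h₂⟩ := fr2_val_int A hq hA hden
  refine ⟨(k₁ : ℤ) - k₂, ?_⟩
  have e : algebraMap ℚ Qb r = ((r.num : ℤ) : Qb) / (((r.den : ℤ) : ℤ) : Qb) := by
    conv_lhs => rw [← Rat.num_div_den r]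
    simp
  rw [e, map_div₀, h₁, h₂, zpow_sub₀ (fr2_val_q_ne_zero A hq), zpow_natCast, zpow_natCast]

end Rat

/-! ### the arithmetic of the sawtooth conclusion -/

section Arith
variable {Γ : Type*} [LinearOrderedCommGroupWithZero Γ]

theorem fr2_zpow_inj {π : Γ} (h0 : π ≠ 0) (h1 : π < 1) {i j : ℤ} (h : π ^ i = π ^ j) : i = j := by
  have hpos : 0 < π := zero_lt_iff.2 h0
  by_contra hne
  have key : ∀ k : ℤ, 0 < k → π ^ k ≠ 1 := fun k hk => (zpow_lt_one₀ hpos h1 hk).ne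
  rcases lt_or_gt_of_ne hne with hlt | hlt
  · apply key (j - i) (by omega)
    rw [zpow_sub₀ h0, h, div_self (zpow_ne_zero _ h0)]
  · apply key (i - j) (by omega)
    rw [zpow_sub₀ h0, h, div_self (zpow_ne_zero _ h0)]

/-- if `π^(j·p) = (π^h)^(2m)`, `0 ≤ j ≤ h`, `p` prime, `p ∤ 2h`, `0 < π < 1`, then `j = 0` -/
theorem fr2_pow_arith {π : Γ} (h0 : π ≠ 0) (h1 : π < 1) {p h j : ℕ} (hp : p.Prime)
    (hph : ¬ p ∣ 2 * h) (hj : j ≤ h) (m : ℤ)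
    (he : (π ^ j) ^ p = (π ^ h) ^ (2 * m)) : j = 0 := by
  have e1 : (π ^ j) ^ p = π ^ ((j * p : ℕ) : ℤ) := by
    rw [← pow_mul, zpow_natCast]
  have e2 : (π ^ h) ^ (2 * m) = π ^ ((h : ℤ) * (2 * m)) := by
    rw [← zpow_natCast, ← zpow_mul]
  rw [e1, e2] at he
  have hz := fr2_zpow_inj h0 h1 he
  push_cast at hz
  -- `j * p = h * (2 * m)`
  have hpz : Prime (p : ℤ) := Nat.prime_iff_prime_int.mp hp
  have hd : (p : ℤ) ∣ (2 * h : ℕ) * m := ⟨j, by push_cast; linarith⟩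
  have hm : (p : ℤ) ∣ m := by
    rcases hpz.dvd_or_dvd hd with h2 | h2
    · exact absurd (Int.natCast_dvd_natCast.1 h2) hph
    · exact h2
  obtain ⟨t, rfl⟩ := hm
  have hp0 : (p : ℤ) ≠ 0 := by exact_mod_cast hp.ne_zero
  have hjt : (j : ℤ) = h * (2 * t) := by
    have : (j : ℤ) * p = (h * (2 * t)) * p := by rw [hz]; ring
    exact mul_right_cancel₀ hp0 this
  -- `0 ≤ j ≤ h` and `j = 2ht`
  by_contra hj0
  have hjpos : 0 < j := Nat.pos_of_ne_zero hj0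
  have hhpos : 0 < h := lt_of_lt_of_le hjpos hj
  have ht : 0 < t := by
    by_contra htn
    have : t ≤ 0 := not_lt.1 htn
    have h3 : (h : ℤ) * (2 * t) ≤ 0 := by
      apply mul_nonpos_of_nonneg_of_nonpos (by positivity) (by linarith)
    have : (0 : ℤ) < j := by exact_mod_cast hjpos
    linarith
  have h4 : (h : ℤ) * 2 ≤ h * (2 * t) := by
    have : (1 : ℤ) ≤ t := ht
    nlinarith
  have h5 : (j : ℤ) ≤ h := by exact_mod_cast hj
  have h6 : (0 : ℤ) < h := by exact_mod_cast hhpos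
  linarith

end Arith

end Fermat.Agent.S13x
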