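import Fermat.Agent.S13x.FreyInt

/-!
# S13 project: the integral Frey model maps to the rational Frey curve

`fi_freyCurveInt_map : P.freyCurveInt.map (Int.castRingHom ℚ) = P.freyCurve`, and the same over `Qb`.
-/

set_option autoImplicit false
open WeierstrassCurve
open FreyPackage

namespace Fermat.Agent.S13x

theorem fi_sixteen_dvd (P : FreyPackage) : (16 : ℤ) ∣ -(P.a ^ P.p) * (P.b ^ P.p) := by
  have h := fi_thirtytwo_dvd P
  exact Dvd.dvd.mul_left (Dvd.dvd.trans (by norm_num) h) _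

theorem fi_freyCurveInt_a₂ (P : FreyPackage) : P.freyCurveInt.a₂ = fiA₂ P := rfl

theorem fi_freyCurveInt_a₄ (P : FreyPackage) : P.freyCurveInt.a₄ = fiA₄ P := by
  have h16 : (16 : ℤ) ≠ 0 := by norm_num
  apply mul_left_cancel₀ h16
  rw [fiA₄_spec]
  show 16 * (-(P.a ^ P.p) * (P.b ^ P.p) / 16) = _
  rw [Int.mul_ediv_cancel' (fi_sixteen_dvd P)]
  ring

/-- the integral Frey model becomes the Frey curve over `ℚ` -/
theorem fi_freyCurveInt_map (P : FreyPackage) :
    P.freyCurveInt.map (Int.castRingHom ℚ) = P.freyCurve := by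
  have h2 : ((fiA₂ P : ℤ) : ℚ) = ((P.b : ℚ) ^ P.p - 1 - (P.a : ℚ) ^ P.p) / 4 := by
    have h := fiA₂_spec P
    have hq : (4 : ℚ) * ((fiA₂ P : ℤ) : ℚ) = (P.b : ℚ) ^ P.p - 1 - (P.a : ℚ) ^ P.p := by
      exact_mod_cast congrArg (fun t : ℤ => (t : ℚ)) h
    field_simp
    linear_combination hq
  have h4 : ((fiA₄ P : ℤ) : ℚ) = -((P.a : ℚ) ^ P.p) * ((P.b : ℚ) ^ P.p) / 16 := by
    have h := fiA₄_spec P
    have hq : (16 : ℚ) * ((fiA₄ P : ℤ) : ℚ) = -((P.a : ℚ) ^ P.p * (P.b : ℚ) ^ P.p) := by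
      exact_mod_cast congrArg (fun t : ℤ => (t : ℚ)) h
    field_simp
    linear_combination hq
  ext
  · simp [freyCurveInt, freyCurve]
  · rw [WeierstrassCurve.map_a₂, fi_freyCurveInt_a₂]
    simp only [eq_intCast, freyCurve]
    exact h2
  · simp [freyCurveInt, freyCurve]
  · rw [WeierstrassCurve.map_a₄, fi_freyCurveInt_a₄]
    simp only [eq_intCast, freyCurve]
    exact h4
  · simp [freyCurveInt, freyCurve]

/-- the integral Frey model becomes the Frey curve over `Qb` -/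
theorem fi_freyCurveInt_map_Qb (P : FreyPackage) :
    P.freyCurveInt.map (Int.castRingHom Qb) = P.freyCurve.baseChange Qb := by
  rw [WeierstrassCurve.baseChange, ← fi_freyCurveInt_map P, WeierstrassCurve.map_map]
  congr 1

end Fermat.Agent.S13x
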