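/-
S13 project, row A_FREY (helper44): the Frey instance of the Wronskian leaf.

* `ft_wriCurve P`     : the coefficients of `P.freyCurve⁄Qb` are integers (`WriCurve`);
* `ft_isElliptic P`   : `P.freyCurve⁄Qb` is elliptic (`Δ ≠ 0`);
* `ft_exists_torsion_poly_of P hfil htop hcrit` : `Spec.exists_torsion_poly P` (verbatim body) from
  the generic Wronskian facts W03 (`wron_mem_fil`, `wr_top_wron_eq_prod`) and W05
  (`wr_nsmul_eq_zero_iff`) as hypotheses, through `wri_torsion_poly_of` (helper23, `WronInt.lean`).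
-/
import Fermat.Agent.S13x.WronInt
import Fermat.Agent.S13x.FreyInt

set_option autoImplicit false

open Polynomial WeierstrassCurve WeierstrassCurve.Affine WeierstrassCurve.Affine.Point
open FreyPackage

namespace Fermat.Agent.S13x

/-- the coefficients of the Frey curve over `Qb` are (images of) integers -/
theorem ft_wriCurve (P : FreyPackage) :
    WriCurve (P.freyCurve⁄Qb).toAffine (Int.castRingHom Qb) where
  a₁ := ⟨1, by rw [fi_a₁]; simp⟩
  a₂ := ⟨fiA₂ P, by rw [fi_a₂]; rfl⟩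
  a₃ := ⟨0, by rw [fi_a₃]; simp⟩
  a₄ := ⟨fiA₄ P, by rw [fi_a₄]; rfl⟩
  a₆ := ⟨0, by rw [fi_a₆]; simp⟩

theorem ft_freyCurve_Δ (P : FreyPackage) :
    P.freyCurve.Δ = ((P.a : ℚ) ^ P.p * (P.b : ℚ) ^ P.p * (P.c : ℚ) ^ P.p) ^ 2 / 256 := by
  have hc : (P.c : ℚ) ^ P.p = (P.a : ℚ) ^ P.p + (P.b : ℚ) ^ P.p := by
    exact_mod_cast P.hFLT.symm
  simp only [WeierstrassCurve.Δ, WeierstrassCurve.b₂, WeierstrassCurve.b₄, WeierstrassCurve.b₆,
    WeierstrassCurve.b₈, FreyPackage.freyCurve]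
  rw [hc]
  ring

theorem ft_freyCurve_Δ_ne_zero (P : FreyPackage) : P.freyCurve.Δ ≠ 0 := by
  rw [ft_freyCurve_Δ]
  have ha : (P.a : ℚ) ≠ 0 := by exact_mod_cast P.ha0
  have hb : (P.b : ℚ) ≠ 0 := by exact_mod_cast P.hb0
  have hc : (P.c : ℚ) ≠ 0 := by exact_mod_cast P.hc0
  positivity

theorem ft_baseChange_Δ_ne_zero (P : FreyPackage) : (P.freyCurve⁄Qb).Δ ≠ 0 := by
  show (P.freyCurve.map (algebraMap ℚ Qb)).Δ ≠ 0
  rw [WeierstrassCurve.map_Δ]
  exact (map_ne_zero_iff _ (algebraMap ℚ Qb).injective).mpr (ft_freyCurve_Δ_ne_zero P)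

/-- the Frey curve over `Qb` is elliptic -/
theorem ft_isElliptic (P : FreyPackage) : (P.freyCurve⁄Qb).IsElliptic :=
  ⟨isUnit_iff_ne_zero.mpr (ft_baseChange_Δ_ne_zero P)⟩

theorem ft_isElliptic_toAffine (P : FreyPackage) : (P.freyCurve⁄Qb).toAffine.IsElliptic :=
  ft_isElliptic P

/-- **`Spec.exists_torsion_poly`** for the Frey curve, from the generic Wronskian facts
(W03: pole order and top coefficient of `wron p`; W05: torsion criterion). -/
theorem ft_exists_torsion_poly_of (P : FreyPackage)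
    (hfil : wron (P.freyCurve⁄Qb).toAffine P.p ∈ wrFil (P.freyCurve⁄Qb).toAffine (P.p ^ 2 - 1))
    (htop : wrTop (P.freyCurve⁄Qb).toAffine (P.p ^ 2 - 1) (wron (P.freyCurve⁄Qb).toAffine P.p) =
      ((wriV P.p : ℤ) : Qb))
    (hcrit : ∀ {a b : Qb} (h : (P.freyCurve⁄Qb).toAffine.Nonsingular a b),
      P.p • Point.some a b h = 0 ↔ wrEval h.1 (wron (P.freyCurve⁄Qb).toAffine P.p) = 0) :
    ∃ (N : Polynomial ℤ) (u : ℤ), ¬ (P.p : ℤ) ∣ u ∧ N.leadingCoeff = (P.p : ℤ) ^ 2 * u ∧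
      (∀ r : Qb, (N.map (algebraMap ℤ Qb)).IsRoot r →
        ∃ (y : Qb) (h : (P.freyCurve⁄Qb).Nonsingular r y),
          P.p • (Point.some r y h : FreyPt P) = 0) ∧
      (∀ (x y : Qb) (h : (P.freyCurve⁄Qb).Nonsingular x y),
        P.p • (Point.some x y h : FreyPt P) = 0 →
          (Polynomial.X - Polynomial.C x) ^ 2 ∣ N.map (algebraMap ℤ Qb)) := by
  have := ft_isElliptic_toAffine P
  have hp2 : P.p ≠ 2 := by have := P.hp5; omega
  exact wri_torsion_poly_of (ft_wriCurve P) P.pp hp2 hfil htop hcrit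

end Fermat.Agent.S13x
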