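import Mathlib
import Fermat.Prelude.Def_FLTPrelim_Ramification

/-!
# Inertia subgroups of valuation subrings: basic facts

* `gi_mem_inertiaSubgroupIn_iff` : `σ` lies in the inertia subgroup of `A` iff it stabilises `A`
  and moves every element of `A` by a non-unit;
* restriction to normal intermediate fields, and the "limit" criterion.
-/

set_option autoImplicit false

namespace Fermat.Agent.S13x

open ValuationSubring
open scoped Pointwise

variable {K L : Type*} [Field K] [Field L] [Algebra K L]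

/-- `σ • A = A` means `σ` is in the decomposition group. -/
theorem gi_mem_decomposition_iff (A : ValuationSubring L) (σ : L ≃ₐ[K] L) :
    σ ∈ A.decompositionSubgroup K ↔ σ • A = A := Iff.rfl

theorem gi_smul_mem_of_mem_decomposition (A : ValuationSubring L) (σ : L ≃ₐ[K] L)
    (hσ : σ • A = A) {a : L} (ha : a ∈ A) : σ a ∈ A := by
  have : σ • a ∈ σ • A := ValuationSubring.smul_mem_pointwise_smul σ a A ha
  rw [hσ] at this
  exact this

/-- Membership in the inertia subgroup, in elementary terms. -/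
theorem gi_mem_inertiaSubgroupIn_iff (A : ValuationSubring L) (σ : L ≃ₐ[K] L) :
    σ ∈ A.inertiaSubgroupIn K ↔ σ • A = A ∧ ∀ a ∈ A, σ a - a ∈ A.nonunits := by
  constructor
  · rintro ⟨g, hg, rfl⟩
    refine ⟨g.2, fun a ha => ?_⟩
    have hg1 : MulSemiringAction.toRingAut (A.decompositionSubgroup K)
        (IsLocalRing.ResidueField A) g = 1 := hg
    have hres : g • IsLocalRing.residue A ⟨a, ha⟩ = IsLocalRing.residue A ⟨a, ha⟩ := by
      have := congrArg (fun φ : RingAut (IsLocalRing.ResidueField A) =>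
        φ (IsLocalRing.residue A ⟨a, ha⟩)) hg1
      simpa using this
    rw [← IsLocalRing.ResidueField.residue_smul, ← sub_eq_zero, ← map_sub,
      IsLocalRing.residue_eq_zero_iff, A.valuation_lt_one_iff] at hres
    rw [A.mem_nonunits_iff]
    exact hres
  · rintro ⟨hσ, h⟩
    refine ⟨⟨σ, hσ⟩, ?_, rfl⟩
    show MulSemiringAction.toRingAut (A.decompositionSubgroup K)
        (IsLocalRing.ResidueField A) ⟨σ, hσ⟩ = 1
    ext r
    obtain ⟨a, rfl⟩ := IsLocalRing.residue_surjective r
    show (⟨σ, hσ⟩ : A.decompositionSubgroup K) • IsLocalRing.residue A a = IsLocalRing.residue A a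
    rw [← IsLocalRing.ResidueField.residue_smul, ← sub_eq_zero, ← map_sub,
      IsLocalRing.residue_eq_zero_iff, A.valuation_lt_one_iff]
    have := h a a.2
    rw [A.mem_nonunits_iff] at this
    exact this

/-- criterion for `σ • A = A` -/
theorem gi_smul_eq_of_forall_mem (A : ValuationSubring L) (σ : L ≃ₐ[K] L)
    (h : ∀ a ∈ A, σ a ∈ A) (h' : ∀ a ∈ A, σ.symm a ∈ A) : σ • A = A := by
  ext x
  constructor
  · intro hx
    rw [ValuationSubring.mem_pointwise_smul_iff_inv_smul_mem] at hx
    have := h _ hx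
    simpa using this
  · intro hx
    rw [ValuationSubring.mem_pointwise_smul_iff_inv_smul_mem]
    exact h' x hx

theorem gi_symm_mem_of_smul_eq (A : ValuationSubring L) (σ : L ≃ₐ[K] L)
    (hσ : σ • A = A) {a : L} (ha : a ∈ A) : σ.symm a ∈ A := by
  have h1 : σ⁻¹ • A = A := by
    conv_lhs => rw [← hσ]
    rw [inv_smul_smul]
  exact gi_smul_mem_of_mem_decomposition A σ⁻¹ h1 ha

/-- non-units of a comap -/
theorem gi_mem_nonunits_comap_iff {M : Type*} [Field M] (A : ValuationSubring L) (f : M →+* L)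
    (y : M) : y ∈ (A.comap f).nonunits ↔ f y ∈ A.nonunits := by
  rw [ValuationSubring.mem_nonunits_iff_or, ValuationSubring.mem_nonunits_iff_or,
    ValuationSubring.mem_comap, map_inv₀, map_eq_zero]

section restrict

variable (M : IntermediateField K L) [Normal K M]

/-- the trace of `A` on the intermediate field `M` -/
noncomputable def gi_trace (A : ValuationSubring L) : ValuationSubring M :=
  A.comap (algebraMap M L)

theorem gi_mem_trace_iff (A : ValuationSubring L) (x : M) :
    x ∈ gi_trace M A ↔ (x : L) ∈ A := Iff.rfl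

theorem gi_mem_nonunits_trace_iff (A : ValuationSubring L) (x : M) :
    x ∈ (gi_trace M A).nonunits ↔ (x : L) ∈ A.nonunits :=
  gi_mem_nonunits_comap_iff A (algebraMap M L) x

theorem gi_restrict_coe (σ : L ≃ₐ[K] L) (x : M) :
    ((AlgEquiv.restrictNormalHom M σ x : M) : L) = σ (x : L) :=
  AlgEquiv.restrictNormal_commutes σ M x

theorem gi_restrict_symm_coe (σ : L ≃ₐ[K] L) (x : M) :
    (((AlgEquiv.restrictNormalHom M σ).symm x : M) : L) = σ.symm (x : L) := by
  have h : (AlgEquiv.restrictNormalHom M σ).symm = AlgEquiv.restrictNormalHom M σ⁻¹ := by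
    rw [map_inv]; rfl
  rw [h, gi_restrict_coe]
  rfl

/-- restriction maps inertia into inertia -/
theorem gi_restrict_mem_inertia (A : ValuationSubring L) (σ : L ≃ₐ[K] L)
    (hσ : σ ∈ A.inertiaSubgroupIn K) :
    AlgEquiv.restrictNormalHom M σ ∈ (gi_trace M A).inertiaSubgroupIn K := by
  rw [gi_mem_inertiaSubgroupIn_iff] at hσ ⊢
  obtain ⟨h1, h2⟩ := hσ
  refine ⟨gi_smul_eq_of_forall_mem _ _ ?_ ?_, ?_⟩
  · intro x hx
    rw [gi_mem_trace_iff, gi_restrict_coe]
    exact gi_smul_mem_of_mem_decomposition A σ h1 hx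
  · intro x hx
    rw [gi_mem_trace_iff, gi_restrict_symm_coe]
    exact gi_symm_mem_of_smul_eq A σ h1 hx
  · intro x hx
    rw [gi_mem_nonunits_trace_iff]
    push_cast
    rw [gi_restrict_coe]
    exact h2 _ hx

end restrict

/-- **limit criterion**: if the restrictions of `σ` to a covering family of normal intermediate
fields all lie in the inertia subgroups of the traces of `A`, then `σ` lies in the inertia subgroup
of `A`. -/
theorem gi_mem_inertia_of_forall_restrict (A : ValuationSubring L) (σ : L ≃ₐ[K] L)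
    (𝓕 : Set (IntermediateField K L)) (hn : ∀ M ∈ 𝓕, Normal K M)
    (hcov : ∀ a : L, ∃ M ∈ 𝓕, a ∈ M)
    (h : ∀ (M : IntermediateField K L) (hM : M ∈ 𝓕),
      haveI := hn M hM
      AlgEquiv.restrictNormalHom M σ ∈ (gi_trace M A).inertiaSubgroupIn K) :
    σ ∈ A.inertiaSubgroupIn K := by
  rw [gi_mem_inertiaSubgroupIn_iff]
  refine ⟨gi_smul_eq_of_forall_mem _ _ ?_ ?_, ?_⟩
  · intro a ha
    obtain ⟨M, hM, haM⟩ := hcov a
    haveI := hn M hM
    have h1 := (gi_mem_inertiaSubgroupIn_iff _ _).mp (h M hM)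
    have h2 := gi_smul_mem_of_mem_decomposition _ _ h1.1 (a := (⟨a, haM⟩ : M))
      ((gi_mem_trace_iff M A _).mpr ha)
    rw [gi_mem_trace_iff, gi_restrict_coe] at h2
    exact h2
  · intro a ha
    obtain ⟨M, hM, haM⟩ := hcov a
    haveI := hn M hM
    have h1 := (gi_mem_inertiaSubgroupIn_iff _ _).mp (h M hM)
    have h2 := gi_symm_mem_of_smul_eq _ _ h1.1 (a := (⟨a, haM⟩ : M))
      ((gi_mem_trace_iff M A _).mpr ha)
    rw [gi_mem_trace_iff, gi_restrict_symm_coe] at h2
    exact h2
  · intro a ha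
    obtain ⟨M, hM, haM⟩ := hcov a
    haveI := hn M hM
    have h1 := (gi_mem_inertiaSubgroupIn_iff _ _).mp (h M hM)
    have h2 := h1.2 (⟨a, haM⟩ : M) ((gi_mem_trace_iff M A _).mpr ha)
    rw [gi_mem_nonunits_trace_iff] at h2
    push_cast at h2
    rw [gi_restrict_coe] at h2
    exact h2

end Fermat.Agent.S13x
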