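import Mathlib

/-!
# Lifting inertia elements along a closed normal subgroup (profinite Hilbert theory)

Let a profinite group `G` act continuously on a (discrete) commutative ring `R`, let `N` be a closed
normal subgroup and `P` a prime ideal of `R`.  If `τ : G` moves every `N`-invariant element of `R`
by an element of `P`, then some element of the coset `N τ` moves *every* element of `R` by an
element of `P`.
-/

set_option autoImplicit false

namespace Fermat.Agent.S13x

open scoped Pointwise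

section lift

variable {G R : Type*} [Group G] [CommRing R] [MulSemiringAction G R]

/-- the invariants of a normal subgroup are stable under the whole group -/
theorem gi_smul_fixed_of_normal (N : Subgroup G) [N.Normal] (τ : G) {x : R}
    (hx : ∀ n ∈ N, n • x = x) : ∀ n ∈ N, n • (τ • x) = τ • x := by
  intro n hn
  have h1 : τ⁻¹ * n * τ ∈ N := by
    have := ‹N.Normal›.conj_mem n hn τ⁻¹
    simpa using this
  have h2 := hx _ h1
  calc n • (τ • x) = τ • ((τ⁻¹ * n * τ) • x) := by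
        rw [← mul_smul, ← mul_smul]; congr 1; group
    _ = τ • x := by rw [h2]

/-- **Lifting lemma.** -/
theorem gi_exists_mul_mem_inertia
    [TopologicalSpace G] [CompactSpace G] [TotallyDisconnectedSpace G] [IsTopologicalGroup G]
    [TopologicalSpace R] [DiscreteTopology R] [ContinuousSMul G R]
    (N : Subgroup G) [N.Normal] (hN : IsClosed (N : Set G)) (P : Ideal R) [P.IsPrime] (τ : G)
    (hτ : ∀ x : R, (∀ n ∈ N, n • x = x) → τ • x - x ∈ P) :
    ∃ ν ∈ N, ∀ x : R, (ν * τ) • x - x ∈ P := by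
  haveI : CompactSpace N := isCompact_iff_compactSpace.mp hN.isCompact
  -- the ring of invariants
  let A₀ : Subring R := FixedPoints.subring R N
  have hA₀ : ∀ x : R, x ∈ A₀ ↔ ∀ n ∈ N, n • x = x := by
    intro x
    constructor
    · intro hx n hn
      exact hx ⟨n, hn⟩
    · intro hx n
      exact hx n.1 n.2
  haveI : Algebra.IsInvariant A₀ R N := ⟨fun b hb => ⟨⟨b, hb⟩, rfl⟩⟩
  -- `τ⁻¹` has the same property
  have hτ' : ∀ x : R, (∀ n ∈ N, n • x = x) → τ⁻¹ • x - x ∈ P := by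
    intro x hx
    have h1 := hτ (τ⁻¹ • x) (gi_smul_fixed_of_normal N τ⁻¹ hx)
    rw [smul_inv_smul] at h1
    have := P.neg_mem h1
    rwa [neg_sub] at this
  -- Step a: move `τ • P` back to `P` by an element of `N`
  have hunder : (τ • P).under A₀ = P.under A₀ := by
    ext x
    rw [Ideal.mem_comap, Ideal.mem_comap, Ideal.mem_pointwise_smul_iff_inv_smul_mem]
    have hx := hτ' (x : R) ((hA₀ _).mp x.2)
    show τ⁻¹ • (x : R) ∈ P ↔ (x : R) ∈ P
    constructor
    · intro h
      have := P.sub_mem h hx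
      rwa [sub_sub_cancel] at this
    · intro h
      have := P.add_mem hx h
      rwa [sub_add_cancel] at this
  obtain ⟨ν₁, hν₁⟩ := Algebra.IsInvariant.exists_smul_of_under_eq_of_profinite (A := A₀)
    (G := N) (τ • P) P hunder
  -- `τ₁ = ν₁ τ` stabilises `P`
  set τ₁ : G := (ν₁ : G) * τ with hτ₁
  have hstab : τ₁ • P = P := by
    rw [hτ₁, mul_smul]
    exact hν₁.symm
  have hτ₁A : ∀ x : R, (∀ n ∈ N, n • x = x) → τ₁ • x - x ∈ P := by
    intro x hx
    rw [hτ₁, mul_smul, gi_smul_fixed_of_normal N τ hx _ ν₁.2]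
    exact hτ x hx
  -- Step b: the automorphism of `R ⧸ P` induced by `τ₁`
  set P₀ : Ideal A₀ := P.under A₀ with hP₀
  have hmap : P = P.map ((MulSemiringAction.toRingEquiv G R τ₁ : R ≃+* R) : R →+* R) := by
    conv_lhs => rw [← hstab]
    rfl
  let φr : R ⧸ P ≃+* R ⧸ P :=
    Ideal.quotientEquiv P P (MulSemiringAction.toRingEquiv G R τ₁) hmap
  have hφr : ∀ x : R, φr (Ideal.Quotient.mk P x) = Ideal.Quotient.mk P (τ₁ • x) := fun x => rfl
  let φ : (R ⧸ P) ≃ₐ[A₀ ⧸ P₀] (R ⧸ P) := AlgEquiv.ofRingEquiv (f := φr) (by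
    intro r
    obtain ⟨a, rfl⟩ := Ideal.Quotient.mk_surjective r
    rw [Ideal.Quotient.algebraMap_mk_of_liesOver, hφr, Ideal.Quotient.eq]
    exact hτ₁A _ ((hA₀ _).mp a.2))
  -- Step c: realise it by an element of the stabiliser of `P` in `N`
  obtain ⟨g, hg⟩ := Ideal.Quotient.stabilizerHom_surjective_of_profinite (G := N) P₀ P φ
  have h1 : ∀ x : R, (g.1 : G) • x - τ₁ • x ∈ P := by
    intro x
    have := DFunLike.congr_fun hg (Ideal.Quotient.mk P x)
    rw [Ideal.Quotient.stabilizerHom_apply] at this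
    have h1' : Ideal.Quotient.mk P ((g.1 : G) • x) = Ideal.Quotient.mk P (τ₁ • x) := this
    rwa [Ideal.Quotient.eq] at h1'
  -- apply `g⁻¹`, which stabilises `P`
  clear hg
  obtain ⟨⟨g₀, hg₀N⟩, hg₀P⟩ := g
  have h2 : g₀ • P = P := hg₀P
  have hgP : g₀⁻¹ • P = P := by
    calc g₀⁻¹ • P = g₀⁻¹ • (g₀ • P) := by rw [h2]
      _ = P := inv_smul_smul _ _
  refine ⟨g₀⁻¹ * ν₁, N.mul_mem (N.inv_mem hg₀N) ν₁.2, fun x => ?_⟩
  have h1x : g₀ • x - τ₁ • x ∈ P := h1 x
  have h3 : g₀⁻¹ • (τ₁ • x - g₀ • x) ∈ P := by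
    have h4 : τ₁ • x - g₀ • x ∈ P := by
      have := P.neg_mem h1x
      rwa [neg_sub] at this
    have h5 : g₀⁻¹ • (τ₁ • x - g₀ • x) ∈ g₀⁻¹ • P :=
      Ideal.smul_mem_pointwise_smul _ _ _ h4
    rwa [hgP] at h5
  have h6 : g₀⁻¹ • (τ₁ • x - g₀ • x) = (g₀⁻¹ * ν₁ * τ) • x - x := by
    rw [smul_sub, hτ₁, ← mul_smul, ← mul_assoc, inv_smul_smul]
  rwa [h6] at h3

end lift

end Fermat.Agent.S13x
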