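import Mathlib

/-!
# S13 project: Gauss lemma for linear factors (abstract value group)

Pure valuation lemma used by "Lemma SS" (the supersingular exclusion):
if `f = c * ∏ (X - r_j)` has all its coefficients of valuation `≤ M`, then
`v c * ∏ max 1 (v r_j) ≤ M`.  (Mathlib's `Polynomial.gaussNorm` is real-valued only.)
All names carry the prefix `gv_`.
-/

set_option autoImplicit false
open Polynomial

namespace Fermat.Agent.S13x

variable {K : Type*} [Field K] {Γ₀ : Type*} [LinearOrderedCommGroupWithZero Γ₀]

theorem gv_coeff_mul_X_sub_C_succ (f : K[X]) (r : K) (i : ℕ) :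
    (f * (X - C r)).coeff (i + 1) = f.coeff i - r * f.coeff (i + 1) := by
  rw [mul_sub, coeff_sub, coeff_mul_X, coeff_mul_C, mul_comm]

theorem gv_coeff_mul_X_sub_C_zero (f : K[X]) (r : K) :
    (f * (X - C r)).coeff 0 = -(r * f.coeff 0) := by
  simp [mul_sub, mul_comm]

/-- One linear factor, small root: the bound passes to `f`. -/
theorem gv_step_le (v : Valuation K Γ₀) (f : K[X]) (r : K) (M : Γ₀) (hr : v r ≤ 1)
    (h : ∀ i, v ((f * (X - C r)).coeff i) ≤ M) : ∀ i, v (f.coeff i) ≤ M := by
  -- downward induction from the degree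
  have key : ∀ k i, f.natDegree < i + k → v (f.coeff i) ≤ M := by
    intro k
    induction k with
    | zero =>
      intro i hi
      rw [coeff_eq_zero_of_natDegree_lt (by simpa using hi), map_zero]
      exact zero_le
    | succ k ih =>
      intro i hi
      have h1 : v (f.coeff (i + 1)) ≤ M := ih (i + 1) (by omega)
      have h2 := h (i + 1)
      rw [gv_coeff_mul_X_sub_C_succ] at h2
      have e : f.coeff i = (f.coeff i - r * f.coeff (i + 1)) + r * f.coeff (i + 1) := by ring
      rw [e]
      refine Valuation.map_add_le _ h2 ?_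
      rw [map_mul]
      calc v r * v (f.coeff (i + 1)) ≤ 1 * M := mul_le_mul' hr h1
        _ = M := one_mul _
  intro i
  exact key (f.natDegree + 1) i (by omega)

/-- One linear factor, big root: the bound passes to `v r * f`. -/
theorem gv_step_gt (v : Valuation K Γ₀) (f : K[X]) (r : K) (M : Γ₀) (hr : 1 ≤ v r)
    (h : ∀ i, v ((f * (X - C r)).coeff i) ≤ M) : ∀ i, v (f.coeff i) * v r ≤ M := by
  intro i
  induction i with
  | zero =>
    have h0 := h 0
    rw [gv_coeff_mul_X_sub_C_zero, Valuation.map_neg, map_mul] at h0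
    rwa [mul_comm]
  | succ i ih =>
    have h2 := h (i + 1)
    rw [gv_coeff_mul_X_sub_C_succ] at h2
    have e : r * f.coeff (i + 1) = f.coeff i - (f.coeff i - r * f.coeff (i + 1)) := by ring
    have h3 : v (r * f.coeff (i + 1)) ≤ M := by
      rw [e]
      refine Valuation.map_sub_le v ?_ h2
      calc v (f.coeff i) = v (f.coeff i) * 1 := (mul_one _).symm
        _ ≤ v (f.coeff i) * v r := mul_le_mul' le_rfl hr
        _ ≤ M := ih
    rwa [map_mul, mul_comm] at h3

/-- One linear factor: the bound passes to `max 1 (v r) * f`. -/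
theorem gv_step (v : Valuation K Γ₀) (f : K[X]) (r : K) (M : Γ₀)
    (h : ∀ i, v ((f * (X - C r)).coeff i) ≤ M) :
    ∀ i, v (f.coeff i) * max 1 (v r) ≤ M := by
  intro i
  rcases le_total (v r) 1 with hr | hr
  · rw [max_eq_left hr, mul_one]
    exact gv_step_le v f r M hr h i
  · rw [max_eq_right hr]
    exact gv_step_gt v f r M hr h i

/-- **Gauss lemma for a product of linear factors**, general bound `M`. -/
theorem gv_gauss_bound (v : Valuation K Γ₀) (c : K) (s : Multiset K) :
    ∀ M : Γ₀, (∀ i, v ((C c * (s.map (fun r => X - C r)).prod).coeff i) ≤ M) →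
      v c * (s.map (fun r => max 1 (v r))).prod ≤ M := by
  induction s using Multiset.induction_on with
  | empty =>
    intro M h
    have h0 := h 0
    simpa using h0
  | cons r s ih =>
    intro M h
    have hmax : (0 : Γ₀) < max 1 (v r) := lt_of_lt_of_le zero_lt_one (le_max_left _ _)
    have e : C c * ((r ::ₘ s).map (fun r => X - C r)).prod =
        (C c * (s.map (fun r => X - C r)).prod) * (X - C r) := by
      rw [Multiset.map_cons, Multiset.prod_cons]
      ring
    rw [e] at h
    have h1 := gv_step v _ r M h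
    have h2 : ∀ i, v ((C c * (s.map (fun r => X - C r)).prod).coeff i) ≤ M / max 1 (v r) := by
      intro i
      rw [le_div_iff₀ hmax]
      exact h1 i
    have h3 := ih _ h2
    rw [le_div_iff₀ hmax] at h3
    rw [Multiset.map_cons, Multiset.prod_cons]
    calc v c * (max 1 (v r) * (s.map (fun r => max 1 (v r))).prod)
        = v c * (s.map (fun r => max 1 (v r))).prod * max 1 (v r) := by
          rw [mul_comm (max 1 (v r)), mul_assoc]
      _ ≤ M := h3

/-- **Gauss lemma**: integral coefficients. -/
theorem gv_gauss (A : ValuationSubring K) (c : K) (s : Multiset K)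
    (hint : ∀ i, (C c * (s.map (fun r => X - C r)).prod).coeff i ∈ A) :
    A.valuation c * (s.map (fun r => max 1 (A.valuation r))).prod ≤ 1 :=
  gv_gauss_bound A.valuation c s 1 fun i => (A.valuation_le_one_iff _).2 (hint i)

/-- Sub-multiset of big roots. -/
theorem gv_gauss_sub_bound (v : Valuation K Γ₀) (c : K) (s t : Multiset K) (hts : t ≤ s)
    (ht : ∀ r ∈ t, 1 ≤ v r) (M : Γ₀)
    (h : ∀ i, v ((C c * (s.map (fun r => X - C r)).prod).coeff i) ≤ M) :
    v c * (t.map v).prod ≤ M := by
  refine le_trans ?_ (gv_gauss_bound v c s M h)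
  refine mul_le_mul' le_rfl ?_
  obtain ⟨u, rfl⟩ := Multiset.le_iff_exists_add.1 hts
  rw [Multiset.map_add, Multiset.prod_add]
  have h1 : (t.map v).prod = (t.map (fun r => max 1 (v r))).prod := by
    congr 1
    refine Multiset.map_congr rfl fun r hr => ?_
    exact (max_eq_right (ht r hr)).symm
  have h2 : (1 : Γ₀) ≤ (u.map (fun r => max 1 (v r))).prod := by
    refine Multiset.one_le_prod_of_one_le ?_
    intro x hx
    obtain ⟨r, -, rfl⟩ := Multiset.mem_map.1 hx
    exact le_max_left _ _
  rw [h1]
  calc (t.map (fun r => max 1 (v r))).prod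
      = (t.map (fun r => max 1 (v r))).prod * 1 := (mul_one _).symm
    _ ≤ _ := mul_le_mul' le_rfl h2

theorem gv_gauss_sub (A : ValuationSubring K) (c : K) (s t : Multiset K) (hts : t ≤ s)
    (ht : ∀ r ∈ t, 1 ≤ A.valuation r)
    (hint : ∀ i, (C c * (s.map (fun r => X - C r)).prod).coeff i ∈ A) :
    A.valuation c * (t.map A.valuation).prod ≤ 1 :=
  gv_gauss_sub_bound A.valuation c s t hts ht 1 fun i => (A.valuation_le_one_iff _).2 (hint i)

/-- Root form over an algebraically closed field: `t` any sub-multiset of the roots of `f`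
all of whose members have valuation `≥ 1`. -/
theorem gv_gauss_roots_bound [IsAlgClosed K] (v : Valuation K Γ₀) (f : K[X]) (t : Multiset K)
    (ht : t ≤ f.roots) (ht1 : ∀ r ∈ t, 1 ≤ v r) (M : Γ₀) (h : ∀ i, v (f.coeff i) ≤ M) :
    v f.leadingCoeff * (t.map v).prod ≤ M := by
  have hsplit : Multiset.card f.roots = f.natDegree :=
    (IsAlgClosed.splits f).natDegree_eq_card_roots.symm
  have e := Polynomial.C_leadingCoeff_mul_prod_multiset_X_sub_C hsplit
  refine gv_gauss_sub_bound v f.leadingCoeff f.roots t ht ht1 M ?_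
  intro i
  rw [e]
  exact h i

theorem gv_gauss_roots [IsAlgClosed K] (A : ValuationSubring K) (f : K[X]) (t : Multiset K)
    (ht : t ≤ f.roots) (ht1 : ∀ r ∈ t, 1 ≤ A.valuation r) (hint : ∀ i, f.coeff i ∈ A) :
    A.valuation f.leadingCoeff * (t.map A.valuation).prod ≤ 1 :=
  gv_gauss_roots_bound A.valuation f t ht ht1 1 fun i => (A.valuation_le_one_iff _).2 (hint i)

end Fermat.Agent.S13x
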