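import Fermat.Agent.S13x.Defs
import Fermat.Agent.S05x.FormalB
import Fermat.Agent.S05x.Frey

/-!
# S13 project, module B1p: the kernel of reduction `InE1` is a subgroup (odd residue characteristic)

* `kr_inE1_add_w2`, `kr_inE1_neg`, `kr_inE1_sub_w2`: generic statements for the `W2` model
  `Y² = X³ + a₂X² + a₄X` over any field with a valuation subring in which `2` is a unit.
* `kr_frey_locHyp`, `kr_inE1_symm_iff`: the Frey curve, transported by `S05x.fVC r`.
* `inE1_add`, `inE1_neg`: exact Spec statements.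
-/

set_option autoImplicit false
open WeierstrassCurve WeierstrassCurve.Affine WeierstrassCurve.Affine.Point

namespace Fermat.Agent.S13x

open Fermat.Agent.S05x
open Fermat.Agent.S51x (vcEquiv vc_inv_nonsingular vcEquiv_symm_some')

section Generic

variable {K : Type*} [Field K] [DecidableEq K] (A : ValuationSubring K) {W : WeierstrassCurve K}

omit [DecidableEq K] in
theorem kr_not_mem_iff (x : K) : x ∉ A ↔ 1 < A.valuation x := by
  rw [← A.valuation_le_one_iff, not_le]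

omit [DecidableEq K] in
/-- `InE1` is stable under negation (any Weierstrass curve) -/
theorem kr_inE1_neg {Q : W.toAffine.Point} (h : InE1 A Q) : InE1 A (-Q) := by
  cases Q with
  | zero => exact h
  | some x y hxy =>
    rw [Point.neg_some]
    exact h

/-- `InE1` is stable under addition for the `W2` model when `2` is a unit of `A` -/
theorem kr_inE1_add_w2 (H : LocHyp A W) {Q₁ Q₂ : W.toAffine.Point} (h₁ : InE1 A Q₁)
    (h₂ : InE1 A Q₂) : InE1 A (Q₁ + Q₂) := by
  cases Q₁ with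
  | zero =>
    have : (Point.zero : W.toAffine.Point) + Q₂ = Q₂ := zero_add Q₂
    rw [this]; exact h₂
  | some x₁ y₁ hxy₁ =>
    cases Q₂ with
    | zero =>
      have : Point.some x₁ y₁ hxy₁ + (Point.zero : W.toAffine.Point) = Point.some x₁ y₁ hxy₁ :=
        add_zero _
      rw [this]; exact h₁
    | some x₂ y₂ hxy₂ =>
      have hv₁ : 1 < A.valuation x₁ := (kr_not_mem_iff A x₁).mp h₁
      have hv₂ : 1 < A.valuation x₂ := (kr_not_mem_iff A x₂).mp h₂
      have hlam : 1 < min (A.valuation x₁) (A.valuation x₂) := lt_min hv₁ hv₂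
      have m₁ : Point.some x₁ y₁ hxy₁ ∈ m3bSub A H _ hlam :=
        Or.inr ⟨x₁, y₁, hxy₁, rfl, min_le_left _ _⟩
      have m₂ : Point.some x₂ y₂ hxy₂ ∈ m3bSub A H _ hlam :=
        Or.inr ⟨x₂, y₂, hxy₂, rfl, min_le_right _ _⟩
      rcases (m3bSub A H _ hlam).add_mem m₁ m₂ with h0 | ⟨x₃, y₃, hxy₃, h3, hv⟩
      · rw [h0]; trivial
      · rw [h3]
        exact (kr_not_mem_iff A x₃).mpr (lt_of_lt_of_le hlam hv)

theorem kr_inE1_sub_w2 (H : LocHyp A W) {Q₁ Q₂ : W.toAffine.Point} (h₁ : InE1 A Q₁)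
    (h₂ : InE1 A Q₂) : InE1 A (Q₁ - Q₂) := by
  rw [sub_eq_add_neg]
  exact kr_inE1_add_w2 A H h₁ (kr_inE1_neg A h₂)

end Generic

section Frey

variable (P : FreyPackage) (A : ValuationSubring Qb)

theorem kr_val_two {q : ℕ} (hq : q.Prime) (hq2 : q ≠ 2) (hA : A.LiesOverPrime q) :
    A.valuation (2 : Qb) = 1 := by
  have : ¬ (q : ℤ) ∣ (2 : ℤ) := by
    intro hd
    have hd' : q ∣ 2 := by exact_mod_cast hd
    exact hq2 ((Nat.prime_dvd_prime_iff_eq hq Nat.prime_two).mp hd')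
  have := (val_int_eq_one_iff A hq hA 2).mpr this
  simpa using this

theorem kr_val_four {q : ℕ} (hq : q.Prime) (hq2 : q ≠ 2) (hA : A.LiesOverPrime q) :
    A.valuation (4 : Qb) = 1 := by
  have h : (4 : Qb) = 2 * 2 := by norm_num
  rw [h, map_mul, kr_val_two A hq hq2 hA, one_mul]

theorem kr_fA_le : A.valuation (fA P) ≤ 1 := by
  rw [fA, map_pow]; exact pow_le_one₀ zero_le (val_int_le_one A _)

theorem kr_fB_le : A.valuation (fB P) ≤ 1 := by
  rw [fB, map_pow]; exact pow_le_one₀ zero_le (val_int_le_one A _)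

theorem kr_fC_le : A.valuation (fC P) ≤ 1 := by
  rw [fC, map_pow]; exact pow_le_one₀ zero_le (val_int_le_one A _)

theorem kr_vc0_a₂ : (fVC 0 • freyQ P).a₂ = fB P - fA P := by
  rw [vcF_a₂]; ring

theorem kr_vc0_a₄ : (fVC 0 • freyQ P).a₄ = -(fA P * fB P) := by
  rw [vcF_a₄]; ring

theorem kr_vc0_a₆ : (fVC 0 • freyQ P).a₆ = 0 := by
  rw [vcF_a₆]; ring

/-- the `W2` model `Y² = X(X - a^p)(X + b^p)` of the Frey curve satisfies `LocHyp` at odd primes -/
theorem kr_frey_locHyp {q : ℕ} (hq : q.Prime) (hq2 : q ≠ 2) (hA : A.LiesOverPrime q) :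
    LocHyp A (fVC 0 • freyQ P) :=
  { w2 := ⟨vcF_a₁ P _, vcF_a₃ P _, kr_vc0_a₆ P⟩
    two := kr_val_two A hq hq2 hA
    a₂ := by rw [kr_vc0_a₂]; exact Valuation.map_sub_le _ (kr_fB_le P A) (kr_fA_le P A)
    a₄ := by
      rw [kr_vc0_a₄, Valuation.map_neg, map_mul]
      exact mul_le_one' (kr_fA_le P A) (kr_fB_le P A) }

/-- `InE1` is invariant under the transport `fVC r` when `r ∈ A` and `2` is a unit -/
theorem kr_inE1_symm_iff (h2 : A.valuation (2 : Qb) = 1) (r : Qb) (hr : A.valuation r ≤ 1)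
    (Q : (freyQ P).toAffine.Point) :
    InE1 A ((vcEquiv (freyQ P) (fVC r)).symm Q) ↔ InE1 A Q := by
  cases Q with
  | zero => exact Iff.rfl
  | some x y hxy =>
    rw [vcEquiv_symm_some' (freyQ P) (fVC r) hxy]
    change (x - (fVC r).r) / (((fVC r).u : Qbˣ) : Qb) ^ 2 ∉ A ↔ x ∉ A
    rw [kr_not_mem_iff, kr_not_mem_iff]
    have hu : (((fVC r).u : Qbˣ) : Qb) = 1 / 2 := by simp [fVC]
    have hr' : (fVC r).r = r := rfl
    have h4 : A.valuation (4 : Qb) = 1 := by
      have h : (4 : Qb) = 2 * 2 := by norm_num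
      rw [h, map_mul, h2, one_mul]
    have e : (x - (fVC r).r) / (((fVC r).u : Qbˣ) : Qb) ^ 2 = 4 * (x - r) := by
      rw [hu, hr']; field_simp; ring
    rw [e, map_mul, h4, one_mul]
    constructor
    · intro h
      by_contra hx
      have hx := not_lt.mp hx
      exact absurd (Valuation.map_sub_le _ hx hr) (not_le.mpr h)
    · intro h
      rw [Valuation.map_sub_eq_of_lt_left _ (lt_of_le_of_lt hr h)]
      exact h

/-- (B1') the kernel of reduction is a subgroup (odd residue characteristic is enough) -/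
theorem inE1_add (P : FreyPackage) (A : ValuationSubring Qb) {q : ℕ} (hq : q.Prime) (hq2 : q ≠ 2)
    (hA : A.LiesOverPrime q) {Q₁ Q₂ : FreyPt P} (h₁ : InE1 A Q₁) (h₂ : InE1 A Q₂) :
    InE1 A (Q₁ + Q₂) := by
  have h2 := kr_val_two A hq hq2 hA
  have H := kr_frey_locHyp P A hq hq2 hA
  have h0 : A.valuation (0 : Qb) ≤ 1 := by rw [_root_.map_zero]; exact zero_le
  have key := kr_inE1_add_w2 A H
    ((kr_inE1_symm_iff P A h2 0 h0 Q₁).mpr h₁) ((kr_inE1_symm_iff P A h2 0 h0 Q₂).mpr h₂)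
  rw [← map_add] at key
  exact (kr_inE1_symm_iff P A h2 0 h0 (Q₁ + Q₂)).mp key

theorem inE1_neg (P : FreyPackage) (A : ValuationSubring Qb) {Q : FreyPt P} (h : InE1 A Q) :
    InE1 A (-Q) :=
  kr_inE1_neg A h

theorem kr_inE1_sub (P : FreyPackage) (A : ValuationSubring Qb) {q : ℕ} (hq : q.Prime)
    (hq2 : q ≠ 2) (hA : A.LiesOverPrime q) {Q₁ Q₂ : FreyPt P} (h₁ : InE1 A Q₁)
    (h₂ : InE1 A Q₂) : InE1 A (Q₁ - Q₂) := by
  rw [sub_eq_add_neg]
  exact inE1_add P A hq hq2 hA h₁ (inE1_neg P A h₂)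

end Frey

end Fermat.Agent.S13x
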