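/-
S13 project (wave 3), leaf (d) "torsion of elliptic curves via Weierstrass-P":
every pair `(g₂, g₃)` with `g₂³ - 27 g₃² ≠ 0` comes from a lattice.
-/
import Mathlib
import Fermat.Agent.S24x.JFun

set_option autoImplicit false

namespace Fermat.Agent.S13x

open UpperHalfPlane ModularForm EisensteinSeries Complex
open scoped MatrixGroups Manifold ModularForm Real

/-! ### the period pair `(1, τ)` and scaling -/

/-- the period pair `(lam, lam * τ)`. -/
noncomputable def lgPair (lam : ℂ) (hlam : lam ≠ 0) (τ : ℍ) : PeriodPair where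
  ω₁ := lam
  ω₂ := lam * τ
  indep := by
    rw [LinearIndependent.pair_iff]
    intro s t h
    have h1 : lam * ((s : ℂ) + (t : ℂ) * τ) = 0 := by
      simp only [Complex.real_smul] at h
      linear_combination h
    have h2 : (s : ℂ) + (t : ℂ) * τ = 0 := by
      rcases mul_eq_zero.mp h1 with h | h
      · exact absurd h hlam
      · exact h
    have him := congrArg Complex.im h2
    have hre := congrArg Complex.re h2
    simp at him hre
    have ht : t = 0 := by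
      rcases him with h | h
      · exact h
      · exact absurd h τ.im_pos.ne'
    subst ht
    simp at hre
    exact ⟨hre, rfl⟩

@[simp] theorem lgPair_ω₁ (lam : ℂ) (hlam : lam ≠ 0) (τ : ℍ) : (lgPair lam hlam τ).ω₁ = lam := rfl
@[simp] theorem lgPair_ω₂ (lam : ℂ) (hlam : lam ≠ 0) (τ : ℍ) :
    (lgPair lam hlam τ).ω₂ = lam * τ := rfl

/-- the lattice sum of `(lam, lam τ)` as a sum over `ℤ²`. -/
theorem lg_G_eq_tsum (lam : ℂ) (hlam : lam ≠ 0) (τ : ℍ) (k : ℕ) :
    (lgPair lam hlam τ).G k =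
      (lam ^ k)⁻¹ * ∑' v : Fin 2 → ℤ, eisSummand k v τ := by
  set L := lgPair lam hlam τ with hL
  rw [PeriodPair.G, ← tsum_mul_left]
  -- reindex by `ℤ × ℤ`
  rw [← L.latticeEquivProd.symm.toEquiv.tsum_eq]
  -- then by `Fin 2 → ℤ`
  let e : (Fin 2 → ℤ) ≃ ℤ × ℤ :=
    { toFun := fun v => (v 1, v 0)
      invFun := fun x => ![x.2, x.1]
      left_inv := fun v => by ext i; fin_cases i <;> simp
      right_inv := fun x => by simp }
  rw [← e.tsum_eq]
  refine tsum_congr fun v => ?_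
  have h1 : ((L.latticeEquivProd.symm (e v) : L.lattice) : ℂ) = lam * ((v 0 : ℂ) * τ + v 1) := by
    have := L.latticeEquiv_symm_apply (e v)
    rw [this]
    simp [e, hL]
    ring
  show ((((L.latticeEquivProd.symm (e v) : L.lattice) : ℂ)) ^ k)⁻¹ = _
  rw [h1, eisSummand, mul_pow, mul_inv, zpow_neg, zpow_natCast]

/-- the lattice sum in terms of the normalised Eisenstein series. -/
theorem lg_G_eq_E (lam : ℂ) (hlam : lam ≠ 0) (τ : ℍ) {k : ℕ} (hk : 3 ≤ k) :
    (lgPair lam hlam τ).G k = (lam ^ k)⁻¹ * (2 * riemannZeta k * E hk τ) := by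
  rw [lg_G_eq_tsum, tsum_eisSummand_eq_riemannZeta_mul_eisensteinSeries hk]
  have h1 : E hk τ = (1 / 2 : ℂ) * eisensteinSeries (N := 1) 0 k τ := by
    show ((1 / 2 : ℂ) • eisensteinSeriesSIF (N := 1) 0 k) τ = _
    rw [FunLike.coe_smul, Pi.smul_apply, eisensteinSeriesSIF_apply, smul_eq_mul]
  rw [h1]
  ring

theorem lg_bernoulli'_five : bernoulli' 5 = 0 :=
  bernoulli'_eq_zero_of_odd (by decide) (by norm_num)

theorem lg_bernoulli'_six : bernoulli' 6 = 1 / 42 := by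
  have h := bernoulli'_spec 6
  simp only [Nat.succ_eq_add_one, Finset.sum_range_succ, Finset.sum_range_zero, bernoulli'_zero,
    bernoulli'_one, bernoulli'_two, bernoulli'_three, bernoulli'_four, lg_bernoulli'_five] at h
  norm_num [Nat.choose] at h
  linarith

theorem lg_bernoulli_six : bernoulli 6 = 1 / 42 := by
  rw [bernoulli_eq_bernoulli'_of_ne_one (by norm_num), lg_bernoulli'_six]

theorem lg_riemannZeta_six : riemannZeta 6 = (π : ℂ) ^ 6 / 945 := by
  have h := riemannZeta_two_mul_nat (k := 3) (by norm_num)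
  have h6 : ((2 : ℂ) * ((3 : ℕ) : ℂ)) = 6 := by norm_num
  rw [h6] at h
  rw [h, show 2 * 3 = 6 from rfl, lg_bernoulli_six]
  have hf : ((6 : ℕ).factorial : ℂ) = 720 := by norm_num [Nat.factorial]
  rw [hf]
  push_cast
  ring

/-- `g₂` of the lattice `lam (ℤ + ℤ τ)`. -/
theorem lg_g₂ (lam : ℂ) (hlam : lam ≠ 0) (τ : ℍ) :
    (lgPair lam hlam τ).g₂ = (lam ^ 4)⁻¹ * (4 * (π : ℂ) ^ 4 / 3 * E₄ τ) := by
  rw [PeriodPair.g₂, lg_G_eq_E lam hlam τ (by norm_num : 3 ≤ 4)]
  have h4 : riemannZeta ((4 : ℕ) : ℂ) = (π : ℂ) ^ 4 / 90 := by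
    have := riemannZeta_four
    simpa using this
  rw [h4]
  ring

/-- `g₃` of the lattice `lam (ℤ + ℤ τ)`. -/
theorem lg_g₃ (lam : ℂ) (hlam : lam ≠ 0) (τ : ℍ) :
    (lgPair lam hlam τ).g₃ = (lam ^ 6)⁻¹ * (8 * (π : ℂ) ^ 6 / 27 * E₆ τ) := by
  rw [PeriodPair.g₃, lg_G_eq_E lam hlam τ (by norm_num : 3 ≤ 6)]
  have h6 : riemannZeta ((6 : ℕ) : ℂ) = (π : ℂ) ^ 6 / 945 := by
    have := lg_riemannZeta_six
    simpa using this
  rw [h6]
  ring

/-- the scaling factor. -/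
theorem lg_exists_scale {a b G2 G3 : ℂ} (hab : a ^ 3 - 27 * b ^ 2 ≠ 0)
    (hG : G2 ^ 3 - 27 * G3 ^ 2 ≠ 0) (key : a ^ 3 * G3 ^ 2 = G2 ^ 3 * b ^ 2) :
    ∃ lam : ℂ, lam ≠ 0 ∧ lam ^ 4 * a = G2 ∧ lam ^ 6 * b = G3 := by
  by_cases ha : a = 0
  · subst ha
    have hb : b ≠ 0 := by
      rintro rfl; simp at hab
    have hG2 : G2 = 0 := by
      have : G2 ^ 3 * b ^ 2 = 0 := by rw [← key]; ring
      rcases mul_eq_zero.mp this with h | h
      · exact pow_eq_zero_iff (by norm_num) |>.mp h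
      · exact absurd (pow_eq_zero_iff (by norm_num) |>.mp h) hb
    have hG3 : G3 ≠ 0 := by
      rintro rfl; simp [hG2] at hG
    obtain ⟨lam, hlam⟩ := IsAlgClosed.exists_pow_nat_eq (G3 / b) (n := 6) (by norm_num)
    have hlam0 : lam ≠ 0 := by
      rintro rfl
      have : G3 / b = 0 := by rw [← hlam]; ring
      exact div_ne_zero hG3 hb this
    refine ⟨lam, hlam0, by rw [hG2]; ring, ?_⟩
    rw [hlam]; field_simp
  by_cases hb : b = 0
  · subst hb
    have hG3 : G3 = 0 := by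
      have : a ^ 3 * G3 ^ 2 = 0 := by rw [key]; ring
      rcases mul_eq_zero.mp this with h | h
      · exact absurd (pow_eq_zero_iff (by norm_num) |>.mp h) ha
      · exact pow_eq_zero_iff (by norm_num) |>.mp h
    have hG2 : G2 ≠ 0 := by
      rintro rfl; simp [hG3] at hG
    obtain ⟨lam, hlam⟩ := IsAlgClosed.exists_pow_nat_eq (G2 / a) (n := 4) (by norm_num)
    have hlam0 : lam ≠ 0 := by
      rintro rfl
      have : G2 / a = 0 := by rw [← hlam]; ring
      exact div_ne_zero hG2 ha this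
    refine ⟨lam, hlam0, ?_, by rw [hG3]; ring⟩
    rw [hlam]; field_simp
  -- generic case
  have hG2 : G2 ≠ 0 := by
    rintro rfl
    have h1 : a ^ 3 * G3 ^ 2 = 0 := by rw [key]; ring
    rcases mul_eq_zero.mp h1 with h | h
    · exact ha (pow_eq_zero_iff (by norm_num) |>.mp h)
    · have : G3 = 0 := pow_eq_zero_iff (by norm_num) |>.mp h
      apply hG; rw [this]; ring
  have hG3 : G3 ≠ 0 := by
    rintro rfl
    have h1 : G2 ^ 3 * b ^ 2 = 0 := by rw [← key]; ring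
    rcases mul_eq_zero.mp h1 with h | h
    · exact hG2 (pow_eq_zero_iff (by norm_num) |>.mp h)
    · exact hb (pow_eq_zero_iff (by norm_num) |>.mp h)
  obtain ⟨lam, hlam⟩ := IsAlgClosed.exists_pow_nat_eq (G3 * a / (G2 * b)) (n := 2) (by norm_num)
  have hlam0 : lam ≠ 0 := by
    rintro rfl
    have : G3 * a / (G2 * b) = 0 := by rw [← hlam]; ring
    exact div_ne_zero (mul_ne_zero hG3 ha) (mul_ne_zero hG2 hb) this
  have h4 : lam ^ 4 = G2 / a := by
    have : lam ^ 4 = (lam ^ 2) ^ 2 := by ring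
    rw [this, hlam]
    field_simp
    linear_combination key
  have h6 : lam ^ 6 = G3 / b := by
    have : lam ^ 6 = lam ^ 4 * lam ^ 2 := by ring
    rw [this, h4, hlam]
    field_simp
  refine ⟨lam, hlam0, ?_, ?_⟩
  · rw [h4]; field_simp
  · rw [h6]; field_simp

/-- **Uniformisation, first half**: every `(g₂, g₃)` with nonzero discriminant comes from a
lattice. -/
theorem lg_exists_periodPair_g2_g3 (a b : ℂ) (h : a ^ 3 - 27 * b ^ 2 ≠ 0) :
    ∃ L : PeriodPair, L.g₂ = a ∧ L.g₃ = b := by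
  obtain ⟨τ, hτ⟩ := Fermat.Agent.S24x.jFun_surjective (1728 * a ^ 3 / (a ^ 3 - 27 * b ^ 2))
  have hπ : (π : ℂ) ≠ 0 := by exact_mod_cast Real.pi_ne_zero
  have hΔ : ModularForm.discriminant τ ≠ 0 := ModularForm.discriminant_ne_zero τ
  have hD := ModularForm.discriminant_eq_E₄_cube_sub_E₆_sq τ
  have hD' : E₄ τ ^ 3 - E₆ τ ^ 2 = 1728 * ModularForm.discriminant τ := by
    rw [hD]; ring
  -- the relation coming from the `j`-invariant
  have hrel : a ^ 3 * E₆ τ ^ 2 = 27 * b ^ 2 * E₄ τ ^ 3 := by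
    rw [Fermat.Agent.S24x.jFun, div_eq_div_iff hΔ h] at hτ
    linear_combination hτ - a ^ 3 * hD'
  set G2 : ℂ := 4 * (π : ℂ) ^ 4 / 3 * E₄ τ with hG2
  set G3 : ℂ := 8 * (π : ℂ) ^ 6 / 27 * E₆ τ with hG3
  have hG : G2 ^ 3 - 27 * G3 ^ 2 ≠ 0 := by
    have : G2 ^ 3 - 27 * G3 ^ 2 = 64 * (π : ℂ) ^ 12 / 27 * (1728 * ModularForm.discriminant τ) := by
      rw [← hD', hG2, hG3]; ring
    rw [this]
    have h12 : (π : ℂ) ^ 12 ≠ 0 := pow_ne_zero _ hπ
    have : (64 * (π : ℂ) ^ 12 / 27) ≠ 0 := by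
      apply div_ne_zero (mul_ne_zero (by norm_num) h12) (by norm_num)
    exact mul_ne_zero this (mul_ne_zero (by norm_num) hΔ)
  have key : a ^ 3 * G3 ^ 2 = G2 ^ 3 * b ^ 2 := by
    rw [hG2, hG3]
    linear_combination (64 * (π : ℂ) ^ 12 / 729) * hrel
  obtain ⟨lam, hlam0, h4, h6⟩ := lg_exists_scale h hG key
  refine ⟨lgPair lam hlam0 τ, ?_, ?_⟩
  · rw [lg_g₂, ← hG2, ← h4]
    field_simp
  · rw [lg_g₃, ← hG3, ← h6]
    field_simp

/-- alias with the name used in the (d)-leaf interface. -/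
theorem exists_periodPair_g2_g3 (a b : ℂ) (h : a ^ 3 - 27 * b ^ 2 ≠ 0) :
    ∃ L : PeriodPair, L.g₂ = a ∧ L.g₃ = b :=
  lg_exists_periodPair_g2_g3 a b h

end Fermat.Agent.S13x
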