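import Mathlib

/-!
# S13 glue, part 1: abstract representation theory of a stable line in a plane over `ZMod p`

`V` is a `ZMod p`-module carrying a `DistribMulAction` of a group `G`, with `Nat.card V ≤ p ^ 2`,
and `N` is a `G`-stable submodule, `N ≠ ⊥`, `N ≠ ⊤`.

* `lgl_fixN N`   : the pointwise stabiliser of `N` (the kernel of the character `χ₁` on `N`);
* `lgl_cofix N hN` : `{g | ∀ x, g • x - x ∈ N}` (the kernel of the character `χ₂` on `V ⧸ N`);
* both are normal subgroups;
* `lgl_le_fixN_or_le_cofix` : a subgroup `I` acting trivially on `V ⧸ M` with `M ≠ ⊤` is contained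
  in `lgl_fixN N` or in `lgl_cofix N`;
* `lgl_le_fixN_and_le_cofix` : a subgroup `I` fixing `C` pointwise and acting trivially on `V ⧸ C`
  is contained in both;
* `lgl_cofix_eq_top` : the final skeleton.
-/

set_option autoImplicit false

namespace Fermat.Agent.S13x

section Abstract

variable {p : ℕ} [Fact p.Prime] {V : Type*} [AddCommGroup V] [Module (ZMod p) V]
  {G : Type*} [Group G] [DistribMulAction G V]

/-- `ZMod p`-scalars automatically commute with a distributive group action. -/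
theorem lgl_smul_comm (g : G) (c : ZMod p) (x : V) : g • (c • x) = c • (g • x) := by
  obtain ⟨n, rfl⟩ := ZMod.natCast_zmod_surjective c
  rw [Nat.cast_smul_eq_nsmul, Nat.cast_smul_eq_nsmul]
  exact (DistribSMul.toAddMonoidHom V g).map_nsmul n x

variable (G) in
/-- `N` is stable under the action of `G`. -/
def lgl_IsStable (N : Submodule (ZMod p) V) : Prop := ∀ g : G, ∀ x ∈ N, g • x ∈ N

variable (G) in
/-- The pointwise stabiliser of `N`. -/
def lgl_fixN (N : Submodule (ZMod p) V) : Subgroup G where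
  carrier := {g | ∀ x ∈ N, g • x = x}
  mul_mem' := by
    intro a b ha hb x hx
    rw [mul_smul, hb x hx, ha x hx]
  one_mem' := by
    intro x _
    exact one_smul _ _
  inv_mem' := by
    intro a ha x hx
    rw [inv_smul_eq_iff, ha x hx]

theorem lgl_mem_fixN {N : Submodule (ZMod p) V} {g : G} :
    g ∈ lgl_fixN G N ↔ ∀ x ∈ N, g • x = x := Iff.rfl

/-- The subgroup of elements acting trivially on `V ⧸ N`. -/
def lgl_cofix (N : Submodule (ZMod p) V) (hN : lgl_IsStable G N) : Subgroup G where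
  carrier := {g | ∀ x, g • x - x ∈ N}
  mul_mem' := by
    intro a b ha hb x
    have h1 : (a * b) • x - x = a • (b • x - x) + (a • x - x) := by
      rw [mul_smul, smul_sub]; abel
    rw [h1]
    exact N.add_mem (hN a _ (hb x)) (ha x)
  one_mem' := by
    intro x
    rw [one_smul, sub_self]
    exact N.zero_mem
  inv_mem' := by
    intro a ha x
    have h1 : a⁻¹ • x - x = - (a⁻¹ • (a • x - x)) := by
      rw [smul_sub, inv_smul_smul]; abel
    rw [h1]
    exact N.neg_mem (hN a⁻¹ _ (ha x))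

theorem lgl_mem_cofix {N : Submodule (ZMod p) V} {hN : lgl_IsStable G N} {g : G} :
    g ∈ lgl_cofix N hN ↔ ∀ x, g • x - x ∈ N := Iff.rfl

theorem lgl_fixN_normal (N : Submodule (ZMod p) V) (hN : lgl_IsStable G N) :
    (lgl_fixN G N).Normal := by
  constructor
  intro n hn g x hx
  have h1 : g⁻¹ • x ∈ N := hN g⁻¹ x hx
  rw [mul_smul, mul_smul, hn _ h1, smul_inv_smul]

instance lgl_cofix_normal (N : Submodule (ZMod p) V) (hN : lgl_IsStable G N) :
    (lgl_cofix N hN).Normal := by
  constructor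
  intro n hn g x
  have h1 : (g * n * g⁻¹) • x - x = g • (n • (g⁻¹ • x) - g⁻¹ • x) := by
    rw [mul_smul, mul_smul, smul_sub, smul_inv_smul]
  rw [h1]
  exact hN g _ (hn _)

end Abstract

section Dim

variable {p : ℕ} [Fact p.Prime] {V : Type*} [AddCommGroup V] [Module (ZMod p) V]

theorem lgl_finrank_le_two [Finite V] (hcard : Nat.card V ≤ p ^ 2) :
    Module.finrank (ZMod p) V ≤ 2 := by
  have hp : 1 < p := (Fact.out : p.Prime).one_lt
  have h := Module.natCard_eq_pow_finrank (K := ZMod p) (V := V)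
  rw [Nat.card_zmod] at h
  rw [h] at hcard
  exact (Nat.pow_le_pow_iff_right hp).mp hcard

/-- A proper nonzero submodule of a space of dimension `≤ 2` is a line. -/
theorem lgl_finrank_eq_one [Finite V] (hcard : Nat.card V ≤ p ^ 2)
    {N : Submodule (ZMod p) V} (hbot : N ≠ ⊥) (htop : N ≠ ⊤) :
    Module.finrank (ZMod p) N = 1 := by
  have h2 := lgl_finrank_le_two hcard
  have h1 : 1 ≤ Module.finrank (ZMod p) N := Submodule.one_le_finrank_iff.mpr hbot
  have h3 : Module.finrank (ZMod p) N < Module.finrank (ZMod p) V := Submodule.finrank_lt htop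
  omega

/-- Two lines-or-less in a plane: a proper submodule `M` is contained in the line `N`
or meets it trivially. -/
theorem lgl_le_or_inf_eq_bot [Finite V] (hcard : Nat.card V ≤ p ^ 2)
    {N : Submodule (ZMod p) V} (hbot : N ≠ ⊥) (htop : N ≠ ⊤)
    {M : Submodule (ZMod p) V} (hM : M ≠ ⊤) : M ≤ N ∨ M ⊓ N = ⊥ := by
  have h2 := lgl_finrank_le_two hcard
  have hN1 := lgl_finrank_eq_one hcard hbot htop
  by_cases h : M ⊓ N = ⊥
  · exact Or.inr h
  · left
    -- `M ⊓ N` is a nonzero submodule of the line `N`, so it equals `N`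
    have h1 : 1 ≤ Module.finrank (ZMod p) ↥(M ⊓ N) := Submodule.one_le_finrank_iff.mpr h
    have h3 : M ⊓ N = N :=
      Submodule.eq_of_le_of_finrank_le inf_le_right (by omega)
    have hNM : N ≤ M := by rw [← h3]; exact inf_le_left
    have h4 : Module.finrank (ZMod p) M < Module.finrank (ZMod p) V := Submodule.finrank_lt hM
    have h5 : N = M := Submodule.eq_of_le_of_finrank_le hNM (by omega)
    exact h5.ge

/-- Two distinct lines span the plane. -/
theorem lgl_sup_eq_top [Finite V] (hcard : Nat.card V ≤ p ^ 2)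
    {N : Submodule (ZMod p) V} (hbot : N ≠ ⊥)
    {M : Submodule (ZMod p) V} (hM : M ≠ ⊥) (hMN : M ⊓ N = ⊥) : M ⊔ N = ⊤ := by
  have h2 := lgl_finrank_le_two hcard
  have h1 : 1 ≤ Module.finrank (ZMod p) N := Submodule.one_le_finrank_iff.mpr hbot
  have h1' : 1 ≤ Module.finrank (ZMod p) M := Submodule.one_le_finrank_iff.mpr hM
  have h3 := Submodule.finrank_sup_add_finrank_inf_eq M N
  rw [hMN, finrank_bot, add_zero] at h3
  have h4 : Module.finrank (ZMod p) ↥(M ⊔ N) ≤ Module.finrank (ZMod p) V :=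
    Submodule.finrank_le _
  apply Submodule.eq_top_of_finrank_eq
  omega

/-- A submodule of the line `N` is `⊥` or `N`. -/
theorem lgl_eq_bot_or_eq_of_le [Finite V] (hcard : Nat.card V ≤ p ^ 2)
    {N : Submodule (ZMod p) V} (hbot : N ≠ ⊥) (htop : N ≠ ⊤)
    {M : Submodule (ZMod p) V} (hM : M ≤ N) : M = ⊥ ∨ M = N := by
  have hN1 := lgl_finrank_eq_one hcard hbot htop
  by_cases h : M = ⊥
  · exact Or.inl h
  · right
    have h1 : 1 ≤ Module.finrank (ZMod p) M := Submodule.one_le_finrank_iff.mpr h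
    exact Submodule.eq_of_le_of_finrank_le hM (by omega)

end Dim

section Inertia

variable {p : ℕ} [Fact p.Prime] {V : Type*} [AddCommGroup V] [Module (ZMod p) V]
  {G : Type*} [Group G] [DistribMulAction G V]

/-- If `I` acts trivially on `V ⧸ M` and `M ≤ N` then `I ≤ lgl_cofix N`. -/
theorem lgl_le_cofix_of_le {N : Submodule (ZMod p) V} (hN : lgl_IsStable G N)
    {I : Subgroup G} {M : Submodule (ZMod p) V} (hMN : M ≤ N)
    (hI : ∀ g ∈ I, ∀ x : V, g • x - x ∈ M) : I ≤ lgl_cofix N hN :=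
  fun g hg x => hMN (hI g hg x)

/-- If `I` acts trivially on `V ⧸ M` and `M ⊓ N = ⊥` then `I ≤ lgl_fixN N`. -/
theorem lgl_le_fixN_of_inf_eq_bot {N : Submodule (ZMod p) V} (hN : lgl_IsStable G N)
    {I : Subgroup G} {M : Submodule (ZMod p) V} (hMN : M ⊓ N = ⊥)
    (hI : ∀ g ∈ I, ∀ x : V, g • x - x ∈ M) : I ≤ lgl_fixN G N := by
  intro g hg x hx
  have h1 : g • x - x ∈ M ⊓ N := ⟨hI g hg x, N.sub_mem (hN g x hx) hx⟩
  rw [hMN, Submodule.mem_bot, sub_eq_zero] at h1
  exact h1

/-- **Trichotomy at `p`**: a subgroup `I` acting trivially on `V ⧸ M` for a proper submodule `M`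
of the plane `V` lies in `lgl_fixN N` or in `lgl_cofix N`, for every stable line `N`. -/
theorem lgl_le_fixN_or_le_cofix [Finite V] (hcard : Nat.card V ≤ p ^ 2)
    {N : Submodule (ZMod p) V} (hN : lgl_IsStable G N) (hbot : N ≠ ⊥) (htop : N ≠ ⊤)
    {I : Subgroup G} {M : Submodule (ZMod p) V} (hM : M ≠ ⊤)
    (hI : ∀ g ∈ I, ∀ x : V, g • x - x ∈ M) :
    I ≤ lgl_fixN G N ∨ I ≤ lgl_cofix N hN := by
  rcases lgl_le_or_inf_eq_bot hcard hbot htop hM with h | h
  · exact Or.inr (lgl_le_cofix_of_le hN h hI)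
  · exact Or.inl (lgl_le_fixN_of_inf_eq_bot hN h hI)

/-- **Uniform version**: a family of subgroups `I i` acting trivially on `V ⧸ M i` with `M i`
proper, such that either all `M i` meet `N` trivially or all contain `N`. -/
theorem lgl_uniform [Finite V] (hcard : Nat.card V ≤ p ^ 2)
    {N : Submodule (ZMod p) V} (hN : lgl_IsStable G N) (hbot : N ≠ ⊥) (htop : N ≠ ⊤)
    {ι : Sort*} (I : ι → Subgroup G) (M : ι → Submodule (ZMod p) V) (hM : ∀ i, M i ≠ ⊤)
    (hI : ∀ i, ∀ g ∈ I i, ∀ x : V, g • x - x ∈ M i)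
    (hunif : (∀ i, M i ⊓ N = ⊥) ∨ (∀ i, N ≤ M i)) :
    (∀ i, I i ≤ lgl_fixN G N) ∨ (∀ i, I i ≤ lgl_cofix N hN) := by
  rcases hunif with h | h
  · exact Or.inl fun i => lgl_le_fixN_of_inf_eq_bot hN (h i) (hI i)
  · refine Or.inr fun i => ?_
    rcases lgl_le_or_inf_eq_bot hcard hbot htop (hM i) with h' | h'
    · exact lgl_le_cofix_of_le hN h' (hI i)
    · exfalso
      apply hbot
      rw [eq_bot_iff, ← h']
      exact le_inf (h i) le_rfl

/-- **The lemma used at `2`**: a subgroup `I` fixing a submodule `C` pointwise and acting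
trivially on `V ⧸ C` lies in `lgl_fixN N ⊓ lgl_cofix N` for every stable line `N` of the plane. -/
theorem lgl_le_fixN_and_le_cofix [Finite V] (hcard : Nat.card V ≤ p ^ 2)
    {N : Submodule (ZMod p) V} (hN : lgl_IsStable G N) (hbot : N ≠ ⊥) (htop : N ≠ ⊤)
    {I : Subgroup G} {C : Submodule (ZMod p) V}
    (hC : ∀ g ∈ I, ∀ x ∈ C, g • x = x)
    (hI : ∀ g ∈ I, ∀ x : V, g • x - x ∈ C) :
    I ≤ lgl_fixN G N ∧ I ≤ lgl_cofix N hN := by
  by_cases hCtop : C = ⊤
  · -- everything is fixed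
    subst hCtop
    refine ⟨fun g hg x _ => hC g hg x trivial, fun g hg x => ?_⟩
    rw [hC g hg x trivial, sub_self]
    exact N.zero_mem
  rcases lgl_le_or_inf_eq_bot hcard hbot htop hCtop with h | h
  · refine ⟨?_, lgl_le_cofix_of_le hN h hI⟩
    rcases lgl_eq_bot_or_eq_of_le hcard hbot htop h with h' | h'
    · subst h'
      intro g hg x _
      have := hI g hg x
      rwa [Submodule.mem_bot, sub_eq_zero] at this
    · subst h'
      exact fun g hg x hx => hC g hg x hx
  · have hfix : I ≤ lgl_fixN G N := lgl_le_fixN_of_inf_eq_bot hN h hI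
    refine ⟨hfix, ?_⟩
    by_cases hCbot : C = ⊥
    · subst hCbot
      exact lgl_le_cofix_of_le hN bot_le hI
    · have hsup := lgl_sup_eq_top hcard hbot hCbot h
      intro g hg x
      have hx : x ∈ C ⊔ N := by rw [hsup]; trivial
      obtain ⟨c, hc, n, hn, rfl⟩ := Submodule.mem_sup.mp hx
      rw [smul_add, hC g hg c hc, hfix hg n hn, sub_self]
      exact N.zero_mem

/-- **Final skeleton.** `𝓘` is the set of all inertia subgroups, `𝓘p` those above `p`.
If every normal "open" subgroup containing all of `𝓘` is `⊤`, the stable line `N` has no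
nonzero `G`-fixed... more precisely `lgl_fixN N ≠ ⊤`, the inertia groups outside `𝓘p` lie in
both `lgl_fixN N` and `lgl_cofix N`, and the ones in `𝓘p` lie uniformly in one of the two,
then `G` acts trivially on `V ⧸ N`. -/
theorem lgl_cofix_eq_top {N : Submodule (ZMod p) V} (hN : lgl_IsStable G N)
    (IsOp : Subgroup G → Prop) (𝓘 𝓘p : Set (Subgroup G))
    (hglobal : ∀ H : Subgroup G, H.Normal → IsOp H → (∀ I ∈ 𝓘, I ≤ H) → H = ⊤)
    (hop1 : IsOp (lgl_fixN G N)) (hop2 : IsOp (lgl_cofix N hN))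
    (hfix : lgl_fixN G N ≠ ⊤)
    (haway : ∀ I ∈ 𝓘, I ∉ 𝓘p → I ≤ lgl_fixN G N ∧ I ≤ lgl_cofix N hN)
    (hatp : (∀ I ∈ 𝓘p, I ≤ lgl_fixN G N) ∨ (∀ I ∈ 𝓘p, I ≤ lgl_cofix N hN)) :
    lgl_cofix N hN = ⊤ := by
  rcases hatp with h | h
  · exfalso
    apply hfix
    refine hglobal _ (lgl_fixN_normal N hN) hop1 fun I hI => ?_
    by_cases hIp : I ∈ 𝓘p
    · exact h I hIp
    · exact (haway I hI hIp).1
  · refine hglobal _ (lgl_cofix_normal N hN) hop2 fun I hI => ?_
    by_cases hIp : I ∈ 𝓘p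
    · exact h I hIp
    · exact (haway I hI hIp).2

end Inertia

end Fermat.Agent.S13x
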