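import Fermat.Agent.S13x.Smooth2

/-!
# S13 project: the node model `Y² + a₁XY = X³ + a₂X² + a₄X`, tangent directions at the node

`A` is a valuation subring of `K`, `W` has coefficients in `A`, `a₃ = a₆ = 0`, `b₂ = a₁² + 4a₂` is
a unit and `a₄` lies in the maximal ideal (any residue characteristic, in particular `2`).
The reduced curve has a node at `(0,0)` and no other singular point.

* `nt2_ns_of_unit_x`: a point whose `x`-coordinate is a unit has nonsingular reduction.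
* `nt2_tangent`: for a point `(x, y)` with `v(a₄) < v(x) < 1` the slope `t = y/x` is integral and
  `t² + a₁t - a₂ = x + a₄/x` lies in the maximal ideal.
* `nt2_sub_unit`: two points reducing to the node, with the same `v(x)` and congruent tangent
  directions, differ by a point with `1 ≤ v(x)` (or by `0`).
-/

set_option autoImplicit false
open WeierstrassCurve WeierstrassCurve.Affine WeierstrassCurve.Affine.Point

namespace Fermat.Agent.S13x

variable {K : Type*} [Field K] (A : ValuationSubring K) {W : WeierstrassCurve K}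

/-- a point with unit `x`-coordinate reduces to a nonsingular point -/
theorem nt2_ns_of_unit_x (H : IsIntW A W) (h3 : W.a₃ = 0) (h6 : W.a₆ = 0)
    (hb2 : A.valuation W.b₂ = 1) (ha4 : A.valuation W.a₄ < 1)
    {x y : K} (h : W.toAffine.Nonsingular x y) (hx : A.valuation x = 1) :
    A.valuation (2 * y + W.a₁ * x + W.a₃) = 1 ∨
      A.valuation (3 * x ^ 2 + 2 * W.a₂ * x + W.a₄ - W.a₁ * y) = 1 := by
  have hy : A.valuation y ≤ 1 := sm2_y_integral A H h hx.le
  have hv2 := sm2_val_two_le A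
  have hv3 := sm2_val_three_le A
  have hu_le : A.valuation (2 * y + W.a₁ * x + W.a₃) ≤ 1 :=
    sm2_le_add A (sm2_le_add A (sm2_le_mul A hv2 hy) (sm2_le_mul A H.a₁ hx.le)) H.a₃
  have hn_le : A.valuation (3 * x ^ 2 + 2 * W.a₂ * x + W.a₄ - W.a₁ * y) ≤ 1 :=
    sm2_le_sub A (sm2_le_add A (sm2_le_add A (sm2_le_mul A hv3 (sm2_le_pow A hx.le 2))
      (sm2_le_mul A (sm2_le_mul A hv2 H.a₂) hx.le)) H.a₄) (sm2_le_mul A H.a₁ hy)
  by_contra hcon
  rw [not_or] at hcon
  have hu : A.valuation (2 * y + W.a₁ * x + W.a₃) < 1 := lt_of_le_of_ne hu_le hcon.1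
  have hn : A.valuation (3 * x ^ 2 + 2 * W.a₂ * x + W.a₄ - W.a₁ * y) < 1 :=
    lt_of_le_of_ne hn_le hcon.2
  have hx0 : x ≠ 0 := by
    intro h0; rw [h0, _root_.map_zero] at hx; exact zero_ne_one hx
  -- `x * (6x + b₂)` is a non-unit
  have h1 : A.valuation (x * (6 * x + W.b₂)) < 1 := by
    have : x * (6 * x + W.b₂) =
        W.a₁ * (2 * y + W.a₁ * x + W.a₃) + 2 * (3 * x ^ 2 + 2 * W.a₂ * x + W.a₄ - W.a₁ * y)
          + -(2 * W.a₄) := by
      simp only [WeierstrassCurve.b₂]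
      rw [h3]; ring
    rw [this]
    refine sm2_lt_add A (sm2_lt_add A ?_ ?_) ?_
    · rw [mul_comm]; exact sm2_lt_mul A hu H.a₁
    · rw [mul_comm]; exact sm2_lt_mul A hn hv2
    · rw [Valuation.map_neg, mul_comm]; exact sm2_lt_mul A ha4 hv2
  have h1' : A.valuation (6 * x + W.b₂) < 1 := by
    rw [map_mul, hx, one_mul] at h1; exact h1
  -- `x² * (4x + b₂)` is a non-unit
  have h2 : A.valuation (x ^ 2 * (4 * x + W.b₂)) < 1 := by
    have hpsi := wg_psi2_sq h
    have : x ^ 2 * (4 * x + W.b₂) =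
        (2 * y + W.a₁ * x + W.a₃) ^ 2 + -(4 * W.a₄ * x) := by
      rw [hpsi]
      simp only [WeierstrassCurve.b₄, WeierstrassCurve.b₆]
      rw [h3, h6]; ring
    rw [this]
    refine sm2_lt_add A ?_ ?_
    · rw [pow_two]; exact sm2_lt_mul A hu hu_le
    · rw [Valuation.map_neg]
      have : 4 * W.a₄ * x = W.a₄ * (4 * x) := by ring
      rw [this]
      refine sm2_lt_mul A ha4 (sm2_le_mul A ?_ hx.le)
      have : (4 : K) = 2 * 2 := by norm_num
      rw [this]; exact sm2_le_mul A hv2 hv2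
  have h2' : A.valuation (4 * x + W.b₂) < 1 := by
    rw [map_mul, map_pow, hx, one_pow, one_mul] at h2; exact h2
  -- hence `2x`, `2`, `4x`, `b₂` are non-units
  have h3' : A.valuation (2 * x) < 1 := by
    have : 2 * x = (6 * x + W.b₂) - (4 * x + W.b₂) := by ring
    rw [this]
    exact lt_of_le_of_lt (Valuation.map_sub _ _ _) (max_lt h1' h2')
  have h4' : A.valuation (4 * x) < 1 := by
    have : 4 * x = 2 * x * 2 := by ring
    rw [this]; exact sm2_lt_mul A h3' hv2
  have : A.valuation W.b₂ < 1 := by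
    have e : W.b₂ = (4 * x + W.b₂) - 4 * x := by ring
    rw [e]
    exact lt_of_le_of_lt (Valuation.map_sub _ _ _) (max_lt h2' h4')
  rw [hb2] at this
  exact lt_irrefl _ this

/-- the tangent direction `t = y/x` of a point reducing to the node -/
theorem nt2_tangent (H : IsIntW A W) (h3 : W.a₃ = 0) (h6 : W.a₆ = 0)
    {x y : K} (h : W.toAffine.Nonsingular x y) (hx : A.valuation x < 1)
    (hlt : A.valuation W.a₄ < A.valuation x) :
    x ≠ 0 ∧ (y / x) ^ 2 + W.a₁ * (y / x) - W.a₂ = x + W.a₄ / x ∧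
      A.valuation (x + W.a₄ / x) < 1 ∧ A.valuation (y / x) ≤ 1 := by
  have hvx0 : A.valuation x ≠ 0 := (lt_of_le_of_lt zero_le hlt).ne'
  have hx0 : x ≠ 0 := (Valuation.ne_zero_iff _).1 hvx0
  have e := wg_eq_of_nonsingular h
  rw [h3, h6] at e
  have ht : (y / x) ^ 2 + W.a₁ * (y / x) - W.a₂ = x + W.a₄ / x := by
    field_simp
    linear_combination e
  have hμ : A.valuation (x + W.a₄ / x) < 1 := by
    apply Valuation.map_add_lt _ hx
    rw [map_div₀]
    exact (div_lt_one₀ (zero_lt_iff.2 hvx0)).2 hlt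
  refine ⟨hx0, ht, hμ, ?_⟩
  by_contra hcon
  rw [not_le] at hcon
  have := sm2_val_addX A hcon H.a₁ H.a₂
  rw [ht] at this
  exact absurd hμ (not_lt.mpr this.le)

variable [DecidableEq K]

/-- **Tangent lemma at the node.**  Two points reducing to the node, with `x`-coordinates of the
same valuation (strictly between `v(a₄)` and `1`) and congruent tangent directions `y/x`, differ by
`0` or by a point whose `x`-coordinate has valuation `≥ 1`. -/
theorem nt2_sub_unit (H : IsIntW A W) (h3 : W.a₃ = 0) (h6 : W.a₆ = 0)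
    (hb2 : A.valuation W.b₂ = 1)
    {x₁ y₁ x₂ y₂ : K} (h₁ : W.toAffine.Nonsingular x₁ y₁) (h₂ : W.toAffine.Nonsingular x₂ y₂)
    (hx₁ : A.valuation x₁ < 1) (hxx : A.valuation x₂ = A.valuation x₁)
    (hlt : A.valuation W.a₄ < A.valuation x₁)
    (ht : A.valuation (y₁ / x₁ - y₂ / x₂) < 1) :
    Point.some x₁ y₁ h₁ - Point.some x₂ y₂ h₂ = 0 ∨
      ∃ (x₄ y₄ : K) (h₄ : W.toAffine.Nonsingular x₄ y₄),
        Point.some x₁ y₁ h₁ - Point.some x₂ y₂ h₂ = Point.some x₄ y₄ h₄ ∧
          1 ≤ A.valuation x₄ := by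
  have hv2 := sm2_val_two_le A
  have hx₂ : A.valuation x₂ < 1 := by rw [hxx]; exact hx₁
  have hlt₂ : A.valuation W.a₄ < A.valuation x₂ := by rw [hxx]; exact hlt
  obtain ⟨hx10, ht1, hμ1, hvt1⟩ := nt2_tangent A H h3 h6 h₁ hx₁ hlt
  obtain ⟨hx20, ht2, hμ2, hvt2⟩ := nt2_tangent A H h3 h6 h₂ hx₂ hlt₂
  -- `2 t₁ + a₁` is integral
  have hlin : A.valuation (2 * (y₁ / x₁) + W.a₁) ≤ 1 :=
    sm2_le_add A (sm2_le_mul A hv2 hvt1) H.a₁
  by_cases hne : x₁ = x₂
  · subst hne
    rcases wg_same_x h₁ h₂ with hpt | hpt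
    · left; rw [hpt, sub_self]
    · exfalso
      have hy2 : y₂ = W.toAffine.negY x₁ y₁ := by
        rw [Point.neg_some, Point.some.injEq] at hpt
        exact hpt.2
      have hdiff : y₁ / x₁ - y₂ / x₁ = 2 * (y₁ / x₁) + W.a₁ := by
        rw [hy2]; simp only [Affine.negY]; rw [h3]
        field_simp
        ring
      rw [hdiff] at ht
      have hsq : (2 * (y₁ / x₁) + W.a₁) ^ 2 = W.b₂ + 4 * (x₁ + W.a₄ / x₁) := by
        rw [← ht1]; simp only [WeierstrassCurve.b₂]; ring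
      have hval : A.valuation ((2 * (y₁ / x₁) + W.a₁) ^ 2) = 1 := by
        rw [hsq]
        apply sm2_val_add_eq_one A hb2
        rw [mul_comm]
        refine sm2_lt_mul A hμ1 ?_
        have : (4 : K) = 2 * 2 := by norm_num
        rw [this]; exact sm2_le_mul A hv2 hv2
      have hval' : A.valuation ((2 * (y₁ / x₁) + W.a₁) ^ 2) < 1 := by
        rw [pow_two]; exact sm2_lt_mul A ht ht.le
      rw [hval] at hval'
      exact lt_irrefl _ hval'
  · right
    obtain ⟨x₃, y₃, h₃, x₄, y₄, h₄, -, hsub, -, -, -, hx4⟩ := wg_add_sub h₁ h₂ hne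
    refine ⟨x₄, y₄, h₄, hsub, ?_⟩
    have e₁ := wg_eq_of_nonsingular h₁
    have e₂ := wg_eq_of_nonsingular h₂
    rw [h3, h6] at e₁ e₂
    have hd0 : x₁ - x₂ ≠ 0 := sub_ne_zero.mpr hne
    -- the basic identity for `x(P - Q)`
    have hB : x₄ * (x₁ - x₂) ^ 2 =
        x₁ * x₂ * (x₁ + x₂ + 2 * W.a₂) + W.a₄ * (x₁ + x₂) + 2 * y₁ * y₂
          + W.a₁ * (x₂ * y₁ + x₁ * y₂) + W.a₁ ^ 2 * x₁ * x₂ := by
      rw [hx4]
      simp only [Affine.negY]
      rw [h3]
      field_simp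
      linear_combination e₁ + e₂
    -- in terms of the tangent directions
    set t₁ : K := y₁ / x₁ with ht₁def
    set t₂ : K := y₂ / x₂ with ht₂def
    have hy₁ : y₁ = t₁ * x₁ := by rw [ht₁def, div_mul_cancel₀ _ hx10]
    have hy₂ : y₂ = t₂ * x₂ := by rw [ht₂def, div_mul_cancel₀ _ hx20]
    have hB' : x₄ * (x₁ - x₂) ^ 2 =
        x₁ * x₂ * (W.b₂ + (x₁ + x₂ + 2 * (x₁ + W.a₄ / x₁) + (t₂ - t₁) * (2 * t₁ + W.a₁)))
          + W.a₄ * (x₁ + x₂) := by
      rw [hB, ← ht1, hy₁, hy₂]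
      simp only [WeierstrassCurve.b₂]
      ring
    have hδ : A.valuation (x₁ + x₂ + 2 * (x₁ + W.a₄ / x₁) + (t₂ - t₁) * (2 * t₁ + W.a₁)) < 1 := by
      refine sm2_lt_add A (sm2_lt_add A (sm2_lt_add A hx₁ hx₂) ?_) ?_
      · rw [mul_comm]; exact sm2_lt_mul A hμ1 hv2
      · refine sm2_lt_mul A ?_ hlin
        rw [Valuation.map_sub_swap]; exact ht
    have hBu : A.valuation
        (W.b₂ + (x₁ + x₂ + 2 * (x₁ + W.a₄ / x₁) + (t₂ - t₁) * (2 * t₁ + W.a₁))) = 1 :=
      sm2_val_add_eq_one A hb2 hδ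
    have hpos : 0 < A.valuation x₁ := lt_of_le_of_lt zero_le hlt
    have hpos2 : 0 < A.valuation x₁ * A.valuation x₁ := mul_pos hpos hpos
    have hmain : A.valuation (x₁ * x₂ *
        (W.b₂ + (x₁ + x₂ + 2 * (x₁ + W.a₄ / x₁) + (t₂ - t₁) * (2 * t₁ + W.a₁)))) =
        A.valuation x₁ * A.valuation x₁ := by
      rw [map_mul, map_mul, hBu, hxx, mul_one]
    have hvsum : A.valuation (x₁ + x₂) ≤ A.valuation x₁ :=
      Valuation.map_add_le _ le_rfl hxx.le
    have hr2 : A.valuation (W.a₄ * (x₁ + x₂)) < A.valuation x₁ * A.valuation x₁ := by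
      rw [map_mul]
      calc A.valuation W.a₄ * A.valuation (x₁ + x₂)
          ≤ A.valuation W.a₄ * A.valuation x₁ := mul_le_mul_right hvsum _
        _ < A.valuation x₁ * A.valuation x₁ := mul_lt_mul_of_pos_right hlt hpos
    have hval : A.valuation (x₄ * (x₁ - x₂) ^ 2) = A.valuation x₁ * A.valuation x₁ := by
      rw [hB', Valuation.map_add_eq_of_lt_left _ (by rw [hmain]; exact hr2)]
      exact hmain
    have hvdiff : A.valuation (x₁ - x₂) ≤ A.valuation x₁ :=
      Valuation.map_sub_le _ le_rfl hxx.le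
    by_contra hcon
    rw [not_le] at hcon
    have hlt2 : A.valuation (x₄ * (x₁ - x₂) ^ 2) < A.valuation x₁ * A.valuation x₁ := by
      rw [map_mul, map_pow, pow_two]
      calc A.valuation x₄ * (A.valuation (x₁ - x₂) * A.valuation (x₁ - x₂))
          ≤ A.valuation x₄ * (A.valuation x₁ * A.valuation x₁) :=
            mul_le_mul_right (mul_le_mul' hvdiff hvdiff) _
        _ < 1 * (A.valuation x₁ * A.valuation x₁) := mul_lt_mul_of_pos_right hcon hpos2
        _ = A.valuation x₁ * A.valuation x₁ := one_mul _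
    rw [hval] at hlt2
    exact lt_irrefl _ hlt2

end Fermat.Agent.S13x
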