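import Mathlib
import Fermat.Prelude.Def_FLTPrelim_Ramification

/-!
# S13 project: valuation bookkeeping for valuation subrings of algebraic extensions of `ℚ`

`L` is a field of characteristic zero, `A : ValuationSubring L` lies over
the prime `q` (`A.LiesOverPrime q`, i.e. `(q : L) ∈ A.nonunits`).

* `vq_val_natCast`, `vq_val_intCast`, `vq_val_ratCast` : `v(r) = v(q) ^ ord_q(r)` for rational `r`;
* `vq_exists_pow_eq` : every algebraic `x ≠ 0` has `v(x) ^ m = v(q) ^ k` for some `m > 0`, `k : ℤ`;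
* `vq_val_decomp` / `vq_val_inertia` : elements of the decomposition (inertia) group preserve `v`
  (`vq_val_decomp_qbar`, `vq_val_inertia_qbar` for `AlgebraicClosure ℚ`).
-/

set_option autoImplicit false

namespace Fermat.Agent.S13x

open ValuationSubring Polynomial

section basic

variable {L : Type*} [Field L] (A : ValuationSubring L)

lemma vq_val_natCast_le_one (n : ℕ) : A.valuation (n : L) ≤ 1 :=
  (A.valuation_le_one_iff _).mpr (natCast_mem A n)

lemma vq_val_intCast_le_one (z : ℤ) : A.valuation (z : L) ≤ 1 :=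
  (A.valuation_le_one_iff _).mpr (intCast_mem A z)

variable {A} {q : ℕ}

lemma vq_val_q_lt_one (hA : A.LiesOverPrime q) : A.valuation (q : L) < 1 :=
  A.mem_nonunits_iff.mp hA

/-- a natural number prime to `q` is a unit of `A` -/
lemma vq_val_natCast_eq_one (hq : q.Prime) (hA : A.LiesOverPrime q) {n : ℕ} (hn : ¬ q ∣ n) :
    A.valuation (n : L) = 1 := by
  refine le_antisymm (vq_val_natCast_le_one A n) ?_
  by_contra hlt
  rw [not_le] at hlt
  have hcop : IsCoprime (q : ℤ) (n : ℤ) := by
    have hp : Prime (q : ℤ) := Nat.prime_iff_prime_int.mp hq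
    exact (Prime.coprime_iff_not_dvd hp).mpr (by exact_mod_cast hn)
  obtain ⟨u, v, huv⟩ := hcop
  have h1 : ((u : L) * (q : L) + (v : L) * (n : L)) = 1 := by
    have := congrArg (fun t : ℤ => (t : L)) huv
    simpa using this
  have h2 : A.valuation ((u : L) * (q : L) + (v : L) * (n : L)) < 1 := by
    refine lt_of_le_of_lt (A.valuation.map_add _ _) (max_lt ?_ ?_)
    · rw [map_mul]
      calc A.valuation (u : L) * A.valuation (q : L)
          ≤ 1 * A.valuation (q : L) := by
            gcongr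
            exact vq_val_intCast_le_one A u
        _ = A.valuation (q : L) := one_mul _
        _ < 1 := vq_val_q_lt_one hA
    · rw [map_mul]
      calc A.valuation (v : L) * A.valuation (n : L)
          ≤ 1 * A.valuation (n : L) := by
            gcongr
            exact vq_val_intCast_le_one A v
        _ = A.valuation (n : L) := one_mul _
        _ < 1 := hlt
  rw [h1, map_one] at h2
  exact lt_irrefl _ h2

/-- `v(n) = v(q) ^ ord_q(n)` for a nonzero natural number `n` -/
theorem vq_val_natCast (hq : q.Prime) (hA : A.LiesOverPrime q) {n : ℕ} (hn : n ≠ 0) :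
    A.valuation (n : L) = A.valuation (q : L) ^ (padicValNat q n) := by
  have : Fact q.Prime := ⟨hq⟩
  obtain ⟨e, n', hn', rfl⟩ := Nat.exists_eq_pow_mul_and_not_dvd hn q hq.ne_one
  have hn'0 : n' ≠ 0 := by rintro rfl; simp at hn'
  rw [padicValNat.mul (pow_ne_zero _ hq.ne_zero) hn'0, padicValNat.prime_pow,
    padicValNat.eq_zero_of_not_dvd hn', add_zero]
  push_cast
  rw [map_mul, map_pow, vq_val_natCast_eq_one hq hA hn', mul_one]

/-- `v(z) = v(q) ^ ord_q(z)` for a nonzero integer `z` -/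
theorem vq_val_intCast (hq : q.Prime) (hA : A.LiesOverPrime q) {z : ℤ} (hz : z ≠ 0) :
    A.valuation (z : L) = A.valuation (q : L) ^ (padicValInt q z) := by
  have h1 : A.valuation (z : L) = A.valuation ((z.natAbs : ℕ) : L) := by
    rcases Int.natAbs_eq z with h | h
    · conv_lhs => rw [h]
      simp
    · conv_lhs => rw [h]
      simp
  rw [h1, vq_val_natCast hq hA (Int.natAbs_ne_zero.mpr hz)]
  rfl

/-- `v(r) = v(q) ^ ord_q(r)` for a nonzero rational `r` -/
theorem vq_val_ratCast [CharZero L] (hq : q.Prime) (hA : A.LiesOverPrime q) {r : ℚ}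
    (hr : r ≠ 0) :
    A.valuation (r : L) = A.valuation (q : L) ^ (padicValRat q r) := by
  have hq0 : A.valuation (q : L) ≠ 0 := by
    rw [Ne, map_eq_zero]
    exact_mod_cast hq.ne_zero
  have hnum : r.num ≠ 0 := Rat.num_ne_zero.mpr hr
  have hden : r.den ≠ 0 := r.den_ne_zero
  have h1 : (r : L) = (r.num : L) / (r.den : L) := by
    conv_lhs => rw [← Rat.num_div_den r]
    push_cast
    rfl
  rw [h1, map_div₀, vq_val_intCast hq hA hnum, vq_val_natCast hq hA hden, padicValRat,
    zpow_sub₀ hq0, zpow_natCast, zpow_natCast]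

/-- existence form: the valuation of a nonzero rational is an integral power of `v(q)` -/
theorem vq_val_ratCast_exists [CharZero L] (hq : q.Prime) (hA : A.LiesOverPrime q) {r : ℚ}
    (hr : r ≠ 0) : ∃ k : ℤ, A.valuation (r : L) = A.valuation (q : L) ^ k :=
  ⟨_, vq_val_ratCast hq hA hr⟩

end basic

section algebraic

variable {L : Type*} [Field L] [Algebra ℚ L] {A : ValuationSubring L} {q : ℕ}

omit [Algebra ℚ L] in
/-- ultrametric principle: if a finite sum of nonzero terms vanishes, the maximal valuation is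
attained at least twice -/
lemma vq_exists_ne_val_eq {ι : Type*} [DecidableEq ι] (s : Finset ι) (t : ι → L)
    (ht : ∀ i ∈ s, t i ≠ 0) (hs : s.Nonempty) (hsum : ∑ i ∈ s, t i = 0) :
    ∃ i ∈ s, ∃ j ∈ s, i ≠ j ∧ A.valuation (t i) = A.valuation (t j) := by
  obtain ⟨i0, hi0, hmax⟩ := s.exists_max_image (fun i => A.valuation (t i)) hs
  by_contra hcon
  push Not at hcon
  have hv0 : A.valuation (t i0) ≠ 0 := by
    rw [Ne, map_eq_zero]; exact ht i0 hi0
  have hlt : ∀ j ∈ s.erase i0, A.valuation (t j) < A.valuation (t i0) := by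
    intro j hj
    have hj' := Finset.mem_erase.mp hj
    exact lt_of_le_of_ne (hmax j hj'.2) (fun h => hcon i0 hi0 j hj'.2 (Ne.symm hj'.1) h.symm)
  have h1 : A.valuation (∑ j ∈ s.erase i0, t j) < A.valuation (t i0) :=
    Valuation.map_sum_lt _ hv0 hlt
  have h2 : ∑ i ∈ s, t i = t i0 + ∑ j ∈ s.erase i0, t j := by
    rw [Finset.add_sum_erase s t hi0]
  have h3 : A.valuation (t i0 + ∑ j ∈ s.erase i0, t j) = A.valuation (t i0) :=
    Valuation.map_add_eq_of_lt_left _ h1
  rw [← h2, hsum, map_zero] at h3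
  exact hv0 h3.symm

/-- For `x ≠ 0` algebraic over `ℚ`, some positive power of `v(x)` is an integral power of
`v(q)`: the value group of `A` lies in the divisible hull of `v(q)^ℤ`. -/
theorem vq_exists_pow_eq (hq : q.Prime) (hA : A.LiesOverPrime q) {x : L} (hx : x ≠ 0)
    (halg : IsAlgebraic ℚ x) :
    ∃ m : ℕ, 0 < m ∧ ∃ k : ℤ, A.valuation x ^ m = A.valuation (q : L) ^ k := by
  have : CharZero L := algebraRat.charZero L
  obtain ⟨P, hP0, hPx⟩ := halg
  have hvx : A.valuation x ≠ 0 := by rw [Ne, map_eq_zero]; exact hx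
  have hvq : A.valuation (q : L) ≠ 0 := by
    rw [Ne, map_eq_zero]; exact_mod_cast hq.ne_zero
  -- rewrite as a sum over the support
  have hsum : ∑ i ∈ P.support, ((P.coeff i : ℚ) : L) * x ^ i = 0 := by
    rw [aeval_def, eval₂_eq_sum, Polynomial.sum_def] at hPx
    rw [← hPx]
    refine Finset.sum_congr rfl (fun i _ => ?_)
    rw [eq_ratCast]
  have hne : P.support.Nonempty := by
    rwa [Finset.nonempty_iff_ne_empty, Ne, support_eq_empty]
  have hterm : ∀ i ∈ P.support, ((P.coeff i : ℚ) : L) * x ^ i ≠ 0 := by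
    intro i hi
    refine mul_ne_zero ?_ (pow_ne_zero _ hx)
    exact_mod_cast (mem_support_iff.mp hi)
  obtain ⟨i, hi, j, hj, hij, hv⟩ :=
    vq_exists_ne_val_eq (A := A) P.support _ hterm hne hsum
  rw [map_mul, map_mul, map_pow, map_pow] at hv
  obtain ⟨ki, hki⟩ := vq_val_ratCast_exists hq hA (mem_support_iff.mp hi)
  obtain ⟨kj, hkj⟩ := vq_val_ratCast_exists hq hA (mem_support_iff.mp hj)
  rw [hki, hkj] at hv
  -- `v(q)^ki * v(x)^i = v(q)^kj * v(x)^j`
  have key : ∀ (i j : ℕ) (ki kj : ℤ), i < j →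
      A.valuation (q : L) ^ ki * A.valuation x ^ i = A.valuation (q : L) ^ kj * A.valuation x ^ j →
      ∃ m : ℕ, 0 < m ∧ ∃ k : ℤ, A.valuation x ^ m = A.valuation (q : L) ^ k := by
    intro i j ki kj hlt h
    refine ⟨j - i, Nat.sub_pos_of_lt hlt, ki - kj, ?_⟩
    have hj : j = i + (j - i) := by omega
    rw [hj, pow_add, ← mul_assoc] at h
    have h' : A.valuation (q : L) ^ ki =
        A.valuation (q : L) ^ kj * A.valuation x ^ (i + (j - i) - i) := by
      have hxi : A.valuation x ^ i ≠ 0 := pow_ne_zero _ hvx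
      have : A.valuation (q : L) ^ ki * A.valuation x ^ i =
          (A.valuation (q : L) ^ kj * A.valuation x ^ (j - i)) * A.valuation x ^ i := by
        rw [h, mul_assoc, mul_assoc, mul_comm (A.valuation x ^ i)]
      have h2 := mul_right_cancel₀ hxi this
      rw [h2]
      congr 2
      omega
    rw [zpow_sub₀ hvq, h']
    have : i + (j - i) - i = j - i := by omega
    rw [this]
    field_simp
  rcases lt_or_gt_of_ne hij with h | h
  · exact key i j ki kj h hv
  · exact key j i kj ki h hv.symm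

open scoped Pointwise in
/-- the decomposition group preserves membership in `A` -/
lemma vq_mem_iff_of_mem_decomp {σ : L ≃ₐ[ℚ] L} (hσ : σ ∈ A.decompositionSubgroup ℚ) (x : L) :
    σ x ∈ A ↔ x ∈ A := by
  have h1 : σ • A = A := MulAction.mem_stabilizer_iff.mp hσ
  have h2 : σ • x ∈ σ • A ↔ x ∈ A := ValuationSubring.smul_mem_pointwise_smul_iff
  rw [h1] at h2
  exact h2

lemma vq_val_le_one_iff_of_mem_decomp {σ : L ≃ₐ[ℚ] L} (hσ : σ ∈ A.decompositionSubgroup ℚ)
    (x : L) : A.valuation (σ x) ≤ 1 ↔ A.valuation x ≤ 1 := by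
  rw [A.valuation_le_one_iff, A.valuation_le_one_iff]
  exact vq_mem_iff_of_mem_decomp hσ x

lemma vq_val_eq_one_of_mem_decomp {σ : L ≃ₐ[ℚ] L} (hσ : σ ∈ A.decompositionSubgroup ℚ)
    {x : L} (hx : A.valuation x = 1) : A.valuation (σ x) = 1 := by
  have hx0 : x ≠ 0 := by
    rintro rfl
    simp at hx
  have h1 : A.valuation (σ x) ≤ 1 := (vq_val_le_one_iff_of_mem_decomp hσ x).mpr hx.le
  have h2 : A.valuation (σ x⁻¹) ≤ 1 := by
    refine (vq_val_le_one_iff_of_mem_decomp hσ x⁻¹).mpr ?_
    rw [map_inv₀, hx, inv_one]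
  rw [map_inv₀, map_inv₀] at h2
  have h3 : A.valuation (σ x) ≠ 0 := by
    rw [Ne, map_eq_zero]
    exact (map_ne_zero σ).mpr hx0
  have h4 : 1 ≤ A.valuation (σ x) := by
    have := (inv_le_one₀ (zero_lt_iff.mpr h3)).mp h2
    exact this
  exact le_antisymm h1 h4

/-- **The decomposition group preserves the valuation** of every element algebraic over `ℚ`. -/
theorem vq_val_decomp (hq : q.Prime) (hA : A.LiesOverPrime q) {σ : L ≃ₐ[ℚ] L}
    (hσ : σ ∈ A.decompositionSubgroup ℚ) (x : L) (halg : IsAlgebraic ℚ x) :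
    A.valuation (σ x) = A.valuation x := by
  have : CharZero L := algebraRat.charZero L
  by_cases hx : x = 0
  · subst hx; simp
  obtain ⟨m, hm, k, hk⟩ := vq_exists_pow_eq hq hA hx halg
  have hq0 : (q : L) ≠ 0 := by exact_mod_cast hq.ne_zero
  have hvq : A.valuation (q : L) ≠ 0 := by rw [Ne, map_eq_zero]; exact hq0
  -- `u = x^m / q^k` is a unit
  have hu : A.valuation (x ^ m / (q : L) ^ k) = 1 := by
    rw [map_div₀, map_pow, map_zpow₀, hk]
    exact div_self (zpow_ne_zero _ hvq)
  have hσu := vq_val_eq_one_of_mem_decomp hσ hu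
  have hσq : σ ((q : L) ^ k) = (q : L) ^ k := by
    rw [map_zpow₀, map_natCast]
  rw [map_div₀, hσq, map_pow, map_div₀, map_pow, map_zpow₀] at hσu
  have h5 : A.valuation (σ x) ^ m = A.valuation (q : L) ^ k := by
    have := (div_eq_one_iff_eq (zpow_ne_zero _ hvq)).mp hσu
    exact this
  rw [← hk] at h5
  exact (pow_left_inj hm.ne').mp h5

/-- the inertia group (as a subgroup of the full Galois group) lies in the decomposition group -/
lemma vq_inertia_le_decomp {σ : L ≃ₐ[ℚ] L} (hσ : σ ∈ A.inertiaSubgroupIn ℚ) :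
    σ ∈ A.decompositionSubgroup ℚ := by
  obtain ⟨g, _, rfl⟩ := hσ
  exact g.2

/-- the inertia group preserves the valuation -/
theorem vq_val_inertia (hq : q.Prime) (hA : A.LiesOverPrime q) {σ : L ≃ₐ[ℚ] L}
    (hσ : σ ∈ A.inertiaSubgroupIn ℚ) (x : L) (halg : IsAlgebraic ℚ x) :
    A.valuation (σ x) = A.valuation x :=
  vq_val_decomp hq hA (vq_inertia_le_decomp hσ) x halg

end algebraic

/-! ### specialisation to `AlgebraicClosure ℚ` -/

section qbar

local notation "Qc" => AlgebraicClosure ℚ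

theorem vq_isAlgebraic_qbar (x : Qc) : IsAlgebraic ℚ x := by
  have h : (AlgebraicClosure.instAlgebra ℚ : Algebra ℚ Qc) = DivisionRing.toRatAlgebra :=
    Subsingleton.elim _ _
  have h2 : @Algebra.IsAlgebraic ℚ Qc _ _ (AlgebraicClosure.instAlgebra ℚ) := inferInstance
  rw [h] at h2
  exact h2.isAlgebraic x

/-- `v(x)^m = v(q)^k` for some `m > 0`, `k : ℤ`, for every nonzero `x : Q̄` -/
theorem vq_exists_pow_eq_qbar {A : ValuationSubring Qc} {q : ℕ} (hq : q.Prime)
    (hA : A.LiesOverPrime q) {x : Qc} (hx : x ≠ 0) :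
    ∃ m : ℕ, 0 < m ∧ ∃ k : ℤ, A.valuation x ^ m = A.valuation (q : Qc) ^ k :=
  vq_exists_pow_eq hq hA hx (vq_isAlgebraic_qbar x)

/-- the decomposition group of `A` preserves the valuation of `A` -/
theorem vq_val_decomp_qbar {A : ValuationSubring Qc} {q : ℕ} (hq : q.Prime)
    (hA : A.LiesOverPrime q) {σ : Qc ≃ₐ[ℚ] Qc} (hσ : σ ∈ A.decompositionSubgroup ℚ) (x : Qc) :
    A.valuation (σ x) = A.valuation x :=
  vq_val_decomp hq hA hσ x (vq_isAlgebraic_qbar x)

/-- the inertia group of `A` preserves the valuation of `A` (the hypothesis `hτv` of the local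
node/`p`-adic cores) -/
theorem vq_val_inertia_qbar {A : ValuationSubring Qc} {q : ℕ} (hq : q.Prime)
    (hA : A.LiesOverPrime q) {σ : Qc ≃ₐ[ℚ] Qc} (hσ : σ ∈ A.inertiaSubgroupIn ℚ) (x : Qc) :
    A.valuation (σ x) = A.valuation x :=
  vq_val_inertia hq hA hσ x (vq_isAlgebraic_qbar x)

end qbar

end Fermat.Agent.S13x
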