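import Fermat.Agent.S13x.Defs
import Fermat.Agent.S13x.ValQbar

/-!
# S13 project, module G7: rational valuations and coordinates of Galois-fixed points

* `val_rat_eq_zpow` : for `A : ValuationSubring Qb` over the prime `q`, the valuation of a nonzero
  rational number is an integral power of `v(q)`;
* `coords_rat_of_fixed` : the coordinates of a `GQ`-fixed affine point of the Frey curve are
  fixed by `GQ` (hence rational by `fixed_mem_range`).
-/

set_option autoImplicit false
open WeierstrassCurve WeierstrassCurve.Affine WeierstrassCurve.Affine.Point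

namespace Fermat.Agent.S13x

/-- The valuation of a nonzero rational number is an integral power of `v(q)`. -/
theorem val_rat_eq_zpow (A : ValuationSubring Qb) {q : ℕ} (hq : q.Prime) (hA : A.LiesOverPrime q)
    (r : ℚ) (hr : r ≠ 0) :
    ∃ k : ℤ, A.valuation (algebraMap ℚ Qb r) = A.valuation (q : Qb) ^ k := by
  rw [eq_ratCast (algebraMap ℚ Qb) r]
  exact vq_val_ratCast_exists hq hA hr

/-- explicit form: the exponent is the `q`-adic valuation of `r` -/
theorem rv_val_rat_eq (A : ValuationSubring Qb) {q : ℕ} (hq : q.Prime) (hA : A.LiesOverPrime q)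
    (r : ℚ) (hr : r ≠ 0) :
    A.valuation (algebraMap ℚ Qb r) = A.valuation (q : Qb) ^ (padicValRat q r) := by
  rw [eq_ratCast (algebraMap ℚ Qb) r]
  exact vq_val_ratCast hq hA hr

/-- The action of `σ : GQ` on an affine point is coordinatewise. -/
theorem rv_smul_some (P : FreyPackage) (σ : GQ) (x y : Qb) (h : (P.freyCurve⁄Qb).Nonsingular x y) :
    ∃ h' : (P.freyCurve⁄Qb).Nonsingular (σ x) (σ y),
      σ • (Point.some x y h : FreyPt P) = Point.some (σ x) (σ y) h' := by
  refine ⟨?_, ?_⟩
  · have := (WeierstrassCurve.Affine.baseChange_nonsingular (W := P.freyCurve) (A := Qb) (B := Qb)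
      (f := σ.toAlgHom) σ.injective (x := x) (y := y)).mpr h
    exact this
  · rfl

/-- The coordinates of a `GQ`-fixed affine point of the Frey curve are `GQ`-fixed. -/
theorem coords_rat_of_fixed (P : FreyPackage) (x y : Qb) (h : (P.freyCurve⁄Qb).Nonsingular x y)
    (hfix : ∀ σ : GQ, σ • (Point.some x y h : FreyPt P) = Point.some x y h) :
    (∀ σ : GQ, σ x = x) ∧ (∀ σ : GQ, σ y = y) := by
  have key : ∀ σ : GQ, σ x = x ∧ σ y = y := by
    intro σ
    obtain ⟨h', hσ⟩ := rv_smul_some P σ x y h
    have := (hfix σ).symm.trans hσ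
    rw [Point.some.injEq] at this
    exact ⟨this.1.symm, this.2.symm⟩
  exact ⟨fun σ => (key σ).1, fun σ => (key σ).2⟩

end Fermat.Agent.S13x
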