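import Fermat.Agent.S13x.WGen

/-!
# S13 project: the smooth congruence lemma for a general integral Weierstrass model

`A` is a valuation subring of a field `K`, `W` a Weierstrass curve over `K` with coefficients in
`A` (`IsIntW A W`, any residue characteristic).  If two affine points with integral coordinates
are congruent modulo the maximal ideal and the common reduction is a nonsingular point of the
reduced curve, then their difference lies in the kernel of reduction `wg_E1 A H`
(`sm2_sub_mem_E1`).  In residue characteristic `2` two such points of odd order are equal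
(`sm2_eq_of_odd_torsion`).
-/

set_option autoImplicit false
open WeierstrassCurve WeierstrassCurve.Affine WeierstrassCurve.Affine.Point

namespace Fermat.Agent.S13x

variable {K : Type*} [Field K]

/-! ## small valuation lemmas -/

/-- if `v (s * d) = 1` and `v d < 1` then `1 < v s` -/
theorem sm2_one_lt_of_mul (A : ValuationSubring K) {s d : K}
    (h1 : A.valuation (s * d) = 1) (hd : A.valuation d < 1) : 1 < A.valuation s := by
  by_contra hs
  have hs := not_lt.mp hs
  rw [map_mul] at h1
  have : A.valuation s * A.valuation d ≤ 1 * A.valuation d := mul_le_mul' hs le_rfl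
  rw [h1, one_mul] at this
  exact absurd hd (not_lt.mpr this)

/-- a unit plus a non-unit is a unit -/
theorem sm2_val_add_eq_one (A : ValuationSubring K) {a b : K}
    (ha : A.valuation a = 1) (hb : A.valuation b < 1) : A.valuation (a + b) = 1 := by
  rw [← ha]
  exact Valuation.map_add_eq_of_lt_left _ (by rw [ha]; exact hb)

/-- non-unit times integral is a non-unit -/
theorem sm2_lt_mul (A : ValuationSubring K) {a b : K}
    (ha : A.valuation a < 1) (hb : A.valuation b ≤ 1) : A.valuation (a * b) < 1 := by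
  rw [map_mul]
  calc A.valuation a * A.valuation b ≤ A.valuation a * 1 := mul_le_mul' le_rfl hb
    _ = A.valuation a := mul_one _
    _ < 1 := ha

/-- integral times integral is integral -/
theorem sm2_le_mul (A : ValuationSubring K) {a b : K}
    (ha : A.valuation a ≤ 1) (hb : A.valuation b ≤ 1) : A.valuation (a * b) ≤ 1 := by
  rw [map_mul]
  calc A.valuation a * A.valuation b ≤ 1 * 1 := mul_le_mul' ha hb
    _ = 1 := mul_one _

theorem sm2_le_pow (A : ValuationSubring K) {a : K}
    (ha : A.valuation a ≤ 1) (k : ℕ) : A.valuation (a ^ k) ≤ 1 := by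
  rw [map_pow]
  exact pow_le_one' ha k

theorem sm2_le_add (A : ValuationSubring K) {a b : K}
    (ha : A.valuation a ≤ 1) (hb : A.valuation b ≤ 1) : A.valuation (a + b) ≤ 1 :=
  Valuation.map_add_le _ ha hb

theorem sm2_le_sub (A : ValuationSubring K) {a b : K}
    (ha : A.valuation a ≤ 1) (hb : A.valuation b ≤ 1) : A.valuation (a - b) ≤ 1 :=
  Valuation.map_sub_le _ ha hb

theorem sm2_lt_add (A : ValuationSubring K) {a b : K}
    (ha : A.valuation a < 1) (hb : A.valuation b < 1) : A.valuation (a + b) < 1 :=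
  Valuation.map_add_lt _ ha hb

theorem sm2_val_two_le (A : ValuationSubring K) : A.valuation (2 : K) ≤ 1 :=
  (A.valuation_le_one_iff _).mpr (by exact_mod_cast natCast_mem A 2)

theorem sm2_val_three_le (A : ValuationSubring K) : A.valuation (3 : K) ≤ 1 :=
  (A.valuation_le_one_iff _).mpr (by exact_mod_cast natCast_mem A 3)

/-- the `x`-coordinate `ℓ² + a₁ℓ - c` of a sum with a non-integral slope `ℓ` is non-integral -/
theorem sm2_val_addX (A : ValuationSubring K) {l a c : K} (hl : 1 < A.valuation l)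
    (ha : A.valuation a ≤ 1) (hc : A.valuation c ≤ 1) :
    1 < A.valuation (l ^ 2 + a * l - c) := by
  have hl0 : 0 < A.valuation l := lt_trans zero_lt_one hl
  have h2 : A.valuation l < A.valuation (l ^ 2) := by
    rw [map_pow, pow_two]
    calc A.valuation l = 1 * A.valuation l := (one_mul _).symm
      _ < A.valuation l * A.valuation l := mul_lt_mul_of_pos_right hl hl0
  have h1 : A.valuation (a * l) < A.valuation (l ^ 2) := by
    refine lt_of_le_of_lt ?_ h2
    rw [map_mul]
    calc A.valuation a * A.valuation l ≤ 1 * A.valuation l := mul_le_mul' ha le_rfl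
      _ = A.valuation l := one_mul _
  have h3 : A.valuation (l ^ 2 + a * l) = A.valuation (l ^ 2) :=
    Valuation.map_add_eq_of_lt_left _ h1
  have h4 : A.valuation c < A.valuation (l ^ 2 + a * l) := by
    rw [h3]; exact lt_of_le_of_lt hc (hl.trans h2)
  rw [Valuation.map_sub_eq_of_lt_left _ h4, h3]
  exact hl.trans h2

variable (A : ValuationSubring K) {W : WeierstrassCurve K}

/-- the `y`-coordinate of a point with integral `x` is integral -/
theorem sm2_y_integral (H : IsIntW A W) {x y : K} (h : W.toAffine.Nonsingular x y)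
    (hx : A.valuation x ≤ 1) : A.valuation y ≤ 1 := by
  by_contra hy
  rw [not_le] at hy
  have e := wg_eq_of_nonsingular h
  have hy0 : 0 < A.valuation y := lt_trans zero_lt_one hy
  have hlin : A.valuation (W.a₁ * x + W.a₃) ≤ 1 :=
    sm2_le_add A (sm2_le_mul A H.a₁ hx) H.a₃
  have hsum : A.valuation (y + (W.a₁ * x + W.a₃)) = A.valuation y :=
    Valuation.map_add_eq_of_lt_left _ (lt_of_le_of_lt hlin hy)
  have hL : A.valuation (y * (y + (W.a₁ * x + W.a₃))) = A.valuation y * A.valuation y := by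
    rw [map_mul, hsum]
  have hR : A.valuation (x ^ 3 + W.a₂ * x ^ 2 + W.a₄ * x + W.a₆) ≤ 1 :=
    sm2_le_add A (sm2_le_add A (sm2_le_add A (sm2_le_pow A hx 3)
      (sm2_le_mul A H.a₂ (sm2_le_pow A hx 2))) (sm2_le_mul A H.a₄ hx)) H.a₆
  have heq : y * (y + (W.a₁ * x + W.a₃)) = x ^ 3 + W.a₂ * x ^ 2 + W.a₄ * x + W.a₆ := by
    linear_combination e
  rw [heq] at hL
  rw [hL] at hR
  have : 1 < A.valuation y * A.valuation y :=
    calc (1 : A.ValueGroup) < A.valuation y := hy
      _ = 1 * A.valuation y := (one_mul _).symm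
      _ < A.valuation y * A.valuation y := mul_lt_mul_of_pos_right hy hy0
  exact absurd hR (not_le.mpr this)

variable [DecidableEq K]

/-- doubling with the slope made explicit -/
theorem sm2_double_slope {x y : K} (h : W.toAffine.Nonsingular x y)
    (hy : y ≠ W.toAffine.negY x y) :
    ∃ (x' y' : K) (h' : W.toAffine.Nonsingular x' y'),
      Point.some x y h + Point.some x y h = Point.some x' y' h' ∧
      x' = ((3 * x ^ 2 + 2 * W.a₂ * x + W.a₄ - W.a₁ * y) / (2 * y + W.a₁ * x + W.a₃)) ^ 2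
        + W.a₁ * ((3 * x ^ 2 + 2 * W.a₂ * x + W.a₄ - W.a₁ * y) / (2 * y + W.a₁ * x + W.a₃))
        - (W.a₂ + x + x) := by
  refine ⟨_, _, _, Point.add_self_of_Y_ne hy, ?_⟩
  rw [Affine.slope_of_Y_ne rfl hy]
  have hden : y - W.toAffine.negY x y = 2 * y + W.a₁ * x + W.a₃ := by
    simp only [Affine.negY]; ring
  rw [hden]
  simp only [Affine.addX]
  ring

/-- **Smooth congruence lemma.**  Two affine points with integral coordinates which are congruent
modulo the maximal ideal, the reduction being a nonsingular point of the reduced curve, differ by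
an element of the kernel of reduction. -/
theorem sm2_sub_mem_E1 (H : IsIntW A W) {x₁ y₁ x₂ y₂ : K}
    (h₁ : W.toAffine.Nonsingular x₁ y₁) (h₂ : W.toAffine.Nonsingular x₂ y₂)
    (hx₁ : A.valuation x₁ ≤ 1) (hy₁ : A.valuation y₁ ≤ 1)
    (hxx : A.valuation (x₁ - x₂) < 1) (hyy : A.valuation (y₁ - y₂) < 1)
    (hns : A.valuation (2 * y₁ + W.a₁ * x₁ + W.a₃) = 1 ∨
      A.valuation (3 * x₁ ^ 2 + 2 * W.a₂ * x₁ + W.a₄ - W.a₁ * y₁) = 1) :
    Point.some x₁ y₁ h₁ - Point.some x₂ y₂ h₂ ∈ wg_E1 A H := by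
  have ha1 := H.a₁
  have ha2 := H.a₂
  have ha3 := H.a₃
  have ha4 := H.a₄
  have hv2 := sm2_val_two_le A
  have hv3 := sm2_val_three_le A
  have hx₂ : A.valuation x₂ ≤ 1 := by
    have : x₂ = x₁ - (x₁ - x₂) := by ring
    rw [this]; exact sm2_le_sub A hx₁ hxx.le
  have hy₂ : A.valuation y₂ ≤ 1 := by
    have : y₂ = y₁ - (y₁ - y₂) := by ring
    rw [this]; exact sm2_le_sub A hy₁ hyy.le
  -- integrality of the two partial derivatives
  have hu_le : A.valuation (2 * y₁ + W.a₁ * x₁ + W.a₃) ≤ 1 :=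
    sm2_le_add A (sm2_le_add A (sm2_le_mul A hv2 hy₁) (sm2_le_mul A ha1 hx₁)) ha3
  by_cases hne : x₁ = x₂
  · subst hne
    rcases wg_same_x h₁ h₂ with hpt | hpt
    · rw [hpt, sub_self]; exact (wg_E1 A H).zero_mem
    · -- `P₂ = -P₁`, the difference is `2 P₁`
      have hy2 : y₂ = W.toAffine.negY x₁ y₁ := by
        rw [Point.neg_some, Point.some.injEq] at hpt
        exact hpt.2
      rw [hpt, sub_neg_eq_add]
      by_cases hy : y₁ = W.toAffine.negY x₁ y₁
      · rw [Point.add_self_of_Y_eq hy]; exact (wg_E1 A H).zero_mem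
      · obtain ⟨x', y', h', hdbl, hx'⟩ := sm2_double_slope h₁ hy
        rw [hdbl]
        refine Or.inr ?_
        rw [wgX_some]
        -- the denominator is a non-unit
        have hu : A.valuation (2 * y₁ + W.a₁ * x₁ + W.a₃) < 1 := by
          have : y₁ - y₂ = 2 * y₁ + W.a₁ * x₁ + W.a₃ := by
            rw [hy2]; simp only [Affine.negY]; ring
          rw [← this]; exact hyy
        have hn : A.valuation (3 * x₁ ^ 2 + 2 * W.a₂ * x₁ + W.a₄ - W.a₁ * y₁) = 1 := by
          rcases hns with h1 | h1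
          · exact absurd h1 (ne_of_lt hu)
          · exact h1
        have hu0 : 2 * y₁ + W.a₁ * x₁ + W.a₃ ≠ 0 := by
          intro h0
          apply hy
          simp only [Affine.negY]
          linear_combination h0
        have hl : 1 < A.valuation ((3 * x₁ ^ 2 + 2 * W.a₂ * x₁ + W.a₄ - W.a₁ * y₁) /
            (2 * y₁ + W.a₁ * x₁ + W.a₃)) := by
          apply sm2_one_lt_of_mul A (d := 2 * y₁ + W.a₁ * x₁ + W.a₃) _ hu
          rw [div_mul_cancel₀ _ hu0]; exact hn
        rw [hx']
        exact sm2_val_addX A hl ha1 (sm2_le_add A (sm2_le_add A ha2 hx₁) hx₁)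
  · obtain ⟨x₃, y₃, h₃, x₄, y₄, h₄, -, hsub, -, -, -, hx4⟩ := wg_add_sub h₁ h₂ hne
    rw [hsub]
    refine Or.inr ?_
    rw [wgX_some]
    have e₁ := wg_eq_of_nonsingular h₁
    have e₂ := wg_eq_of_nonsingular h₂
    have hd0 : x₁ - x₂ ≠ 0 := sub_ne_zero.mpr hne
    set l : K := (y₁ - W.toAffine.negY x₂ y₂) / (x₁ - x₂) with hl_def
    have hld : l * (x₁ - x₂) = y₁ - W.toAffine.negY x₂ y₂ := div_mul_cancel₀ _ hd0
    have hnum : y₁ - W.toAffine.negY x₂ y₂ =
        (2 * y₁ + W.a₁ * x₁ + W.a₃) + (-(y₁ - y₂) + -(W.a₁ * (x₁ - x₂))) := by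
      simp only [Affine.negY]; ring
    have hsmall : A.valuation (-(y₁ - y₂) + -(W.a₁ * (x₁ - x₂))) < 1 := by
      apply sm2_lt_add A
      · rw [Valuation.map_neg]; exact hyy
      · rw [Valuation.map_neg, mul_comm]; exact sm2_lt_mul A hxx ha1
    have hl1 : 1 < A.valuation l := by
      by_cases hu1 : A.valuation (2 * y₁ + W.a₁ * x₁ + W.a₃) = 1
      · apply sm2_one_lt_of_mul A (d := x₁ - x₂) _ hxx
        rw [hld, hnum]
        exact sm2_val_add_eq_one A hu1 hsmall
      · have hu : A.valuation (2 * y₁ + W.a₁ * x₁ + W.a₃) < 1 := lt_of_le_of_ne hu_le hu1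
        have hn : A.valuation (3 * x₁ ^ 2 + 2 * W.a₂ * x₁ + W.a₄ - W.a₁ * y₁) = 1 := by
          rcases hns with h1 | h1
          · exact absurd h1 hu1
          · exact h1
        -- second expression of the slope
        have hD : A.valuation (y₁ - y₂ + W.a₁ * (x₁ - x₂)) < 1 := by
          apply sm2_lt_add A hyy
          rw [mul_comm]; exact sm2_lt_mul A hxx ha1
        have hkey : l * (y₁ - y₂ + W.a₁ * (x₁ - x₂)) =
            x₁ ^ 2 + x₁ * x₂ + x₂ ^ 2 + W.a₂ * (x₁ + x₂) + W.a₄
              - W.a₁ * W.toAffine.negY x₂ y₂ := by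
          apply mul_left_cancel₀ hd0
          calc (x₁ - x₂) * (l * (y₁ - y₂ + W.a₁ * (x₁ - x₂)))
              = (l * (x₁ - x₂)) * (y₁ - y₂ + W.a₁ * (x₁ - x₂)) := by ring
            _ = (y₁ - W.toAffine.negY x₂ y₂) * (y₁ - y₂ + W.a₁ * (x₁ - x₂)) := by rw [hld]
            _ = _ := by
                simp only [Affine.negY]
                linear_combination e₁ - e₂
        have hN : A.valuation (x₁ ^ 2 + x₁ * x₂ + x₂ ^ 2 + W.a₂ * (x₁ + x₂) + W.a₄
              - W.a₁ * W.toAffine.negY x₂ y₂) = 1 := by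
          have : x₁ ^ 2 + x₁ * x₂ + x₂ ^ 2 + W.a₂ * (x₁ + x₂) + W.a₄
              - W.a₁ * W.toAffine.negY x₂ y₂ =
              (3 * x₁ ^ 2 + 2 * W.a₂ * x₁ + W.a₄ - W.a₁ * y₁) +
                ((x₁ - x₂) * (-(x₂ + 2 * x₁ + W.a₂)) +
                  W.a₁ * (y₁ - W.toAffine.negY x₂ y₂)) := by
            simp only [Affine.negY]; ring
          rw [this]
          apply sm2_val_add_eq_one A hn
          apply sm2_lt_add A
          · apply sm2_lt_mul A hxx
            rw [Valuation.map_neg]
            exact sm2_le_add A (sm2_le_add A hx₂ (sm2_le_mul A hv2 hx₁)) ha2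
          · rw [mul_comm]
            refine sm2_lt_mul A ?_ ha1
            rw [hnum]
            exact sm2_lt_add A hu hsmall
        apply sm2_one_lt_of_mul A (d := y₁ - y₂ + W.a₁ * (x₁ - x₂)) _ hD
        rw [hkey]; exact hN
    have : x₄ = l ^ 2 + W.a₁ * l - (W.a₂ + x₁ + x₂) := by rw [hx4]; ring
    rw [this]
    exact sm2_val_addX A hl1 ha1 (sm2_le_add A (sm2_le_add A ha2 hx₁) hx₂)

/-- **Residue characteristic `2`**: two points of odd order with integral coordinates which are
congruent modulo the maximal ideal, with nonsingular reduction, are equal. -/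
theorem sm2_eq_of_odd_torsion (H : IsIntW A W) (h2 : A.valuation (2 : K) < 1) {n : ℕ}
    (hn : Odd n) {x₁ y₁ x₂ y₂ : K}
    (h₁ : W.toAffine.Nonsingular x₁ y₁) (h₂ : W.toAffine.Nonsingular x₂ y₂)
    (hP₁ : n • Point.some x₁ y₁ h₁ = 0) (hP₂ : n • Point.some x₂ y₂ h₂ = 0)
    (hx₁ : A.valuation x₁ ≤ 1) (hy₁ : A.valuation y₁ ≤ 1)
    (hxx : A.valuation (x₁ - x₂) < 1) (hyy : A.valuation (y₁ - y₂) < 1)
    (hns : A.valuation (2 * y₁ + W.a₁ * x₁ + W.a₃) = 1 ∨
      A.valuation (3 * x₁ ^ 2 + 2 * W.a₂ * x₁ + W.a₄ - W.a₁ * y₁) = 1) :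
    Point.some x₁ y₁ h₁ = Point.some x₂ y₂ h₂ := by
  have hmem := sm2_sub_mem_E1 A H h₁ h₂ hx₁ hy₁ hxx hyy hns
  have htors : n • (Point.some x₁ y₁ h₁ - Point.some x₂ y₂ h₂) = 0 := by
    rw [smul_sub, hP₁, hP₂, sub_zero]
  rcases hmem with h0 | hlt
  · exact sub_eq_zero.mp h0
  · exfalso
    have hne : Point.some x₁ y₁ h₁ - Point.some x₂ y₂ h₂ ≠ 0 := by
      intro h0
      rw [h0] at hlt
      simp only [wgX] at hlt
      rw [_root_.map_zero] at hlt
      exact absurd hlt (not_lt.mpr zero_le_one)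
    obtain ⟨x, y, h, hQ⟩ := wg_exists_some hne
    rw [hQ] at htors hlt
    rw [wgX_some] at hlt
    exact absurd (wg_torsion_x_integral_two A H h2 hn h htors) (not_le.mpr hlt)

end Fermat.Agent.S13x
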