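import Fermat.Agent.S13x.FreyTwo
import Fermat.Agent.S13x.W1Saw
import Fermat.Agent.S13x.InertiaTwo
import Fermat.Agent.S13x.Smooth2
import Fermat.Agent.S13x.NodeTan2
import Fermat.Agent.S13x.FixedRat
import Fermat.Agent.S13x.RatVal
import Fermat.Agent.S13x.Minkowski

/-!
# S13 project, leaf C: **(C2)** the Frey curve has no rational point of order `p`
(independent copy by helper87, prefix `nrc_`)

A `G_ℚ`-fixed nonzero `p`-torsion point `Q` has rational coordinates.  Fix `A` over `2`.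
Sawtooth + `p ∤ 2h` (`v(a₄) = v(2)^h`) + no odd torsion in the kernel of reduction give that every
nonzero multiple of `Q` has unit `x`-coordinate; a rational unit is `≡ 1`, a rational integer is
`≡ 0, 1` modulo the maximal ideal, so two of `Q, 2Q, 3Q` have the same (nonsingular) reduction and
hence are equal by the smooth congruence lemma: contradiction with `p ≥ 5`.
-/

set_option autoImplicit false
open WeierstrassCurve WeierstrassCurve.Affine WeierstrassCurve.Affine.Point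
open Fermat.Agent.S05x (psz sz)

namespace Fermat.Agent.S13x

/-- pure arithmetic behind the sawtooth step -/
theorem nrc_arith {p h : ℕ} (hp : p.Prime) (hnd : ¬ p ∣ 2 * h) {k m : ℤ}
    (hk0 : 0 < k) (hkh : k ≤ h) (e : k * p = h * (2 * m)) : False := by
  have hpi : Prime (p : ℤ) := Nat.prime_iff_prime_int.mp hp
  have hdvd : (p : ℤ) ∣ ((2 * h : ℕ) : ℤ) * m := ⟨k, by push_cast; linarith⟩
  rcases hpi.dvd_or_dvd hdvd with h1 | h1
  · exact hnd (Int.natCast_dvd_natCast.mp h1)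
  · obtain ⟨m', rfl⟩ := h1
    have hp0 : (p : ℤ) ≠ 0 := by exact_mod_cast hp.ne_zero
    have hk : k = 2 * h * m' := by
      apply mul_right_cancel₀ hp0
      rw [e]; ring
    have hh0 : (0 : ℤ) ≤ h := Int.natCast_nonneg h
    rcases le_or_gt m' 0 with hm | hm
    · have : k ≤ 0 := by rw [hk]; exact mul_nonpos_of_nonneg_of_nonpos (by linarith) hm
      linarith
    · have h1 : (1 : ℤ) ≤ m' := hm
      have : 2 * (h : ℤ) * 1 ≤ 2 * h * m' := mul_le_mul_of_nonneg_left h1 (by linarith)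
      have hhpos : (0 : ℤ) < h := by linarith
      linarith

variable (P : FreyPackage) (A : ValuationSubring Qb)

/-- a rational `p`-torsion point of the Frey curve has unit `x`-coordinate at `2` -/
theorem nrc_unit_x (hA : A.LiesOverPrime 2) {x y : Qb}
    (h : (P.freyCurve⁄Qb).Nonsingular x y) (hr : x ∈ (algebraMap ℚ Qb).range)
    (hP : P.p • (Point.some x y h : FreyPt P) = 0) : A.valuation x = 1 := by
  have H := in2_w1Hyp P A hA
  have hle : A.valuation x ≤ 1 :=
    wg_torsion_x_integral_two A (frey_isIntW P A) (fi_val_two_lt A hA) P.hp_odd h hP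
  by_contra hne
  have hlt : A.valuation x < 1 := lt_of_le_of_ne hle hne
  obtain ⟨m, hm⟩ := w1_psz_pow_mem A H (Point.some x y h) P.p hP
  have hne_eta := w1_psz_ne_eta A H (Point.some x y h) P.hp_odd hP
  have hpsz : psz A (P.freyCurve⁄Qb) (Point.some x y h)
      = max (A.valuation x) (A.valuation (P.freyCurve⁄Qb).a₄) := by
    show min 1 (max (A.valuation x) (A.valuation (P.freyCurve⁄Qb).a₄)) = _
    exact min_eq_right (max_lt hlt H.a₄m).le
  rcases le_or_gt (A.valuation (P.freyCurve⁄Qb).a₄) (A.valuation x) with hge | hlt2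
  · rw [hpsz, max_eq_left hge] at hm
    have hx0 : x ≠ 0 := by
      intro h0
      rw [h0, _root_.map_zero] at hge
      exact w1_val_a₄_ne_zero A H (le_antisymm hge zero_le')
    obtain ⟨r, rfl⟩ := hr
    have hr0 : r ≠ 0 := by
      intro h0; apply hx0; rw [h0, _root_.map_zero]
    obtain ⟨k, hk⟩ := ft_val_rat' A hA hr0
    obtain ⟨h', hh'pos, hh', hnd⟩ := ft_exists_h P A hA
    rw [hk, hh'] at hm
    rw [hk] at hlt
    rw [hk, hh'] at hge
    have e1 : (A.valuation (2 : Qb) ^ k) ^ P.p = A.valuation (2 : Qb) ^ (k * (P.p : ℤ)) := by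
      rw [← zpow_natCast, ← zpow_mul]
    have e2 : (A.valuation (2 : Qb) ^ h') ^ (2 * m) = A.valuation (2 : Qb) ^ ((h' : ℤ) * (2 * m)) := by
      rw [← zpow_natCast (A.valuation (2 : Qb)) h', ← zpow_mul]
    rw [e1, e2] at hm
    have e := ft_val_two_zpow_inj A hA hm
    have hk0 : 0 < k := by
      have := (zpow_lt_zpow_iff_right_of_lt_one₀ (ft_val_two_pos A) (fi_val_two_lt A hA)
        (m := k) (n := 0)).mp (by rw [zpow_zero]; exact hlt)
      exact this
    have hkh : k ≤ h' := by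
      rw [← zpow_natCast] at hge
      exact (zpow_le_zpow_iff_right_of_lt_one₀ (ft_val_two_pos A) (fi_val_two_lt A hA)).mp hge
    exact nrc_arith P.pp hnd hk0 hkh e
  · rw [max_eq_right hlt2.le] at hpsz
    exact hne_eta hpsz

/-- a rational element of `A` is `≡ 0` or `≡ 1` -/
theorem nrc_res (hA : A.LiesOverPrime 2) {z : Qb} (hr : z ∈ (algebraMap ℚ Qb).range)
    (hz : A.valuation z ≤ 1) : A.valuation z < 1 ∨ A.valuation (z - 1) < 1 := by
  obtain ⟨r, rfl⟩ := hr
  exact ft_res_rat' A hA hz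

/-- the Galois action commutes with multiples -/
theorem nrc_smul_nsmul (σ : GQ) (k : ℕ) (Q : FreyPt P) : σ • (k • Q) = k • (σ • Q) := by
  have := algEquiv_smul_zsmul (W' := P.freyCurve) σ (k : ℤ) Q
  simpa using this

/-- data of a nonzero rational `p`-torsion point at `2` -/
theorem nrc_data (hA : A.LiesOverPrime 2) {R : FreyPt P} (hR0 : R ≠ 0) (hRp : P.p • R = 0)
    (hfix : ∀ σ : GQ, σ • R = R) :
    ∃ (x y : Qb) (h : (P.freyCurve⁄Qb).Nonsingular x y), R = Point.some x y h ∧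
      A.valuation x = 1 ∧ A.valuation (x - 1) < 1 ∧ A.valuation y ≤ 1 ∧
      (A.valuation y < 1 ∨ A.valuation (y - 1) < 1) := by
  obtain ⟨x, y, h, rfl⟩ := wg_exists_some hR0
  have hcoord := coords_rat_of_fixed P x y h hfix
  have hxr := fixed_mem_range x hcoord.1
  have hyr := fixed_mem_range y hcoord.2
  have hx1 := nrc_unit_x P A hA h hxr hRp
  have hy : A.valuation y ≤ 1 := sm2_y_integral A (frey_isIntW P A) h hx1.le
  refine ⟨x, y, h, rfl, hx1, ?_, hy, nrc_res A hA hyr hy⟩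
  rcases nrc_res A hA hxr hx1.le with hlt | hlt
  · exact absurd hx1 hlt.ne
  · exact hlt

/-- two nonzero rational `p`-torsion points with congruent `y`-coordinates are equal -/
theorem nrc_eq_of_congr (hA : A.LiesOverPrime 2) {x₁ y₁ x₂ y₂ : Qb}
    (h₁ : (P.freyCurve⁄Qb).Nonsingular x₁ y₁) (h₂ : (P.freyCurve⁄Qb).Nonsingular x₂ y₂)
    (hP₁ : P.p • (Point.some x₁ y₁ h₁ : FreyPt P) = 0)
    (hP₂ : P.p • (Point.some x₂ y₂ h₂ : FreyPt P) = 0)
    (hx₁ : A.valuation x₁ = 1) (hx₁' : A.valuation (x₁ - 1) < 1) (hx₂' : A.valuation (x₂ - 1) < 1)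
    (hy₁ : A.valuation y₁ ≤ 1) (hyy : A.valuation (y₁ - y₂) < 1) :
    (Point.some x₁ y₁ h₁ : FreyPt P) = Point.some x₂ y₂ h₂ := by
  have hxx : A.valuation (x₁ - x₂) < 1 := by
    have : x₁ - x₂ = (x₁ - 1) - (x₂ - 1) := by ring
    rw [this]
    exact lt_of_le_of_lt (Valuation.map_sub _ _ _) (max_lt hx₁' hx₂')
  have hns := nt2_ns_of_unit_x A (frey_isIntW P A) (fi_a₃ P) (fi_a₆ P) (ft_b₂_unit P A hA)
    (ft_a₄_lt P A hA) h₁ hx₁
  exact sm2_eq_of_odd_torsion A (frey_isIntW P A) (fi_val_two_lt A hA) P.hp_odd h₁ h₂ hP₁ hP₂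
    hx₁.le hy₁ hxx hyy hns

/-- **(C2)** the Frey curve has no rational point of order `p` (copy `nrc_`) -/
theorem nrc_no_fixed_torsion (x : FreyV P) (hx : ∀ σ : GQ, σ • x = x) : x = 0 := by
  by_contra hx0
  obtain ⟨A, hA⟩ := exists_liesOverPrime Nat.prime_two
  set Q : FreyPt P := (x : FreyPt P) with hQ
  have hQ0 : Q ≠ 0 := fun h => hx0 (Subtype.ext h)
  have hQp : P.p • Q = 0 := by
    have h2 := x.2
    rw [Submodule.mem_torsionBy_iff] at h2
    rw [hQ]
    exact_mod_cast h2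
  have hQfix : ∀ σ : GQ, σ • Q = Q := fun σ => congrArg Subtype.val (hx σ)
  have hp5 := P.hp5
  -- multiples
  have hmul0 : ∀ k : ℕ, 1 ≤ k → k < P.p → k • Q ≠ 0 := by
    intro k hk1 hk h0
    have hord : addOrderOf Q = P.p := by
      have : Fact P.p.Prime := ⟨P.pp⟩
      exact addOrderOf_eq_prime hQp hQ0
    have hdvd := addOrderOf_dvd_of_nsmul_eq_zero h0
    rw [hord] at hdvd
    exact absurd (Nat.le_of_dvd (by omega) hdvd) (by omega)
  have hmulp : ∀ k : ℕ, P.p • (k • Q) = 0 := by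
    intro k; rw [smul_comm, hQp, nsmul_zero]
  have hmulfix : ∀ k : ℕ, ∀ σ : GQ, σ • (k • Q) = k • Q := by
    intro k σ; rw [nrc_smul_nsmul, hQfix]
  obtain ⟨x₁, y₁, h₁, e₁, hx₁, hx₁', hy₁, hr₁⟩ :=
    nrc_data P A hA (hmul0 1 le_rfl (by omega)) (hmulp 1) (hmulfix 1)
  obtain ⟨x₂, y₂, h₂, e₂, hx₂, hx₂', hy₂, hr₂⟩ :=
    nrc_data P A hA (hmul0 2 (by omega) (by omega)) (hmulp 2) (hmulfix 2)
  obtain ⟨x₃, y₃, h₃, e₃, hx₃, hx₃', hy₃, hr₃⟩ :=
    nrc_data P A hA (hmul0 3 (by omega) (by omega)) (hmulp 3) (hmulfix 3)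
  have hp₁ : P.p • (Point.some x₁ y₁ h₁ : FreyPt P) = 0 := by rw [← e₁]; exact hmulp 1
  have hp₂ : P.p • (Point.some x₂ y₂ h₂ : FreyPt P) = 0 := by rw [← e₂]; exact hmulp 2
  have hp₃ : P.p • (Point.some x₃ y₃ h₃ : FreyPt P) = 0 := by rw [← e₃]; exact hmulp 3
  -- difference of two residues
  have hsub : ∀ {a b : Qb}, A.valuation (a - 1) < 1 → A.valuation (b - 1) < 1 →
      A.valuation (a - b) < 1 := by
    intro a b ha hb
    have : a - b = (a - 1) - (b - 1) := by ring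
    rw [this]
    exact lt_of_le_of_lt (Valuation.map_sub _ _ _) (max_lt ha hb)
  have hsub0 : ∀ {a b : Qb}, A.valuation a < 1 → A.valuation b < 1 →
      A.valuation (a - b) < 1 := by
    intro a b ha hb
    exact lt_of_le_of_lt (Valuation.map_sub _ _ _) (max_lt ha hb)
  -- equalities of multiples are impossible
  have hne12 : (1 : ℕ) • Q ≠ 2 • Q := by
    intro h
    have : 1 • Q = 0 := by
      have h2 : 2 • Q = 1 • Q + 1 • Q := by rw [← add_nsmul]
      rw [h2] at h
      exact left_eq_add.mp h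
    exact hmul0 1 le_rfl (by omega) this
  have hne13 : (1 : ℕ) • Q ≠ 3 • Q := by
    intro h
    have : 2 • Q = 0 := by
      have h3 : 3 • Q = 1 • Q + 2 • Q := by rw [← add_nsmul]
      rw [h3] at h
      exact left_eq_add.mp h
    exact hmul0 2 (by omega) (by omega) this
  have hne23 : (2 : ℕ) • Q ≠ 3 • Q := by
    intro h
    have : 1 • Q = 0 := by
      have h3 : 3 • Q = 2 • Q + 1 • Q := by rw [← add_nsmul]
      rw [h3] at h
      exact left_eq_add.mp h
    exact hmul0 1 le_rfl (by omega) this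
  -- pigeonhole on the residues of `y₁, y₂, y₃`
  have key12 : A.valuation (y₁ - y₂) < 1 → False := fun hyy =>
    hne12 (by rw [e₁, e₂]; exact nrc_eq_of_congr P A hA h₁ h₂ hp₁ hp₂ hx₁ hx₁' hx₂' hy₁ hyy)
  have key13 : A.valuation (y₁ - y₃) < 1 → False := fun hyy =>
    hne13 (by rw [e₁, e₃]; exact nrc_eq_of_congr P A hA h₁ h₃ hp₁ hp₃ hx₁ hx₁' hx₃' hy₁ hyy)
  have key23 : A.valuation (y₂ - y₃) < 1 → False := fun hyy =>
    hne23 (by rw [e₂, e₃]; exact nrc_eq_of_congr P A hA h₂ h₃ hp₂ hp₃ hx₂ hx₂' hx₃' hy₂ hyy)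
  rcases hr₁ with a1 | a1 <;> rcases hr₂ with a2 | a2 <;> rcases hr₃ with a3 | a3
  · exact key12 (hsub0 a1 a2)
  · exact key12 (hsub0 a1 a2)
  · exact key13 (hsub0 a1 a3)
  · exact key23 (hsub a2 a3)
  · exact key23 (hsub0 a2 a3)
  · exact key13 (hsub a1 a3)
  · exact key12 (hsub a1 a2)
  · exact key12 (hsub a1 a2)

end Fermat.Agent.S13x
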