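import Mathlib

/-!
# S13, Wronskian route: multiplicity `≥ 2` of the `x`-coordinates in the norm

If a function `f` on the affine Weierstrass curve vanishes at `P = (a, b)` and at `-P`, with
`P ≠ -P`, then `(X - a)² ∣ Norm_{R/K[X]} f`.  (`I_P ∩ I_{-P} = I_P · I_{-P} = (X - a)`, Mathlib's
`XYIdeal_neg_mul`, and `Norm (X - a) = (X - a)²`.)
-/

set_option autoImplicit false

namespace Fermat.Agent.S13x

open Polynomial WeierstrassCurve WeierstrassCurve.Affine
open scoped Polynomial.Bivariate

variable {K : Type*} [Field K] {W : Affine K}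

/-- `I_P` and `I_{-P}` are coprime when `P ≠ -P`. -/
theorem nm2_sup_eq_top {a b : K} (hb : b ≠ W.negY a b) :
    CoordinateRing.XYIdeal W a (C b) ⊔ CoordinateRing.XYIdeal W a (C (W.negY a b)) = ⊤ := by
  rw [Ideal.eq_top_iff_one]
  have h1 : CoordinateRing.YClass W (C b) ∈ CoordinateRing.XYIdeal W a (C b) :=
    Ideal.subset_span (by simp)
  have h2 : CoordinateRing.YClass W (C (W.negY a b)) ∈
      CoordinateRing.XYIdeal W a (C (W.negY a b)) :=
    Ideal.subset_span (by simp)
  have hc : W.negY a b - b ≠ 0 := sub_ne_zero.mpr (Ne.symm hb)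
  have hd : CoordinateRing.YClass W (C b) - CoordinateRing.YClass W (C (W.negY a b)) =
      CoordinateRing.mk W (C (C (W.negY a b - b))) := by
    simp only [CoordinateRing.YClass, ← map_sub]
    congr 1
    simp only [map_sub]
    ring
  have hmem : CoordinateRing.mk W (C (C (W.negY a b - b))) ∈
      CoordinateRing.XYIdeal W a (C b) ⊔ CoordinateRing.XYIdeal W a (C (W.negY a b)) := by
    rw [← hd]
    exact Submodule.sub_mem _ (Ideal.mem_sup_left h1) (Ideal.mem_sup_right h2)
  have hone : (1 : W.CoordinateRing) =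
      CoordinateRing.mk W (C (C (W.negY a b - b)⁻¹)) *
        CoordinateRing.mk W (C (C (W.negY a b - b))) := by
    rw [← map_mul, ← map_mul, ← map_mul, inv_mul_cancel₀ hc, map_one, map_one, map_one]
  rw [hone]
  exact Ideal.mul_mem_left _ _ hmem

/-- `I_P ∩ I_{-P} = (X - a)` when `P ≠ -P`. -/
theorem nm2_inf_eq_XIdeal {a b : K} (h : W.Nonsingular a b) (hb : b ≠ W.negY a b) :
    CoordinateRing.XYIdeal W a (C b) ⊓ CoordinateRing.XYIdeal W a (C (W.negY a b)) =
      CoordinateRing.XIdeal W a := by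
  rw [← Ideal.mul_eq_inf_of_isCoprime ((Ideal.isCoprime_iff_sup_eq).mpr (nm2_sup_eq_top hb)),
    mul_comm, CoordinateRing.XYIdeal_neg_mul h]

/-- the norm of `X - a` is `(X - a)²` -/
theorem nm2_norm_XClass (a : K) :
    Algebra.norm K[X] (CoordinateRing.XClass W a) = (X - C a) ^ 2 := by
  have h := CoordinateRing.norm_smul_basis (W' := W) (X - C a) 0
  simp only [zero_smul, add_zero, mul_zero, zero_mul, sub_zero, ne_eq, OfNat.ofNat_ne_zero,
    not_false_eq_true, zero_pow] at h
  rw [← h]
  congr 1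
  rw [CoordinateRing.XClass, Algebra.smul_def, mul_one]
  rfl

/-- MULTIPLICITY TWO: a function vanishing at `P` and at `-P ≠ P` has norm divisible by
`(X - x(P))²`. -/
theorem nm2_sq_dvd_norm {a b : K} (h : W.Nonsingular a b) (hb : b ≠ W.negY a b)
    {f : W.CoordinateRing} (hf : f ∈ CoordinateRing.XYIdeal W a (C b))
    (hf' : f ∈ CoordinateRing.XYIdeal W a (C (W.negY a b))) :
    (X - C a) ^ 2 ∣ Algebra.norm K[X] f := by
  have hmem : f ∈ CoordinateRing.XIdeal W a := by
    rw [← nm2_inf_eq_XIdeal h hb]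
    exact ⟨hf, hf'⟩
  obtain ⟨g, rfl⟩ := Ideal.mem_span_singleton'.mp hmem
  rw [map_mul, nm2_norm_XClass]
  exact Dvd.intro_left _ rfl

/-- a nonzero point of odd order is not its own negative -/
theorem nm2_ne_negY_of_odd_nsmul [DecidableEq K] {a b : K} (h : W.Nonsingular a b) {n : ℕ}
    (hn : Odd n) (hP : n • Point.some a b h = 0) : b ≠ W.negY a b := by
  intro hb
  have h2 : Point.some a b h + Point.some a b h = 0 :=
    Point.add_self_of_Y_eq hb
  obtain ⟨k, rfl⟩ := hn
  have h3 : (2 * k + 1) • Point.some a b h = Point.some a b h := by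
    rw [add_smul, one_smul, mul_comm, mul_smul, two_smul, h2, smul_zero, zero_add]
  rw [h3] at hP
  exact Point.some_ne_zero h hP

/-- the negative of an `n`-torsion point is `n`-torsion (in coordinates) -/
theorem nm2_nsmul_neg [DecidableEq K] {a b : K} (h : W.Nonsingular a b) {n : ℕ}
    (hP : n • Point.some a b h = 0) :
    n • Point.some a (W.negY a b) ((W.nonsingular_neg a b).mpr h) = 0 := by
  have : Point.some a (W.negY a b) ((W.nonsingular_neg a b).mpr h) = -Point.some a b h := rfl
  rw [this, smul_neg, hP, neg_zero]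

end Fermat.Agent.S13x
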