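import Fermat.Agent.S05x.Wire

/-!
# S13 project: local core of the `p`-adic leaf

Generic local setting of `S05x`: `K` a field, `A` a valuation subring, `W` a curve
`Y² = X³ + a₂X² + a₄X` with `2` a unit and `a₂, a₄ ∈ A` (`LocHyp`); residue characteristic
arbitrary, NO hypothesis on torsion orders.

* `pc_E1`: the kernel of reduction (`0` or `1 < v x`), an additive subgroup;
* `pc_E0`: in the nodal case, the points with nonsingular reduction (`0` or `1 ≤ v x`);
* `pc_smooth_sub_mem`: two points with the same nonsingular reduction differ by an element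
  of `pc_E1`;
* `pc_good_sub_mem`: good reduction, `τ` inertia-like: `τ P - P ∈ pc_E1` for every point `P`;
* `pc_node_sub_mem`: nodal reduction, `τ` inertia-like and valuation preserving:
  `τ P - P ∈ pc_E0` for every point `P`.
-/

set_option autoImplicit false
open WeierstrassCurve WeierstrassCurve.Affine WeierstrassCurve.Affine.Point

namespace Fermat.Agent.S13x
open Fermat.Agent.S05x

variable {K : Type*} [Field K] [DecidableEq K] (A : ValuationSubring K) {W : WeierstrassCurve K}

/-! ### the kernel of reduction -/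

/-- kernel of reduction: the origin and the points with non-integral `x`-coordinate -/
def pc_E1 (H : LocHyp A W) : AddSubgroup W.toAffine.Point where
  carrier := {P | P = 0 ∨ ∃ (x y : K) (h : W.toAffine.Nonsingular x y),
    P = Point.some x y h ∧ 1 < A.valuation x}
  zero_mem' := Or.inl rfl
  add_mem' := by
    rintro P Q (rfl | ⟨x₁, y₁, h₁, rfl, hx₁⟩) hQ
    · rw [zero_add]; exact hQ
    rcases hQ with rfl | ⟨x₂, y₂, h₂, rfl, hx₂⟩
    · rw [add_zero]; exact Or.inr ⟨x₁, y₁, h₁, rfl, hx₁⟩
    have hc : 1 < min (A.valuation x₁) (A.valuation x₂) := lt_min hx₁ hx₂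
    have m1 : Point.some x₁ y₁ h₁ ∈ m3bSub A H _ hc :=
      Or.inr ⟨x₁, y₁, h₁, rfl, min_le_left _ _⟩
    have m2 : Point.some x₂ y₂ h₂ ∈ m3bSub A H _ hc :=
      Or.inr ⟨x₂, y₂, h₂, rfl, min_le_right _ _⟩
    rcases (m3bSub A H _ hc).add_mem m1 m2 with h0 | ⟨x, y, h, he, hle⟩
    · exact Or.inl h0
    · exact Or.inr ⟨x, y, h, he, lt_of_lt_of_le hc hle⟩
  neg_mem' := by
    rintro P (rfl | ⟨x, y, h, rfl, hx⟩)
    · exact Or.inl _root_.neg_zero
    · obtain ⟨h', hneg⟩ := w2_neg_some H.w2 h
      exact Or.inr ⟨x, -y, h', hneg, hx⟩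

theorem pc_mem_E1 (H : LocHyp A W) (P : W.toAffine.Point) :
    P ∈ pc_E1 A H ↔ (P = 0 ∨ ∃ (x y : K) (h : W.toAffine.Nonsingular x y),
      P = Point.some x y h ∧ 1 < A.valuation x) := Iff.rfl

theorem pc_some_mem_E1 (H : LocHyp A W) {x y : K} (h : W.toAffine.Nonsingular x y) :
    Point.some x y h ∈ pc_E1 A H ↔ 1 < A.valuation x := by
  rw [pc_mem_E1]
  constructor
  · rintro (h0 | ⟨x', y', h', he, hx⟩)
    · exact absurd h0 (some_ne_zero h)
    · rw [Point.some.injEq] at he
      rw [he.1]; exact hx
  · intro hx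
    exact Or.inr ⟨x, y, h, rfl, hx⟩

/-! ### inertia-like maps -/

omit [DecidableEq K] in
/-- an inertia-like map sends non-integral elements to non-integral elements -/
theorem pc_tau_one_lt (τ : K →+* K)
    (hτ : ∀ a : K, A.valuation a ≤ 1 → A.valuation (τ a - a) < 1) {x : K}
    (hx : 1 < A.valuation x) : 1 < A.valuation (τ x) := by
  have hx0 : x ≠ 0 := by
    intro h0
    rw [h0, _root_.map_zero] at hx
    exact absurd hx (not_lt.mpr zero_le_one)
  have hinv : A.valuation x⁻¹ < 1 := by
    rw [map_inv₀]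
    exact inv_lt_one_of_one_lt₀ hx
  have h1 := hτ x⁻¹ hinv.le
  have h2 : A.valuation (τ x⁻¹) < 1 := by
    have : τ x⁻¹ = x⁻¹ + (τ x⁻¹ - x⁻¹) := by ring
    rw [this]
    exact Valuation.map_add_lt _ hinv h1
  rw [map_inv₀, map_inv₀] at h2
  have hτx0 : A.valuation (τ x) ≠ 0 := by
    rw [Valuation.ne_zero_iff]
    exact (map_ne_zero τ).mpr hx0
  by_contra hle
  have hle := not_lt.mp hle
  have : 1 ≤ (A.valuation (τ x))⁻¹ := (one_le_inv₀ (zero_lt_iff.mpr hτx0)).mpr hle
  exact absurd h2 (not_lt.mpr this)

/-! ### same nonsingular reduction -/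

/-- two points with the same nonsingular reduction differ by an element of the kernel of
reduction (no torsion hypothesis) -/
theorem pc_smooth_sub_mem (H : LocHyp A W)
    {x y x' y' : K} (h : W.toAffine.Nonsingular x y) (h' : W.toAffine.Nonsingular x' y')
    (hx : A.valuation x ≤ 1) (hxx : A.valuation (x' - x) < 1) (hyy : A.valuation (y' - y) < 1)
    (hns : A.valuation y = 1 ∨ A.valuation (3 * x ^ 2 + 2 * W.a₂ * x + W.a₄) = 1) :
    Point.some x' y' h' - Point.some x y h ∈ pc_E1 A H := by
  have hW := H.w2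
  have hv2 := H.two
  have ha2 := H.a₂
  have ha4 := H.a₄
  have h2 : (2 : K) ≠ 0 := by
    intro h0
    rw [h0, _root_.map_zero] at hv2
    exact zero_ne_one hv2
  have hv4 : A.valuation (4 : K) = 1 := by
    have : (4 : K) = 2 * 2 := by norm_num
    rw [this, map_mul, hv2, one_mul]
  have e1 : y ^ 2 = x ^ 3 + W.a₂ * x ^ 2 + W.a₄ * x := (w2_equation_iff hW x y).mp h.1
  have e2 : y' ^ 2 = x' ^ 3 + W.a₂ * x' ^ 2 + W.a₄ * x' :=
    (w2_equation_iff hW x' y').mp h'.1
  have hx' : A.valuation x' ≤ 1 := by
    have : x' = x + (x' - x) := by ring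
    rw [this]
    exact Valuation.map_add_le _ hx hxx.le
  have hy : A.valuation y ≤ 1 := by
    apply m8_le_one_of_sq
    rw [e1]
    exact Valuation.map_add_le _ (Valuation.map_add_le _ (m8_le_pow A hx 3)
      (m8_le_mul A ha2 (m8_le_pow A hx 2))) (m8_le_mul A ha4 hx)
  by_cases hne : x = x'
  · subst hne
    rcases w2_same_x hW h h' with hyy' | hyy'
    · subst hyy'
      rw [sub_self]
      exact (pc_E1 A H).zero_mem
    · by_cases hy0 : y = 0
      · have hy'0 : y' = y := by rw [hyy', hy0, _root_.neg_zero]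
        subst hy'0
        rw [sub_self]
        exact (pc_E1 A H).zero_mem
      · have hym : A.valuation y < 1 := by
          have : y' - y = -(2 * y) := by rw [hyy']; ring
          rw [this, Valuation.map_neg, map_mul, hv2, one_mul] at hyy
          exact hyy
        have hF : A.valuation (3 * x ^ 2 + 2 * W.a₂ * x + W.a₄) = 1 := by
          rcases hns with h1 | h1
          · exact absurd h1 (ne_of_lt hym)
          · exact h1
        obtain ⟨x2, y2, h2', hdbl, hform⟩ := w2_double hW h2 h hy0
        obtain ⟨hn', hneg⟩ := w2_neg_some hW h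
        have hpt : Point.some x y' h' = -Point.some x y h := by
          subst hyy'
          exact hneg.symm
        have hsub : Point.some x y' h' - Point.some x y h = -Point.some x2 y2 h2' := by
          rw [hpt, ← hdbl, neg_add, sub_eq_add_neg]
        rw [hsub]
        apply (pc_E1 A H).neg_mem
        rw [pc_some_mem_E1]
        have key : (x ^ 2 - W.a₄) ^ 2 =
            (3 * x ^ 2 + 2 * W.a₂ * x + W.a₄) ^ 2 - y ^ 2 * (4 * (W.a₂ + 2 * x)) := by
          rw [e1]; ring
        have hy2 : A.valuation (y ^ 2) < 1 := by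
          rw [pow_two]; exact m8_lt_mul A hym hym.le
        have hr : A.valuation ((3 * x ^ 2 + 2 * W.a₂ * x + W.a₄) ^ 2
            - y ^ 2 * (4 * (W.a₂ + 2 * x))) = 1 := by
          have h1 : A.valuation ((3 * x ^ 2 + 2 * W.a₂ * x + W.a₄) ^ 2) = 1 := by
            rw [map_pow, hF, one_pow]
          have h3 : A.valuation (y ^ 2 * (4 * (W.a₂ + 2 * x))) < 1 := by
            refine m8_lt_mul A hy2 (m8_le_mul A hv4.le ?_)
            exact Valuation.map_add_le _ ha2 (m8_le_mul A hv2.le hx)
          rw [Valuation.map_sub_eq_of_lt_left _ (by rw [h1]; exact h3), h1]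
        have h4y : A.valuation (4 * y ^ 2) < 1 := by
          rw [map_mul, hv4, one_mul]; exact hy2
        apply m8_one_lt_of_mul A (d := 4 * y ^ 2) _ h4y
        rw [hform, key, hr]
  · obtain ⟨x₃, y₃, h₃, x₄, y₄, h₄, hadd, hsub, hS, hPi, hD, hL⟩ :=
      w2_add_sub hW h h' hne
    have hsub' : Point.some x' y' h' - Point.some x y h = -Point.some x₄ y₄ h₄ := by
      rw [← hsub, neg_sub]
    rw [hsub']
    apply (pc_E1 A H).neg_mem
    rw [pc_some_mem_E1]
    have hd0 : x - x' ≠ 0 := sub_ne_zero.mpr hne
    have hsd : (y + y') / (x - x') * (x - x') = y + y' := div_mul_cancel₀ _ hd0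
    have hxx' : A.valuation (x - x') < 1 := by rw [Valuation.map_sub_swap]; exact hxx
    have hyy' : A.valuation (y - y') < 1 := by rw [Valuation.map_sub_swap]; exact hyy
    have hs1 : 1 < A.valuation ((y + y') / (x - x')) := by
      rcases hns with h1 | h1
      · apply m8_one_lt_of_mul A (d := x - x') _ hxx'
        rw [hsd]
        have : y + y' = 2 * y + (y' - y) := by ring
        rw [this]
        exact m8_val_add_eq_one A (by rw [map_mul, hv2, h1, one_mul]) hyy
      · have hG : A.valuation (x ^ 2 + x * x' + x' ^ 2 + W.a₂ * (x + x') + W.a₄) = 1 := by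
          have : x ^ 2 + x * x' + x' ^ 2 + W.a₂ * (x + x') + W.a₄ =
              (3 * x ^ 2 + 2 * W.a₂ * x + W.a₄) + (x' - x) * (x' + 2 * x + W.a₂) := by ring
          rw [this]
          refine m8_val_add_eq_one A h1 (m8_lt_mul A hxx ?_)
          exact Valuation.map_add_le _ (Valuation.map_add_le _ hx' (m8_le_mul A hv2.le hx)) ha2
        apply m8_one_lt_of_mul A (d := y - y') _ hyy'
        have : (y + y') / (x - x') * (y - y') =
            x ^ 2 + x * x' + x' ^ 2 + W.a₂ * (x + x') + W.a₄ := by
          have h3 : (x - x') * ((y + y') / (x - x') * (y - y')) =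
              (x - x') * (x ^ 2 + x * x' + x' ^ 2 + W.a₂ * (x + x') + W.a₄) := by
            calc (x - x') * ((y + y') / (x - x') * (y - y'))
                = ((y + y') / (x - x') * (x - x')) * (y - y') := by ring
              _ = (y + y') * (y - y') := by rw [hsd]
              _ = y ^ 2 - y' ^ 2 := by ring
              _ = _ := by rw [e1, e2]; ring
          exact mul_left_cancel₀ hd0 h3
        rw [this]
        exact hG
    have hs2 : 1 < A.valuation (((y + y') / (x - x')) ^ 2) := by
      rw [map_pow]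
      exact one_lt_pow' hs1 two_ne_zero
    have hrest : A.valuation (W.a₂ + x + x') ≤ 1 :=
      Valuation.map_add_le _ (Valuation.map_add_le _ ha2 hx) hx'
    have : x₄ = ((y + y') / (x - x')) ^ 2 - (W.a₂ + x + x') := by rw [hL]; ring
    rw [this, Valuation.map_sub_eq_of_lt_left _ (lt_of_le_of_lt hrest hs2)]
    exact hs2

/-! ### good reduction -/

omit [DecidableEq K] in
/-- integrality of `y` for a point with integral `x` -/
theorem pc_y_integral (H : LocHyp A W) {x y : K} (h : W.toAffine.Nonsingular x y)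
    (hx : A.valuation x ≤ 1) : A.valuation y ≤ 1 := by
  have e1 : y ^ 2 = x ^ 3 + W.a₂ * x ^ 2 + W.a₄ * x := (w2_equation_iff H.w2 x y).mp h.1
  apply m8_le_one_of_sq
  rw [e1]
  exact Valuation.map_add_le _ (Valuation.map_add_le _ (m8_le_pow A hx 3)
    (m8_le_mul A H.a₂ (m8_le_pow A hx 2))) (m8_le_mul A H.a₄ hx)

omit [DecidableEq K] in
/-- under good reduction every integral point has nonsingular reduction -/
theorem pc_good_nonsing (H : LocHyp A W)
    (hgood : A.valuation (W.a₄ ^ 2 * (W.a₂ ^ 2 - 4 * W.a₄)) = 1)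
    {x y : K} (h : W.toAffine.Nonsingular x y) (hx1 : A.valuation x ≤ 1) :
    A.valuation y = 1 ∨ A.valuation (3 * x ^ 2 + 2 * W.a₂ * x + W.a₄) = 1 := by
  have heq : y ^ 2 = x ^ 3 + W.a₂ * x ^ 2 + W.a₄ * x := (w2_equation_iff H.w2 x y).mp h.1
  have hxA : x ∈ A := (A.valuation_le_one_iff x).mp hx1
  have ha2A : W.a₂ ∈ A := (A.valuation_le_one_iff _).mp H.a₂
  have ha4A : W.a₄ ∈ A := (A.valuation_le_one_iff _).mp H.a₄
  have hy1 : A.valuation y ≤ 1 := pc_y_integral A H h hx1
  have hF'A : 3 * x ^ 2 + 2 * W.a₂ * x + W.a₄ ∈ A :=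
    add_mem (add_mem (mul_mem (ofNat_mem A 3) (pow_mem hxA 2))
      (mul_mem (mul_mem (ofNat_mem A 2) ha2A) hxA)) ha4A
  have hF'1 : A.valuation (3 * x ^ 2 + 2 * W.a₂ * x + W.a₄) ≤ 1 :=
    (A.valuation_le_one_iff _).mpr hF'A
  by_contra hcon
  rw [not_or] at hcon
  have hy_lt : A.valuation y < 1 := lt_of_le_of_ne hy1 hcon.1
  have hF_lt : A.valuation (3 * x ^ 2 + 2 * W.a₂ * x + W.a₄) < 1 := lt_of_le_of_ne hF'1 hcon.2
  have hUA : -(6 * W.a₂ ^ 2 - 18 * W.a₄) * x - (4 * W.a₂ ^ 3 - 15 * W.a₂ * W.a₄) ∈ A :=
    sub_mem (mul_mem (neg_mem (sub_mem (mul_mem (ofNat_mem A 6) (pow_mem ha2A 2))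
      (mul_mem (ofNat_mem A 18) ha4A))) hxA)
      (sub_mem (mul_mem (ofNat_mem A 4) (pow_mem ha2A 3))
        (mul_mem (mul_mem (ofNat_mem A 15) ha2A) ha4A))
  have hVA : (2 * W.a₂ ^ 2 - 6 * W.a₄) * x ^ 2 + (2 * W.a₂ ^ 3 - 7 * W.a₂ * W.a₄) * x +
      (W.a₂ ^ 2 * W.a₄ - 4 * W.a₄ ^ 2) ∈ A :=
    add_mem (add_mem (mul_mem (sub_mem (mul_mem (ofNat_mem A 2) (pow_mem ha2A 2))
      (mul_mem (ofNat_mem A 6) ha4A)) (pow_mem hxA 2))
      (mul_mem (sub_mem (mul_mem (ofNat_mem A 2) (pow_mem ha2A 3))
        (mul_mem (mul_mem (ofNat_mem A 7) ha2A) ha4A)) hxA))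
      (sub_mem (mul_mem (pow_mem ha2A 2) ha4A) (mul_mem (ofNat_mem A 4) (pow_mem ha4A 2)))
  have hy2_lt : A.valuation (x ^ 3 + W.a₂ * x ^ 2 + W.a₄ * x) < 1 := by
    rw [← heq, pow_two]
    exact m9_mul_lt_one_left A hy_lt hy1
  have hlt : A.valuation (W.a₄ ^ 2 * (W.a₂ ^ 2 - 4 * W.a₄)) < 1 := by
    rw [m9_bezout W.a₂ W.a₄ x]
    exact m9_add_lt_one A
      (m9_mul_lt_one_right A ((A.valuation_le_one_iff _).mpr hUA) hy2_lt)
      (m9_mul_lt_one_right A ((A.valuation_le_one_iff _).mpr hVA) hF_lt)
  exact absurd hgood (ne_of_lt hlt)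

/-- **good reduction**: an inertia-like map moves every point by an element of the kernel of
reduction -/
theorem pc_good_sub_mem (H : LocHyp A W) (τ : K →+* K)
    (hτ : ∀ a : K, A.valuation a ≤ 1 → A.valuation (τ a - a) < 1)
    (hgood : A.valuation (W.a₄ ^ 2 * (W.a₂ ^ 2 - 4 * W.a₄)) = 1)
    {x y : K} (h : W.toAffine.Nonsingular x y) (h' : W.toAffine.Nonsingular (τ x) (τ y)) :
    Point.some (τ x) (τ y) h' - Point.some x y h ∈ pc_E1 A H := by
  by_cases hx : A.valuation x ≤ 1
  · have hy : A.valuation y ≤ 1 := pc_y_integral A H h hx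
    exact pc_smooth_sub_mem A H h h' hx (hτ x hx) (hτ y hy) (pc_good_nonsing A H hgood h hx)
  · have hx := not_le.mp hx
    exact (pc_E1 A H).sub_mem ((pc_some_mem_E1 A H h').mpr (pc_tau_one_lt A τ hτ hx))
      ((pc_some_mem_E1 A H h).mpr hx)

/-! ### nodal reduction -/

/-- the points with nonsingular reduction, in the nodal case -/
def pc_E0 (H : NodeHyp A W) : AddSubgroup W.toAffine.Point where
  carrier := {P | psz A W P = 1}
  zero_mem' := psz_zero A W
  add_mem' := by
    intro P Q hP hQ
    have hP : psz A W P = 1 := hP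
    have hQ : psz A W Q = 1 := hQ
    show psz A W (P + Q) = 1
    rcases fin_pair_pt A H P Q with ⟨h1, -⟩ | ⟨-, h2⟩
    · rw [h1, hP, hQ, div_one, min_self]
    · rw [h2, hP, hQ, mul_one]
      exact m5_rfl2_of_le (m5_val_a₄_le_one A H)
  neg_mem' := by
    intro P hP
    show psz A W (-P) = 1
    rw [m5_psz_neg]
    exact hP

theorem pc_mem_E0 (H : NodeHyp A W) (P : W.toAffine.Point) :
    P ∈ pc_E0 A H ↔ psz A W P = 1 := Iff.rfl

theorem pc_some_mem_E0 (H : NodeHyp A W) {x y : K} (h : W.toAffine.Nonsingular x y) :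
    Point.some x y h ∈ pc_E0 A H ↔ 1 ≤ A.valuation x := by
  rw [pc_mem_E0, psz_some]
  unfold sz
  constructor
  · intro h1
    have h2 : 1 ≤ max (A.valuation x) (A.valuation W.a₄) := by
      by_contra hlt
      have hlt := not_le.mp hlt
      rw [min_eq_right hlt.le] at h1
      exact absurd h1 (ne_of_lt hlt)
    rcases le_max_iff.mp h2 with h3 | h3
    · exact h3
    · exact absurd H.a₄m (not_lt.mpr h3)
  · intro h1
    exact min_eq_left (le_trans h1 (le_max_left _ _))

theorem pc_E1_le_E0 (H : NodeHyp A W) : pc_E1 A H.loc ≤ pc_E0 A H := by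
  rintro P (rfl | ⟨x, y, h, rfl, hx⟩)
  · exact (pc_E0 A H).zero_mem
  · exact (pc_some_mem_E0 A H h).mpr hx.le

omit [DecidableEq K] in
/-- in the nodal case, a point with unit `x`-coordinate has nonsingular reduction -/
theorem pc_node_nonsing (H : NodeHyp A W) {x y : K} (h : W.toAffine.Nonsingular x y)
    (hxeq : A.valuation x = 1) :
    A.valuation y = 1 ∨ A.valuation (3 * x ^ 2 + 2 * W.a₂ * x + W.a₄) = 1 := by
  have heq : y ^ 2 = x ^ 3 + W.a₂ * x ^ 2 + W.a₄ * x := (w2_equation_iff H.loc.w2 x y).mp h.1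
  have hy1 : A.valuation y ≤ 1 := pc_y_integral A H.loc h hxeq.le
  by_cases hyu : A.valuation y = 1
  · exact Or.inl hyu
  · right
    have hy_lt : A.valuation y < 1 := lt_of_le_of_ne hy1 hyu
    have hq : A.valuation (x ^ 2 + W.a₂ * x + W.a₄) < 1 := by
      have e : x * (x ^ 2 + W.a₂ * x + W.a₄) = y * y := by rw [← pow_two, heq]; ring
      have e2 := congrArg A.valuation e
      rw [map_mul, hxeq, one_mul] at e2
      rw [e2]
      exact m9_mul_lt_one_left A hy_lt hy1
    apply m9_eq_one_of_sub_lt A (b := x ^ 2) (by rw [map_pow, hxeq, one_pow])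
    have e : 3 * x ^ 2 + 2 * W.a₂ * x + W.a₄ - x ^ 2 =
        2 * (x ^ 2 + W.a₂ * x + W.a₄) - W.a₄ := by ring
    rw [e]
    exact m9_sub_lt_one A
      (m9_mul_lt_one_right A ((A.valuation_le_one_iff _).mpr (ofNat_mem A 2)) hq) H.a₄m

/-- **nodal reduction**: an inertia-like, valuation preserving map moves every point by an
element of `pc_E0` (it preserves the components of the special fibre) -/
theorem pc_node_sub_mem (H : NodeHyp A W) (τ : K →+* K)
    (hτ : ∀ a : K, A.valuation a ≤ 1 → A.valuation (τ a - a) < 1)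
    (hτv : ∀ a : K, A.valuation (τ a) = A.valuation a)
    {x y : K} (h : W.toAffine.Nonsingular x y) (h' : W.toAffine.Nonsingular (τ x) (τ y)) :
    Point.some (τ x) (τ y) h' - Point.some x y h ∈ pc_E0 A H := by
  have hη1 : A.valuation W.a₄ < 1 := H.a₄m
  have hη0 : A.valuation W.a₄ ≠ 0 := (Valuation.ne_zero_iff _).2 H.a₄0
  have hv2 : A.valuation (2 : K) = 1 := H.loc.two
  rcases lt_trichotomy (A.valuation x) 1 with hx | hx | hx
  · -- the point reduces to the node
    rcases le_or_gt (A.valuation x) (A.valuation W.a₄) with hle | hlt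
    · -- middle component
      have hP : psz A W (Point.some x y h) = A.valuation W.a₄ := by
        rw [psz_some]; exact m4d_sz_of_le A hη1.le hle
      have hQ : psz A W (Point.some (τ x) (τ y) h') = A.valuation W.a₄ := by
        rw [psz_some]; exact m4d_sz_of_le A hη1.le (by rw [hτv]; exact hle)
      have key : psz A W (Point.some x y h - Point.some (τ x) (τ y) h') = 1 := by
        rcases fin_pair_pt A H (Point.some x y h) (Point.some (τ x) (τ y) h') with
          ⟨-, h2⟩ | ⟨h1, -⟩
        · rw [h2, hP, hQ]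
          exact m5_rfl2_sq hη0 hη1
        · rw [h1, hP, hQ]
          exact m5_min_div_self hη0
      rw [← neg_sub]
      exact (pc_E0 A H).neg_mem key
    · -- a branch of the node: `y / x` is a unit, preserved by `τ` modulo the maximal ideal
      have hvx0 : A.valuation x ≠ 0 := (lt_of_le_of_lt zero_le hlt).ne'
      have hx0 : x ≠ 0 := (Valuation.ne_zero_iff _).1 hvx0
      have hvx' : A.valuation (τ x) = A.valuation x := hτv x
      have heq : y ^ 2 = x ^ 3 + W.a₂ * x ^ 2 + W.a₄ * x :=
        (w2_equation_iff H.loc.w2 x y).1 h.left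
      have hvx'0 : A.valuation (τ x) ≠ 0 := by rw [hvx']; exact hvx0
      have hx'0 : τ x ≠ 0 := (Valuation.ne_zero_iff _).1 hvx'0
      have hμ : A.valuation (x + W.a₄ / x) < 1 := by
        apply Valuation.map_add_lt _ hx
        rw [map_div₀]
        exact (div_lt_one₀ (zero_lt_iff.2 hvx0)).2 hlt
      have ht2 : (y / x) ^ 2 = W.a₂ + (x + W.a₄ / x) := by
        rw [div_pow, heq]
        field_simp
        ring
      have hvt : A.valuation (y / x) = 1 := by
        have h1 : A.valuation ((y / x) ^ 2) = 1 := by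
          rw [ht2, Valuation.map_add_eq_of_lt_left _ (by rw [H.a₂u]; exact hμ)]
          exact H.a₂u
        rw [map_pow] at h1
        exact (pow_eq_one_iff_of_nonneg zero_le two_ne_zero).1 h1
      have hτt : τ (y / x) = τ y / τ x := map_div₀ τ y x
      have hdt : A.valuation (τ y / τ x - y / x) < 1 := by
        rw [← hτt]
        exact hτ _ hvt.le
      by_cases hxx : τ x = x
      · -- same `x`: the points are equal (opposite points lie on different branches)
        have h'' : W.toAffine.Nonsingular x (τ y) := by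
          rw [← hxx]; exact h'
        have hyy : τ y = y := by
          rcases w2_same_x H.loc.w2 h h'' with hy | hy
          · exact hy
          · exfalso
            rw [hxx, hy] at hdt
            have : -y / x - y / x = -(2 * (y / x)) := by ring
            rw [this, Valuation.map_neg, map_mul, hv2, hvt, one_mul] at hdt
            exact lt_irrefl _ hdt
        have : Point.some (τ x) (τ y) h' = Point.some x y h := by
          rw [Point.some.injEq]; exact ⟨hxx, hyy⟩
        rw [this, sub_self]
        exact (pc_E0 A H).zero_mem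
      · obtain ⟨x₃, y₃, h₃, x₄, y₄, h₄, -, hsub, -, -, hD, -⟩ :=
          w2_add_sub H.loc.w2 h h' (Ne.symm hxx)
        have hδ : A.valuation ((x + W.a₄ / x) + y / x * (τ y / τ x - y / x)) < 1 := by
          apply Valuation.map_add_lt _ hμ
          rw [map_mul, hvt, one_mul]
          exact hdt
        have hrhs : x * τ x * (x + τ x + 2 * W.a₂) + W.a₄ * (x + τ x) + 2 * y * τ y =
            x * τ x * (4 * W.a₂) +
              (x * τ x * (x + τ x + 2 * ((x + W.a₄ / x) + y / x * (τ y / τ x - y / x))) +
                W.a₄ * (x + τ x)) := by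
          have e1 : y / x * (τ y / τ x - y / x) = y * τ y / (x * τ x) - (y / x) ^ 2 := by
            field_simp
          rw [e1, ht2]
          field_simp
          ring
        have hvxx : A.valuation (x + τ x) ≤ A.valuation x :=
          Valuation.map_add_le _ le_rfl hvx'.le
        have hmain : A.valuation (x * τ x * (4 * W.a₂)) = A.valuation x * A.valuation x := by
          have h4 : A.valuation (4 : K) = 1 := by
            have : (4 : K) = 2 * 2 := by norm_num
            rw [this, map_mul, hv2, one_mul]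
          rw [map_mul, map_mul, map_mul, hvx', h4, H.a₂u, one_mul, mul_one]
        have hpos : 0 < A.valuation x := zero_lt_iff.2 hvx0
        have hpos2 : 0 < A.valuation x * A.valuation x := mul_pos hpos hpos
        have hr1 : A.valuation (x * τ x * (x + τ x +
            2 * ((x + W.a₄ / x) + y / x * (τ y / τ x - y / x)))) <
              A.valuation x * A.valuation x := by
          rw [map_mul, map_mul, hvx']
          have h1 : A.valuation (x + τ x +
              2 * ((x + W.a₄ / x) + y / x * (τ y / τ x - y / x))) < 1 := by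
            apply Valuation.map_add_lt
            · exact lt_of_le_of_lt hvxx hx
            · rw [map_mul, hv2, one_mul]
              exact hδ
          calc A.valuation x * A.valuation x * _ < A.valuation x * A.valuation x * 1 := by
                exact mul_lt_mul_of_pos_left h1 hpos2
            _ = _ := mul_one _
        have hr2 : A.valuation (W.a₄ * (x + τ x)) < A.valuation x * A.valuation x := by
          rw [map_mul]
          calc A.valuation W.a₄ * A.valuation (x + τ x)
              ≤ A.valuation W.a₄ * A.valuation x := mul_le_mul_right hvxx _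
            _ < A.valuation x * A.valuation x := mul_lt_mul_of_pos_right hlt hpos
        have hval : A.valuation (x₄ * (x - τ x) ^ 2) = A.valuation x * A.valuation x := by
          rw [hD, hrhs, Valuation.map_add_eq_of_lt_left _ (by
            rw [hmain]
            exact Valuation.map_add_lt _ hr1 hr2)]
          exact hmain
        have hdx' : A.valuation (x - τ x) ≤ A.valuation x := by
          rw [sub_eq_add_neg]
          exact Valuation.map_add_le _ le_rfl (by rw [Valuation.map_neg]; exact hvx'.le)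
        have hx4 : 1 ≤ A.valuation x₄ := by
          by_contra hlt4
          have hlt4 := not_le.mp hlt4
          have hlt2 : A.valuation (x₄ * (x - τ x) ^ 2) < A.valuation x * A.valuation x := by
            rw [map_mul, map_pow, pow_two]
            calc A.valuation x₄ * (A.valuation (x - τ x) * A.valuation (x - τ x))
                ≤ A.valuation x₄ * (A.valuation x * A.valuation x) :=
                  mul_le_mul_right (mul_le_mul' hdx' hdx') _
              _ < 1 * (A.valuation x * A.valuation x) := mul_lt_mul_of_pos_right hlt4 hpos2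
              _ = _ := one_mul _
          rw [hval] at hlt2
          exact lt_irrefl _ hlt2
        have hsub' : Point.some (τ x) (τ y) h' - Point.some x y h = -Point.some x₄ y₄ h₄ := by
          rw [← hsub, neg_sub]
        rw [hsub']
        exact (pc_E0 A H).neg_mem ((pc_some_mem_E0 A H h₄).mpr hx4)
  · -- unit `x`: nonsingular reduction
    have hy : A.valuation y ≤ 1 := pc_y_integral A H.loc h hx.le
    exact pc_E1_le_E0 A H (pc_smooth_sub_mem A H.loc h h' hx.le (hτ x hx.le) (hτ y hy)
      (pc_node_nonsing A H h hx))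
  · exact pc_E1_le_E0 A H ((pc_E1 A H.loc).sub_mem
      ((pc_some_mem_E1 A H.loc h').mpr (pc_tau_one_lt A τ hτ hx))
      ((pc_some_mem_E1 A H.loc h).mpr hx))

end Fermat.Agent.S13x
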