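import Fermat.Agent.S05x.Wire

/-!
# S13 project: inertia at `p` acts trivially modulo the kernel of reduction (local part)

Port of the local theory of the S05 project (`Fermat/Agent/S05x`, curves
`Y² = X³ + a₂X² + a₄X` over a field `K` with a valuation subring `A`, `v(2) = 1`) to the case
where the order `n` of the torsion points is NOT assumed to be a unit of `A`.

For a ring endomorphism `τ` of `K` which is congruent to the identity modulo the maximal ideal of
`A` and an `n`-torsion point `P`, the difference `P - τ P` lies in the kernel of reduction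
`E₁ = {O} ∪ {v(x) > 1}`.
-/

set_option autoImplicit false
set_option linter.unusedSectionVars false
open WeierstrassCurve WeierstrassCurve.Affine WeierstrassCurve.Affine.Point

namespace Fermat.Agent.S13x

open Fermat.Agent.S05x

variable {K : Type*} [Field K] [DecidableEq K] (A : ValuationSubring K) {W : WeierstrassCurve K}

/-- The kernel of reduction: the origin together with the points with non-integral `x`. -/
def pinE1 (R : W.toAffine.Point) : Prop :=
  R = 0 ∨ ∃ (x y : K) (h : W.toAffine.Nonsingular x y), R = Point.some x y h ∧ 1 < A.valuation x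

theorem pinE1_zero : pinE1 A (0 : W.toAffine.Point) := Or.inl rfl

theorem pinE1_some {x y : K} (h : W.toAffine.Nonsingular x y) :
    pinE1 A (Point.some x y h) ↔ 1 < A.valuation x := by
  constructor
  · rintro (h0 | ⟨x', y', h', he, hv⟩)
    · cases h0
    · cases he
      exact hv
  · intro hv
    exact Or.inr ⟨x, y, h, rfl, hv⟩

theorem pinE1_neg (hW : IsW2 W) {R : W.toAffine.Point} (hR : pinE1 A R) : pinE1 A (-R) := by
  rcases hR with rfl | ⟨x, y, h, rfl, hv⟩
  · left; exact _root_.neg_zero
  · obtain ⟨h', hneg⟩ := w2_neg_some hW h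
    exact Or.inr ⟨x, -y, h', hneg, hv⟩

/-- `E₁` is closed under subtraction. -/
theorem pinE1_sub (H : LocHyp A W) {R S : W.toAffine.Point} (hR : pinE1 A R) (hS : pinE1 A S) :
    pinE1 A (R - S) := by
  rcases hR with rfl | ⟨x₁, y₁, h₁, rfl, hv₁⟩
  · rw [zero_sub]; exact pinE1_neg A H.w2 hS
  rcases hS with rfl | ⟨x₂, y₂, h₂, rfl, hv₂⟩
  · rw [sub_zero]; exact Or.inr ⟨x₁, y₁, h₁, rfl, hv₁⟩
  set lam := min (A.valuation x₁) (A.valuation x₂) with hlam
  have hlam1 : 1 < lam := lt_min hv₁ hv₂
  have m₁ : Point.some x₁ y₁ h₁ ∈ m3bSub A H lam hlam1 :=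
    Or.inr ⟨x₁, y₁, h₁, rfl, min_le_left _ _⟩
  have m₂ : Point.some x₂ y₂ h₂ ∈ m3bSub A H lam hlam1 :=
    Or.inr ⟨x₂, y₂, h₂, rfl, min_le_right _ _⟩
  rcases (m3bSub A H lam hlam1).sub_mem m₁ m₂ with h0 | ⟨x, y, h, he, hv⟩
  · exact Or.inl h0
  · exact Or.inr ⟨x, y, h, he, lt_of_lt_of_le hlam1 hv⟩

theorem pinE1_add (H : LocHyp A W) {R S : W.toAffine.Point} (hR : pinE1 A R) (hS : pinE1 A S) :
    pinE1 A (R + S) := by
  have := pinE1_sub A H hR (pinE1_neg A H.w2 hS)
  rwa [sub_neg_eq_add] at this

/-- The kernel of reduction as a subgroup. -/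
def pinKer (H : LocHyp A W) : AddSubgroup W.toAffine.Point where
  carrier := {R | pinE1 A R}
  zero_mem' := pinE1_zero A
  add_mem' := fun hR hS => pinE1_add A H hR hS
  neg_mem' := fun hR => pinE1_neg A H.w2 hR

theorem mem_pinKer (H : LocHyp A W) (R : W.toAffine.Point) : R ∈ pinKer A H ↔ pinE1 A R := Iff.rfl

/-! ### points with nonsingular reduction -/

/-- Two integral points with the same nonsingular reduction differ by an element of `E₁`. -/
theorem pin_smooth (H : LocHyp A W)
    {x y x' y' : K} (h : W.toAffine.Nonsingular x y) (h' : W.toAffine.Nonsingular x' y')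
    (hx : A.valuation x ≤ 1) (hxx : A.valuation (x' - x) < 1) (hyy : A.valuation (y' - y) < 1)
    (hns : A.valuation y = 1 ∨ A.valuation (3 * x ^ 2 + 2 * W.a₂ * x + W.a₄) = 1) :
    pinE1 A (Point.some x y h - Point.some x' y' h') := by
  have hW := H.w2
  have hv2 := H.two
  have ha2 := H.a₂
  have ha4 := H.a₄
  have h2 : (2 : K) ≠ 0 := by
    intro h0
    rw [h0, _root_.map_zero] at hv2
    exact zero_ne_one hv2
  have hv4 : A.valuation (4 : K) = 1 := by
    have : (4 : K) = 2 * 2 := by norm_num
    rw [this, map_mul, hv2, one_mul]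
  have e1 : y ^ 2 = x ^ 3 + W.a₂ * x ^ 2 + W.a₄ * x := (w2_equation_iff hW x y).mp h.1
  have e2 : y' ^ 2 = x' ^ 3 + W.a₂ * x' ^ 2 + W.a₄ * x' :=
    (w2_equation_iff hW x' y').mp h'.1
  have hx' : A.valuation x' ≤ 1 := by
    have : x' = x + (x' - x) := by ring
    rw [this]
    exact Valuation.map_add_le _ hx hxx.le
  have hy : A.valuation y ≤ 1 := by
    apply m8_le_one_of_sq
    rw [e1]
    exact Valuation.map_add_le _ (Valuation.map_add_le _ (m8_le_pow A hx 3)
      (m8_le_mul A ha2 (m8_le_pow A hx 2))) (m8_le_mul A ha4 hx)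
  by_cases hne : x = x'
  · subst hne
    rcases w2_same_x hW h h' with hyy' | hyy'
    · -- same point
      subst hyy'
      left
      exact sub_self _
    · by_cases hy0 : y = 0
      · left
        have : y' = y := by rw [hyy', hy0, _root_.neg_zero]
        subst this
        exact sub_self _
      · -- `Q = -P`, so `P - Q = 2P`
        have hym : A.valuation y < 1 := by
          have : y' - y = -(2 * y) := by rw [hyy']; ring
          rw [this, Valuation.map_neg, map_mul, hv2, one_mul] at hyy
          exact hyy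
        have hF : A.valuation (3 * x ^ 2 + 2 * W.a₂ * x + W.a₄) = 1 := by
          rcases hns with h1 | h1
          · exact absurd h1 (ne_of_lt hym)
          · exact h1
        obtain ⟨x2, y2, h2', hdbl, hform⟩ := w2_double hW h2 h hy0
        obtain ⟨hn', hneg⟩ := w2_neg_some hW h
        have hQ : Point.some x y' h' = -Point.some x y h := by
          rw [hneg]
          subst hyy'
          rfl
        have hdiff : Point.some x y h - Point.some x y' h' = Point.some x2 y2 h2' := by
          rw [hQ, sub_neg_eq_add, hdbl]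
        rw [hdiff, pinE1_some]
        have key : (x ^ 2 - W.a₄) ^ 2 =
            (3 * x ^ 2 + 2 * W.a₂ * x + W.a₄) ^ 2 - y ^ 2 * (4 * (W.a₂ + 2 * x)) := by
          rw [e1]; ring
        have hy2 : A.valuation (y ^ 2) < 1 := by
          rw [pow_two]; exact m8_lt_mul A hym hym.le
        have hr : A.valuation ((3 * x ^ 2 + 2 * W.a₂ * x + W.a₄) ^ 2
            - y ^ 2 * (4 * (W.a₂ + 2 * x))) = 1 := by
          have h1 : A.valuation ((3 * x ^ 2 + 2 * W.a₂ * x + W.a₄) ^ 2) = 1 := by
            rw [map_pow, hF, one_pow]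
          have h3 : A.valuation (y ^ 2 * (4 * (W.a₂ + 2 * x))) < 1 := by
            refine m8_lt_mul A hy2 (m8_le_mul A hv4.le ?_)
            exact Valuation.map_add_le _ ha2 (m8_le_mul A hv2.le hx)
          rw [Valuation.map_sub_eq_of_lt_left _ (by rw [h1]; exact h3), h1]
        by_contra hcon
        rw [not_lt] at hcon
        have hl : A.valuation (x2 * (4 * y ^ 2)) < 1 := by
          have : x2 * (4 * y ^ 2) = y ^ 2 * (x2 * 4) := by ring
          rw [this]
          exact m8_lt_mul A hy2 (m8_le_mul A hcon hv4.le)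
        rw [hform, key, hr] at hl
        exact lt_irrefl _ hl
  · obtain ⟨x₃, y₃, h₃, x₄, y₄, h₄, hadd, hsub, hS, hPi, hD, hL⟩ :=
      w2_add_sub hW h h' hne
    rw [hsub, pinE1_some]
    have hd0 : x - x' ≠ 0 := sub_ne_zero.mpr hne
    have hsd : (y + y') / (x - x') * (x - x') = y + y' := div_mul_cancel₀ _ hd0
    have hxx' : A.valuation (x - x') < 1 := by rw [Valuation.map_sub_swap]; exact hxx
    have hyy' : A.valuation (y - y') < 1 := by rw [Valuation.map_sub_swap]; exact hyy
    have hs1 : 1 < A.valuation ((y + y') / (x - x')) := by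
      rcases hns with h1 | h1
      · apply m8_one_lt_of_mul A (d := x - x') _ hxx'
        rw [hsd]
        have : y + y' = 2 * y + (y' - y) := by ring
        rw [this]
        exact m8_val_add_eq_one A (by rw [map_mul, hv2, h1, one_mul]) hyy
      · have hG : A.valuation (x ^ 2 + x * x' + x' ^ 2 + W.a₂ * (x + x') + W.a₄) = 1 := by
          have : x ^ 2 + x * x' + x' ^ 2 + W.a₂ * (x + x') + W.a₄ =
              (3 * x ^ 2 + 2 * W.a₂ * x + W.a₄) + (x' - x) * (x' + 2 * x + W.a₂) := by ring
          rw [this]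
          refine m8_val_add_eq_one A h1 (m8_lt_mul A hxx ?_)
          exact Valuation.map_add_le _ (Valuation.map_add_le _ hx' (m8_le_mul A hv2.le hx)) ha2
        apply m8_one_lt_of_mul A (d := y - y') _ hyy'
        have : (y + y') / (x - x') * (y - y') =
            x ^ 2 + x * x' + x' ^ 2 + W.a₂ * (x + x') + W.a₄ := by
          have h3 : (x - x') * ((y + y') / (x - x') * (y - y')) =
              (x - x') * (x ^ 2 + x * x' + x' ^ 2 + W.a₂ * (x + x') + W.a₄) := by
            calc (x - x') * ((y + y') / (x - x') * (y - y'))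
                = ((y + y') / (x - x') * (x - x')) * (y - y') := by ring
              _ = (y + y') * (y - y') := by rw [hsd]
              _ = y ^ 2 - y' ^ 2 := by ring
              _ = _ := by rw [e1, e2]; ring
          exact mul_left_cancel₀ hd0 h3
        rw [this]
        exact hG
    have hs2 : 1 < A.valuation (((y + y') / (x - x')) ^ 2) := by
      rw [map_pow]
      exact one_lt_pow' hs1 two_ne_zero
    have hrest : A.valuation (W.a₂ + x + x') ≤ 1 :=
      Valuation.map_add_le _ (Valuation.map_add_le _ ha2 hx) hx'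
    have : x₄ = ((y + y') / (x - x')) ^ 2 - (W.a₂ + x + x') := by rw [hL]; ring
    rw [this, Valuation.map_sub_eq_of_lt_left _ (lt_of_le_of_lt hrest hs2)]
    exact hs2

/-! ### points reducing to the node -/

/-- points reducing to the node: the difference `P - τ P` is in `E₁`.
(`hM6` is the sawtooth lemma `S05x.fin_psz_pow_mem`.) -/
theorem pin_node (H : NodeHyp A W) (τ : K →+* K)
    (hτ : ∀ a : K, A.valuation a ≤ 1 → A.valuation (τ a - a) < 1)
    {n : ℕ} (hn : n.Prime) (hn2 : n ≠ 2)
    (c : K) (hc : τ c = c) (hca : A.valuation W.a₄ = A.valuation c ^ n)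
    {x y : K} (h : W.toAffine.Nonsingular x y) (h' : W.toAffine.Nonsingular (τ x) (τ y))
    (hP : n • Point.some x y h = 0)
    (hx : A.valuation x < 1) :
    pinE1 A (Point.some x y h - Point.some (τ x) (τ y) h') := by
  classical
  have hη1 : A.valuation W.a₄ < 1 := H.a₄m
  have hη0 : A.valuation W.a₄ ≠ 0 := (Valuation.ne_zero_iff _).2 H.a₄0
  have hodd : Odd n := (hn.eq_two_or_odd').resolve_left hn2
  have hn0 : n ≠ 0 := hn.ne_zero
  -- Step 1: the sawtooth lemma pins down `v x`
  obtain ⟨m, hm⟩ := fin_psz_pow_mem A H (Point.some x y h) n hP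
  rw [psz_some] at hm
  have hsz : sz A (A.valuation W.a₄) x = max (A.valuation x) (A.valuation W.a₄) := by
    unfold sz
    exact min_eq_right (max_le hx.le hη1.le)
  rw [hsz] at hm
  have hlt : A.valuation W.a₄ < A.valuation x := by
    by_contra hle
    rw [not_lt] at hle
    rw [max_eq_right hle] at hm
    exact m7_pow_ne_zpow_two_mul hη0 hη1 hodd m hm
  rw [max_eq_left hlt.le] at hm
  have hvx0 : A.valuation x ≠ 0 := (lt_of_le_of_lt zero_le hlt).ne'
  have hx0 : x ≠ 0 := (Valuation.ne_zero_iff _).1 hvx0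
  have hvc0 : A.valuation c ≠ 0 := by
    intro h0
    rw [h0, zero_pow hn0] at hca
    exact hη0 hca
  have hc0 : c ≠ 0 := (Valuation.ne_zero_iff _).1 hvc0
  have hvx : A.valuation x = A.valuation (c ^ (2 * m)) := by
    rw [map_zpow₀]
    apply m7_eq_of_pow_eq hn0
    rw [hm, hca, ← zpow_natCast, ← zpow_natCast, ← zpow_mul, ← zpow_mul, mul_comm]
  have hcm0 : c ^ (2 * m) ≠ 0 := zpow_ne_zero _ hc0
  have hvcm0 : A.valuation (c ^ (2 * m)) ≠ 0 := (Valuation.ne_zero_iff _).2 hcm0
  have hu : A.valuation (x / c ^ (2 * m)) = 1 := by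
    rw [map_div₀, hvx, div_self hvcm0]
  have hτu : τ (x / c ^ (2 * m)) = τ x / c ^ (2 * m) := by
    rw [map_div₀, map_zpow₀, hc]
  have hdx : A.valuation (τ x - x) < A.valuation x := by
    have h1 := hτ _ hu.le
    rw [hτu, ← sub_div, map_div₀, ← hvx] at h1
    exact (div_lt_one₀ (zero_lt_iff.2 hvx0)).1 h1
  have hvx' : A.valuation (τ x) = A.valuation x := by
    have : τ x = x + (τ x - x) := by ring
    rw [this]
    exact Valuation.map_add_eq_of_lt_left _ hdx
  -- Step 2: `t = y / x` is a unit with `t² = a₂ + μ`, `μ` in the maximal ideal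
  have heq : y ^ 2 = x ^ 3 + W.a₂ * x ^ 2 + W.a₄ * x :=
    (w2_equation_iff H.loc.w2 x y).1 h.left
  have hvx'0 : A.valuation (τ x) ≠ 0 := by rw [hvx']; exact hvx0
  have hx'0 : τ x ≠ 0 := (Valuation.ne_zero_iff _).1 hvx'0
  have hμ : A.valuation (x + W.a₄ / x) < 1 := by
    apply Valuation.map_add_lt _ hx
    rw [map_div₀]
    exact (div_lt_one₀ (zero_lt_iff.2 hvx0)).2 hlt
  have ht2 : (y / x) ^ 2 = W.a₂ + (x + W.a₄ / x) := by
    rw [div_pow, heq]
    field_simp
    ring
  have hvt : A.valuation (y / x) = 1 := by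
    have h1 : A.valuation ((y / x) ^ 2) = 1 := by
      rw [ht2, Valuation.map_add_eq_of_lt_left _ (by rw [H.a₂u]; exact hμ)]
      exact H.a₂u
    rw [map_pow] at h1
    exact (pow_eq_one_iff_of_nonneg zero_le two_ne_zero).1 h1
  have hτt : τ (y / x) = τ y / τ x := map_div₀ τ y x
  have hdt : A.valuation (τ y / τ x - y / x) < 1 := by
    rw [← hτt]
    exact hτ _ hvt.le
  have hv2 : A.valuation (2 : K) = 1 := H.loc.two
  by_cases hxx : τ x = x
  · -- same `x`-coordinate: then `τ y = y`
    left
    have h'' : W.toAffine.Nonsingular x (τ y) := by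
      rw [← hxx]
      exact h'
    have hyy : τ y = y := by
      rcases w2_same_x H.loc.w2 h h'' with hy | hy
      · exact hy
      · exfalso
        rw [hxx, hy] at hdt
        have e : -y / x - y / x = -(2 * (y / x)) := by ring
        rw [e, Valuation.map_neg, map_mul, hv2, hvt, one_mul] at hdt
        exact lt_irrefl _ hdt
    have : Point.some (τ x) (τ y) h' = Point.some x y h := by
      rw [Point.some.injEq]
      exact ⟨hxx, hyy⟩
    rw [this, sub_self]
  · obtain ⟨x₃, y₃, h₃, x₄, y₄, h₄, -, hsub, -, -, hD, -⟩ :=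
      w2_add_sub H.loc.w2 h h' (Ne.symm hxx)
    rw [hsub, pinE1_some]
    by_contra hint
    rw [not_lt] at hint
    have hδ : A.valuation ((x + W.a₄ / x) + y / x * (τ y / τ x - y / x)) < 1 := by
      apply Valuation.map_add_lt _ hμ
      rw [map_mul, hvt, one_mul]
      exact hdt
    have hrhs : x * τ x * (x + τ x + 2 * W.a₂) + W.a₄ * (x + τ x) + 2 * y * τ y =
        x * τ x * (4 * W.a₂) +
          (x * τ x * (x + τ x + 2 * ((x + W.a₄ / x) + y / x * (τ y / τ x - y / x))) +
            W.a₄ * (x + τ x)) := by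
      have e1 : y / x * (τ y / τ x - y / x) = y * τ y / (x * τ x) - (y / x) ^ 2 := by
        field_simp
      rw [e1, ht2]
      field_simp
      ring
    have hvxx : A.valuation (x + τ x) ≤ A.valuation x :=
      Valuation.map_add_le _ le_rfl hvx'.le
    have hmain : A.valuation (x * τ x * (4 * W.a₂)) = A.valuation x * A.valuation x := by
      have h4 : A.valuation (4 : K) = 1 := by
        have : (4 : K) = 2 * 2 := by norm_num
        rw [this, map_mul, hv2, one_mul]
      rw [map_mul, map_mul, map_mul, hvx', h4, H.a₂u, one_mul, mul_one]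
    have hpos : 0 < A.valuation x := zero_lt_iff.2 hvx0
    have hpos2 : 0 < A.valuation x * A.valuation x := mul_pos hpos hpos
    have hr1 : A.valuation (x * τ x * (x + τ x +
        2 * ((x + W.a₄ / x) + y / x * (τ y / τ x - y / x)))) < A.valuation x * A.valuation x := by
      rw [map_mul, map_mul, hvx']
      have h1 : A.valuation (x + τ x +
          2 * ((x + W.a₄ / x) + y / x * (τ y / τ x - y / x))) < 1 := by
        apply Valuation.map_add_lt
        · exact lt_of_le_of_lt hvxx hx
        · rw [map_mul, hv2, one_mul]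
          exact hδ
      calc A.valuation x * A.valuation x * _ < A.valuation x * A.valuation x * 1 := by
            exact mul_lt_mul_of_pos_left h1 hpos2
        _ = _ := mul_one _
    have hr2 : A.valuation (W.a₄ * (x + τ x)) < A.valuation x * A.valuation x := by
      rw [map_mul]
      calc A.valuation W.a₄ * A.valuation (x + τ x)
          ≤ A.valuation W.a₄ * A.valuation x := mul_le_mul_right hvxx _
        _ < A.valuation x * A.valuation x := mul_lt_mul_of_pos_right hlt hpos
    have hval : A.valuation (x₄ * (x - τ x) ^ 2) = A.valuation x * A.valuation x := by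
      rw [hD, hrhs, Valuation.map_add_eq_of_lt_left _ (by
        rw [hmain]
        exact Valuation.map_add_lt _ hr1 hr2)]
      exact hmain
    have hdx' : A.valuation (x - τ x) < A.valuation x := by
      rw [Valuation.map_sub_swap]
      exact hdx
    have hlt2 : A.valuation (x₄ * (x - τ x) ^ 2) < A.valuation x * A.valuation x := by
      rw [map_mul, map_pow, pow_two]
      calc A.valuation x₄ * (A.valuation (x - τ x) * A.valuation (x - τ x))
          ≤ 1 * (A.valuation (x - τ x) * A.valuation (x - τ x)) := mul_le_mul_left hint _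
        _ = A.valuation (x - τ x) * A.valuation (x - τ x) := one_mul _
        _ ≤ A.valuation (x - τ x) * A.valuation x := mul_le_mul_right hdx'.le _
        _ < A.valuation x * A.valuation x := mul_lt_mul_of_pos_right hdx' hpos
    rw [hval] at hlt2
    exact lt_irrefl _ hlt2

/-! ### points in the kernel of reduction -/

/-- `τ` maps the maximal ideal into itself. -/
theorem pin_tau_lt_one (τ : K →+* K)
    (hτ : ∀ a : K, A.valuation a ≤ 1 → A.valuation (τ a - a) < 1) {a : K}
    (ha : A.valuation a < 1) : A.valuation (τ a) < 1 := by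
  have : τ a = a + (τ a - a) := by ring
  rw [this]
  exact Valuation.map_add_lt _ ha (hτ a ha.le)

theorem pin_one_lt_tau (τ : K →+* K)
    (hτ : ∀ a : K, A.valuation a ≤ 1 → A.valuation (τ a - a) < 1) {x : K}
    (hx : 1 < A.valuation x) : 1 < A.valuation (τ x) := by
  have hx0 : x ≠ 0 := by
    rintro rfl
    rw [_root_.map_zero] at hx
    exact not_lt.mpr zero_le hx
  have hinv : A.valuation x⁻¹ < 1 := by
    rw [map_inv₀]
    exact inv_lt_one_of_one_lt₀ hx
  have h1 := pin_tau_lt_one A τ hτ hinv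
  rw [map_inv₀, map_inv₀] at h1
  have hτx0 : τ x ≠ 0 := by
    intro h0
    exact hx0 ((map_eq_zero τ).mp h0)
  have hv0 : 0 < A.valuation (τ x) := zero_lt_iff.2 ((Valuation.ne_zero_iff _).2 hτx0)
  exact (inv_lt_one₀ hv0).mp h1

/-! ### the local theorem -/

/-- **Local theorem.** For a `W2`-curve with good or nodal reduction, a ring endomorphism `τ`
congruent to the identity modulo the maximal ideal and an `n`-torsion point `P` (`n` an odd prime,
not necessarily a unit), the point `P - τ P` lies in the kernel of reduction. -/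
theorem pin_local (H : LocHyp A W) (τ : K →+* K)
    (hτ : ∀ a : K, A.valuation a ≤ 1 → A.valuation (τ a - a) < 1)
    {n : ℕ} (hn : n.Prime) (hn2 : n ≠ 2)
    (hred : A.valuation (W.a₄ ^ 2 * (W.a₂ ^ 2 - 4 * W.a₄)) = 1 ∨
      (NodeHyp A W ∧ ∃ c : K, τ c = c ∧ A.valuation W.a₄ = A.valuation c ^ n))
    {x y : K} (h : W.toAffine.Nonsingular x y) (h' : W.toAffine.Nonsingular (τ x) (τ y))
    (hP : n • Point.some x y h = 0) :
    pinE1 A (Point.some x y h - Point.some (τ x) (τ y) h') := by
  have hW := H.w2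
  rcases lt_or_ge 1 (A.valuation x) with hxgt | hx1
  · -- `P ∈ E₁`
    exact pinE1_sub A H ((pinE1_some A h).mpr hxgt)
      ((pinE1_some A h').mpr (pin_one_lt_tau A τ hτ hxgt))
  have heq : y ^ 2 = x ^ 3 + W.a₂ * x ^ 2 + W.a₄ * x := (w2_equation_iff hW x y).mp h.1
  have hxA : x ∈ A := (A.valuation_le_one_iff x).mp hx1
  have ha2A : W.a₂ ∈ A := (A.valuation_le_one_iff _).mp H.a₂
  have ha4A : W.a₄ ∈ A := (A.valuation_le_one_iff _).mp H.a₄
  have hy1 : A.valuation y ≤ 1 := by
    apply m9_le_one_of_sq_le_one A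
    rw [heq, A.valuation_le_one_iff]
    exact add_mem (add_mem (pow_mem hxA 3) (mul_mem ha2A (pow_mem hxA 2))) (mul_mem ha4A hxA)
  have hF'A : 3 * x ^ 2 + 2 * W.a₂ * x + W.a₄ ∈ A :=
    add_mem (add_mem (mul_mem (ofNat_mem A 3) (pow_mem hxA 2))
      (mul_mem (mul_mem (ofNat_mem A 2) ha2A) hxA)) ha4A
  have hF'1 : A.valuation (3 * x ^ 2 + 2 * W.a₂ * x + W.a₄) ≤ 1 :=
    (A.valuation_le_one_iff _).mpr hF'A
  have hτx := hτ x hx1
  have hτy := hτ y hy1
  rcases hred with hgood | ⟨hnode, c, hc, hca⟩
  · apply pin_smooth A H h h' hx1 hτx hτy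
    by_contra hcon
    rw [not_or] at hcon
    have hy_lt : A.valuation y < 1 := lt_of_le_of_ne hy1 hcon.1
    have hF_lt : A.valuation (3 * x ^ 2 + 2 * W.a₂ * x + W.a₄) < 1 := lt_of_le_of_ne hF'1 hcon.2
    have hUA : -(6 * W.a₂ ^ 2 - 18 * W.a₄) * x - (4 * W.a₂ ^ 3 - 15 * W.a₂ * W.a₄) ∈ A :=
      sub_mem (mul_mem (neg_mem (sub_mem (mul_mem (ofNat_mem A 6) (pow_mem ha2A 2))
        (mul_mem (ofNat_mem A 18) ha4A))) hxA)
        (sub_mem (mul_mem (ofNat_mem A 4) (pow_mem ha2A 3))
          (mul_mem (mul_mem (ofNat_mem A 15) ha2A) ha4A))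
    have hVA : (2 * W.a₂ ^ 2 - 6 * W.a₄) * x ^ 2 + (2 * W.a₂ ^ 3 - 7 * W.a₂ * W.a₄) * x +
        (W.a₂ ^ 2 * W.a₄ - 4 * W.a₄ ^ 2) ∈ A :=
      add_mem (add_mem (mul_mem (sub_mem (mul_mem (ofNat_mem A 2) (pow_mem ha2A 2))
        (mul_mem (ofNat_mem A 6) ha4A)) (pow_mem hxA 2))
        (mul_mem (sub_mem (mul_mem (ofNat_mem A 2) (pow_mem ha2A 3))
          (mul_mem (mul_mem (ofNat_mem A 7) ha2A) ha4A)) hxA))
        (sub_mem (mul_mem (pow_mem ha2A 2) ha4A) (mul_mem (ofNat_mem A 4) (pow_mem ha4A 2)))
    have hy2_lt : A.valuation (x ^ 3 + W.a₂ * x ^ 2 + W.a₄ * x) < 1 := by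
      rw [← heq, pow_two]
      exact m9_mul_lt_one_left A hy_lt hy1
    have hlt : A.valuation (W.a₄ ^ 2 * (W.a₂ ^ 2 - 4 * W.a₄)) < 1 := by
      rw [m9_bezout W.a₂ W.a₄ x]
      exact m9_add_lt_one A
        (m9_mul_lt_one_right A ((A.valuation_le_one_iff _).mpr hUA) hy2_lt)
        (m9_mul_lt_one_right A ((A.valuation_le_one_iff _).mpr hVA) hF_lt)
    exact absurd hgood (ne_of_lt hlt)
  · rcases lt_or_eq_of_le hx1 with hxlt | hxeq
    · exact pin_node A hnode τ hτ hn hn2 c hc hca h h' hP hxlt
    · apply pin_smooth A H h h' hx1 hτx hτy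
      by_cases hyu : A.valuation y = 1
      · exact Or.inl hyu
      · right
        have hy_lt : A.valuation y < 1 := lt_of_le_of_ne hy1 hyu
        have hq : A.valuation (x ^ 2 + W.a₂ * x + W.a₄) < 1 := by
          have e : x * (x ^ 2 + W.a₂ * x + W.a₄) = y * y := by rw [← pow_two, heq]; ring
          have e2 := congrArg A.valuation e
          rw [map_mul, hxeq, one_mul] at e2
          rw [e2]
          exact m9_mul_lt_one_left A hy_lt hy1
        apply m9_eq_one_of_sub_lt A (b := x ^ 2) (by rw [map_pow, hxeq, one_pow])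
        have e : 3 * x ^ 2 + 2 * W.a₂ * x + W.a₄ - x ^ 2 =
            2 * (x ^ 2 + W.a₂ * x + W.a₄) - W.a₄ := by ring
        rw [e]
        exact m9_sub_lt_one A
          (m9_mul_lt_one_right A ((A.valuation_le_one_iff _).mpr (ofNat_mem A 2)) hq) hnode.a₄m

end Fermat.Agent.S13x
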