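import Fermat.Agent.S13x.Defs
import Fermat.Agent.S05x.Inertia
import Fermat.Agent.S13x.FixedRat

/-!
# S13 project, module B2 (hypothesis form): LEMMA SS

In presence of a Galois-stable line `N` of the `p`-torsion `V` of the Frey curve, not all of `V`
lies in the kernel of reduction with respect to a valuation subring `A` of `Qb` over `p`.
The two inputs (`A_N` the torsion polynomial and `G4` fixed elements are rational) are taken as
explicit hypotheses, in exactly the shapes of `Spec.exists_torsion_poly` and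
`Spec.fixed_mem_range`.
-/

set_option autoImplicit false
open WeierstrassCurve WeierstrassCurve.Affine WeierstrassCurve.Affine.Point Polynomial

namespace Fermat.Agent.S13x

/-! ## valuation of rational numbers -/

section ValRat

variable {L : Type*} [Field L] (A : ValuationSubring L) {q : ℕ}

theorem ssl_val_natCast (hq : q.Prime) (hA : A.LiesOverPrime q) {n : ℕ} (hn : n ≠ 0) :
    ∃ e : ℕ, A.valuation (n : L) = A.valuation (q : L) ^ e := by
  obtain ⟨e, n', hn', rfl⟩ := Nat.exists_eq_pow_mul_and_not_dvd hn q hq.ne_one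
  refine ⟨e, ?_⟩
  have h1 : A.valuation ((n' : ℤ) : L) = 1 :=
    (Fermat.Agent.S05x.m0_val_int_eq_one_iff_gen A hq hA (n' : ℤ)).mpr
      (by exact_mod_cast hn')
  push_cast at h1 ⊢
  rw [map_mul, map_pow, h1, mul_one]

theorem ssl_val_intCast (hq : q.Prime) (hA : A.LiesOverPrime q) {z : ℤ} (hz : z ≠ 0) :
    ∃ e : ℕ, A.valuation (z : L) = A.valuation (q : L) ^ e := by
  obtain ⟨e, he⟩ := ssl_val_natCast A hq hA (n := z.natAbs) (Int.natAbs_ne_zero.mpr hz)
  refine ⟨e, ?_⟩
  rw [← he]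
  rcases Int.natAbs_eq z with h | h
  · have h' : (z : L) = ((z.natAbs : ℕ) : L) := by
      rw [← Int.cast_natCast]
      exact congrArg _ h
    rw [h']
  · have h' : (z : L) = -((z.natAbs : ℕ) : L) := by
      rw [← Int.cast_natCast, ← Int.cast_neg]
      exact congrArg _ h
    rw [h', Valuation.map_neg]

theorem ssl_val_ratCast [CharZero L] (hq : q.Prime) (hA : A.LiesOverPrime q) {g : ℚ} (hg : g ≠ 0) :
    ∃ k : ℤ, A.valuation (g : L) = A.valuation (q : L) ^ k := by
  obtain ⟨e₁, h₁⟩ := ssl_val_intCast A hq hA (z := g.num) (Rat.num_ne_zero.mpr hg)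
  obtain ⟨e₂, h₂⟩ := ssl_val_natCast A hq hA (n := g.den) g.den_ne_zero
  refine ⟨(e₁ : ℤ) - e₂, ?_⟩
  have hq0 : A.valuation (q : L) ≠ 0 := by
    rw [Ne, Valuation.zero_iff]
    exact_mod_cast hq.ne_zero
  rw [Rat.cast_def, map_div₀, h₁, h₂, zpow_sub₀ hq0, zpow_natCast, zpow_natCast]

/-- a rational number of valuation `> 1` has valuation at least `v(q)⁻¹` -/
theorem ssl_val_ratCast_ge [CharZero L] (hq : q.Prime) (hA : A.LiesOverPrime q) {g : ℚ}
    (hg : 1 < A.valuation (g : L)) : (A.valuation (q : L))⁻¹ ≤ A.valuation (g : L) := by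
  have hg0 : g ≠ 0 := by
    rintro rfl
    simp at hg
  obtain ⟨k, hk⟩ := ssl_val_ratCast A hq hA hg0
  have hqv : A.valuation (q : L) < 1 := A.mem_nonunits_iff.mp hA
  have hq0 : A.valuation (q : L) ≠ 0 := by
    rw [Ne, Valuation.zero_iff]
    exact_mod_cast hq.ne_zero
  have hq0' : 0 < A.valuation (q : L) := zero_lt_iff.mpr hq0
  rw [hk] at hg ⊢
  have hk' : k ≤ -1 := by
    by_contra hcon
    have hk0 : 0 ≤ k := by omega
    have : A.valuation (q : L) ^ k ≤ 1 := by
      lift k to ℕ using hk0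
      rw [zpow_natCast]
      exact pow_le_one' hqv.le k
    exact absurd hg (not_lt.mpr this)
  calc (A.valuation (q : L))⁻¹ = A.valuation (q : L) ^ (-1 : ℤ) := (zpow_neg_one _).symm
    _ ≤ A.valuation (q : L) ^ k := zpow_le_zpow_right_of_le_one₀ hq0' hqv.le hk'

end ValRat


/-! ## points of `V` -/

section Pts

variable (P : FreyPackage)

/-- a point of order dividing `p` as an element of `V` -/
noncomputable def sslMk {x y : Qb} (h : (P.freyCurve⁄Qb).Nonsingular x y)
    (hp : P.p • (Point.some x y h : FreyPt P) = 0) : FreyV P :=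
  ⟨Point.some x y h, by rw [Submodule.mem_torsionBy_iff, natCast_zsmul]; exact hp⟩

theorem ssl_coe_mk {x y : Qb} (h : (P.freyCurve⁄Qb).Nonsingular x y)
    (hp : P.p • (Point.some x y h : FreyPt P) = 0) :
    ((sslMk P h hp : FreyV P) : FreyPt P) = Point.some x y h := rfl

theorem ssl_mk_ne_zero {x y : Qb} (h : (P.freyCurve⁄Qb).Nonsingular x y)
    (hp : P.p • (Point.some x y h : FreyPt P) = 0) : sslMk P h hp ≠ 0 := by
  intro h0
  have := congrArg (fun Q : FreyV P => (Q : FreyPt P)) h0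
  exact Point.some_ne_zero h this

theorem ssl_cases (Q : FreyV P) : Q = 0 ∨ ∃ (x y : Qb) (h : (P.freyCurve⁄Qb).Nonsingular x y)
    (hp : P.p • (Point.some x y h : FreyPt P) = 0), Q = sslMk P h hp := by
  rcases Q with ⟨Q, hQ⟩
  rcases Q with _ | ⟨x, y, h⟩
  · left
    rfl
  · right
    refine ⟨x, y, h, ?_, rfl⟩
    rw [Submodule.mem_torsionBy_iff, natCast_zsmul] at hQ
    exact hQ

theorem ssl_smul_mk (σ : GQ) {x y : Qb} (h : (P.freyCurve⁄Qb).Nonsingular x y)
    (hp : P.p • (Point.some x y h : FreyPt P) = 0) :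
    ∃ (h' : (P.freyCurve⁄Qb).Nonsingular (σ x) (σ y))
      (hp' : P.p • (Point.some (σ x) (σ y) h' : FreyPt P) = 0),
      σ • sslMk P h hp = sslMk P h' hp' := by
  have h' : (P.freyCurve⁄Qb).Nonsingular (σ x) (σ y) :=
    (WeierstrassCurve.Affine.baseChange_nonsingular P.freyCurve (f := σ.toAlgHom)
      σ.injective x y).mpr h
  have hmem := (σ • sslMk P h hp).2
  rw [Submodule.mem_torsionBy_iff, natCast_zsmul] at hmem
  exact ⟨h', hmem, rfl⟩

theorem ssl_neg_mk {x y : Qb} (h : (P.freyCurve⁄Qb).Nonsingular x y)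
    (hp : P.p • (Point.some x y h : FreyPt P) = 0) :
    ∃ (h' : (P.freyCurve⁄Qb).Nonsingular x ((P.freyCurve⁄Qb).negY x y))
      (hp' : P.p • (Point.some x ((P.freyCurve⁄Qb).negY x y) h' : FreyPt P) = 0),
      -sslMk P h hp = sslMk P h' hp' := by
  have h' := (WeierstrassCurve.Affine.nonsingular_neg (W' := (P.freyCurve⁄Qb)) x y).mpr h
  have hmem := (-sslMk P h hp).2
  rw [Submodule.mem_torsionBy_iff, natCast_zsmul] at hmem
  have hcoe : ((-sslMk P h hp : FreyV P) : FreyPt P) = Point.some x _ h' := by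
    rw [Submodule.coe_neg, ssl_coe_mk, Point.neg_some]
  have hp' : P.p • (Point.some x ((P.freyCurve⁄Qb).negY x y) h' : FreyPt P) = 0 := by
    rw [← hcoe]
    exact hmem
  exact ⟨h', hp', Subtype.ext hcoe⟩

end Pts


/-! ## products of valuations -/

section Prod

variable {Γ : Type*} [LinearOrderedCommGroupWithZero Γ]

theorem ssl_one_le_multiset_prod (m : Multiset Γ) (h : ∀ a ∈ m, 1 < a) : 1 ≤ m.prod := by
  induction m using Multiset.induction_on with
  | empty => simp
  | cons a m ih =>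
    rw [Multiset.prod_cons]
    have h1 : 1 < a := h a (Multiset.mem_cons_self a m)
    have h2 : 1 ≤ m.prod := ih fun b hb => h b (Multiset.mem_cons_of_mem hb)
    calc (1 : Γ) = 1 * 1 := (mul_one 1).symm
      _ ≤ a * m.prod := mul_le_mul' h1.le h2

theorem ssl_one_lt_multiset_prod (m : Multiset Γ) (h : ∀ a ∈ m, 1 < a) (hm : m ≠ 0) :
    1 < m.prod := by
  obtain ⟨a, ha⟩ := Multiset.exists_mem_of_ne_zero hm
  obtain ⟨m', rfl⟩ := Multiset.exists_cons_of_mem ha
  rw [Multiset.prod_cons]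
  have h1 : 1 < a := h a ha
  have h2 : 1 ≤ m'.prod := ssl_one_le_multiset_prod m' fun b hb => h b (Multiset.mem_cons_of_mem hb)
  calc (1 : Γ) < a := h1
    _ = a * 1 := (mul_one a).symm
    _ ≤ a * m'.prod := mul_le_mul' le_rfl h2

end Prod


/-! ## the main argument -/

section Main

variable (P : FreyPackage) (A : ValuationSubring Qb)

theorem ssl_eval_map_smul (Npol : Polynomial ℤ) (σ : GQ) (r : Qb) :
    (Npol.map (algebraMap ℤ Qb)).eval (σ r) = σ ((Npol.map (algebraMap ℤ Qb)).eval r) := by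
  rw [eval_map, eval_map, ← AlgEquiv.coe_ringEquiv, ← RingEquiv.coe_toRingHom, hom_eval₂]
  congr 1
  exact RingHom.ext_int _ _

theorem ssl_core (hA : A.LiesOverPrime P.p)
    (Npol : Polynomial ℤ) (u : ℤ) (hu : ¬ (P.p : ℤ) ∣ u)
    (hlead : Npol.leadingCoeff = (P.p : ℤ) ^ 2 * u)
    (hroot : ∀ r : Qb, (Npol.map (algebraMap ℤ Qb)).IsRoot r →
        ∃ (y : Qb) (h : (P.freyCurve⁄Qb).Nonsingular r y),
          P.p • (Point.some r y h : FreyPt P) = 0)
    (hmult : ∀ (x y : Qb) (h : (P.freyCurve⁄Qb).Nonsingular x y),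
        P.p • (Point.some x y h : FreyPt P) = 0 →
          (X - C x) ^ 2 ∣ Npol.map (algebraMap ℤ Qb))
    (hfix : ∀ z : Qb, (∀ σ : GQ, σ z = z) → z ∈ (algebraMap ℚ Qb).range)
    (N : Submodule (ZMod P.p) (FreyV P)) (hN : IsGaloisStable ℚ N) (hbot : N ≠ ⊥)
    (htop : N ≠ ⊤) :
    ∃ x : FreyV P, ¬ InE1 A (x : FreyPt P) := by
  classical
  by_contra hall
  push Not at hall
  set Nq : Polynomial Qb := Npol.map (algebraMap ℤ Qb) with hNq
  have hp0 : (P.p : ℤ) ≠ 0 := by exact_mod_cast P.hp0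
  have hu0 : u ≠ 0 := by
    rintro rfl
    exact hu (dvd_zero _)
  have hNpol0 : Npol ≠ 0 := by
    intro h0
    rw [h0, leadingCoeff_zero] at hlead
    exact (mul_ne_zero (pow_ne_zero 2 hp0) hu0) hlead.symm
  have hinj : Function.Injective (algebraMap ℤ Qb) := (algebraMap ℤ Qb).injective_int
  have hNq0 : Nq ≠ 0 := (Polynomial.map_ne_zero_iff hinj).mpr hNpol0
  have hNqlead : Nq.leadingCoeff = ((P.p : ℤ) : Qb) ^ 2 * (u : Qb) := by
    rw [hNq, leadingCoeff_map_of_injective hinj, hlead]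
    simp
  -- every root has valuation > 1
  have hrootval : ∀ r, Nq.IsRoot r → 1 < A.valuation r := by
    intro r hr
    obtain ⟨y, h, hp⟩ := hroot r hr
    have h1 := hall (sslMk P h hp)
    rw [ssl_coe_mk, inE1_some] at h1
    rw [← not_le, A.valuation_le_one_iff]
    exact h1
  -- torsion x-coordinates are roots
  have hisroot : ∀ {x y : Qb} (h : (P.freyCurve⁄Qb).Nonsingular x y)
      (_ : P.p • (Point.some x y h : FreyPt P) = 0), Nq.IsRoot x := by
    intro x y h hp
    obtain ⟨g, hg⟩ := hmult x y h hp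
    rw [IsRoot.def, hg]
    simp
  -- the set of x-coordinates of nonzero points of N
  let T : Set Qb := {r | ∃ (y : Qb) (h : (P.freyCurve⁄Qb).Nonsingular r y)
    (hp : P.p • (Point.some r y h : FreyPt P) = 0), sslMk P h hp ∈ N}
  let S : Finset Qb := Nq.roots.toFinset.filter (· ∈ T)
  have hmemS : ∀ r, r ∈ S ↔ Nq.IsRoot r ∧ r ∈ T := by
    intro r
    simp only [S, Finset.mem_filter, Multiset.mem_toFinset, mem_roots hNq0]
  have hTroot : ∀ r ∈ T, Nq.IsRoot r := by
    rintro r ⟨y, h, hp, -⟩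
    exact hisroot h hp
  have hSstable : ∀ σ : GQ, ∀ s ∈ S, σ s ∈ S := by
    intro σ s hs
    rw [hmemS] at hs ⊢
    obtain ⟨hs1, y, h, hp, hmem⟩ := hs
    have hT : σ s ∈ T := by
      obtain ⟨h', hp', he⟩ := ssl_smul_mk P σ h hp
      refine ⟨σ y, h', hp', ?_⟩
      rw [← he]
      exact hN σ _ hmem
    exact ⟨hTroot _ hT, hT⟩
  -- the product of S is rational
  set γ : Qb := ∏ s ∈ S, s with hγ
  have hγfix : ∀ σ : GQ, σ γ = γ := by
    intro σ
    rw [hγ, map_prod]
    refine Finset.prod_bij (fun s _ => σ s) (fun s hs => hSstable σ s hs)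
      (fun a _ b _ hab => σ.injective hab) (fun b hb => ?_) (fun _ _ => rfl)
    refine ⟨σ⁻¹ b, hSstable σ⁻¹ b hb, ?_⟩
    rw [← AlgEquiv.mul_apply, mul_inv_cancel, AlgEquiv.one_apply]
  obtain ⟨g, hg⟩ := hfix γ hγfix
  have hg' : (g : Qb) = γ := by rw [← hg]; exact (eq_ratCast (algebraMap ℚ Qb) g).symm
  -- S is nonempty
  have hSne : S.Nonempty := by
    obtain ⟨Q, hQN, hQ0⟩ := Submodule.exists_mem_ne_zero_of_ne_bot hbot
    rcases ssl_cases P Q with rfl | ⟨x, y, h, hp, rfl⟩
    · exact absurd rfl hQ0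
    · exact ⟨x, (hmemS x).mpr ⟨hisroot h hp, y, h, hp, hQN⟩⟩
  -- valuation of γ
  have hγval : 1 < A.valuation γ := by
    rw [hγ, map_prod, Finset.prod_eq_multiset_prod]
    apply ssl_one_lt_multiset_prod
    · intro a ha
      obtain ⟨s, hs, rfl⟩ := Multiset.mem_map.mp ha
      exact hrootval s ((hmemS s).mp hs).1
    · intro h0
      rw [Multiset.map_eq_zero] at h0
      exact hSne.ne_empty (Finset.val_eq_zero.mp h0)
  have hγge : (A.valuation ((P.p : ℕ) : Qb))⁻¹ ≤ A.valuation γ := by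
    rw [← hg'] at hγval ⊢
    exact ssl_val_ratCast_ge A P.pp hA hγval
  -- the divisor D
  set D : Polynomial Qb := ∏ s ∈ S, (X - C s) ^ 2 with hD
  have hDdvd : D ∣ Nq := by
    apply Finset.prod_dvd_of_coprime
    · intro a _ b _ hab
      apply IsCoprime.pow
      exact isCoprime_X_sub_C_of_isUnit_sub (sub_ne_zero.mpr hab).isUnit
    · intro s hs
      obtain ⟨-, y, h, hp, -⟩ := (hmemS s).mp hs
      exact hmult s y h hp
  obtain ⟨H, hH⟩ := hDdvd
  have hDmonic : D.Monic := monic_prod_of_monic _ _ fun s _ => (monic_X_sub_C s).pow 2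
  have hH0 : H ≠ 0 := by
    rintro rfl
    rw [mul_zero] at hH
    exact hNq0 hH
  have hHlead : H.leadingCoeff = Nq.leadingCoeff := by
    rw [hH, leadingCoeff_mul, hDmonic.leadingCoeff, one_mul]
  have hHroot : ∀ r, H.IsRoot r → 1 < A.valuation r := by
    intro r hr
    apply hrootval
    rw [IsRoot.def, hH, eval_mul, hr.eq_zero, mul_zero]
  -- evaluate at zero
  have hev0 : Nq.eval 0 = γ ^ 2 * (Nq.leadingCoeff * (H.roots.map (fun r => 0 - r)).prod) := by
    have hHsp : H.Splits := IsAlgClosed.splits H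
    have e1 : Nq.eval 0 = D.eval 0 * H.eval 0 := by
      conv_lhs => rw [hH]
      exact eval_mul
    have e2 : D.eval 0 = γ ^ 2 := by
      rw [hD, eval_prod, hγ, ← Finset.prod_pow]
      refine Finset.prod_congr rfl fun s _ => ?_
      simp
    rw [e1, e2, hHsp.eval_eq_prod_roots, hHlead]
  have hev0int : A.valuation (Nq.eval 0) ≤ 1 := by
    rw [hNq, eval_zero_map]
    exact Fermat.Agent.S05x.m0_val_int_le_one_gen A _
  have hvp0 : A.valuation ((P.p : ℕ) : Qb) ≠ 0 := by
    rw [Ne, Valuation.zero_iff]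
    exact_mod_cast P.hp0
  have hvu : A.valuation ((u : ℤ) : Qb) = 1 :=
    (Fermat.Agent.S05x.m0_val_int_eq_one_iff_gen A P.pp hA u).mpr hu
  have hvlead : A.valuation Nq.leadingCoeff = A.valuation ((P.p : ℕ) : Qb) ^ 2 := by
    rw [hNqlead, map_mul, map_pow, hvu, mul_one]
    simp
  have hprodH : (H.roots.map (fun r => A.valuation r)).prod ≤ 1 := by
    have h1 : A.valuation (Nq.eval 0) = A.valuation γ ^ 2 * (A.valuation ((P.p : ℕ) : Qb) ^ 2 *
        (H.roots.map (fun r => A.valuation r)).prod) := by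
      rw [hev0, map_mul, map_pow, map_mul, hvlead, map_multiset_prod, Multiset.map_map]
      congr 3
      refine Multiset.map_congr rfl fun r _ => ?_
      simp
    rw [h1] at hev0int
    have h2 : 1 ≤ A.valuation γ ^ 2 * A.valuation ((P.p : ℕ) : Qb) ^ 2 := by
      rw [← mul_pow]
      apply one_le_pow₀
      calc (1 : A.ValueGroup) = (A.valuation ((P.p : ℕ) : Qb))⁻¹ * A.valuation ((P.p : ℕ) : Qb) :=
            (inv_mul_cancel₀ hvp0).symm
        _ ≤ A.valuation γ * A.valuation ((P.p : ℕ) : Qb) := mul_le_mul' hγge le_rfl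
    calc (H.roots.map (fun r => A.valuation r)).prod
        = 1 * (H.roots.map (fun r => A.valuation r)).prod := (one_mul _).symm
      _ ≤ (A.valuation γ ^ 2 * A.valuation ((P.p : ℕ) : Qb) ^ 2) *
          (H.roots.map (fun r => A.valuation r)).prod := mul_le_mul' h2 le_rfl
      _ = A.valuation γ ^ 2 * (A.valuation ((P.p : ℕ) : Qb) ^ 2 *
          (H.roots.map (fun r => A.valuation r)).prod) := mul_assoc _ _ _
      _ ≤ 1 := hev0int
  have hHroots : H.roots = 0 := by
    by_contra hne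
    have : 1 < (H.roots.map (fun r => A.valuation r)).prod := by
      apply ssl_one_lt_multiset_prod
      · intro a ha
        obtain ⟨r, hr, rfl⟩ := Multiset.mem_map.mp ha
        exact hHroot r ((mem_roots hH0).mp hr)
      · intro h0
        exact hne (Multiset.map_eq_zero.mp h0)
    exact absurd hprodH (not_le.mpr this)
  -- a point outside N
  obtain ⟨Q, hQ⟩ : ∃ Q : FreyV P, Q ∉ N := by
    by_contra hcon
    push Not at hcon
    exact htop (Submodule.eq_top_iff'.mpr hcon)
  rcases ssl_cases P Q with rfl | ⟨x, y, h, hp, rfl⟩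
  · exact hQ N.zero_mem
  · have hx : Nq.IsRoot x := hisroot h hp
    have hHx : H.eval x ≠ 0 := by
      intro h0
      have : x ∈ H.roots := (mem_roots hH0).mpr h0
      rw [hHroots] at this
      exact (Multiset.notMem_zero x) this
    have hDx : D.eval x = 0 := by
      have := hx
      rw [IsRoot.def, hH, eval_mul] at this
      exact (mul_eq_zero.mp this).resolve_right hHx
    rw [hD, eval_prod, Finset.prod_eq_zero_iff] at hDx
    obtain ⟨s, hs, hsx⟩ := hDx
    have hxs : x = s := by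
      have : x - s = 0 := by simpa using hsx
      exact sub_eq_zero.mp this
    subst hxs
    obtain ⟨-, y', h', hp', hmem'⟩ := (hmemS x).mp hs
    rcases WeierstrassCurve.Affine.Y_eq_of_X_eq h'.1 h.1 rfl with hy | hy
    · subst hy
      exact hQ hmem'
    · obtain ⟨h'', hp'', hneg⟩ := ssl_neg_mk P h hp
      subst hy
      have : sslMk P h hp = -sslMk P h' hp' := by
        rw [← neg_eq_iff_eq_neg, hneg]
      rw [this] at hQ
      exact hQ (N.neg_mem hmem')

/-- LEMMA SS in hypothesis form: the two hypotheses are verbatim `Spec.exists_torsion_poly P`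
and `Spec.fixed_mem_range`. -/
theorem ssl_not_all_inE1 (hA : A.LiesOverPrime P.p)
    (hpoly : ∃ (N : Polynomial ℤ) (u : ℤ), ¬ (P.p : ℤ) ∣ u ∧
      N.leadingCoeff = (P.p : ℤ) ^ 2 * u ∧
      (∀ r : Qb, (N.map (algebraMap ℤ Qb)).IsRoot r →
        ∃ (y : Qb) (h : (P.freyCurve⁄Qb).Nonsingular r y),
          P.p • (Point.some r y h : FreyPt P) = 0) ∧
      (∀ (x y : Qb) (h : (P.freyCurve⁄Qb).Nonsingular x y),
        P.p • (Point.some x y h : FreyPt P) = 0 →
          (Polynomial.X - Polynomial.C x) ^ 2 ∣ N.map (algebraMap ℤ Qb)))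
    (hfix : ∀ z : Qb, (∀ σ : GQ, σ z = z) → z ∈ (algebraMap ℚ Qb).range)
    (N : Submodule (ZMod P.p) (FreyV P)) (hN : IsGaloisStable ℚ N) (hbot : N ≠ ⊥)
    (htop : N ≠ ⊤) :
    ∃ x : FreyV P, ¬ InE1 A (x : FreyPt P) := by
  obtain ⟨Npol, u, hu, hlead, hroot, hmult⟩ := hpoly
  exact ssl_core P A hA Npol u hu hlead hroot hmult hfix N hN hbot htop

/-- LEMMA SS with only the torsion polynomial as hypothesis (`G4` is `fixed_mem_range`):
the hypothesis `hpoly` is verbatim `Spec.exists_torsion_poly P`, the conclusion is verbatim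
`Spec.not_all_inE1`. -/
theorem ssl_not_all_inE1_of_poly (hA : A.LiesOverPrime P.p)
    (hpoly : ∃ (N : Polynomial ℤ) (u : ℤ), ¬ (P.p : ℤ) ∣ u ∧
      N.leadingCoeff = (P.p : ℤ) ^ 2 * u ∧
      (∀ r : Qb, (N.map (algebraMap ℤ Qb)).IsRoot r →
        ∃ (y : Qb) (h : (P.freyCurve⁄Qb).Nonsingular r y),
          P.p • (Point.some r y h : FreyPt P) = 0) ∧
      (∀ (x y : Qb) (h : (P.freyCurve⁄Qb).Nonsingular x y),
        P.p • (Point.some x y h : FreyPt P) = 0 →
          (Polynomial.X - Polynomial.C x) ^ 2 ∣ N.map (algebraMap ℤ Qb)))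
    (N : Submodule (ZMod P.p) (FreyV P)) (hN : IsGaloisStable ℚ N) (hbot : N ≠ ⊥)
    (htop : N ≠ ⊤) :
    ∃ x : FreyV P, ¬ InE1 A (x : FreyPt P) :=
  ssl_not_all_inE1 P A hA hpoly fixed_mem_range N hN hbot htop

end Main

end Fermat.Agent.S13x

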