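import Fermat.Agent.S13x.Defs

/-!
# S13 project: INTERFACE SPEC (top level)

Every statement below is a stub with `sorry`; the real proofs live in the module files listed in
table `s13_plan` (namespace `Fermat.Agent.S13x`, same names without `Spec`).
This file is never imported by the final `S13.lean` nor by any real module.
Sub-captains keep their internal specs in their own files (`TorsSpec.lean`, `PadicSpec.lean`, ...).

Route (no Mazur): `V = E[p](Qb)` is a plane (A), a stable line `N` gives two characters; at odd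
`q ≠ p` inertia acts trivially (S05, landed); at `2` inertia acts unipotently (C1); at `p`, with
`M = V ∩ E₁(A)`, inertia acts trivially on `V/M` (B1) and `M ≠ V` (B2, uses the torsion polynomial
`A_N`); so inertia at every prime lies in `fixN N` or in `cofixN N` (uniformly); Minkowski (E) makes
one of them everything; `fixN N = ⊤` is a rational point of order `p`, excluded `2`-adically (C2).
-/

set_option autoImplicit false
open WeierstrassCurve WeierstrassCurve.Affine WeierstrassCurve.Affine.Point

namespace Fermat.Agent.S13x.Spec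

open Fermat.Agent.S13x

/-! ## A. torsion leaf (Wronskian route primary, sub-captain helper41; analytic backup helper81) -/

/-- (L) -/
theorem freyV_nontrivial (P : FreyPackage) : Nontrivial (FreyV P) := sorry

/-- (U), finiteness part -/
theorem freyV_finite (P : FreyPackage) : Finite (FreyV P) := sorry

/-- (U) -/
theorem freyV_card_le (P : FreyPackage) : Nat.card (FreyV P) ≤ P.p ^ 2 := sorry

/-- (A_N) the torsion polynomial `N = Norm(W_p) ∈ ℤ[X]`: leading coefficient `p² · unit`,
every root is the `x` of a nonzero `p`-torsion point, every such `x` is a root of multiplicity ≥ 2. -/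
theorem exists_torsion_poly (P : FreyPackage) :
    ∃ (N : Polynomial ℤ) (u : ℤ), ¬ (P.p : ℤ) ∣ u ∧ N.leadingCoeff = (P.p : ℤ) ^ 2 * u ∧
      (∀ r : Qb, (N.map (algebraMap ℤ Qb)).IsRoot r →
        ∃ (y : Qb) (h : (P.freyCurve⁄Qb).Nonsingular r y),
          P.p • (Point.some r y h : FreyPt P) = 0) ∧
      (∀ (x y : Qb) (h : (P.freyCurve⁄Qb).Nonsingular x y),
        P.p • (Point.some x y h : FreyPt P) = 0 →
          (Polynomial.X - Polynomial.C x) ^ 2 ∣ N.map (algebraMap ℤ Qb)) := sorry

/-! ## B. the prime `p` (sub-captain helper43) -/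

/-- (B1') the kernel of reduction is a subgroup (odd residue characteristic is enough) -/
theorem inE1_add (P : FreyPackage) (A : ValuationSubring Qb) {q : ℕ} (hq : q.Prime) (hq2 : q ≠ 2)
    (hA : A.LiesOverPrime q) {Q₁ Q₂ : FreyPt P} (h₁ : InE1 A Q₁) (h₂ : InE1 A Q₂) :
    InE1 A (Q₁ + Q₂) := sorry

theorem inE1_neg (P : FreyPackage) (A : ValuationSubring Qb) {Q : FreyPt P} (h : InE1 A Q) :
    InE1 A (-Q) := sorry

/-- (B1) inertia at `p` moves `p`-torsion points only inside the kernel of reduction
(good reduction `p ∤ abc` and nodal reduction `p ∣ abc` alike) -/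
theorem inertia_p_sub_inE1 (P : FreyPackage) (A : ValuationSubring Qb)
    (hA : A.LiesOverPrime P.p) (σ : GQ) (hσ : σ ∈ A.inertiaSubgroupIn ℚ) (x : FreyV P) :
    InE1 A ((σ • x - x : FreyV P) : FreyPt P) := sorry

/-- (B2) LEMMA SS: in presence of a Galois-stable line not all of `V` is in the kernel of
reduction -/
theorem not_all_inE1 (P : FreyPackage) (A : ValuationSubring Qb) (hA : A.LiesOverPrime P.p)
    (N : Submodule (ZMod P.p) (FreyV P)) (hN : IsGaloisStable ℚ N) (hbot : N ≠ ⊥) (htop : N ≠ ⊤) :
    ∃ x : FreyV P, ¬ InE1 A (x : FreyPt P) := sorry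

/-! ## C. the prime `2` (sub-captain helper50) -/

/-- (C1) inertia at `2` acts unipotently: `(σ - 1)² = 0` on `V` -/
theorem inertia_two_unipotent (P : FreyPackage) (A : ValuationSubring Qb)
    (hA : A.LiesOverPrime 2) (σ : GQ) (hσ : σ ∈ A.inertiaSubgroupIn ℚ) (x : FreyV P) :
    σ • (σ • x - x) = σ • x - x := sorry

/-- (C2) the Frey curve has no rational point of order `p` -/
theorem no_fixed_torsion (P : FreyPackage) (x : FreyV P) (hx : ∀ σ : GQ, σ • x = x) : x = 0 := sorry

/-! ## E. global step (Minkowski), exists-version -/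

theorem exists_liesOverPrime {q : ℕ} (hq : q.Prime) :
    ∃ A : ValuationSubring Qb, A.LiesOverPrime q := sorry

theorem eq_top_of_forall_exists_inertia_le (H : Subgroup GQ) [H.Normal]
    (hopen : ∃ M : IntermediateField ℚ Qb, FiniteDimensional ℚ M ∧ M.fixingSubgroup ≤ H)
    (hI : ∀ q : ℕ, q.Prime →
      ∃ A : ValuationSubring Qb, A.LiesOverPrime q ∧ A.inertiaSubgroupIn ℚ ≤ H) : H = ⊤ := sorry

/-! ## G. glue -/

/-- (G4) Galois-fixed elements are rational -/
theorem fixed_mem_range (z : Qb) (hz : ∀ σ : GQ, σ z = z) : z ∈ (algebraMap ℚ Qb).range := sorry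

/-- (G2) the action on `V` factors through a finite extension -/
theorem exists_finite_fixing (P : FreyPackage) (hfin : Finite (FreyV P)) :
    ∃ M : IntermediateField ℚ Qb, FiniteDimensional ℚ M ∧
      ∀ σ ∈ M.fixingSubgroup, ∀ x : FreyV P, σ • x = x := sorry

/-- (G3) -/
theorem fixN_normal (P : FreyPackage) (N : Submodule (ZMod P.p) (FreyV P))
    (hN : IsGaloisStable ℚ N) : (fixN P N).Normal := sorry

theorem cofixN_normal (P : FreyPackage) (N : Submodule (ZMod P.p) (FreyV P))
    (hN : IsGaloisStable ℚ N) : (cofixN P N hN).Normal := sorry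

/-- (G1a) a unipotent element fixes the stable line and acts trivially on the quotient -/
theorem mem_of_unipotent (P : FreyPackage) (hfin : Finite (FreyV P))
    (hcard : Nat.card (FreyV P) ≤ P.p ^ 2)
    (N : Submodule (ZMod P.p) (FreyV P)) (hN : IsGaloisStable ℚ N) (hbot : N ≠ ⊥) (htop : N ≠ ⊤)
    (σ : GQ) (hσ : ∀ x : FreyV P, σ • (σ • x - x) = σ • x - x) :
    σ ∈ fixN P N ∧ σ ∈ cofixN P N hN := sorry

/-- (G1b) a subgroup moving `V` only inside a proper submodule `M` fixes the line or the quotient -/
theorem le_fixN_or_le_cofixN (P : FreyPackage) (hfin : Finite (FreyV P))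
    (hcard : Nat.card (FreyV P) ≤ P.p ^ 2)
    (N : Submodule (ZMod P.p) (FreyV P)) (hN : IsGaloisStable ℚ N) (hbot : N ≠ ⊥) (htop : N ≠ ⊤)
    (I : Subgroup GQ) (M : Submodule (ZMod P.p) (FreyV P)) (hM : M ≠ ⊤)
    (hI : ∀ σ ∈ I, ∀ x : FreyV P, σ • x - x ∈ M) :
    I ≤ fixN P N ∨ I ≤ cofixN P N hN := sorry

end Fermat.Agent.S13x.Spec
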