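import Mathlib

/-!
# S13x / TorsCount : zeros of a function on an affine Weierstrass curve

Module 6 of the "Wronskian route" for the torsion structure of elliptic curves.
`K` a field, `W` a Weierstrass curve over `K`, `R = W.CoordinateRing`.

* `tcEval h : R →ₐ[K] K` evaluation at a point `(x, y)` of the curve, with
  `tcEval_eq_zero_iff : tcEval h f = 0 ↔ f ∈ XYIdeal W x (C y)`.
* `tc_card_le` : a nonzero `g : R` lies in `XYIdeal` of at most `natDegree (norm g)` points.
* `tc_exists_point` : over an algebraically closed field every non-unit `g : R` lies in the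
  `XYIdeal` of some point of the curve (nonsingular if `Δ ≠ 0`).
-/

set_option autoImplicit false

namespace Fermat.Agent.S13x

open Polynomial WeierstrassCurve WeierstrassCurve.Affine
open scoped Polynomial.Bivariate

noncomputable section

variable {K : Type*} [Field K] (W : WeierstrassCurve.Affine K)

/-- Evaluation of a function of the coordinate ring at a point `(x, y)` of the curve. -/
def tcEval {x y : K} (h : W.Equation x y) : W.CoordinateRing →ₐ[K] K :=
  ((CoordinateRing.quotientXYIdealEquiv (W' := W) (x := x) (y := C y) h).toAlgHom).comp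
    (Ideal.Quotient.mkₐ K (CoordinateRing.XYIdeal W x (C y)))

lemma tcEval_eq_zero_iff {x y : K} (h : W.Equation x y) (f : W.CoordinateRing) :
    tcEval W h f = 0 ↔ f ∈ CoordinateRing.XYIdeal W x (C y) := by
  unfold tcEval
  rw [AlgHom.comp_apply]
  constructor
  · intro hf
    have := (CoordinateRing.quotientXYIdealEquiv (W' := W) (x := x) (y := C y) h).injective
      (a₁ := Ideal.Quotient.mkₐ K _ f) (a₂ := 0) (by simpa using hf)
    simpa [Ideal.Quotient.mkₐ_eq_mk, Ideal.Quotient.eq_zero_iff_mem] using this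
  · intro hf
    have : Ideal.Quotient.mkₐ K (CoordinateRing.XYIdeal W x (C y)) f = 0 := by
      simpa [Ideal.Quotient.mkₐ_eq_mk, Ideal.Quotient.eq_zero_iff_mem] using hf
    simp [this]

lemma tcEval_mk_C_X {x y : K} (h : W.Equation x y) :
    tcEval W h (CoordinateRing.mk W (C X)) = x := by
  have hmem : CoordinateRing.XClass W x ∈ CoordinateRing.XYIdeal W x (C y) :=
    Ideal.subset_span (by simp)
  have h0 := (tcEval_eq_zero_iff W h _).2 hmem
  have hx : CoordinateRing.XClass W x
      = CoordinateRing.mk W (C X) - algebraMap K W.CoordinateRing x := by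
    simp only [CoordinateRing.XClass, map_sub]
    rfl
  rw [hx, map_sub, AlgHom.commutes] at h0
  simpa [sub_eq_zero] using h0

lemma tcEval_mk_Y {x y : K} (h : W.Equation x y) :
    tcEval W h (CoordinateRing.mk W Y) = y := by
  have hmem : CoordinateRing.YClass W (C y) ∈ CoordinateRing.XYIdeal W x (C y) :=
    Ideal.subset_span (by simp)
  have h0 := (tcEval_eq_zero_iff W h _).2 hmem
  have hy : CoordinateRing.YClass W (C y)
      = CoordinateRing.mk W Y - algebraMap K W.CoordinateRing y := by
    simp only [CoordinateRing.YClass, map_sub]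
    rfl
  rw [hy, map_sub, AlgHom.commutes] at h0
  simpa [sub_eq_zero] using h0

/-- two points with the same evaluation hom are equal -/
lemma tcEval_injective {p q : K × K} (hp : W.Equation p.1 p.2) (hq : W.Equation q.1 q.2)
    (h : (tcEval W hp : W.CoordinateRing →* K) = (tcEval W hq : W.CoordinateRing →* K)) :
    p = q := by
  have h1 := congrArg (fun φ : W.CoordinateRing →* K => φ (CoordinateRing.mk W (C X))) h
  have h2 := congrArg (fun φ : W.CoordinateRing →* K => φ (CoordinateRing.mk W Y)) h
  simp only [MonoidHom.coe_coe] at h1 h2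
  rw [tcEval_mk_C_X, tcEval_mk_C_X] at h1
  rw [tcEval_mk_Y, tcEval_mk_Y] at h2
  exact Prod.ext h1 h2

/-- `R ⧸ (g)` is finite dimensional over `K` for `g ≠ 0`. -/
lemma tc_finite_quotient (g : W.CoordinateRing) (hg : g ≠ 0) :
    Module.Finite K (W.CoordinateRing ⧸ Ideal.span ({g} : Set W.CoordinateRing)) := by
  have hI : Ideal.span ({g} : Set W.CoordinateRing) ≠ ⊥ :=
    Ideal.span_singleton_eq_bot.not.2 hg
  exact Module.Finite.equiv (Ideal.quotientEquivDirectSum K (CoordinateRing.basis W) hI).symm

/-- A nonzero function `g` vanishes at at most `natDegree (norm g)` points of the curve. -/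
theorem tc_card_le (g : W.CoordinateRing) (hg : g ≠ 0) (S : Finset (K × K))
    (hS : ∀ p ∈ S, W.Equation p.1 p.2 ∧ g ∈ CoordinateRing.XYIdeal W p.1 (C p.2)) :
    S.card ≤ (Algebra.norm K[X] g).natDegree := by
  classical
  rw [← finrank_quotient_span_eq_natDegree_norm (CoordinateRing.basis W) hg]
  have := tc_finite_quotient W g hg
  set Q := W.CoordinateRing ⧸ Ideal.span ({g} : Set W.CoordinateRing) with hQ
  -- the functionals
  have hker : ∀ p : S, ∀ a ∈ Ideal.span ({g} : Set W.CoordinateRing),
      tcEval W (hS p.1 p.2).1 a = 0 := by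
    intro p a ha
    rw [tcEval_eq_zero_iff]
    exact (Ideal.span_singleton_le_iff_mem _).2 (hS p.1 p.2).2 ha
  let φ : S → Module.Dual K Q := fun p =>
    (Ideal.Quotient.liftₐ (Ideal.span ({g} : Set W.CoordinateRing))
      (tcEval W (hS p.1 p.2).1) (hker p)).toLinearMap
  have hφ : ∀ (p : S) (f : W.CoordinateRing),
      φ p (Ideal.Quotient.mk _ f) = tcEval W (hS p.1 p.2).1 f := by
    intro p f
    rfl
  have hli : LinearIndependent K φ := by
    -- Dedekind
    have hD := linearIndependent_monoidHom W.CoordinateRing K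
    let ψ : S → (W.CoordinateRing →* K) := fun p => (tcEval W (hS p.1 p.2).1 : W.CoordinateRing →* K)
    have hψ : Function.Injective ψ := by
      intro p q hpq
      exact Subtype.ext (tcEval_injective W (hS p.1 p.2).1 (hS q.1 q.2).1 hpq)
    have hD' := hD.comp ψ hψ
    rw [linearIndependent_iff'] at hD' ⊢
    intro s c hc p hp
    apply hD' s c _ p hp
    funext f
    have := congrArg (fun L : Module.Dual K Q => L (Ideal.Quotient.mk _ f)) hc
    simp only [LinearMap.sum_apply, LinearMap.smul_apply, hφ,
      LinearMap.zero_apply] at this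
    simpa [ψ] using this
  have := hli.fintype_card_le_finrank
  rw [Subspace.dual_finrank_eq] at this
  simpa using this

/-- Any `K`-algebra hom `R → K` is evaluation at the point `(ψ X, ψ Y)`. -/
lemma tc_algHom_mk (ψ : W.CoordinateRing →ₐ[K] K) (p : K[X][Y]) :
    ψ (CoordinateRing.mk W p)
      = p.evalEval (ψ (CoordinateRing.mk W (C X))) (ψ (CoordinateRing.mk W Y)) := by
  have h : (ψ : W.CoordinateRing →+* K).comp (CoordinateRing.mk W)
      = Polynomial.evalEvalRingHom (ψ (CoordinateRing.mk W (C X))) (ψ (CoordinateRing.mk W Y)) := by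
    apply Polynomial.ringHom_ext'
    · apply Polynomial.ringHom_ext'
      · ext k
        have : CoordinateRing.mk W (C (C k)) = algebraMap K W.CoordinateRing k := rfl
        simp [Polynomial.evalEvalRingHom, this]
      · simp [Polynomial.evalEvalRingHom]
    · simp [Polynomial.evalEvalRingHom]
  exact congrArg (fun f : K[X][Y] →+* K => f p) h

/-- The point at which a `K`-algebra hom `R → K` evaluates lies on the curve. -/
lemma tc_algHom_equation (ψ : W.CoordinateRing →ₐ[K] K) :
    W.Equation (ψ (CoordinateRing.mk W (C X))) (ψ (CoordinateRing.mk W Y)) := by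
  unfold WeierstrassCurve.Affine.Equation
  rw [← tc_algHom_mk]
  have : CoordinateRing.mk W W.polynomial = 0 := AdjoinRoot.mk_self
  rw [this, map_zero]

lemma tc_algHom_eq_tcEval (ψ : W.CoordinateRing →ₐ[K] K) :
    ψ = tcEval W (tc_algHom_equation W ψ) := by
  apply AlgHom.ext
  intro f
  obtain ⟨p, rfl⟩ := AdjoinRoot.mk_surjective f
  change ψ (CoordinateRing.mk W p) = tcEval W _ (CoordinateRing.mk W p)
  rw [tc_algHom_mk W ψ p, tc_algHom_mk W (tcEval W _) p, tcEval_mk_C_X, tcEval_mk_Y]

instance tc_finiteType : Algebra.FiniteType K W.CoordinateRing := by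
  have h1 : Algebra.FiniteType K K[X][Y] :=
    Algebra.FiniteType.trans (inferInstance : Algebra.FiniteType K K[X])
      (inferInstance : Algebra.FiniteType K[X] K[X][Y])
  exact Algebra.FiniteType.of_surjective
    (Ideal.Quotient.mkₐ K (Ideal.span ({W.polynomial} : Set K[X][Y]))) Ideal.Quotient.mk_surjective

/-- Over an algebraically closed field every non-unit of the coordinate ring vanishes at some
point of the curve. -/
theorem tc_exists_point [IsAlgClosed K] (g : W.CoordinateRing) (hg : ¬ IsUnit g) :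
    ∃ (x y : K) (_ : W.Equation x y), g ∈ CoordinateRing.XYIdeal W x (C y) := by
  have hne : Ideal.span ({g} : Set W.CoordinateRing) ≠ ⊤ := by
    rwa [Ne, Ideal.span_singleton_eq_top]
  obtain ⟨m, hm, hle⟩ := Ideal.exists_le_maximal _ hne
  let _ : Field (W.CoordinateRing ⧸ m) := Ideal.Quotient.field m
  have hft : Algebra.FiniteType K (W.CoordinateRing ⧸ m) :=
    Algebra.FiniteType.of_surjective (Ideal.Quotient.mkₐ K m) Ideal.Quotient.mk_surjective
  have hfin : Module.Finite K (W.CoordinateRing ⧸ m) :=
    finite_of_finite_type_of_isJacobsonRing K (W.CoordinateRing ⧸ m)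
  have hbij : Function.Bijective (algebraMap K (W.CoordinateRing ⧸ m)) :=
    IsAlgClosed.algebraMap_bijective_of_isIntegral
  let e : K ≃ₐ[K] (W.CoordinateRing ⧸ m) :=
    AlgEquiv.ofBijective (Algebra.ofId K (W.CoordinateRing ⧸ m)) hbij
  let ψ : W.CoordinateRing →ₐ[K] K := (e.symm : (W.CoordinateRing ⧸ m) →ₐ[K] K).comp
    (Ideal.Quotient.mkₐ K m)
  refine ⟨_, _, tc_algHom_equation W ψ, ?_⟩
  rw [← tcEval_eq_zero_iff W (tc_algHom_equation W ψ), ← tc_algHom_eq_tcEval W ψ]
  have hgm : g ∈ m := hle (Ideal.subset_span rfl)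
  have : Ideal.Quotient.mk m g = 0 := by
    simpa [Ideal.Quotient.eq_zero_iff_mem] using hgm
  simp [ψ, this]

/-- Nonsingular version. -/
theorem tc_exists_nonsingular [IsAlgClosed K] (hΔ : W.Δ ≠ 0) (g : W.CoordinateRing)
    (hg : ¬ IsUnit g) :
    ∃ (x y : K) (_ : W.Nonsingular x y), g ∈ CoordinateRing.XYIdeal W x (C y) := by
  obtain ⟨x, y, h, hmem⟩ := tc_exists_point W g hg
  exact ⟨x, y, (W.equation_iff_nonsingular_of_Δ_ne_zero hΔ).1 h, hmem⟩

/-- A set of pairs all of whose finite subsets have at most `d` elements is finite with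
at most `d` elements. -/
lemma tc_finite_of_finset_card_le {α : Type*} (T : Set α) (d : ℕ)
    (h : ∀ S : Finset α, (↑S : Set α) ⊆ T → S.card ≤ d) : T.Finite ∧ T.ncard ≤ d := by
  have hfin : T.Finite := by
    by_contra hinf
    obtain ⟨S, hST, hcard⟩ := Set.Infinite.exists_subset_card_eq hinf (d + 1)
    have := h S hST
    omega
  refine ⟨hfin, ?_⟩
  have := h hfin.toFinset (by simp)
  rwa [Set.ncard_eq_toFinset_card T hfin]

/-- Set version of `tc_card_le`: the zero set of a nonzero `g` on the affine curve. -/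
theorem tc_zeroSet_finite (g : W.CoordinateRing) (hg : g ≠ 0) :
    {p : K × K | W.Equation p.1 p.2 ∧ g ∈ CoordinateRing.XYIdeal W p.1 (C p.2)}.Finite ∧
    {p : K × K | W.Equation p.1 p.2 ∧ g ∈ CoordinateRing.XYIdeal W p.1 (C p.2)}.ncard
      ≤ (Algebra.norm K[X] g).natDegree :=
  tc_finite_of_finset_card_le _ _ fun S hS => tc_card_le W g hg S fun _ hp => hS hp

/-- the affine coordinates of a nonzero point, `(0,0)` for the point at infinity -/
def tcCoord : W.Point → K × K
  | .zero => (0, 0)
  | .some x y _ => (x, y)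

/-- Point version: a set `Z` of points of the curve such that `g` vanishes at every affine
point of `Z` has at most `natDegree (norm g) + 1` elements. -/
theorem tc_points_ncard_le (g : W.CoordinateRing) (hg : g ≠ 0) (Z : Set W.Point)
    (hZ : ∀ (x y : K) (h : W.Nonsingular x y), Point.some x y h ∈ Z →
      g ∈ CoordinateRing.XYIdeal W x (C y)) :
    Z.Finite ∧ Z.ncard ≤ (Algebra.norm K[X] g).natDegree + 1 := by
  classical
  obtain ⟨hfin, hcard⟩ := tc_zeroSet_finite W g hg
  set T := {p : K × K | W.Equation p.1 p.2 ∧ g ∈ CoordinateRing.XYIdeal W p.1 (C p.2)} with hT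
  have hinj : Set.InjOn (tcCoord W) (Z \ {0}) := by
    rintro (_ | ⟨x, y, h⟩) hP (_ | ⟨x', y', h'⟩) hQ hPQ
    · rfl
    · exact absurd rfl hP.2
    · exact absurd rfl hQ.2
    · simp only [tcCoord, Prod.mk.injEq] at hPQ
      obtain ⟨rfl, rfl⟩ := hPQ
      rfl
  have hmaps : Set.MapsTo (tcCoord W) (Z \ {0}) T := by
    rintro (_ | ⟨x, y, h⟩) hP
    · exact absurd rfl hP.2
    · exact ⟨h.1, hZ x y h hP.1⟩
  have hfin' : (Z \ {0}).Finite := Set.Finite.of_injOn hmaps hinj hfin
  have hcard' : (Z \ {0}).ncard ≤ T.ncard := Set.ncard_le_ncard_of_injOn _ hmaps hinj hfin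
  have hZsub : Z ⊆ insert 0 (Z \ {0}) := by
    intro P hP
    by_cases h0 : P = 0
    · exact Or.inl h0
    · exact Or.inr ⟨hP, h0⟩
  have hfinI : (insert (0 : W.Point) (Z \ {0})).Finite := hfin'.insert 0
  refine ⟨hfinI.subset hZsub, ?_⟩
  calc Z.ncard ≤ (insert (0 : W.Point) (Z \ {0})).ncard := Set.ncard_le_ncard hZsub hfinI
    _ ≤ (Z \ {0}).ncard + 1 := Set.ncard_insert_le _ _
    _ ≤ (Algebra.norm K[X] g).natDegree + 1 := by omega

end

end Fermat.Agent.S13x
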