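import Fermat.Agent.S13x.DivSeq
import Fermat.Agent.S13x.FreyInt
import Fermat.Agent.S13x.TorsionQbar

/-!
# S13 project, leaf A_N via division polynomials

The torsion polynomial of the Frey curve is `N = (preΨ_p)² ∈ ℤ[X]` (Mathlib's division polynomial
of the integral model): leading coefficient `p²` (`u = 1`), every nonzero `p`-torsion point is a
root of `preΨ_p` (`DivSeq.lean`), and conversely every root is the `x` of a `p`-torsion point by
counting (`Nat.card (FreyV P) = p²`, `TorsionQbar.lean`).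

Main result: `tpd_exists_torsion_poly`, verbatim the statement `Spec.exists_torsion_poly`.
-/

set_option autoImplicit false
open WeierstrassCurve WeierstrassCurve.Affine WeierstrassCurve.Affine.Point Polynomial

namespace Fermat.Agent.S13x

/-- the integral model of the Frey curve -/
noncomputable def tpdW (P : FreyPackage) : WeierstrassCurve ℤ := ⟨1, fiA₂ P, 0, fiA₄ P, 0⟩

theorem tpdW_map (P : FreyPackage) : (tpdW P).map (Int.castRingHom Qb) = P.freyCurve⁄Qb := by
  ext
  · rw [fi_a₁]; simp [tpdW]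
  · rw [fi_a₂]; simp [tpdW]
  · rw [fi_a₃]; simp [tpdW]
  · rw [fi_a₄]; simp [tpdW]
  · rw [fi_a₆]; simp [tpdW]

/-- the torsion polynomial -/
noncomputable def tpdN (P : FreyPackage) : Polynomial ℤ := (tpdW P).preΨ (P.p : ℤ) ^ 2

theorem tpdN_map (P : FreyPackage) :
    (tpdN P).map (algebraMap ℤ Qb) = (P.freyCurve⁄Qb).preΨ (P.p : ℤ) ^ 2 := by
  have hmap : algebraMap ℤ Qb = Int.castRingHom Qb := Subsingleton.elim _ _
  rw [tpdN, Polynomial.map_pow, hmap, ← WeierstrassCurve.map_preΨ, tpdW_map]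

theorem tpd_p_ne_zero (P : FreyPackage) : ((P.p : ℕ) : ℤ) ≠ 0 := by
  exact_mod_cast P.hp0

theorem tpd_not_even (P : FreyPackage) : ¬ Even ((P.p : ℕ) : ℤ) := by
  rw [Int.not_even_iff_odd]
  exact_mod_cast P.hp_odd

theorem tpdN_leadingCoeff (P : FreyPackage) : (tpdN P).leadingCoeff = (P.p : ℤ) ^ 2 := by
  rw [tpdN, leadingCoeff_pow, (tpdW P).leadingCoeff_preΨ (by simpa using P.hp0),
    if_neg (tpd_not_even P)]
  simp

/-- the division polynomial over `Qb` -/
theorem tpd_preΨ_ne_zero (P : FreyPackage) : (P.freyCurve⁄Qb).preΨ (P.p : ℤ) ≠ 0 := by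
  apply WeierstrassCurve.preΨ_ne_zero
  have : ((P.p : ℕ) : Qb) ≠ 0 := by exact_mod_cast P.hp0
  exact_mod_cast this

theorem tpd_natDegree (P : FreyPackage) :
    ((P.freyCurve⁄Qb).preΨ (P.p : ℤ)).natDegree = (P.p ^ 2 - 1) / 2 := by
  rw [WeierstrassCurve.natDegree_preΨ, if_neg (tpd_not_even P), Int.natAbs_natCast]
  have : ((P.p : ℕ) : Qb) ≠ 0 := by exact_mod_cast P.hp0
  exact_mod_cast this

/-- (N1) for the Frey curve -/
theorem tpd_isRoot (P : FreyPackage) {x y : Qb} (h : (P.freyCurve⁄Qb).Nonsingular x y)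
    (hp : P.p • (Point.some x y h : FreyPt P) = 0) :
    ((P.freyCurve⁄Qb).preΨ (P.p : ℤ)).IsRoot x :=
  ds_preΨ_eval_eq_zero_of_prime h P.pp P.hp5 hp

/-- the `x`-coordinate map on `V` -/
noncomputable def tpdX (P : FreyPackage) (Q : FreyV P) : Qb := wgX (Q : FreyPt P)

theorem tpd_mem (P : FreyPackage) (Q : FreyV P) : P.p • (Q : FreyPt P) = 0 := by
  have := Q.2
  rwa [Submodule.mem_torsionBy_iff, natCast_zsmul] at this

/-- **A_N** (verbatim `Spec.exists_torsion_poly`), via division polynomials and counting. -/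
theorem tpd_exists_torsion_poly (P : FreyPackage) :
    ∃ (N : Polynomial ℤ) (u : ℤ), ¬ (P.p : ℤ) ∣ u ∧ N.leadingCoeff = (P.p : ℤ) ^ 2 * u ∧
      (∀ r : Qb, (N.map (algebraMap ℤ Qb)).IsRoot r →
        ∃ (y : Qb) (h : (P.freyCurve⁄Qb).Nonsingular r y),
          P.p • (Point.some r y h : FreyPt P) = 0) ∧
      (∀ (x y : Qb) (h : (P.freyCurve⁄Qb).Nonsingular x y),
        P.p • (Point.some x y h : FreyPt P) = 0 →
          (Polynomial.X - Polynomial.C x) ^ 2 ∣ N.map (algebraMap ℤ Qb)) := by
  classical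
  refine ⟨tpdN P, 1, ?_, ?_, ?_, ?_⟩
  · -- p ∤ 1
    intro hdvd
    have h1 : ((P.p : ℕ) : ℤ) = 1 ∨ ((P.p : ℕ) : ℤ) = -1 := Int.isUnit_iff.mp (isUnit_of_dvd_one hdvd)
    have := P.hp5
    omega
  · rw [tpdN_leadingCoeff, mul_one]
  · -- roots are torsion: counting
    intro r hr
    rw [tpdN_map, IsRoot, eval_pow, pow_eq_zero_iff (by norm_num)] at hr
    set f := (P.freyCurve⁄Qb).preΨ (P.p : ℤ) with hf
    have hf0 : f ≠ 0 := tpd_preΨ_ne_zero P
    have : Finite (FreyV P) := tq_freyV_finite P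
    haveI : Fintype (FreyV P) := Fintype.ofFinite _
    have hcard : Fintype.card (FreyV P) = P.p ^ 2 := by
      rw [← Nat.card_eq_fintype_card]; exact tq_freyV_card P
    set s : Finset (FreyV P) := Finset.univ.filter (fun Q => Q ≠ 0) with hs
    have hscard : s.card = P.p ^ 2 - 1 := by
      rw [hs, Finset.filter_ne' Finset.univ (0 : FreyV P), Finset.card_erase_of_mem (Finset.mem_univ _),
        Finset.card_univ, hcard]
    -- image inside the root set
    have himg : s.image (tpdX P) ⊆ f.roots.toFinset := by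
      intro a ha
      rw [Finset.mem_image] at ha
      obtain ⟨Q, hQs, rfl⟩ := ha
      rw [hs, Finset.mem_filter] at hQs
      have hQ0 : (Q : FreyPt P) ≠ 0 := fun h0 => hQs.2 (Subtype.ext h0)
      obtain ⟨x, y, h, e⟩ := wg_exists_some hQ0
      have hp := tpd_mem P Q
      rw [e] at hp
      rw [Multiset.mem_toFinset, mem_roots hf0]
      have : tpdX P Q = x := by simp [tpdX, e]
      rw [this]
      exact tpd_isRoot P h hp
    -- fibres have at most two elements
    have hfib : ∀ a ∈ s.image (tpdX P), (s.filter (fun Q => tpdX P Q = a)).card ≤ 2 := by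
      intro a ha
      rw [Finset.mem_image] at ha
      obtain ⟨Q0, hQ0s, rfl⟩ := ha
      have hsub : s.filter (fun Q => tpdX P Q = tpdX P Q0) ⊆ {Q0, -Q0} := by
        intro Q hQ
        rw [Finset.mem_filter] at hQ
        obtain ⟨hQs, hx⟩ := hQ
        rw [hs, Finset.mem_filter] at hQs hQ0s
        have hQ1 : (Q : FreyPt P) ≠ 0 := fun h0 => hQs.2 (Subtype.ext h0)
        have hQ2 : (Q0 : FreyPt P) ≠ 0 := fun h0 => hQ0s.2 (Subtype.ext h0)
        obtain ⟨x1, y1, h1, e1⟩ := wg_exists_some hQ1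
        obtain ⟨x2, y2, h2, e2⟩ := wg_exists_some hQ2
        have hxx : x1 = x2 := by
          simpa [tpdX, e1, e2] using hx
        subst hxx
        rw [Finset.mem_insert, Finset.mem_singleton]
        rcases wg_same_x h2 h1 with e | e
        · left
          apply Subtype.ext
          rw [e1, e2]; exact e
        · right
          apply Subtype.ext
          rw [Submodule.coe_neg, e1, e2]; exact e
      exact (Finset.card_le_card hsub).trans Finset.card_le_two
    have hle := Finset.card_le_mul_card_image s 2 hfib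
    have hroots : f.roots.toFinset.card ≤ (P.p ^ 2 - 1) / 2 := by
      calc f.roots.toFinset.card ≤ Multiset.card f.roots := Multiset.toFinset_card_le _
        _ ≤ f.natDegree := f.card_roots'
        _ = (P.p ^ 2 - 1) / 2 := tpd_natDegree P
    have himgcard := Finset.card_le_card himg
    have heq : s.image (tpdX P) = f.roots.toFinset := by
      apply Finset.eq_of_subset_of_card_le himg
      omega
    have hrmem : r ∈ s.image (tpdX P) := by
      rw [heq, Multiset.mem_toFinset, mem_roots hf0]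
      exact hr
    rw [Finset.mem_image] at hrmem
    obtain ⟨Q, hQs, hQr⟩ := hrmem
    rw [hs, Finset.mem_filter] at hQs
    have hQ0 : (Q : FreyPt P) ≠ 0 := fun h0 => hQs.2 (Subtype.ext h0)
    obtain ⟨x, y, h, e⟩ := wg_exists_some hQ0
    have hp := tpd_mem P Q
    rw [e] at hp
    have hx : x = r := by
      rw [← hQr]; simp [tpdX, e]
    subst hx
    exact ⟨y, h, hp⟩
  · -- torsion points are double roots
    intro x y h hp
    rw [tpdN_map]
    exact pow_dvd_pow_of_dvd (dvd_iff_isRoot.mpr (tpd_isRoot P h hp)) 2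

end Fermat.Agent.S13x
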