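/-
S13 leaf (d), analytic route: basic definitions.
The elliptic curve `y² = x³ - (g₂/4) x - g₃/4` attached to a period pair `L`, and the
point map `z ↦ (℘ z, ℘' z / 2)`.
-/
import Mathlib.Analysis.SpecialFunctions.Elliptic.Weierstrass
import Mathlib.AlgebraicGeometry.EllipticCurve.Affine.Point

set_option autoImplicit false

open scoped PeriodPair
open WeierstrassCurve

namespace Fermat.Agent.S13x

/-- The Weierstrass curve `y² = x³ - (g₂/4) x - g₃/4` attached to a period pair. -/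
noncomputable def wpCurve (L : PeriodPair) : WeierstrassCurve ℂ :=
  ⟨0, 0, 0, -L.g₂ / 4, -L.g₃ / 4⟩

@[simp] lemma wpCurve_a₁ (L : PeriodPair) : (wpCurve L).a₁ = 0 := rfl
@[simp] lemma wpCurve_a₂ (L : PeriodPair) : (wpCurve L).a₂ = 0 := rfl
@[simp] lemma wpCurve_a₃ (L : PeriodPair) : (wpCurve L).a₃ = 0 := rfl
@[simp] lemma wpCurve_a₄ (L : PeriodPair) : (wpCurve L).a₄ = -L.g₂ / 4 := rfl
@[simp] lemma wpCurve_a₆ (L : PeriodPair) : (wpCurve L).a₆ = -L.g₃ / 4 := rfl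

lemma wpCurve_Δ (L : PeriodPair) : (wpCurve L).Δ = L.g₂ ^ 3 - 27 * L.g₃ ^ 2 := by
  simp only [WeierstrassCurve.Δ, WeierstrassCurve.b₂, WeierstrassCurve.b₄, WeierstrassCurve.b₆,
    WeierstrassCurve.b₈, wpCurve_a₁, wpCurve_a₂, wpCurve_a₃, wpCurve_a₄, wpCurve_a₆]
  ring

lemma wpCurve_equation_iff (L : PeriodPair) (x y : ℂ) :
    (wpCurve L).toAffine.Equation x y ↔ y ^ 2 = x ^ 3 - L.g₂ / 4 * x - L.g₃ / 4 := by
  rw [Affine.equation_iff]
  simp only [wpCurve_a₁, wpCurve_a₂, wpCurve_a₃, wpCurve_a₄, wpCurve_a₆]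
  constructor <;> intro h <;> linear_combination h

lemma wpCurve_equation (L : PeriodPair) {z : ℂ} (hz : z ∉ L.lattice) :
    (wpCurve L).toAffine.Equation (℘[L] z) (℘'[L] z / 2) := by
  rw [wpCurve_equation_iff]
  have h := L.derivWeierstrassP_sq z hz
  linear_combination h / 4

lemma wpCurve_nonsingular (L : PeriodPair) (hΔ : L.g₂ ^ 3 - 27 * L.g₃ ^ 2 ≠ 0) {z : ℂ}
    (hz : z ∉ L.lattice) : (wpCurve L).toAffine.Nonsingular (℘[L] z) (℘'[L] z / 2) :=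
  (Affine.equation_iff_nonsingular_of_Δ_ne_zero (by rwa [wpCurve_Δ])).1 (wpCurve_equation L hz)

open Classical in
/-- The point map `z ↦ (℘ z, ℘' z / 2)` (and `Λ ↦ 0`). -/
noncomputable def wpPoint (L : PeriodPair) (hΔ : L.g₂ ^ 3 - 27 * L.g₃ ^ 2 ≠ 0) (z : ℂ) :
    (wpCurve L).toAffine.Point :=
  if hz : z ∈ L.lattice then 0 else .some _ _ (wpCurve_nonsingular L hΔ hz)

lemma wpPoint_of_mem (L : PeriodPair) (hΔ : L.g₂ ^ 3 - 27 * L.g₃ ^ 2 ≠ 0) {z : ℂ}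
    (hz : z ∈ L.lattice) : wpPoint L hΔ z = 0 := by
  simp [wpPoint, hz]

lemma wpPoint_of_notMem (L : PeriodPair) (hΔ : L.g₂ ^ 3 - 27 * L.g₃ ^ 2 ≠ 0) {z : ℂ}
    (hz : z ∉ L.lattice) :
    wpPoint L hΔ z = .some _ _ (wpCurve_nonsingular L hΔ hz) := by
  simp [wpPoint, hz]

lemma wpPoint_eq_zero_iff (L : PeriodPair) (hΔ : L.g₂ ^ 3 - 27 * L.g₃ ^ 2 ≠ 0) (z : ℂ) :
    wpPoint L hΔ z = 0 ↔ z ∈ L.lattice := by
  constructor
  · intro h
    by_contra hz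
    rw [wpPoint_of_notMem L hΔ hz] at h
    exact Affine.Point.some_ne_zero _ h
  · exact wpPoint_of_mem L hΔ

lemma wpPoint_neg (L : PeriodPair) (hΔ : L.g₂ ^ 3 - 27 * L.g₃ ^ 2 ≠ 0) (z : ℂ) :
    wpPoint L hΔ (-z) = -wpPoint L hΔ z := by
  by_cases hz : z ∈ L.lattice
  · rw [wpPoint_of_mem L hΔ hz, wpPoint_of_mem L hΔ (neg_mem hz), neg_zero]
  · have hz' : -z ∉ L.lattice := fun h => hz (by simpa using neg_mem h)
    rw [wpPoint_of_notMem L hΔ hz, wpPoint_of_notMem L hΔ hz', Affine.Point.neg_some]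
    congr 1
    · simp
    · simp [Affine.negY]; ring

end Fermat.Agent.S13x
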