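/-
S13 leaf (d), module D08 (helper28), second step: torsion count over `ℂ` from the two D05 facts
(additivity and surjectivity of `wpPoint`), using D06 (`WpTorsion`), D07 (`LatticeOfInvariants`)
and `TorsionC.tc_card_torsion_of`.
-/
import Fermat.Agent.S13x.TorsionC
import Fermat.Agent.S13x.WpDefs
import Fermat.Agent.S13x.WpTorsion
import Fermat.Agent.S13x.LatticeOfInvariants

set_option autoImplicit false

open WeierstrassCurve WeierstrassCurve.Affine WeierstrassCurve.Affine.Point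

namespace Fermat.Agent.S13x

/-- D06, second statement, from the D05 facts. -/
theorem tc_wpCurve_card_torsion_of
    (hadd : ∀ (L : PeriodPair) (hΔ : L.g₂ ^ 3 - 27 * L.g₃ ^ 2 ≠ 0) (z w : ℂ),
      wpPoint L hΔ (z + w) = wpPoint L hΔ z + wpPoint L hΔ w)
    (hsurj : ∀ (L : PeriodPair) (hΔ : L.g₂ ^ 3 - 27 * L.g₃ ^ 2 ≠ 0),
      Function.Surjective (wpPoint L hΔ))
    (L : PeriodPair) (hΔ : L.g₂ ^ 3 - 27 * L.g₃ ^ 2 ≠ 0) {n : ℕ} (hn : 0 < n) :
    Nat.card (Submodule.torsionBy ℤ (wpCurve L).toAffine.Point (n : ℤ)) = n ^ 2 := by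
  let f : ℂ →+ (wpCurve L).toAffine.Point :=
    { toFun := wpPoint L hΔ
      map_zero' := wpPoint_of_mem L hΔ (zero_mem _)
      map_add' := hadd L hΔ }
  exact wpt_card_torsionBy_of_surjective L f (hsurj L hΔ) (wpPoint_eq_zero_iff L hΔ) n hn

/-- D08 from the D05 facts. -/
theorem tc_card_torsion_of_wpp
    (hadd : ∀ (L : PeriodPair) (hΔ : L.g₂ ^ 3 - 27 * L.g₃ ^ 2 ≠ 0) (z w : ℂ),
      wpPoint L hΔ (z + w) = wpPoint L hΔ z + wpPoint L hΔ w)
    (hsurj : ∀ (L : PeriodPair) (hΔ : L.g₂ ^ 3 - 27 * L.g₃ ^ 2 ≠ 0),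
      Function.Surjective (wpPoint L hΔ))
    (W : WeierstrassCurve ℂ) (hΔ : W.Δ ≠ 0) {n : ℕ} (hn : 0 < n) :
    Nat.card (Submodule.torsionBy ℤ W.toAffine.Point (n : ℤ)) = n ^ 2 :=
  tc_card_torsion_of
    (fun L hL n hn => tc_wpCurve_card_torsion_of hadd hsurj L hL hn)
    loi_exists_periodPair W hΔ n hn

end Fermat.Agent.S13x
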