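/-
S13 project, leaf (d), piece (6): descent of torsion points from an algebraically closed field of
characteristic zero (e.g. `ℂ`) to an algebraically closed field algebraic over `ℚ` (e.g. `ℚ̄`).

* `td_isAlgebraic_of_finite_orbit`: an element with finite orbit under all field automorphisms is
  algebraic over `ℚ`;
* `td_exists_preimage`: if the `n`-torsion of `E(L)` is finite, every `n`-torsion point comes from
  `E(K)`;
* `td_torsion_addEquiv`: hence `E(K)[n] ≃+ E(L)[n]`.
-/
import Mathlib
import Fermat.Agent.S23x.AutFixed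

set_option autoImplicit false

namespace Fermat.Agent.S13x

open MvPolynomial WeierstrassCurve WeierstrassCurve.Affine
open Fermat.Agent.S23x (af_exists_ringEquiv)

/-! ### finite orbit implies algebraic -/

/-- A transcendental element of an algebraically closed field of characteristic zero can be
translated by any natural number by a field automorphism. -/
theorem td_exists_translate {L : Type*} [Field L] [Algebra ℚ L] [IsAlgClosed L]
    (z : L) (hz : Transcendental ℚ z) (n : ℕ) : ∃ σ : L ≃+* L, σ z = z + n := by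
  classical
  have hind : AlgebraicIndepOn ℚ id ({z} : Set L) := by
    rw [AlgebraicIndepOn, algebraicIndependent_unique_type_iff]
    exact hz
  obtain ⟨t, hzt, ht⟩ := exists_isTranscendenceBasis_superset hind
  have hzmem : z ∈ t := hzt rfl
  let i₀ : t := ⟨z, hzmem⟩
  let c : t → ℚ := fun i => if i = i₀ then (n : ℚ) else 0
  let τ : MvPolynomial t ℚ ≃ₐ[ℚ] MvPolynomial t ℚ :=
    AlgEquiv.ofAlgHom (aeval fun i => X i + C (c i)) (aeval fun i => X i - C (c i))
      (by ext i; simp) (by ext i; simp)
  obtain ⟨σ, hσ⟩ := af_exists_ringEquiv ((↑) : t → L) ht τ.toRingEquiv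
  refine ⟨σ, ?_⟩
  have h1 := hσ (X i₀)
  have h2 : τ.toRingEquiv (X i₀) = X i₀ + C (c i₀) := by simp [τ]
  rw [h2] at h1
  simp only [aeval_X, map_add] at h1
  have h3 : c i₀ = n := by simp [c]
  rw [h3] at h1
  simpa using h1

/-- An element whose orbit under all field automorphisms is finite is algebraic over `ℚ`. -/
theorem td_isAlgebraic_of_finite_orbit {L : Type*} [Field L] [Algebra ℚ L] [IsAlgClosed L]
    (z : L) (h : (Set.range fun σ : L ≃+* L => σ z).Finite) : IsAlgebraic ℚ z := by
  have : CharZero L := algebraRat.charZero L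
  by_contra hz
  have hz' : Transcendental ℚ z := hz
  have hinj : Function.Injective fun n : ℕ => z + (n : L) := by
    intro a b hab
    have : (a : L) = b := add_left_cancel hab
    exact_mod_cast this
  have hsub : (Set.range fun n : ℕ => z + (n : L)) ⊆ Set.range fun σ : L ≃+* L => σ z := by
    rintro _ ⟨n, rfl⟩
    obtain ⟨σ, hσ⟩ := td_exists_translate z hz' n
    exact ⟨σ, hσ⟩
  exact (Set.infinite_range_of_injective hinj) (h.subset hsub)

/-- A variant: it is enough that all conjugates lie in a finite set. -/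
theorem td_isAlgebraic_of_forall_mem {L : Type*} [Field L] [Algebra ℚ L] [IsAlgClosed L]
    (z : L) (S : Set L) (hS : S.Finite) (h : ∀ σ : L ≃+* L, σ z ∈ S) : IsAlgebraic ℚ z :=
  td_isAlgebraic_of_finite_orbit z (hS.subset (by rintro _ ⟨σ, rfl⟩; exact h σ))

/-! ### algebraic elements lie in the image of an algebraically closed subfield -/

/-- If `K` is algebraically closed and `f : K →ₐ[ℚ] L`, every element of `L` algebraic over `ℚ`
is in the range of `f`. -/
theorem td_mem_range_of_isAlgebraic {K L : Type*} [Field K] [Field L] [Algebra ℚ K] [Algebra ℚ L]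
    [IsAlgClosed K] (f : K →ₐ[ℚ] L) (z : L) (hz : IsAlgebraic ℚ z) : z ∈ Set.range f := by
  have hsplit : ((minpoly ℚ z).map (algebraMap ℚ K)).Splits := IsAlgClosed.splits _
  have hz0 : minpoly ℚ z ≠ 0 := minpoly.ne_zero hz.isIntegral
  -- the image of the polynomial in `L` splits with roots in the image of `f`
  have hmap : (minpoly ℚ z).map (algebraMap ℚ L) = ((minpoly ℚ z).map (algebraMap ℚ K)).map f.toRingHom := by
    rw [Polynomial.map_map]
    congr 1
    exact (f.comp_algebraMap).symm
  have hroot : z ∈ ((minpoly ℚ z).map (algebraMap ℚ L)).roots := by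
    rw [Polynomial.mem_roots (Polynomial.map_ne_zero hz0), Polynomial.IsRoot, Polynomial.eval_map,
      ← Polynomial.aeval_def]
    exact minpoly.aeval ℚ z
  rw [hmap, hsplit.roots_map f.toRingHom] at hroot
  obtain ⟨w, -, hw⟩ := Multiset.mem_map.mp hroot
  exact ⟨w, hw⟩

/-! ### torsion points of Weierstrass curves over `ℚ` -/

section Curve

variable (W' : WeierstrassCurve.Affine ℚ) {K L : Type*} [Field K] [Field L] [DecidableEq K]
  [DecidableEq L] [Algebra ℚ K] [Algebra ℚ L]

/-- the `x`-coordinate of a point (junk value `0` at the origin). -/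
def tdX : (W'⁄L).Point → L
  | .zero => 0
  | .some x _ _ => x

/-- the `y`-coordinate of a point (junk value `0` at the origin). -/
def tdY : (W'⁄L).Point → L
  | .zero => 0
  | .some _ y _ => y

/-- The coordinates of an `n`-torsion point are algebraic as soon as the `n`-torsion is finite. -/
theorem td_isAlgebraic_coords [IsAlgClosed L] (n : ℕ)
    (hfin : Finite (Submodule.torsionBy ℤ (W'⁄L).Point n)) {x y : L} (h : (W'⁄L).Nonsingular x y)
    (hP : (n : ℤ) • Point.some x y h = 0) : IsAlgebraic ℚ x ∧ IsAlgebraic ℚ y := by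
  have hT : ((Submodule.torsionBy ℤ (W'⁄L).Point n : Submodule ℤ (W'⁄L).Point) :
      Set (W'⁄L).Point).Finite := Set.finite_coe_iff.mp hfin
  have key : ∀ σ : L ≃+* L, Point.some (σ x) (σ y)
      ((W'.baseChange_nonsingular (f := σ.toRingHom.toRatAlgHom) σ.injective x y).mpr h) ∈
        (Submodule.torsionBy ℤ (W'⁄L).Point n : Submodule ℤ (W'⁄L).Point) := by
    intro σ
    rw [Submodule.mem_torsionBy_iff]
    have h1 := map_zsmul (Point.map (W' := W') σ.toRingHom.toRatAlgHom) (n : ℤ) (Point.some x y h)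
    rw [hP, map_zero] at h1
    rw [Point.map_some] at h1
    exact h1.symm
  constructor
  · refine td_isAlgebraic_of_forall_mem x _ (hT.image (tdX W')) (fun σ => ?_)
    exact ⟨_, key σ, rfl⟩
  · refine td_isAlgebraic_of_forall_mem y _ (hT.image (tdY W')) (fun σ => ?_)
    exact ⟨_, key σ, rfl⟩

/-- If the `n`-torsion of `E(L)` is finite, every `n`-torsion point comes from `E(K)`, for `K` an
algebraically closed subfield. -/
theorem td_exists_preimage [IsAlgClosed K] [IsAlgClosed L] (f : K →ₐ[ℚ] L) (n : ℕ)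
    (hfin : Finite (Submodule.torsionBy ℤ (W'⁄L).Point n)) (P : (W'⁄L).Point)
    (hP : (n : ℤ) • P = 0) :
    ∃ Q : (W'⁄K).Point, Point.map f Q = P ∧ (n : ℤ) • Q = 0 := by
  have hinj := Point.map_injective (W' := W') f
  have hback : ∀ Q : (W'⁄K).Point, Point.map f Q = P → (n : ℤ) • Q = 0 := by
    intro Q hQ
    apply hinj
    rw [map_zsmul, hQ, hP, map_zero]
  rcases P with _ | ⟨x, y, h⟩
  · exact ⟨0, rfl, smul_zero _⟩
  · obtain ⟨hx, hy⟩ := td_isAlgebraic_coords W' n hfin h hP
    obtain ⟨x₀, rfl⟩ := td_mem_range_of_isAlgebraic f x hx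
    obtain ⟨y₀, rfl⟩ := td_mem_range_of_isAlgebraic f y hy
    have h₀ : (W'⁄K).Nonsingular x₀ y₀ := (W'.baseChange_nonsingular f.injective x₀ y₀).mp h
    refine ⟨Point.some x₀ y₀ h₀, ?_, ?_⟩
    · rw [Point.map_some]
    · exact hback _ (by rw [Point.map_some])

/-- **Descent of torsion**: `E(K)[n] ≃+ E(L)[n]` when the right hand side is finite. -/
theorem td_torsion_addEquiv [IsAlgClosed K] [IsAlgClosed L] (f : K →ₐ[ℚ] L) (n : ℕ)
    (hfin : Finite (Submodule.torsionBy ℤ (W'⁄L).Point n)) :
    Nonempty (Submodule.torsionBy ℤ (W'⁄K).Point n ≃+ Submodule.torsionBy ℤ (W'⁄L).Point n) := by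
  have hmaps : ∀ Q ∈ Submodule.torsionBy ℤ (W'⁄K).Point n,
      (Point.map (W' := W') f).toIntLinearMap Q ∈ Submodule.torsionBy ℤ (W'⁄L).Point n := by
    intro Q hQ
    rw [Submodule.mem_torsionBy_iff] at hQ ⊢
    show (n : ℤ) • Point.map f Q = 0
    rw [← map_zsmul, hQ, map_zero]
  let g := (Point.map (W' := W') f).toIntLinearMap.restrict hmaps
  have hg : Function.Bijective g := by
    constructor
    · intro a b hab
      apply Subtype.ext
      apply Point.map_injective (W' := W') f
      exact congrArg Subtype.val hab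
    · intro P
      obtain ⟨Q, hQ, hQn⟩ := td_exists_preimage W' f n hfin P.1
        ((Submodule.mem_torsionBy_iff _ _).mp P.2)
      exact ⟨⟨Q, (Submodule.mem_torsionBy_iff _ _).mpr hQn⟩, Subtype.ext hQ⟩
  exact ⟨(LinearEquiv.ofBijective g hg).toAddEquiv⟩

/-- an embedding `ℚ̄ → ℂ` (for the canonical `ℚ`-algebra structures). -/
theorem td_nonempty_algHom_Qbar_Complex : Nonempty (AlgebraicClosure ℚ →ₐ[ℚ] ℂ) := by
  have h : Algebra.IsAlgebraic ℚ (AlgebraicClosure ℚ) := AlgebraicClosure.isAlgebraic ℚ
  exact ⟨IsAlgClosed.lift⟩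

/-- **Descent of torsion, `ℂ → ℚ̄`**: cardinalities agree. -/
theorem td_natCard_torsion_Qbar [DecidableEq (AlgebraicClosure ℚ)] [DecidableEq ℂ] (n : ℕ)
    (hfin : Finite (Submodule.torsionBy ℤ (W'⁄ℂ).Point n)) :
    Nat.card (Submodule.torsionBy ℤ (W'⁄(AlgebraicClosure ℚ)).Point n) =
      Nat.card (Submodule.torsionBy ℤ (W'⁄ℂ).Point n) := by
  obtain ⟨f⟩ := td_nonempty_algHom_Qbar_Complex
  obtain ⟨e⟩ := td_torsion_addEquiv W' f n hfin
  exact Nat.card_congr e.toEquiv

end Curve

end Fermat.Agent.S13x
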