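import Mathlib
import Fermat.Prelude.Def_FLTPrelim_CofixedLine
import Fermat.Prelude.Def_FLTPrelim_Ramification
import Fermat.Agent.S13x.LineGlue

/-!
# S13 glue, part 2: the concrete Galois module `E[n](K)` for `W` over `ℚ`, `K/ℚ` Galois

* `lgl_exists_fixing` : if `E[n](K)` is finite there is a finite subextension `M` of `K/ℚ`
  whose fixing subgroup acts trivially on `E[n](K)`;
* `lgl_exists_rational` : a Galois-fixed point of `E(K)` comes from `E(ℚ)`;
* `lgl_skeleton` : the reduction of S13 to its leaves.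
-/

set_option autoImplicit false

open WeierstrassCurve WeierstrassCurve.Affine WeierstrassCurve.Affine.Point

namespace Fermat.Agent.S13x

section Concrete

variable {K : Type*} [Field K] [DecidableEq K] [Algebra ℚ K] (W : WeierstrassCurve ℚ)

/-- The set of affine coordinates of a point. -/
def lgl_coords : (W⁄K).Point → Set K
  | 0 => ∅
  | .some x y _ => {x, y}

omit [DecidableEq K] in
theorem lgl_coords_finite (P : (W⁄K).Point) : (lgl_coords W P).Finite := by
  cases P with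
  | zero => exact Set.finite_empty
  | some x y h => exact Set.toFinite {x, y}

/-- An automorphism fixing the coordinates of `P` fixes `P`. -/
theorem lgl_smul_eq_of_coords (σ : K ≃ₐ[ℚ] K) (P : (W⁄K).Point)
    (h : ∀ a ∈ lgl_coords W P, σ a = a) : σ • P = P := by
  cases P with
  | zero => rfl
  | some x y hxy =>
    rw [algEquiv_smul_def, map_some]
    have hx : σ x = x := h x (by simp [lgl_coords])
    have hy : σ y = y := h y (by simp [lgl_coords])
    simp only [some.injEq]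
    exact ⟨hx, hy⟩

/-- **Torsion field.** If `E[n](K)` is finite (and `K/ℚ` is algebraic) there is a finite
subextension `M` of `K/ℚ` whose fixing subgroup acts trivially on `E[n](K)`. -/
theorem lgl_exists_fixing [Algebra.IsAlgebraic ℚ K] (n : ℕ)
    [Finite (Submodule.torsionBy ℤ (W⁄K).Point n)] :
    ∃ M : IntermediateField ℚ K, FiniteDimensional ℚ M ∧
      ∀ σ ∈ M.fixingSubgroup, ∀ x : Submodule.torsionBy ℤ (W⁄K).Point n, σ • x = x := by
  classical
  let S : Set K := ⋃ x : Submodule.torsionBy ℤ (W⁄K).Point n, lgl_coords W x.1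
  have hSfin : S.Finite := Set.finite_iUnion fun x => lgl_coords_finite W x.1
  have : Finite S := hSfin
  refine ⟨IntermediateField.adjoin ℚ S,
    IntermediateField.finiteDimensional_adjoin fun a _ => (Algebra.IsAlgebraic.isAlgebraic a).isIntegral,
    fun σ hσ x => ?_⟩
  apply Subtype.ext
  change σ • (x : (W⁄K).Point) = x
  apply lgl_smul_eq_of_coords
  intro a ha
  have haS : a ∈ S := Set.mem_iUnion.mpr ⟨x, ha⟩
  have : a ∈ IntermediateField.adjoin ℚ S := IntermediateField.subset_adjoin ℚ S haS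
  exact (IntermediateField.mem_fixingSubgroup_iff _ σ).mp hσ a this

/-- **Rational points.** A point of `E(K)` fixed by `Gal(K/ℚ)` comes from `E(ℚ)`. -/
theorem lgl_exists_rational [IsGalois ℚ K] (P : (W⁄K).Point)
    (hP : ∀ σ : K ≃ₐ[ℚ] K, σ • P = P) :
    ∃ Q : (W⁄ℚ).Point, Point.baseChange ℚ K Q = P := by
  cases P with
  | zero => exact ⟨0, rfl⟩
  | some x y hxy =>
    have hx : ∀ σ : K ≃ₐ[ℚ] K, σ x = x := fun σ => by
      have := hP σ
      rw [algEquiv_smul_def, map_some] at this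
      exact (some.inj this).1
    have hy : ∀ σ : K ≃ₐ[ℚ] K, σ y = y := fun σ => by
      have := hP σ
      rw [algEquiv_smul_def, map_some] at this
      exact (some.inj this).2
    obtain ⟨x₀, rfl⟩ := (InfiniteGalois.mem_range_algebraMap_iff_fixed x).mpr hx
    obtain ⟨y₀, rfl⟩ := (InfiniteGalois.mem_range_algebraMap_iff_fixed y).mpr hy
    have h0 : (W⁄ℚ).Nonsingular x₀ y₀ :=
      (WeierstrassCurve.Affine.baseChange_nonsingular (W := W) (f := Algebra.ofId ℚ K)
        (Algebra.ofId ℚ K).injective x₀ y₀).mp hxy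
    exact ⟨.some x₀ y₀ h0, rfl⟩

end Concrete

section Skeleton

variable {K : Type*} [Field K] [DecidableEq K] [Algebra ℚ K] [IsGalois ℚ K]
  (W : WeierstrassCurve ℚ) (p : ℕ) [Fact p.Prime]

omit [IsGalois ℚ K] in
/-- `IsGaloisStable` is `lgl_IsStable`. -/
theorem lgl_isStable_of_isGaloisStable
    {N : Submodule (ZMod p) (Submodule.torsionBy ℤ (W⁄K).Point p)}
    (hN : IsGaloisStable ℚ N) : lgl_IsStable (K ≃ₐ[ℚ] K) N := hN

/-- No nonzero rational `p`-torsion point implies that the pointwise stabiliser of a nonzero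
submodule of `E[p](K)` is not everything. -/
theorem lgl_fixN_ne_top (hrat : ∀ Q : (W⁄ℚ).Point, (p : ℤ) • Q = 0 → Q = 0)
    {N : Submodule (ZMod p) (Submodule.torsionBy ℤ (W⁄K).Point p)} (hbot : N ≠ ⊥) :
    lgl_fixN (K ≃ₐ[ℚ] K) N ≠ ⊤ := by
  intro htop
  apply hbot
  rw [eq_bot_iff]
  intro x hx
  rw [Submodule.mem_bot]
  have hfixed : ∀ σ : K ≃ₐ[ℚ] K, σ • (x : (W⁄K).Point) = x := fun σ => by
    have h1 : σ ∈ lgl_fixN (K ≃ₐ[ℚ] K) N := by rw [htop]; trivial
    exact congrArg Subtype.val (h1 x hx)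
  obtain ⟨Q, hQ⟩ := lgl_exists_rational W (x : (W⁄K).Point) hfixed
  have hx0 : (p : ℤ) • (x : (W⁄K).Point) = 0 := (Submodule.mem_torsionBy_iff _ _).mp x.2
  have hQ0 : (p : ℤ) • Q = 0 := by
    apply Point.map_injective (W' := W) (Algebra.ofId ℚ K)
    rw [map_zsmul, Point.map_zero]
    exact hQ ▸ hx0
  have := hrat Q hQ0
  subst this
  apply Subtype.ext
  rw [← hQ]
  rfl

/-- **S13 skeleton, pure form.** -/
theorem lgl_skeleton
    (hnt : Nontrivial (Submodule.torsionBy ℤ (W⁄K).Point p))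
    (hfin : Finite (Submodule.torsionBy ℤ (W⁄K).Point p))
    (hglobal : ∀ H : Subgroup (K ≃ₐ[ℚ] K), H.Normal →
      (∃ M : IntermediateField ℚ K, FiniteDimensional ℚ M ∧ M.fixingSubgroup ≤ H) →
      (∀ q : ℕ, q.Prime → ∀ A : ValuationSubring K, A.LiesOverPrime q →
        A.inertiaSubgroupIn ℚ ≤ H) → H = ⊤)
    (hrat : ∀ Q : (W⁄ℚ).Point, (p : ℤ) • Q = 0 → Q = 0)
    (haway : ∀ N : Submodule (ZMod p) (Submodule.torsionBy ℤ (W⁄K).Point p),
      IsGaloisStable ℚ N → N ≠ ⊥ → N ≠ ⊤ →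
      ∀ q : ℕ, q.Prime → q ≠ p → ∀ A : ValuationSubring K, A.LiesOverPrime q →
        ∀ σ ∈ A.inertiaSubgroupIn ℚ,
          (∀ x ∈ N, σ • x = x) ∧ ∀ x : Submodule.torsionBy ℤ (W⁄K).Point p, σ • x - x ∈ N)
    (hatp : ∀ N : Submodule (ZMod p) (Submodule.torsionBy ℤ (W⁄K).Point p),
      IsGaloisStable ℚ N → N ≠ ⊥ → N ≠ ⊤ →
      (∀ A : ValuationSubring K, A.LiesOverPrime p → ∀ σ ∈ A.inertiaSubgroupIn ℚ,
          ∀ x ∈ N, σ • x = x) ∨
      (∀ A : ValuationSubring K, A.LiesOverPrime p → ∀ σ ∈ A.inertiaSubgroupIn ℚ,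
          ∀ x : Submodule.torsionBy ℤ (W⁄K).Point p, σ • x - x ∈ N))
    (hred : ¬ GaloisRepIsIrreducible (K := K) ℚ W p) :
    HasGaloisStableCofixedLine ℚ K W p := by
  -- a stable line
  obtain ⟨N, hNst, hNbot, hNtop⟩ :
      ∃ N : Submodule (ZMod p) (Submodule.torsionBy ℤ (W⁄K).Point p),
        IsGaloisStable ℚ N ∧ N ≠ ⊥ ∧ N ≠ ⊤ := by
    by_contra hcon
    apply hred
    refine ⟨hnt, fun N hN => ?_⟩
    by_contra h
    rw [not_or] at h
    exact hcon ⟨N, hN, h.1, h.2⟩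
  have hN' : lgl_IsStable (K ≃ₐ[ℚ] K) N := hNst
  -- the torsion field
  obtain ⟨M, hMfin, hM⟩ := lgl_exists_fixing (K := K) W p
  have hop1 : ∃ M : IntermediateField ℚ K, FiniteDimensional ℚ M ∧
      M.fixingSubgroup ≤ lgl_fixN (K ≃ₐ[ℚ] K) N :=
    ⟨M, hMfin, fun σ hσ x _ => hM σ hσ x⟩
  have hop2 : ∃ M : IntermediateField ℚ K, FiniteDimensional ℚ M ∧
      M.fixingSubgroup ≤ lgl_cofix N hN' :=
    ⟨M, hMfin, fun σ hσ x => by rw [hM σ hσ x, sub_self]; exact N.zero_mem⟩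
  have hfix : lgl_fixN (K ≃ₐ[ℚ] K) N ≠ ⊤ := lgl_fixN_ne_top W p hrat hNbot
  have hcofix : lgl_cofix N hN' = ⊤ := by
    rcases hatp N hNst hNbot hNtop with h | h
    · exfalso
      apply hfix
      refine hglobal _ (lgl_fixN_normal N hN') hop1 fun q hq A hA σ hσ => ?_
      by_cases hqp : q = p
      · subst hqp
        exact h A hA σ hσ
      · exact (haway N hNst hNbot hNtop q hq hqp A hA σ hσ).1
    · refine hglobal _ (lgl_cofix_normal N hN') hop2 fun q hq A hA σ hσ => ?_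
      by_cases hqp : q = p
      · subst hqp
        exact h A hA σ hσ
      · exact (haway N hNst hNbot hNtop q hq hqp A hA σ hσ).2
  refine ⟨N, hNst, hNbot, hNtop, fun σ x => ?_⟩
  have : σ ∈ lgl_cofix N hN' := by rw [hcofix]; trivial
  exact this x

/-- **S13 skeleton, leaf form.**  Inputs:
* `hnt`, `hfin`, `hcard` : leaf (d), `E[p](K)` is nontrivial with at most `p ^ 2` elements;
* `hglobal` : the Minkowski leaf (a normal open subgroup containing all inertia groups is `⊤`);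
* `hrat` : the `2`-adic leaf, no rational point of order `p`;
* `hodd` : S05, unramified at the odd primes `q ≠ p`;
* `h2` : the inertia groups at `2` fix a submodule `C` pointwise and act trivially on `V ⧸ C`;
* `hp` : the leaf at `p`: inertia at `A ∣ p` acts trivially on `V ⧸ M_A`, `M_A ≠ ⊤`, uniformly
  `M_A ⊓ N = ⊥` for all `A ∣ p`, or `N ≤ M_A` for all `A ∣ p`. -/
theorem lgl_skeleton_leaf
    (hnt : Nontrivial (Submodule.torsionBy ℤ (W⁄K).Point p))
    (hfin : Finite (Submodule.torsionBy ℤ (W⁄K).Point p))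
    (hcard : Nat.card (Submodule.torsionBy ℤ (W⁄K).Point p) ≤ p ^ 2)
    (hglobal : ∀ H : Subgroup (K ≃ₐ[ℚ] K), H.Normal →
      (∃ M : IntermediateField ℚ K, FiniteDimensional ℚ M ∧ M.fixingSubgroup ≤ H) →
      (∀ q : ℕ, q.Prime → ∀ A : ValuationSubring K, A.LiesOverPrime q →
        A.inertiaSubgroupIn ℚ ≤ H) → H = ⊤)
    (hrat : ∀ Q : (W⁄ℚ).Point, (p : ℤ) • Q = 0 → Q = 0)
    (hodd : ∀ q : ℕ, q.Prime → q ≠ 2 → q ≠ p → GaloisRepUnramifiedAt ℚ K W p q)
    (h2 : p ≠ 2 → ∀ A : ValuationSubring K, A.LiesOverPrime 2 →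
      ∃ C : Submodule (ZMod p) (Submodule.torsionBy ℤ (W⁄K).Point p),
        (∀ σ ∈ A.inertiaSubgroupIn ℚ, ∀ x ∈ C, σ • x = x) ∧
        (∀ σ ∈ A.inertiaSubgroupIn ℚ,
          ∀ x : Submodule.torsionBy ℤ (W⁄K).Point p, σ • x - x ∈ C))
    (hp : ∀ N : Submodule (ZMod p) (Submodule.torsionBy ℤ (W⁄K).Point p),
      IsGaloisStable ℚ N → N ≠ ⊥ → N ≠ ⊤ →
      (∀ A : ValuationSubring K, A.LiesOverPrime p →
        ∃ M : Submodule (ZMod p) (Submodule.torsionBy ℤ (W⁄K).Point p), M ⊓ N = ⊥ ∧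
          ∀ σ ∈ A.inertiaSubgroupIn ℚ,
            ∀ x : Submodule.torsionBy ℤ (W⁄K).Point p, σ • x - x ∈ M) ∨
      (∀ A : ValuationSubring K, A.LiesOverPrime p →
        ∃ M : Submodule (ZMod p) (Submodule.torsionBy ℤ (W⁄K).Point p), M ≠ ⊤ ∧ N ≤ M ∧
          ∀ σ ∈ A.inertiaSubgroupIn ℚ,
            ∀ x : Submodule.torsionBy ℤ (W⁄K).Point p, σ • x - x ∈ M))
    (hred : ¬ GaloisRepIsIrreducible (K := K) ℚ W p) :
    HasGaloisStableCofixedLine ℚ K W p := by
  refine lgl_skeleton W p hnt hfin hglobal hrat ?_ ?_ hred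
  · intro N hNst hNbot hNtop q hq hqp A hA σ hσ
    have hN' : lgl_IsStable (K ≃ₐ[ℚ] K) N := hNst
    by_cases hq2 : q = 2
    · subst hq2
      obtain ⟨C, hC1, hC2⟩ := h2 (fun h => hqp h.symm) A hA
      have := lgl_le_fixN_and_le_cofix (I := A.inertiaSubgroupIn ℚ) hcard hN' hNbot hNtop hC1 hC2
      exact ⟨this.1 hσ, this.2 hσ⟩
    · have h := hodd q hq hq2 hqp A hA σ hσ
      refine ⟨fun x _ => h x, fun x => ?_⟩
      rw [h x, sub_self]
      exact N.zero_mem
  · intro N hNst hNbot hNtop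
    have hN' : lgl_IsStable (K ≃ₐ[ℚ] K) N := hNst
    rcases hp N hNst hNbot hNtop with h | h
    · left
      intro A hA σ hσ
      obtain ⟨M, hMN, hM⟩ := h A hA
      exact lgl_le_fixN_of_inf_eq_bot (I := A.inertiaSubgroupIn ℚ) hN' hMN hM hσ
    · right
      intro A hA σ hσ
      obtain ⟨M, hMtop, hNM, hM⟩ := h A hA
      rcases lgl_le_or_inf_eq_bot hcard hNbot hNtop hMtop with h' | h'
      · exact lgl_le_cofix_of_le (I := A.inertiaSubgroupIn ℚ) hN' h' hM hσ
      · exfalso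
        apply hNbot
        rw [eq_bot_iff, ← h']
        exact le_inf hNM le_rfl

end Skeleton

end Fermat.Agent.S13x
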