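/-
S13 helper library (namespace `Fermat.Agent.S13x`): the torsion product identity (helper79).

For a period pair `L`, `n` odd, `t₀` a half period (`2 t₀ ∈ L`, `t₀ ∉ L`), `X z = ℘ z - ℘ t₀`,
and `u i = (i.1 ω₁ + i.2 ω₂)/n` (`i ∈ (ℤ/n)²`):  if `X (z + t₀) * X z = κ` is constant then
`(n² ∏_{i ≠ 0} X (u i))² = κ^(n² - 1)`.  Mathlib only; proof = Liouville + evenness.
-/
import Mathlib

set_option autoImplicit false

namespace Fermat.Agent.S13x

open Complex Filter Topology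

variable (L : PeriodPair)

/-- `X z = ℘ z - ℘ t₀`. -/
noncomputable def tpX (t₀ z : ℂ) : ℂ := L.weierstrassP z - L.weierstrassP t₀

/-- the `n`-division points `(a ω₁ + b ω₂)/n`. -/
noncomputable def tpU (n : ℕ) (i : ZMod n × ZMod n) : ℂ :=
  ((i.1.val : ℂ) * L.ω₁ + (i.2.val : ℂ) * L.ω₂) / n

variable {L}

theorem tpX_neg (t₀ z : ℂ) : tpX L t₀ (-z) = tpX L t₀ z := by
  simp [tpX]

theorem tpX_add_mem (t₀ z : ℂ) {l : ℂ} (hl : l ∈ L.lattice) : tpX L t₀ (z + l) = tpX L t₀ z := by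
  unfold tpX
  have := L.weierstrassP_add_coe z ⟨l, hl⟩
  simp only at this
  rw [this]

theorem tpX_sub_mem (t₀ z : ℂ) {l : ℂ} (hl : l ∈ L.lattice) : tpX L t₀ (z - l) = tpX L t₀ z := by
  rw [← tpX_add_mem t₀ (z - l) hl, sub_add_cancel]

theorem tpX_eq_of_sub_mem (t₀ : ℂ) {z w : ℂ} (h : z - w ∈ L.lattice) :
    tpX L t₀ z = tpX L t₀ w := by
  have := tpX_add_mem (L := L) t₀ w h
  rwa [add_sub_cancel] at this

theorem tpX_self (t₀ : ℂ) : tpX L t₀ t₀ = 0 := by simp [tpX]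

theorem tpX_analyticAt (t₀ : ℂ) {z : ℂ} (hz : z ∉ L.lattice) : AnalyticAt ℂ (tpX L t₀) z := by
  unfold tpX
  exact (L.analyticOnNhd_weierstrassP z hz).sub analyticAt_const

/-- the regular part of `X` at `0`. -/
noncomputable def tpR (L : PeriodPair) (t₀ z : ℂ) : ℂ := L.weierstrassPExcept 0 z - L.weierstrassP t₀

theorem tpR_analyticAt (t₀ : ℂ) : AnalyticAt ℂ (tpR L t₀) 0 := by
  unfold tpR
  exact (L.analyticAt_weierstrassPExcept 0).sub analyticAt_const

theorem tpX_eq (t₀ z : ℂ) : tpX L t₀ z = tpR L t₀ z + 1 / z ^ 2 := by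
  unfold tpX tpR
  have := L.weierstrassPExcept_add (0 : L.lattice) z
  simp only [ZeroMemClass.coe_zero, sub_zero] at this
  rw [← this]
  simp
  ring

section division

variable (n : ℕ) [NeZero n]

omit [NeZero n] in
theorem tpU_zero : tpU L n 0 = 0 := by
  simp [tpU]

theorem tpU_mul_mem (i : ZMod n × ZMod n) : (n : ℂ) * tpU L n i ∈ L.lattice := by
  have hn : (n : ℂ) ≠ 0 := Nat.cast_ne_zero.mpr (NeZero.ne n)
  unfold tpU
  rw [mul_div_cancel₀ _ hn]
  exact PeriodPair.mem_lattice.mpr ⟨i.1.val, i.2.val, by push_cast; ring⟩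

theorem tpU_notMem {i : ZMod n × ZMod n} (hi : i ≠ 0) : tpU L n i ∉ L.lattice := by
  have hn : (n : ℂ) ≠ 0 := Nat.cast_ne_zero.mpr (NeZero.ne n)
  have hn' : (n : ℚ) ≠ 0 := Nat.cast_ne_zero.mpr (NeZero.ne n)
  intro h
  have h1 : tpU L n i = (((i.1.val : ℚ) / n : ℚ) : ℂ) * L.ω₁ + (((i.2.val : ℚ) / n : ℚ) : ℂ) * L.ω₂ := by
    unfold tpU
    push_cast
    field_simp
  rw [h1, PeriodPair.mul_ω₁_add_mul_ω₂_mem_lattice] at h
  obtain ⟨ha, hb⟩ := h
  have key : ∀ a : ZMod n, ((a.val : ℚ) / n).den = 1 → a = 0 := by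
    intro a ha
    have h2 : ((((a.val : ℚ) / n).num : ℤ) : ℚ) = (a.val : ℚ) / n := by
      have := Rat.num_div_den ((a.val : ℚ) / n)
      rw [ha] at this
      simpa using this
    have h3 : ((a.val : ℤ) : ℚ) = ((((a.val : ℚ) / n).num * (n : ℤ) : ℤ) : ℚ) := by
      push_cast
      rw [h2]
      field_simp
    have h4 : (a.val : ℤ) = ((a.val : ℚ) / n).num * (n : ℤ) := by exact_mod_cast h3
    have h5 : (n : ℤ) ∣ (a.val : ℤ) := ⟨_, by rw [h4]; ring⟩
    have h6 : n ∣ a.val := by exact_mod_cast h5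
    have h7 : a.val = 0 := Nat.eq_zero_of_dvd_of_lt h6 (ZMod.val_lt a)
    exact (ZMod.val_eq_zero a).mp h7
  exact hi (Prod.ext (key _ ha) (key _ hb))

theorem tpU_add_sub_mem (i j : ZMod n × ZMod n) :
    tpU L n i + tpU L n j - tpU L n (i + j) ∈ L.lattice := by
  have hn : (n : ℂ) ≠ 0 := Nat.cast_ne_zero.mpr (NeZero.ne n)
  have key : ∀ a b : ZMod n, ∃ k : ℤ, (a.val : ℤ) + b.val - (a + b).val = k * n := by
    intro a b
    refine ⟨((a.val + b.val) / n : ℕ), ?_⟩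
    rw [ZMod.val_add]
    have := Nat.div_add_mod (a.val + b.val) n
    push_cast
    have h2 : ((a.val + b.val : ℕ) : ℤ) = (n : ℤ) * ((a.val + b.val) / n : ℕ) + ((a.val + b.val) % n : ℕ) := by
      exact_mod_cast this.symm
    push_cast at h2
    linarith
  obtain ⟨k₁, hk₁⟩ := key i.1 j.1
  obtain ⟨k₂, hk₂⟩ := key i.2 j.2
  refine PeriodPair.mem_lattice.mpr ⟨k₁, k₂, ?_⟩
  unfold tpU
  have e1 : ((i.1.val : ℂ) + j.1.val - (i + j).1.val) = k₁ * n := by
    have := congrArg (fun x : ℤ => (x : ℂ)) hk₁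
    simpa using this
  have e2 : ((i.2.val : ℂ) + j.2.val - (i + j).2.val) = k₂ * n := by
    have := congrArg (fun x : ℤ => (x : ℂ)) hk₂
    simpa using this
  field_simp
  linear_combination (-(L.ω₁)) * e1 - L.ω₂ * e2

theorem tpU_neg_add_mem (i : ZMod n × ZMod n) : tpU L n i + tpU L n (-i) ∈ L.lattice := by
  have := tpU_add_sub_mem (L := L) n i (-i)
  rwa [add_neg_cancel, tpU_zero, sub_zero] at this

/-- every point of `(1/n) L` is congruent mod `L` to a division point. -/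
theorem exists_tpU_sub_mem {x : ℂ} (hx : (n : ℂ) * x ∈ L.lattice) :
    ∃ j : ZMod n × ZMod n, x - tpU L n j ∈ L.lattice := by
  have hn : (n : ℂ) ≠ 0 := Nat.cast_ne_zero.mpr (NeZero.ne n)
  obtain ⟨m, k, hmk⟩ := PeriodPair.mem_lattice.mp hx
  refine ⟨((m : ZMod n), (k : ZMod n)), PeriodPair.mem_lattice.mpr ⟨m / n, k / n, ?_⟩⟩
  have hm : (((m : ZMod n).val : ℤ)) = m % n := ZMod.val_intCast m
  have hk : (((k : ZMod n).val : ℤ)) = k % n := ZMod.val_intCast k
  have hm' : (m : ℂ) = (n : ℂ) * ((m / n : ℤ) : ℂ) + (((m : ZMod n).val : ℕ) : ℂ) := by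
    have := Int.mul_ediv_add_emod m n
    have h2 : (m : ℤ) = (n : ℤ) * (m / n) + ((m : ZMod n).val : ℤ) := by rw [hm]; exact this.symm
    exact_mod_cast congrArg (fun x : ℤ => (x : ℂ)) h2
  have hk' : (k : ℂ) = (n : ℂ) * ((k / n : ℤ) : ℂ) + (((k : ZMod n).val : ℕ) : ℂ) := by
    have := Int.mul_ediv_add_emod k n
    have h2 : (k : ℤ) = (n : ℤ) * (k / n) + ((k : ZMod n).val : ℤ) := by rw [hk]; exact this.symm
    exact_mod_cast congrArg (fun x : ℤ => (x : ℂ)) h2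
  unfold tpU
  have hx' : x = ((m : ℂ) * L.ω₁ + k * L.ω₂) / n := by
    rw [hmk]; field_simp
  rw [hx']
  simp only
  field_simp
  rw [hm', hk']
  ring

end division

/-! ### Even analytic functions -/

theorem tp_deriv_zero_of_even {g : ℂ → ℂ} (heven : ∀ z, g (-z) = g z) : deriv g 0 = 0 := by
  have h1 : deriv (fun x => g (-x)) 0 = -deriv g (-0) := deriv_comp_neg g 0
  have h2 : (fun x => g (-x)) = g := funext heven
  rw [h2, neg_zero] at h1
  have : (2 : ℂ) * deriv g 0 = 0 := by linear_combination h1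
  simpa using this

theorem tp_dslope_analyticAt {g : ℂ → ℂ} (hg : AnalyticAt ℂ g 0) : AnalyticAt ℂ (dslope g 0) 0 := by
  obtain ⟨p, hp⟩ := hg
  exact ⟨_, hp.has_fpower_series_dslope_fslope⟩

theorem tp_eq_add_mul_dslope (g : ℂ → ℂ) (z : ℂ) : g z = g 0 + z * dslope g 0 z := by
  have := sub_smul_dslope g 0 z
  simp only [sub_zero, smul_eq_mul] at this
  rw [this]; ring

/-- the second order remainder of an even analytic function. -/
noncomputable def tpRem (g : ℂ → ℂ) : ℂ → ℂ := dslope (dslope g 0) 0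

theorem tpRem_analyticAt {g : ℂ → ℂ} (hg : AnalyticAt ℂ g 0) : AnalyticAt ℂ (tpRem g) 0 :=
  tp_dslope_analyticAt (tp_dslope_analyticAt hg)

theorem tp_even_decomp {g : ℂ → ℂ} (heven : ∀ z, g (-z) = g z) (z : ℂ) :
    g z = g 0 + z ^ 2 * tpRem g z := by
  have h1 := tp_eq_add_mul_dslope g z
  have h2 := tp_eq_add_mul_dslope (dslope g 0) z
  have h3 : dslope g 0 0 = 0 := by
    rw [dslope_same]; exact tp_deriv_zero_of_even heven
  rw [h3, zero_add] at h2
  rw [h1, h2, tpRem]; ring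

section main

variable (L) (n : ℕ) [NeZero n] (t₀ : ℂ)

/-- product over the nonzero division points. -/
noncomputable def tpG (z : ℂ) : ℂ :=
  ∏ i ∈ (Finset.univ.erase (0 : ZMod n × ZMod n)), tpX L t₀ (z + tpU L n i)

/-- product over all division points. -/
noncomputable def tpF1 (z : ℂ) : ℂ := ∏ i : ZMod n × ZMod n, tpX L t₀ (z + tpU L n i)

/-- `X (n z)`. -/
noncomputable def tpF2 (z : ℂ) : ℂ := tpX L t₀ ((n : ℂ) * z)

/-- the constant `n² ∏_{i ≠ 0} X (u i)`. -/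
noncomputable def tpC : ℂ := (n : ℂ) ^ 2 * tpG L n t₀ 0

variable {L}

theorem tpF1_eq (z : ℂ) : tpF1 L n t₀ z = tpX L t₀ z * tpG L n t₀ z := by
  unfold tpF1 tpG
  rw [← Finset.mul_prod_erase Finset.univ _ (Finset.mem_univ (0 : ZMod n × ZMod n)), tpU_zero,
    add_zero]

theorem tpG_neg (z : ℂ) : tpG L n t₀ (-z) = tpG L n t₀ z := by
  unfold tpG
  refine Finset.prod_equiv (Equiv.neg _) (fun i => by simp) (fun i _ => ?_)
  rw [Equiv.neg_apply, ← tpX_neg t₀ (-z + tpU L n i)]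
  apply tpX_eq_of_sub_mem
  have := tpU_neg_add_mem (L := L) n i
  have h2 : -(-z + tpU L n i) - (z + tpU L n (-i)) = -(tpU L n i + tpU L n (-i)) := by ring
  rw [h2]
  exact neg_mem this

theorem tpG_analyticAt : AnalyticAt ℂ (tpG L n t₀) 0 := by
  unfold tpG
  refine Finset.analyticAt_fun_prod _ fun i hi => ?_
  have hi0 : i ≠ 0 := (Finset.mem_erase.mp hi).1
  have h1 : AnalyticAt ℂ (tpX L t₀) (0 + tpU L n i) := by
    rw [zero_add]; exact tpX_analyticAt t₀ (tpU_notMem n hi0)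
  exact h1.comp_of_eq (analyticAt_id.add analyticAt_const) (by simp)

/-- the regular function agreeing with `F₁ - c F₂` near `0`. -/
noncomputable def tpD0 (L : PeriodPair) (n : ℕ) [NeZero n] (t₀ z : ℂ) : ℂ :=
  tpR L t₀ z * tpG L n t₀ z - tpC L n t₀ * tpR L t₀ ((n : ℂ) * z) + tpRem (tpG L n t₀) z

theorem tpD0_analyticAt : AnalyticAt ℂ (tpD0 L n t₀) 0 := by
  unfold tpD0
  have h1 : AnalyticAt ℂ (fun z => tpR L t₀ ((n : ℂ) * z)) 0 := by
    have : AnalyticAt ℂ (tpR L t₀) ((n : ℂ) * 0) := by rw [mul_zero]; exact tpR_analyticAt t₀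
    exact this.comp_of_eq (analyticAt_const.mul analyticAt_id) (by simp)
  exact (((tpR_analyticAt t₀).mul (tpG_analyticAt n t₀)).sub (analyticAt_const.mul h1)).add
    (tpRem_analyticAt (tpG_analyticAt n t₀))

theorem tpD0_eq {z : ℂ} (hz : z ≠ 0) :
    tpF1 L n t₀ z - tpC L n t₀ * tpF2 L n t₀ z = tpD0 L n t₀ z := by
  have hn : (n : ℂ) ≠ 0 := Nat.cast_ne_zero.mpr (NeZero.ne n)
  have hG := tp_even_decomp (tpG_neg (L := L) n t₀) z
  rw [tpF1_eq, tpF2, tpX_eq t₀ z, tpX_eq t₀ ((n : ℂ) * z), tpD0, tpC]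
  have : tpG L n t₀ z - tpG L n t₀ 0 = z ^ 2 * tpRem (tpG L n t₀) z := by rw [hG]; ring
  field_simp
  linear_combination this

/-! ### The entire elliptic function `F₁ - c F₂` -/

open Classical in
/-- `F₁ - c F₂`, extended over the `n`-division lattice. -/
noncomputable def tpD (L : PeriodPair) (n : ℕ) [NeZero n] (t₀ z : ℂ) : ℂ :=
  if (n : ℂ) * z ∈ L.lattice then tpD0 L n t₀ 0 else tpF1 L n t₀ z - tpC L n t₀ * tpF2 L n t₀ z

theorem tpD_of_notMem {z : ℂ} (hz : (n : ℂ) * z ∉ L.lattice) :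
    tpD L n t₀ z = tpF1 L n t₀ z - tpC L n t₀ * tpF2 L n t₀ z := by
  unfold tpD; rw [if_neg hz]

theorem tpF1_add_tpU (z : ℂ) (j : ZMod n × ZMod n) :
    tpF1 L n t₀ (z + tpU L n j) = tpF1 L n t₀ z := by
  unfold tpF1
  refine Fintype.prod_equiv (Equiv.addRight j) _ _ fun i => ?_
  rw [Equiv.coe_addRight]
  apply tpX_eq_of_sub_mem
  have := tpU_add_sub_mem (L := L) n i j
  have h2 : z + tpU L n j + tpU L n i - (z + tpU L n (i + j)) =
      tpU L n i + tpU L n j - tpU L n (i + j) := by ring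
  rw [h2]; exact this

theorem tpF1_add_mem (z : ℂ) {l : ℂ} (hl : l ∈ L.lattice) :
    tpF1 L n t₀ (z + l) = tpF1 L n t₀ z := by
  unfold tpF1
  refine Finset.prod_congr rfl fun i _ => ?_
  apply tpX_eq_of_sub_mem
  have h2 : z + l + tpU L n i - (z + tpU L n i) = l := by ring
  rw [h2]; exact hl

theorem tpF1_add_div {z x : ℂ} (hx : (n : ℂ) * x ∈ L.lattice) :
    tpF1 L n t₀ (z + x) = tpF1 L n t₀ z := by
  obtain ⟨j, hj⟩ := exists_tpU_sub_mem n hx
  have : z + x = z + tpU L n j + (x - tpU L n j) := by ring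
  rw [this, tpF1_add_mem n t₀ _ hj, tpF1_add_tpU]

omit [NeZero n] in
theorem tpF2_add_div {z x : ℂ} (hx : (n : ℂ) * x ∈ L.lattice) :
    tpF2 L n t₀ (z + x) = tpF2 L n t₀ z := by
  unfold tpF2
  rw [mul_add]
  exact tpX_add_mem t₀ _ hx

theorem tpD_add_div {z x : ℂ} (hx : (n : ℂ) * x ∈ L.lattice) :
    tpD L n t₀ (z + x) = tpD L n t₀ z := by
  unfold tpD
  have hiff : (n : ℂ) * (z + x) ∈ L.lattice ↔ (n : ℂ) * z ∈ L.lattice := by
    rw [mul_add]
    exact L.lattice.toAddSubgroup.add_mem_cancel_right hx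
  by_cases hz : (n : ℂ) * z ∈ L.lattice
  · rw [if_pos hz, if_pos (hiff.mpr hz)]
  · rw [if_neg hz, if_neg (fun h => hz (hiff.mp h)), tpF1_add_div n t₀ hx, tpF2_add_div n t₀ hx]

omit [NeZero n] in
theorem tp_isClosed_div : IsClosed {z : ℂ | (n : ℂ) * z ∈ L.lattice} := by
  have : Continuous fun z : ℂ => (n : ℂ) * z := continuous_const.mul continuous_id
  exact L.isClosed_lattice.preimage this

theorem tpD_analyticAt_zero : AnalyticAt ℂ (tpD L n t₀) 0 := by
  have hn : (n : ℂ) ≠ 0 := Nat.cast_ne_zero.mpr (NeZero.ne n)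
  refine (tpD0_analyticAt (L := L) n t₀).congr ?_
  have hcont : ContinuousAt (fun z : ℂ => (n : ℂ) * z) 0 :=
    (continuous_const.mul continuous_id).continuousAt
  have hnhds : (↑L.lattice \ {(0 : ℂ)})ᶜ ∈ 𝓝 ((n : ℂ) * 0) := by
    rw [mul_zero]; exact L.compl_lattice_sdiff_singleton_mem_nhds 0
  filter_upwards [hcont.preimage_mem_nhds hnhds] with z hz
  by_cases hz0 : z = 0
  · subst hz0
    unfold tpD
    rw [if_pos (by simp)]
  · have hnz : (n : ℂ) * z ∉ L.lattice := by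
      intro hmem
      apply hz
      refine ⟨hmem, ?_⟩
      simp only [Set.mem_singleton_iff, mul_eq_zero, not_or]
      exact ⟨hn, hz0⟩
    rw [tpD_of_notMem n t₀ hnz, tpD0_eq n t₀ hz0]

theorem tpD_analyticAt (x : ℂ) : AnalyticAt ℂ (tpD L n t₀) x := by
  by_cases hx : (n : ℂ) * x ∈ L.lattice
  · have h0 : AnalyticAt ℂ (tpD L n t₀) (x - x) := by rw [sub_self]; exact tpD_analyticAt_zero n t₀
    have h1 : AnalyticAt ℂ (fun z => tpD L n t₀ (z - x)) x :=
      h0.comp_of_eq (analyticAt_id.sub analyticAt_const) (by simp)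
    refine h1.congr (Filter.Eventually.of_forall fun z => ?_)
    have := tpD_add_div (L := L) n t₀ (z := z - x) hx
    rw [sub_add_cancel] at this
    exact this.symm
  · have hopen : {z : ℂ | (n : ℂ) * z ∈ L.lattice}ᶜ ∈ 𝓝 x :=
      (tp_isClosed_div n).isOpen_compl.mem_nhds hx
    have hF1 : AnalyticAt ℂ (tpF1 L n t₀) x := by
      unfold tpF1
      refine Finset.analyticAt_fun_prod _ fun i _ => ?_
      have hxi : x + tpU L n i ∉ L.lattice := by
        intro h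
        apply hx
        have h2 : (n : ℂ) * x = (n : ℂ) * (x + tpU L n i) - (n : ℂ) * tpU L n i := by ring
        rw [h2]
        refine sub_mem ?_ (tpU_mul_mem n i)
        have := L.lattice.smul_mem (n : ℤ) h
        rwa [zsmul_eq_mul, Int.cast_natCast] at this
      exact (tpX_analyticAt t₀ hxi).comp_of_eq (analyticAt_id.add analyticAt_const) rfl
    have hF2 : AnalyticAt ℂ (tpF2 L n t₀) x := by
      unfold tpF2
      exact (tpX_analyticAt t₀ hx).comp_of_eq (analyticAt_const.mul analyticAt_id) rfl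
    have hsub : AnalyticAt ℂ (fun z => tpF1 L n t₀ z - tpC L n t₀ * tpF2 L n t₀ z) x :=
      hF1.sub (analyticAt_const.mul hF2)
    refine hsub.congr ?_
    filter_upwards [hopen] with z hz
    exact (tpD_of_notMem n t₀ hz).symm

theorem tpD_const (z w : ℂ) : tpD L n t₀ z = tpD L n t₀ w := by
  have hdiff : Differentiable ℂ (tpD L n t₀) := fun x => (tpD_analyticAt n t₀ x).differentiableAt
  refine hdiff.apply_eq_apply_of_bounded
    (IsZLattice.isCompact_range_of_periodic L.lattice _ hdiff.continuous fun z w hw => ?_).isBounded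
    z w
  refine tpD_add_div n t₀ ?_
  have := L.lattice.smul_mem (n : ℤ) hw
  simpa [zsmul_eq_mul] using this

/-! ### Evaluation at the half period and the product identity -/

section half

variable {n t₀}

omit [NeZero n] in
theorem tp_nat_mul_half (hodd : Odd n) (h2t : 2 * t₀ ∈ L.lattice) (z : ℂ) :
    (n : ℂ) * (z + t₀) - ((n : ℂ) * z + t₀) ∈ L.lattice := by
  obtain ⟨m, hm⟩ := hodd
  have h1 : (n : ℂ) * (z + t₀) - ((n : ℂ) * z + t₀) = (m : ℤ) • (2 * t₀) := by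
    rw [hm, zsmul_eq_mul]; push_cast; ring
  rw [h1]
  exact L.lattice.smul_mem (m : ℤ) h2t

omit [NeZero n] in
theorem tp_nat_mul_half_notMem (hodd : Odd n) (ht : t₀ ∉ L.lattice) (h2t : 2 * t₀ ∈ L.lattice) :
    (n : ℂ) * t₀ ∉ L.lattice := by
  intro h
  apply ht
  have h1 := tp_nat_mul_half (L := L) hodd h2t 0
  simp only [zero_add, mul_zero] at h1
  have h2 : t₀ = (n : ℂ) * t₀ - ((n : ℂ) * t₀ - t₀) := by ring
  rw [h2]
  exact sub_mem h h1

theorem tpD_half (hodd : Odd n) (ht : t₀ ∉ L.lattice) (h2t : 2 * t₀ ∈ L.lattice) :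
    tpD L n t₀ t₀ = 0 := by
  rw [tpD_of_notMem n t₀ (tp_nat_mul_half_notMem hodd ht h2t), tpF1_eq, tpX_self, zero_mul, tpF2]
  have h1 := tp_nat_mul_half (L := L) hodd h2t 0
  simp only [zero_add, mul_zero] at h1
  rw [tpX_eq_of_sub_mem t₀ h1, tpX_self, mul_zero, sub_zero]

/-- `∏_u X (z + u) = c · X (n z)`. -/
theorem tpF1_eq_mul_tpF2 (hodd : Odd n) (ht : t₀ ∉ L.lattice) (h2t : 2 * t₀ ∈ L.lattice)
    {z : ℂ} (hz : (n : ℂ) * z ∉ L.lattice) :
    tpF1 L n t₀ z = tpC L n t₀ * tpF2 L n t₀ z := by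
  have h1 := tpD_const (L := L) n t₀ z t₀
  rw [tpD_half hodd ht h2t, tpD_of_notMem n t₀ hz] at h1
  exact sub_eq_zero.mp h1

theorem tp_add_tpU_notMem {z : ℂ} (hz : (n : ℂ) * z ∉ L.lattice) (i : ZMod n × ZMod n) :
    z + tpU L n i ∉ L.lattice := by
  intro h
  apply hz
  have h2 : (n : ℂ) * z = (n : ℂ) * (z + tpU L n i) - (n : ℂ) * tpU L n i := by ring
  rw [h2]
  refine sub_mem ?_ (tpU_mul_mem n i)
  have := L.lattice.smul_mem (n : ℤ) h
  rwa [zsmul_eq_mul, Int.cast_natCast] at this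

/-- **The torsion product identity.** -/
theorem tp_prod (hodd : Odd n) (ht : t₀ ∉ L.lattice) (h2t : 2 * t₀ ∈ L.lattice) {κ : ℂ}
    (hκ0 : κ ≠ 0)
    (hκ : ∀ z, z ∉ L.lattice → z + t₀ ∉ L.lattice → tpX L t₀ (z + t₀) * tpX L t₀ z = κ) :
    (tpC L n t₀) ^ 2 = κ ^ (n ^ 2 - 1) := by
  have hn : (n : ℂ) ≠ 0 := Nat.cast_ne_zero.mpr (NeZero.ne n)
  have hn1 : 1 ≤ n ^ 2 := Nat.one_le_pow _ _ (Nat.pos_of_ne_zero (NeZero.ne n))
  -- the base point
  set z₀ : ℂ := t₀ / (2 * n) with hz₀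
  have hnz : (n : ℂ) * z₀ = t₀ / 2 := by rw [hz₀]; field_simp
  have h1 : (n : ℂ) * z₀ ∉ L.lattice := by
    rw [hnz]
    intro h
    apply ht
    have := L.lattice.smul_mem (2 : ℤ) h
    rw [zsmul_eq_mul] at this
    have h2 : ((2 : ℤ) : ℂ) * (t₀ / 2) = t₀ := by push_cast; ring
    rwa [h2] at this
  have h2 : (n : ℂ) * z₀ + t₀ ∉ L.lattice := by
    rw [hnz]
    intro h
    apply ht
    have := L.lattice.smul_mem (2 : ℤ) h
    rw [zsmul_eq_mul] at this
    have h3 : t₀ = ((2 : ℤ) : ℂ) * (t₀ / 2 + t₀) - 2 * t₀ := by push_cast; ring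
    rw [h3]
    exact sub_mem this h2t
  have h3 : (n : ℂ) * (z₀ + t₀) ∉ L.lattice := by
    intro h
    apply h2
    have := tp_nat_mul_half (L := L) hodd h2t z₀
    have h4 : (n : ℂ) * z₀ + t₀ = (n : ℂ) * (z₀ + t₀) - ((n : ℂ) * (z₀ + t₀) - ((n : ℂ) * z₀ + t₀)) := by
      ring
    rw [h4]
    exact sub_mem h this
  -- the two product evaluations
  have e1 : tpF1 L n t₀ (z₀ + t₀) * tpF1 L n t₀ z₀ = κ ^ (n ^ 2) := by
    unfold tpF1
    rw [← Finset.prod_mul_distrib]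
    have : ∀ i ∈ (Finset.univ : Finset (ZMod n × ZMod n)),
        tpX L t₀ (z₀ + t₀ + tpU L n i) * tpX L t₀ (z₀ + tpU L n i) = κ := by
      intro i _
      have h5 : z₀ + t₀ + tpU L n i = z₀ + tpU L n i + t₀ := by ring
      rw [h5]
      refine hκ _ (tp_add_tpU_notMem h1 i) ?_
      rw [← h5]
      exact tp_add_tpU_notMem h3 i
    rw [Finset.prod_congr rfl this, Finset.prod_const, Finset.card_univ, Fintype.card_prod,
      ZMod.card, sq]
  have e2 : tpF2 L n t₀ (z₀ + t₀) * tpF2 L n t₀ z₀ = κ := by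
    unfold tpF2
    rw [tpX_eq_of_sub_mem t₀ (tp_nat_mul_half (L := L) hodd h2t z₀)]
    exact hκ _ h1 h2
  rw [tpF1_eq_mul_tpF2 hodd ht h2t h3, tpF1_eq_mul_tpF2 hodd ht h2t h1] at e1
  have e3 : (tpC L n t₀) ^ 2 * κ = κ ^ (n ^ 2 - 1) * κ := by
    rw [← pow_succ, Nat.sub_add_cancel hn1, ← e1, ← e2]; ring
  exact mul_right_cancel₀ hκ0 e3

theorem tpC_eq : tpC L n t₀ =
    (n : ℂ) ^ 2 * ∏ i ∈ (Finset.univ.erase (0 : ZMod n × ZMod n)), tpX L t₀ (tpU L n i) := by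
  unfold tpC tpG
  simp only [zero_add]

end half

end main

end Fermat.Agent.S13x
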