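/-
S13 helper library (namespace `Fermat.Agent.S13x`, prefix `tpf_`): the torsion product identity on
a complex Weierstrass curve `y² + a₁xy = x³ + a₂x² + a₄x` (helper79).

From the two D05 facts (additivity + surjectivity of `wpPoint`), uniformisation (D07) and the
analytic identity `tp_prod`: an explicit parametrisation `β : (ℤ/n)² → E[n](ℂ)` (`n` odd) with
`(n² ∏_{i ≠ 0} x(β i))² = a₄^(n² - 1)`.
-/
import Fermat.Agent.S13x.TorsionProduct
import Fermat.Agent.S13x.WpDefs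
import Fermat.Agent.S13x.LatticeOfInvariants
import Fermat.Agent.S51x.VC

set_option autoImplicit false

open WeierstrassCurve WeierstrassCurve.Affine WeierstrassCurve.Affine.Point
open scoped PeriodPair

namespace Fermat.Agent.S13x

/-- the `x`-coordinate of a point (junk value `0` at the origin). -/
def tpfX {F : Type*} [Field F] {W : WeierstrassCurve F} : W.toAffine.Point → F
  | .zero => 0
  | .some x _ _ => x

@[simp] theorem tpfX_zero {F : Type*} [Field F] {W : WeierstrassCurve F} :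
    tpfX (0 : W.toAffine.Point) = 0 := rfl

@[simp] theorem tpfX_some {F : Type*} [Field F] {W : WeierstrassCurve F} {x y : F}
    (h : W.toAffine.Nonsingular x y) : tpfX (Point.some x y h) = x := rfl

section complex

variable (W : WeierstrassCurve ℂ)

/-- the explicit variable change to short Weierstrass form (`u = 1`). -/
noncomputable def tpfVC : VariableChange ℂ :=
  ⟨1, -W.b₂ / 12, -W.a₁ / 2, W.a₁ * W.b₂ / 24 - W.a₃ / 2⟩

theorem tpfVC_smul_a₁ : (tpfVC W • W).a₁ = 0 := by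
  rw [variableChange_a₁]; simp [tpfVC]; ring

theorem tpfVC_smul_a₂ : (tpfVC W • W).a₂ = 0 := by
  rw [variableChange_a₂]; simp [tpfVC, WeierstrassCurve.b₂]; ring

theorem tpfVC_smul_a₃ : (tpfVC W • W).a₃ = 0 := by
  rw [variableChange_a₃]; simp [tpfVC, WeierstrassCurve.b₂]; ring

theorem tpfVC_smul_Δ : (tpfVC W • W).Δ = W.Δ := by
  rw [variableChange_Δ]; simp [tpfVC]

theorem tpfVC_disc :
    (-4 * (tpfVC W • W).a₄) ^ 3 - 27 * (-4 * (tpfVC W • W).a₆) ^ 2 = W.Δ := by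
  rw [← tpfVC_smul_Δ W]
  have h1 := tpfVC_smul_a₁ W
  have h2 := tpfVC_smul_a₂ W
  have h3 := tpfVC_smul_a₃ W
  simp only [WeierstrassCurve.Δ, WeierstrassCurve.b₂, WeierstrassCurve.b₄, WeierstrassCurve.b₆,
    WeierstrassCurve.b₈, h1, h2, h3]
  ring

theorem tpfVC_eq_wpCurve {L : PeriodPair} (hg2 : L.g₂ = -4 * (tpfVC W • W).a₄)
    (hg3 : L.g₃ = -4 * (tpfVC W • W).a₆) : tpfVC W • W = wpCurve L := by
  ext
  · rw [tpfVC_smul_a₁]; rfl
  · rw [tpfVC_smul_a₂]; rfl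
  · rw [tpfVC_smul_a₃]; rfl
  · rw [wpCurve_a₄, hg2]; ring
  · rw [wpCurve_a₆, hg3]; ring

/-- A uniformisation of `W(ℂ)`: a surjective homomorphism `ℂ → W(ℂ)` with kernel a lattice and
`x`-coordinate `℘ + r`. -/
structure TpfUnif (W : WeierstrassCurve ℂ) where
  /-- the period pair -/
  L : PeriodPair
  /-- the uniformising homomorphism -/
  Ψ : ℂ →+ W.toAffine.Point
  /-- the `x`-shift -/
  r : ℂ
  ker : ∀ z, Ψ z = 0 ↔ z ∈ L.lattice
  surj : Function.Surjective Ψ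
  x_eq : ∀ z, z ∉ L.lattice → tpfX (Ψ z) = ℘[L] z + r

theorem tpf_exists_unif
    (hadd : ∀ (L : PeriodPair) (hΔ : L.g₂ ^ 3 - 27 * L.g₃ ^ 2 ≠ 0) (z w : ℂ),
      wpPoint L hΔ (z + w) = wpPoint L hΔ z + wpPoint L hΔ w)
    (hsurj : ∀ (L : PeriodPair) (hΔ : L.g₂ ^ 3 - 27 * L.g₃ ^ 2 ≠ 0),
      Function.Surjective (wpPoint L hΔ))
    (W : WeierstrassCurve ℂ) (hΔ : W.Δ ≠ 0) : Nonempty (TpfUnif W) := by
  have hdisc := tpfVC_disc W
  obtain ⟨L, hg2, hg3⟩ := loi_exists_periodPair (-4 * (tpfVC W • W).a₄) (-4 * (tpfVC W • W).a₆)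
    (by rw [hdisc]; exact hΔ)
  have hL : L.g₂ ^ 3 - 27 * L.g₃ ^ 2 ≠ 0 := by rw [hg2, hg3, hdisc]; exact hΔ
  have hWL := tpfVC_eq_wpCurve W hg2 hg3
  let f : ℂ →+ (wpCurve L).toAffine.Point :=
    { toFun := wpPoint L hL
      map_zero' := wpPoint_of_mem L hL (zero_mem _)
      map_add' := hadd L hL }
  let e : (wpCurve L).toAffine.Point ≃+ W.toAffine.Point :=
    (Fermat.Agent.S51x.pointCongr hWL.symm).trans (Fermat.Agent.S51x.vcEquiv W (tpfVC W))
  refine ⟨⟨L, e.toAddMonoidHom.comp f, -W.b₂ / 12, ?_, ?_, ?_⟩⟩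
  · intro z
    show e (wpPoint L hL z) = 0 ↔ _
    rw [e.map_eq_zero_iff, wpPoint_eq_zero_iff]
  · exact e.surjective.comp (hsurj L hL)
  · intro z hz
    show tpfX (e (wpPoint L hL z)) = _
    rw [wpPoint_of_notMem L hL hz]
    show tpfX (Fermat.Agent.S51x.vcEquiv W (tpfVC W)
      (Fermat.Agent.S51x.pointCongr hWL.symm (Point.some _ _ _))) = _
    rw [Fermat.Agent.S51x.pointCongr_some, Fermat.Agent.S51x.vcEquiv_some']
    simp [tpfVC]

end complex

theorem tpf_Δ_eq {R : Type*} [CommRing R] {W : WeierstrassCurve R} (h3 : W.a₃ = 0)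
    (h6 : W.a₆ = 0) : W.Δ = W.a₄ ^ 2 * (W.b₂ ^ 2 - 64 * W.a₄) := by
  simp only [WeierstrassCurve.Δ, WeierstrassCurve.b₂, WeierstrassCurve.b₄, WeierstrassCurve.b₆,
    WeierstrassCurve.b₈, h3, h6]
  ring

section core

variable {W : WeierstrassCurve ℂ}

theorem tpf_a₄_ne_zero (h3 : W.a₃ = 0) (h6 : W.a₆ = 0) (hΔ : W.Δ ≠ 0) : W.a₄ ≠ 0 := by
  intro h
  apply hΔ
  rw [tpf_Δ_eq h3 h6, h]
  ring

theorem tpf_nonsingular_zero (h6 : W.a₆ = 0) (hΔ : W.Δ ≠ 0) : W.toAffine.Nonsingular 0 0 := by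
  refine (Affine.equation_iff_nonsingular_of_Δ_ne_zero hΔ).mp ?_
  rw [Affine.equation_iff]
  simp [h6]

theorem tpf_T_add_T (h3 : W.a₃ = 0) (hT : W.toAffine.Nonsingular 0 0) :
    (Point.some 0 0 hT + Point.some 0 0 hT : W.toAffine.Point) = 0 := by
  apply add_self_of_Y_eq
  simp [Affine.negY, h3]

/-- translation by the two-torsion point `T = (0, 0)` inverts `x` up to `a₄`. -/
theorem tpf_add_T (h3 : W.a₃ = 0) (h6 : W.a₆ = 0) (hT : W.toAffine.Nonsingular 0 0)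
    (Q : W.toAffine.Point) (hQ : Q ≠ 0) (hQT : Q + Point.some 0 0 hT ≠ 0) :
    tpfX (Q + Point.some 0 0 hT) * tpfX Q = W.a₄ := by
  rcases Q with _ | ⟨x, y, h⟩
  · exact absurd rfl hQ
  · have heq := (Affine.equation_iff x y).mp h.1
    rw [h3, h6] at heq
    by_cases hx : x = 0
    · exfalso
      subst hx
      have hy : y = 0 := by
        have : y ^ 2 = 0 := by linear_combination heq
        exact pow_eq_zero_iff (two_ne_zero) |>.mp this
      subst hy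
      exact hQT (tpf_T_add_T h3 hT)
    · rw [add_of_X_ne hx, tpfX_some, tpfX_some, Affine.addX, Affine.slope_of_X_ne hx]
      field_simp
      linear_combination x * heq

variable (U : TpfUnif W)

theorem tpf_Ψ_eq_of_sub_mem {z w : ℂ} (h : z - w ∈ U.L.lattice) : U.Ψ z = U.Ψ w := by
  have h1 : U.Ψ (z - w) = 0 := (U.ker _).mpr h
  rw [map_sub, sub_eq_zero] at h1
  exact h1

theorem tpf_sub_mem_of_Ψ_eq {z w : ℂ} (h : U.Ψ z = U.Ψ w) : z - w ∈ U.L.lattice := by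
  rw [← U.ker, map_sub, h, sub_self]

/-- **The torsion product identity on the curve.** -/
theorem tpf_exists_param (U : TpfUnif W) (h3 : W.a₃ = 0) (h6 : W.a₆ = 0) (hΔ : W.Δ ≠ 0) {n : ℕ} [NeZero n]
    (hn : Odd n) :
    ∃ β : ZMod n × ZMod n → W.toAffine.Point,
      Function.Injective β ∧ (∀ i, β (-i) = -β i) ∧ β 0 = 0 ∧ (∀ i, n • β i = 0) ∧
      (∀ Q : W.toAffine.Point, n • Q = 0 → ∃ i, β i = Q) ∧
      ((n : ℂ) ^ 2 * ∏ i ∈ (Finset.univ.erase (0 : ZMod n × ZMod n)), tpfX (β i)) ^ 2 =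
        W.a₄ ^ (n ^ 2 - 1) := by
  have hT := tpf_nonsingular_zero h6 hΔ
  obtain ⟨t₀, ht₀T⟩ := U.surj (Point.some 0 0 hT)
  have ht₀ : t₀ ∉ U.L.lattice := by
    intro h
    rw [(U.ker t₀).mpr h] at ht₀T
    exact some_ne_zero hT ht₀T.symm
  have hr : ℘[U.L] t₀ + U.r = 0 := by
    rw [← U.x_eq t₀ ht₀, ht₀T, tpfX_some]
  have h2t : 2 * t₀ ∈ U.L.lattice := by
    rw [← U.ker, two_mul, map_add, ht₀T]
    exact tpf_T_add_T h3 hT
  have hX : ∀ z, z ∉ U.L.lattice → tpX U.L t₀ z = tpfX (U.Ψ z) := by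
    intro z hz
    rw [U.x_eq z hz, tpX]
    linear_combination -hr
  have hκ : ∀ z, z ∉ U.L.lattice → z + t₀ ∉ U.L.lattice →
      tpX U.L t₀ (z + t₀) * tpX U.L t₀ z = W.a₄ := by
    intro z hz hzt
    rw [hX z hz, hX _ hzt, map_add, ht₀T]
    refine tpf_add_T h3 h6 hT _ (fun h => hz ((U.ker z).mp h)) ?_
    rw [← ht₀T, ← map_add]
    exact fun h => hzt ((U.ker _).mp h)
  have hprod := tp_prod (L := U.L) (n := n) hn ht₀ h2t (tpf_a₄_ne_zero h3 h6 hΔ) hκ
  refine ⟨fun i => U.Ψ (tpU U.L n i), ?_, ?_, ?_, ?_, ?_, ?_⟩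
  · intro i j hij
    have h1 := tpf_sub_mem_of_Ψ_eq U hij
    have h2 := tpU_add_sub_mem (L := U.L) n (i - j) j
    rw [sub_add_cancel] at h2
    have h3 : tpU U.L n (i - j) ∈ U.L.lattice := by
      have : tpU U.L n (i - j) =
          (tpU U.L n (i - j) + tpU U.L n j - tpU U.L n i) + (tpU U.L n i - tpU U.L n j) := by ring
      rw [this]
      exact add_mem h2 h1
    by_contra hne
    exact tpU_notMem n (sub_ne_zero.mpr hne) h3
  · intro i
    have h1 := tpU_neg_add_mem (L := U.L) n i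
    have h2 : U.Ψ (tpU U.L n i + tpU U.L n (-i)) = 0 := (U.ker _).mpr h1
    rw [map_add] at h2
    exact eq_neg_of_add_eq_zero_right h2
  · show U.Ψ (tpU U.L n 0) = 0
    rw [tpU_zero, _root_.map_zero]
  · intro i
    show n • U.Ψ (tpU U.L n i) = 0
    rw [← map_nsmul, nsmul_eq_mul]
    exact (U.ker _).mpr (tpU_mul_mem n i)
  · intro Q hQ
    obtain ⟨z, rfl⟩ := U.surj Q
    rw [← map_nsmul, nsmul_eq_mul, U.ker] at hQ
    obtain ⟨j, hj⟩ := exists_tpU_sub_mem n hQ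
    exact ⟨j, (tpf_Ψ_eq_of_sub_mem U hj).symm⟩
  · rw [← hprod, tpC_eq]
    congr 2
    refine Finset.prod_congr rfl fun i hi => ?_
    exact (hX _ (tpU_notMem n (Finset.mem_erase.mp hi).1)).symm

end core

end Fermat.Agent.S13x
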