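/-
S13 helper library (namespace `Fermat.Agent.S13x`, prefix `tpf_`): analytic route to LEMMA SS
(`not_all_inE1`) for the Frey curve (helper79).

Input: a uniformisation `TpfUnif` of every complex Weierstrass curve with `Δ ≠ 0` (i.e. the D05
facts of the analytic leaf).  Output: the exact statement of `Spec.not_all_inE1`.
Route: `tpf_exists_param` (torsion product identity over `ℂ`) ⟶ descent to `Qb`
(`td_exists_preimage`) ⟶ the polynomial `p² ∏_{i ≠ 0} (X - x(Q_i))` fed to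
`ssx_exists_integral_torsion`.
-/
import Fermat.Agent.S13x.TorsionProductCurve
import Fermat.Agent.S13x.TorsionDescent
import Fermat.Agent.S13x.SSExclude
import Fermat.Agent.S13x.Defs
import Fermat.Agent.S13x.FreyInt
import Fermat.Agent.S13x.WpPoint

set_option autoImplicit false

open WeierstrassCurve WeierstrassCurve.Affine WeierstrassCurve.Affine.Point

namespace Fermat.Agent.S13x

section descent

variable (W₀ : Affine ℚ)

theorem tpfX_map {K L : Type*} [Field K] [Field L] [DecidableEq K] [DecidableEq L] [Algebra ℚ K]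
    [Algebra ℚ L] (f : K →ₐ[ℚ] L) (Q : (W₀⁄K).Point) :
    tpfX (Point.map (W' := W₀) f Q) = f (tpfX Q) := by
  rcases Q with _ | ⟨x, y, h⟩
  · exact (_root_.map_zero f).symm
  · rfl

/-- the torsion product identity over `Qb`. -/
theorem tpf_exists_param_Qbar (U : TpfUnif (W₀⁄ℂ)) (h3 : W₀.a₃ = 0) (h6 : W₀.a₆ = 0)
    (hΔ : W₀.Δ ≠ 0) {n : ℕ} [NeZero n] (hn : Odd n) :
    ∃ β : ZMod n × ZMod n → (W₀⁄Qb).Point,
      Function.Injective β ∧ (∀ i, β (-i) = -β i) ∧ β 0 = 0 ∧ (∀ i, n • β i = 0) ∧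
      (∀ Q : (W₀⁄Qb).Point, n • Q = 0 → ∃ i, β i = Q) ∧
      ((n : Qb) ^ 2 * ∏ i ∈ (Finset.univ.erase (0 : ZMod n × ZMod n)), tpfX (β i)) ^ 2 =
        (algebraMap ℚ Qb W₀.a₄) ^ (n ^ 2 - 1) := by
  obtain ⟨ι⟩ := td_nonempty_algHom_Qbar_Complex
  have h3' : (W₀⁄ℂ).a₃ = 0 := by
    show algebraMap ℚ ℂ W₀.a₃ = 0
    rw [h3, _root_.map_zero]
  have h6' : (W₀⁄ℂ).a₆ = 0 := by
    show algebraMap ℚ ℂ W₀.a₆ = 0
    rw [h6, _root_.map_zero]
  have hΔ' : (W₀⁄ℂ).Δ ≠ 0 := by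
    show (WeierstrassCurve.map W₀ (algebraMap ℚ ℂ)).Δ ≠ 0
    rw [WeierstrassCurve.map_Δ]
    exact (_root_.map_ne_zero_iff _ (algebraMap ℚ ℂ).injective).mpr hΔ
  obtain ⟨β, hinj, hneg, h0, htor, hsurj, hprod⟩ := tpf_exists_param U h3' h6' hΔ' hn
  have hfin : Finite (Submodule.torsionBy ℤ (W₀⁄ℂ).Point n) := by
    have hsub : ((Submodule.torsionBy ℤ (W₀⁄ℂ).Point n : Submodule ℤ (W₀⁄ℂ).Point) :
        Set (W₀⁄ℂ).Point) ⊆ Set.range β := by
      intro Q hQ
      rw [SetLike.mem_coe, Submodule.mem_torsionBy_iff, natCast_zsmul] at hQ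
      exact hsurj Q hQ
    exact Set.finite_coe_iff.mpr ((Set.finite_range β).subset hsub)
  have hex : ∀ i, ∃ Q : (W₀⁄Qb).Point, Point.map (W' := W₀) ι Q = β i ∧ (n : ℤ) • Q = 0 :=
    fun i => td_exists_preimage W₀ ι n hfin (β i) (by rw [natCast_zsmul]; exact htor i)
  choose γ hγ hγn using hex
  have hmapinj := Point.map_injective (W' := W₀) ι
  refine ⟨γ, ?_, ?_, ?_, ?_, ?_, ?_⟩
  · intro i j hij
    apply hinj
    rw [← hγ i, ← hγ j, hij]
  · intro i
    apply hmapinj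
    rw [hγ, hneg, map_neg, hγ]
  · apply hmapinj
    rw [hγ, h0, _root_.map_zero]
  · intro i
    have := hγn i
    rwa [natCast_zsmul] at this
  · intro Q hQ
    have h1 : n • Point.map (W' := W₀) ι Q = 0 := by rw [← map_nsmul, hQ, _root_.map_zero]
    obtain ⟨i, hi⟩ := hsurj _ h1
    exact ⟨i, hmapinj (by rw [hγ, hi])⟩
  · have key : ι (((n : Qb) ^ 2 * ∏ i ∈ (Finset.univ.erase (0 : ZMod n × ZMod n)),
        tpfX (γ i)) ^ 2) = ι ((algebraMap ℚ Qb W₀.a₄) ^ (n ^ 2 - 1)) := by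
      rw [map_pow, map_mul, map_pow, map_natCast, map_prod, map_pow, ι.commutes]
      have : ∀ i ∈ (Finset.univ.erase (0 : ZMod n × ZMod n)), ι (tpfX (γ i)) = tpfX (β i) := by
        intro i _
        rw [← tpfX_map, hγ]
      rw [Finset.prod_congr rfl this]
      exact hprod
    exact ι.injective key

end descent

section exclusion

open Polynomial

variable (W₀ : Affine ℚ)

/-- a point killed by `2` and by an odd number is zero. -/
theorem tpf_eq_zero_of_two_of_odd {G : Type*} [AddCommGroup G] {Q : G} {p : ℕ} (hodd : Odd p)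
    (h2 : 2 • Q = 0) (hp : p • Q = 0) : Q = 0 := by
  obtain ⟨m, hm⟩ := hodd
  rw [hm, add_nsmul, one_nsmul, mul_nsmul, h2, smul_zero, zero_add] at hp
  exact hp

/-- **Supersingular exclusion, analytic route**: if `E[p]` has a proper nonzero Galois-stable
submodule, some nonzero `p`-torsion point has `A`-integral `x`-coordinate. -/
theorem tpf_exists_integral_torsion (U : TpfUnif (W₀⁄ℂ)) (h3 : W₀.a₃ = 0) (h6 : W₀.a₆ = 0)
    (hΔ : W₀.Δ ≠ 0) (A : ValuationSubring Qb) {p : ℕ} (hp : p.Prime) (hp2 : p ≠ 2)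
    (hA : A.LiesOverPrime p) (ha₄ : A.valuation (algebraMap ℚ Qb W₀.a₄) ≤ 1)
    (N0 : Submodule (ZMod p) (Submodule.torsionBy ℤ (W₀⁄Qb).Point p))
    (hN0 : IsGaloisStable ℚ N0) (hbot : N0 ≠ ⊥) (htop : N0 ≠ ⊤) :
    ∃ (x y : Qb) (h : (W₀⁄Qb).Nonsingular x y),
      Point.some x y h ∈ Submodule.torsionBy ℤ (W₀⁄Qb).Point p ∧ A.valuation x ≤ 1 := by
  have : NeZero p := ⟨hp.ne_zero⟩
  have hodd : Odd p := hp.odd_of_ne_two hp2
  obtain ⟨γ, hinj, hneg, h0, htor, hsurj, hprod⟩ := tpf_exists_param_Qbar W₀ U h3 h6 hΔ hodd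
  have hmemV : ∀ i, γ i ∈ Submodule.torsionBy ℤ (W₀⁄Qb).Point p := by
    intro i
    rw [Submodule.mem_torsionBy_iff, natCast_zsmul]
    exact htor i
  -- cardinality of `E[p]`
  let g : ZMod p × ZMod p → Submodule.torsionBy ℤ (W₀⁄Qb).Point p := fun i => ⟨γ i, hmemV i⟩
  have hgbij : Function.Bijective g := by
    constructor
    · intro i j hij
      exact hinj (congrArg Subtype.val hij)
    · rintro ⟨Q, hQ⟩
      rw [Submodule.mem_torsionBy_iff, natCast_zsmul] at hQ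
      obtain ⟨i, hi⟩ := hsurj Q hQ
      exact ⟨i, Subtype.ext hi⟩
  have hVfin : Finite (Submodule.torsionBy ℤ (W₀⁄Qb).Point p) :=
    Finite.of_surjective g hgbij.2
  have hVcard : Nat.card (Submodule.torsionBy ℤ (W₀⁄Qb).Point p) = p ^ 2 := by
    rw [← Nat.card_congr (Equiv.ofBijective g hgbij), Nat.card_prod, Nat.card_zmod, sq]
  have hfin : (N0 : Set (Submodule.torsionBy ℤ (W₀⁄Qb).Point p)).Finite := Set.toFinite _
  have hcardN : (N0 : Set (Submodule.torsionBy ℤ (W₀⁄Qb).Point p)).ncard ≤ p := by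
    have hdvd : Nat.card N0.toAddSubgroup ∣ Nat.card (Submodule.torsionBy ℤ (W₀⁄Qb).Point p) :=
      AddSubgroup.card_addSubgroup_dvd_card _
    rw [hVcard] at hdvd
    obtain ⟨k, hk, hk'⟩ := (Nat.dvd_prime_pow hp).mp hdvd
    have hk2 : k ≠ 2 := by
      rintro rfl
      apply htop
      have h1 : N0.toAddSubgroup = ⊤ := by
        apply AddSubgroup.card_eq_iff_eq_top _ |>.mp
        rw [hk', hVcard]
      ext x
      simp only [Submodule.mem_top, iff_true]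
      have : x ∈ N0.toAddSubgroup := by rw [h1]; trivial
      exact this
    have hk1 : k ≤ 1 := by omega
    have h2 : (N0 : Set (Submodule.torsionBy ℤ (W₀⁄Qb).Point p)).ncard = p ^ k := by
      rw [← hk']
      rfl
    rw [h2]
    calc p ^ k ≤ p ^ 1 := Nat.pow_le_pow_right hp.pos hk1
      _ = p := pow_one p
  -- the polynomial
  set s := Finset.univ.erase (0 : ZMod p × ZMod p) with hs
  set xs : ZMod p × ZMod p → Qb := fun i => tpfX (γ i) with hxs
  set Nm : Qb[X] := C ((p : Qb) ^ 2) * ∏ i ∈ s, (X - C (xs i)) with hNm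
  have hp0 : ((p : Qb) ^ 2) ≠ 0 := pow_ne_zero _ (Nat.cast_ne_zero.mpr hp.ne_zero)
  have hmonic : (∏ i ∈ s, (X - C (xs i))).Monic :=
    monic_prod_of_monic _ _ (fun i _ => monic_X_sub_C _)
  have hNm0 : Nm ≠ 0 := mul_ne_zero (C_ne_zero.mpr hp0) hmonic.ne_zero
  have hcard : s.card = p ^ 2 - 1 := by
    rw [hs, Finset.card_erase_of_mem (Finset.mem_univ _), Finset.card_univ, Fintype.card_prod,
      ZMod.card, sq]
  have hdeg : Nm.natDegree = p ^ 2 - 1 := by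
    rw [hNm, natDegree_C_mul hp0, natDegree_prod_of_monic _ _ (fun i _ => monic_X_sub_C _)]
    simp [hcard]
  have hlc : Nm.leadingCoeff = (p : Qb) ^ 2 := by
    rw [hNm, leadingCoeff_mul, leadingCoeff_C, hmonic.leadingCoeff, mul_one]
  have hcoeff0 : (Nm.coeff 0) ^ 2 = (algebraMap ℚ Qb W₀.a₄) ^ (p ^ 2 - 1) := by
    rw [coeff_zero_eq_eval_zero, hNm, eval_mul, eval_C, eval_prod]
    simp only [eval_sub, eval_X, eval_C, zero_sub]
    rw [← hprod, mul_pow, mul_pow, ← Finset.prod_pow, ← Finset.prod_pow]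
    congr 1
    exact Finset.prod_congr rfl (fun i _ => neg_sq _)
  have hint : A.valuation (Nm.coeff 0) ≤ 1 := by
    by_contra hlt
    push Not at hlt
    have h1 : 1 < A.valuation (Nm.coeff 0) ^ 2 := one_lt_pow₀ hlt two_ne_zero
    rw [← map_pow, hcoeff0, map_pow] at h1
    exact absurd (pow_le_one₀ zero_le ha₄) (not_le.mpr h1)
  have hlead : A.valuation (p : Qb) ^ 2 ≤ A.valuation Nm.leadingCoeff := by
    rw [hlc, map_pow]
  have hroot : ∀ ρ, Nm.IsRoot ρ → ∃ (y : Qb) (h : (W₀⁄Qb).Nonsingular ρ y),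
      Point.some ρ y h ∈ Submodule.torsionBy ℤ (W₀⁄Qb).Point p := by
    intro ρ hρ
    rw [IsRoot.def, hNm, eval_mul, eval_C, eval_prod, mul_eq_zero] at hρ
    rcases hρ with hρ | hρ
    · exact absurd hρ hp0
    · obtain ⟨i, hi, hi0⟩ := Finset.prod_eq_zero_iff.mp hρ
      rw [eval_sub, eval_X, eval_C, sub_eq_zero] at hi0
      have hine : i ≠ 0 := (Finset.mem_erase.mp hi).1
      have hγi : γ i ≠ 0 := fun h => hine (hinj (h.trans h0.symm))
      have hmem := hmemV i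
      rcases hγi' : γ i with _ | ⟨x, y, h⟩
      · exact absurd hγi' hγi
      · have hx : ρ = x := by rw [hi0, hxs]; simp only [hγi', tpfX_some]
        subst hx
        rw [hγi'] at hmem
        exact ⟨y, h, hmem⟩
  have hmult : ∀ (x y : Qb) (h : (W₀⁄Qb).Nonsingular x y),
      Point.some x y h ∈ Submodule.torsionBy ℤ (W₀⁄Qb).Point p → 2 ≤ Nm.rootMultiplicity x := by
    intro x y h ht
    rw [Submodule.mem_torsionBy_iff, natCast_zsmul] at ht
    obtain ⟨i, hi⟩ := hsurj _ ht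
    have hine : i ≠ 0 := by
      rintro rfl
      rw [h0] at hi
      exact some_ne_zero h hi.symm
    have hγi : γ i ≠ 0 := by rw [hi]; exact some_ne_zero h
    have hneg_ne : -i ≠ i := by
      intro hni
      have h1 : γ i = -γ i := by rw [← hneg, hni]
      have h2 : 2 • γ i = 0 := by
        rw [two_nsmul]
        nth_rewrite 1 [h1]
        exact neg_add_cancel _
      exact hγi (tpf_eq_zero_of_two_of_odd hodd h2 (htor i))
    have hxi : xs i = x := by rw [hxs]; simp only [hi, tpfX_some]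
    have hxni : xs (-i) = x := by
      rw [hxs]
      simp only [hneg, hi, neg_some, tpfX_some]
    have hi_mem : i ∈ s := Finset.mem_erase.mpr ⟨hine, Finset.mem_univ _⟩
    have hni_mem : -i ∈ s.erase i :=
      Finset.mem_erase.mpr ⟨hneg_ne, Finset.mem_erase.mpr ⟨neg_ne_zero.mpr hine, Finset.mem_univ _⟩⟩
    rw [le_rootMultiplicity_iff hNm0, hNm]
    apply Dvd.dvd.mul_left
    rw [← Finset.mul_prod_erase s _ hi_mem, ← Finset.mul_prod_erase (s.erase i) _ hni_mem,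
      ← mul_assoc, hxi, hxni, ← sq]
    exact Dvd.intro _ rfl
  exact ssx_exists_integral_torsion A hp hA Nm hdeg hint hlead hroot hmult N0 hN0 hbot hfin hcardN

end exclusion

section frey

theorem tpf_frey_Δ_ne_zero (P : FreyPackage) : P.freyCurve.Δ ≠ 0 := by
  have h3 : P.freyCurve.a₃ = 0 := rfl
  have h6 : P.freyCurve.a₆ = 0 := rfl
  rw [tpf_Δ_eq h3 h6]
  have ha : (P.a : ℚ) ≠ 0 := Int.cast_ne_zero.mpr P.ha0
  have hb : (P.b : ℚ) ≠ 0 := Int.cast_ne_zero.mpr P.hb0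
  have hc : (P.c : ℚ) ≠ 0 := Int.cast_ne_zero.mpr P.hc0
  have hFLT : (P.a : ℚ) ^ P.p + (P.b : ℚ) ^ P.p = (P.c : ℚ) ^ P.p := by exact_mod_cast P.hFLT
  have ha4 : P.freyCurve.a₄ = -((P.a : ℚ) ^ P.p) * ((P.b : ℚ) ^ P.p) / 16 := rfl
  have hb2 : P.freyCurve.b₂ = (P.b : ℚ) ^ P.p - (P.a : ℚ) ^ P.p := by
    simp only [WeierstrassCurve.b₂, FreyPackage.freyCurve]
    ring
  have h1 : P.freyCurve.b₂ ^ 2 - 64 * P.freyCurve.a₄ = ((P.c : ℚ) ^ P.p) ^ 2 := by
    rw [hb2, ha4, ← hFLT]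
    ring
  rw [h1, ha4]
  have hap := pow_ne_zero P.p ha
  have hbp := pow_ne_zero P.p hb
  have hcp := pow_ne_zero P.p hc
  refine mul_ne_zero (pow_ne_zero 2 ?_) (pow_ne_zero 2 hcp)
  exact div_ne_zero (mul_ne_zero (neg_ne_zero.mpr hap) hbp) (by norm_num)

/-- **LEMMA SS (`Spec.not_all_inE1`), analytic route**, from a uniformisation of complex
Weierstrass curves. -/
theorem tpf_not_all_inE1 (hU : ∀ W : WeierstrassCurve ℂ, W.Δ ≠ 0 → Nonempty (TpfUnif W))
    (P : FreyPackage) (A : ValuationSubring Qb) (hA : A.LiesOverPrime P.p)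
    (N : Submodule (ZMod P.p) (FreyV P)) (hN : IsGaloisStable ℚ N) (hbot : N ≠ ⊥)
    (htop : N ≠ ⊤) : ∃ x : FreyV P, ¬ InE1 A (x : FreyPt P) := by
  have hΔ := tpf_frey_Δ_ne_zero P
  have hΔ' : (P.freyCurve⁄ℂ).Δ ≠ 0 := by
    show (WeierstrassCurve.map P.freyCurve (algebraMap ℚ ℂ)).Δ ≠ 0
    rw [WeierstrassCurve.map_Δ]
    exact (_root_.map_ne_zero_iff _ (algebraMap ℚ ℂ).injective).mpr hΔ
  obtain ⟨U⟩ := hU (P.freyCurve⁄ℂ) hΔ'
  have hp2 : P.p ≠ 2 := by have := P.hp5; omega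
  have ha₄ : A.valuation (algebraMap ℚ Qb P.freyCurve.a₄) ≤ 1 := by
    have h1 : algebraMap ℚ Qb P.freyCurve.a₄ = ((fiA₄ P : ℤ) : Qb) := fi_a₄ P
    rw [h1]
    exact (A.valuation_le_one_iff _).mpr (intCast_mem A _)
  obtain ⟨x, y, h, ht, hv⟩ := tpf_exists_integral_torsion P.freyCurve U rfl rfl hΔ A P.pp hp2 hA
    ha₄ N hN hbot htop
  refine ⟨⟨Point.some x y h, ht⟩, ?_⟩
  show ¬ (x ∉ A)
  rw [not_not]
  exact (A.valuation_le_one_iff x).mp hv

/-- `not_all_inE1` from the two D05 facts in `WpSpec` shape. -/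
theorem tpf_not_all_inE1_of_wpp
    (hadd : ∀ (L : PeriodPair) (hΔ : L.g₂ ^ 3 - 27 * L.g₃ ^ 2 ≠ 0) (z w : ℂ),
      wpPoint L hΔ (z + w) = wpPoint L hΔ z + wpPoint L hΔ w)
    (hsurj : ∀ (L : PeriodPair) (hΔ : L.g₂ ^ 3 - 27 * L.g₃ ^ 2 ≠ 0),
      Function.Surjective (wpPoint L hΔ))
    (P : FreyPackage) (A : ValuationSubring Qb) (hA : A.LiesOverPrime P.p)
    (N : Submodule (ZMod P.p) (FreyV P)) (hN : IsGaloisStable ℚ N) (hbot : N ≠ ⊥)
    (htop : N ≠ ⊤) : ∃ x : FreyV P, ¬ InE1 A (x : FreyPt P) :=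
  tpf_not_all_inE1 (fun W hW => tpf_exists_unif hadd hsurj W hW) P A hA N hN hbot htop

/-- `not_all_inE1` from the analytic input package `WppInputs` of `WpPoint.lean`. -/
theorem tpf_not_all_inE1_of_inputs
    (I : ∀ L : PeriodPair, L.g₂ ^ 3 - 27 * L.g₃ ^ 2 ≠ 0 → WppInputs L)
    (P : FreyPackage) (A : ValuationSubring Qb) (hA : A.LiesOverPrime P.p)
    (N : Submodule (ZMod P.p) (FreyV P)) (hN : IsGaloisStable ℚ N) (hbot : N ≠ ⊥)
    (htop : N ≠ ⊤) : ∃ x : FreyV P, ¬ InE1 A (x : FreyPt P) :=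
  tpf_not_all_inE1_of_wpp (fun L hΔ z w => wppPoint_add hΔ (I L hΔ) z w)
    (fun L hΔ => wppPoint_surjective hΔ (I L hΔ)) P A hA N hN hbot htop

end frey

end Fermat.Agent.S13x
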