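/-
S13 helper library: the translation identity `X (z + t₀) * X z = 3 ℘(t₀)² - g₂/4` for a half
period `t₀` (from the addition theorem), and the resulting unconditional torsion product identity
`(n² ∏_{u ≠ 0} (℘ u - ℘ t₀))² = (3 ℘(t₀)² - g₂/4)^(n² - 1)` for odd `n`.
Prefix `tpk_`.
-/
import Fermat.Agent.S13x.TorsionProduct
import Fermat.Agent.S13x.WpEuler
import Fermat.Agent.S13x.WpInj

set_option autoImplicit false

open scoped PeriodPair

namespace Fermat.Agent.S13x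

/-- the constant `κ = 3 e² - g₂/4 = (e - e')(e - e'')`, `e = ℘ t₀`. -/
noncomputable def tpkKappa (L : PeriodPair) (t₀ : ℂ) : ℂ := 3 * ℘[L] t₀ ^ 2 - L.g₂ / 4

theorem tpk_cubic_half (L : PeriodPair) {t₀ : ℂ} (ht : t₀ ∉ L.lattice)
    (h2t : 2 * t₀ ∈ L.lattice) : 4 * ℘[L] t₀ ^ 3 - L.g₂ * ℘[L] t₀ - L.g₃ = 0 := by
  have h := L.derivWeierstrassP_sq t₀ ht
  rw [wpi_deriv_eq_zero_of L ht h2t] at h
  linear_combination -h

theorem tpk_kappa_ne_zero (L : PeriodPair) (hΔ : L.g₂ ^ 3 - 27 * L.g₃ ^ 2 ≠ 0) {t₀ : ℂ}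
    (ht : t₀ ∉ L.lattice) (h2t : 2 * t₀ ∈ L.lattice) : tpkKappa L t₀ ≠ 0 := by
  intro h0
  apply hΔ
  have hc := tpk_cubic_half L ht h2t
  unfold tpkKappa at h0
  have hg2 : L.g₂ = 12 * ℘[L] t₀ ^ 2 := by linear_combination -4 * h0
  have hg3 : L.g₃ = -8 * ℘[L] t₀ ^ 3 := by rw [hg2] at hc; linear_combination -hc
  rw [hg2, hg3]
  ring

/-- **translation by a half period** -/
theorem tpk_translate (L : PeriodPair) {t₀ : ℂ} (ht : t₀ ∉ L.lattice) (h2t : 2 * t₀ ∈ L.lattice)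
    (z : ℂ) (hz : z ∉ L.lattice) (hzt : z + t₀ ∉ L.lattice) :
    tpX L t₀ (z + t₀) * tpX L t₀ z = tpkKappa L t₀ := by
  have hne : ℘[L] z ≠ ℘[L] t₀ := by
    intro h
    rcases wpi_eq_imp L hz ht h with h1 | h1
    · apply hzt
      have : z + t₀ = (z - t₀) + 2 * t₀ := by ring
      rw [this]
      exact add_mem h1 h2t
    · exact hzt h1
  have hx := wpe_add_x L hz ht hzt hne
  have hd : ℘'[L] t₀ = 0 := wpi_deriv_eq_zero_of L ht h2t
  have hsq := L.derivWeierstrassP_sq z hz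
  have hc := tpk_cubic_half L ht h2t
  have hne' : ℘[L] z - ℘[L] t₀ ≠ 0 := sub_ne_zero.2 hne
  unfold tpX tpkKappa
  rw [hx, hd, sub_zero, div_pow, hsq]
  field_simp
  linear_combination hc

/-- **the torsion product identity**, unconditional form. -/
theorem tpk_prod (L : PeriodPair) (hΔ : L.g₂ ^ 3 - 27 * L.g₃ ^ 2 ≠ 0) {n : ℕ} [NeZero n]
    (hodd : Odd n) {t₀ : ℂ} (ht : t₀ ∉ L.lattice) (h2t : 2 * t₀ ∈ L.lattice) :
    ((n : ℂ) ^ 2 * ∏ i ∈ (Finset.univ.erase (0 : ZMod n × ZMod n)),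
      (℘[L] (tpU L n i) - ℘[L] t₀)) ^ 2 = (3 * ℘[L] t₀ ^ 2 - L.g₂ / 4) ^ (n ^ 2 - 1) := by
  have h := tp_prod (L := L) (n := n) hodd ht h2t (tpk_kappa_ne_zero L hΔ ht h2t)
    (fun z hz hzt => tpk_translate L ht h2t z hz hzt)
  rw [tpC_eq] at h
  exact h

end Fermat.Agent.S13x
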