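/-
S13 project, leaf (d), piece D8: complex uniformisation, existence part.
Every `(g₂, g₃)` with `g₂³ - 27 g₃² ≠ 0` is the pair of invariants of a period pair
(Mathlib `PeriodPair`): `unif_exists_periodPair`.
Ingredients: lattice Eisenstein sums of `(τ, 1)` vs. the level one Eisenstein series `E₄, E₆`
(`unifPP_g₂`, `unifPP_g₃`, `unifPP_disc`), scaling of period pairs (`unifScale_g₂/_g₃`), and
surjectivity of `j` (`Fermat.Agent.S24x.jFun_surjective`).
-/
import Mathlib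
import Fermat.Agent.S24x.JFun

set_option autoImplicit false

noncomputable section

namespace Fermat.Agent.S13x

open UpperHalfPlane ModularForm EisensteinSeries Complex

/-- the period pair `(τ, 1)` of a point of the upper half plane -/
def unifPP (τ : ℍ) : PeriodPair where
  ω₁ := (τ : ℂ)
  ω₂ := 1
  indep := by
    rw [LinearIndependent.pair_iff]
    intro s t h
    have him := congrArg Complex.im h
    simp only [real_smul, add_im, mul_im, ofReal_re, ofReal_im, zero_mul, add_zero, one_im,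
      mul_zero, zero_im, coe_im, one_re] at him
    have hs : s = 0 := by
      rcases mul_eq_zero.mp him with h1 | h1
      · exact h1
      · exact absurd h1 τ.im_pos.ne'
    subst hs
    refine ⟨rfl, ?_⟩
    have hre := congrArg Complex.re h
    simpa using hre

@[simp] lemma unifPP_ω₁ (τ : ℍ) : (unifPP τ).ω₁ = (τ : ℂ) := rfl
@[simp] lemma unifPP_ω₂ (τ : ℍ) : (unifPP τ).ω₂ = 1 := rfl

/-- the lattice Eisenstein sum of `(τ, 1)` is the sum of `eisSummand` over `ℤ²` -/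
lemma unifPP_G (τ : ℍ) (k : ℕ) :
    (unifPP τ).G k = ∑' v : Fin 2 → ℤ, eisSummand k v τ := by
  rw [PeriodPair.G, ← (unifPP τ).latticeEquivProd.symm.toEquiv.tsum_eq,
    ← (finTwoArrowEquiv ℤ).symm.tsum_eq]
  refine tsum_congr fun x => ?_
  simp only [LinearEquiv.coe_toEquiv, PeriodPair.latticeEquiv_symm_apply, unifPP_ω₁, unifPP_ω₂,
    mul_one, finTwoArrowEquiv_symm_apply, eisSummand, Matrix.cons_val_zero, Matrix.cons_val_one,
    zpow_neg, zpow_natCast]

lemma unifPP_G_eq (τ : ℍ) {k : ℕ} (hk : 3 ≤ k) :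
    (unifPP τ).G k = 2 * riemannZeta k * E hk τ := by
  rw [unifPP_G, tsum_eisSummand_eq_riemannZeta_mul_eisensteinSeries hk τ]
  rw [show E hk τ = (1 / 2 : ℂ) • eisensteinSeriesSIF (N := 1) 0 k τ from rfl,
    eisensteinSeriesSIF_apply 0 k τ]
  simp only [smul_eq_mul]
  ring


lemma unif_bernoulli_six : bernoulli 6 = 1 / 42 := by decide +kernel

lemma unif_riemannZeta_six : riemannZeta 6 = (Real.pi : ℂ) ^ 6 / 945 := by
  have h := riemannZeta_two_mul_nat (k := 3) (by norm_num)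
  have h6 : ((2 : ℂ) * ((3 : ℕ) : ℂ)) = 6 := by norm_num
  rw [h6] at h
  rw [h, unif_bernoulli_six]
  have : ((2 * 3 : ℕ).factorial : ℂ) = 720 := by
    norm_num [Nat.factorial]
  rw [this]
  push_cast
  ring

lemma unifPP_g₂ (τ : ℍ) : (unifPP τ).g₂ = 4 / 3 * (Real.pi : ℂ) ^ 4 * E₄ τ := by
  rw [PeriodPair.g₂, unifPP_G_eq τ (by norm_num : 3 ≤ 4)]
  have : ((4 : ℕ) : ℂ) = 4 := by norm_num
  rw [this, riemannZeta_four]
  ring

lemma unifPP_g₃ (τ : ℍ) : (unifPP τ).g₃ = 8 / 27 * (Real.pi : ℂ) ^ 6 * E₆ τ := by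
  rw [PeriodPair.g₃, unifPP_G_eq τ (by norm_num : 3 ≤ 6)]
  have : ((6 : ℕ) : ℂ) = 6 := by norm_num
  rw [this, unif_riemannZeta_six]
  ring

lemma unifPP_disc (τ : ℍ) :
    (unifPP τ).g₂ ^ 3 - 27 * (unifPP τ).g₃ ^ 2 =
      (2 * (Real.pi : ℂ)) ^ 12 * ModularForm.discriminant τ := by
  rw [unifPP_g₂, unifPP_g₃, discriminant_eq_E₄_cube_sub_E₆_sq]
  ring

lemma unif_pi_ne_zero : (Real.pi : ℂ) ≠ 0 := by
  exact_mod_cast Real.pi_ne_zero

lemma unifPP_disc_ne_zero (τ : ℍ) : (unifPP τ).g₂ ^ 3 - 27 * (unifPP τ).g₃ ^ 2 ≠ 0 := by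
  rw [unifPP_disc]
  exact mul_ne_zero (pow_ne_zero _ (mul_ne_zero two_ne_zero unif_pi_ne_zero))
    (discriminant_ne_zero τ)


/-! ### scaling a period pair -/

/-- the period pair `(c ω₁, c ω₂)` -/
def unifScale (c : ℂ) (hc : c ≠ 0) (L : PeriodPair) : PeriodPair where
  ω₁ := c * L.ω₁
  ω₂ := c * L.ω₂
  indep := by
    have h := L.indep.map' (LinearMap.mulLeft ℝ c)
      (by
        rw [LinearMap.ker_eq_bot]
        intro x y hxy
        exact mul_left_cancel₀ hc hxy)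
    have e : ![c * L.ω₁, c * L.ω₂] = ⇑(LinearMap.mulLeft ℝ c) ∘ ![L.ω₁, L.ω₂] := by
      funext i
      fin_cases i <;> simp
    rw [e]
    exact h

@[simp] lemma unifScale_ω₁ (c : ℂ) (hc : c ≠ 0) (L : PeriodPair) :
    (unifScale c hc L).ω₁ = c * L.ω₁ := rfl
@[simp] lemma unifScale_ω₂ (c : ℂ) (hc : c ≠ 0) (L : PeriodPair) :
    (unifScale c hc L).ω₂ = c * L.ω₂ := rfl

lemma unifScale_G (c : ℂ) (hc : c ≠ 0) (L : PeriodPair) (k : ℕ) :
    (unifScale c hc L).G k = (c ^ k)⁻¹ * L.G k := by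
  rw [PeriodPair.G, PeriodPair.G, ← (unifScale c hc L).latticeEquivProd.symm.toEquiv.tsum_eq,
    ← L.latticeEquivProd.symm.toEquiv.tsum_eq, ← tsum_mul_left]
  refine tsum_congr fun x => ?_
  simp only [LinearEquiv.coe_toEquiv, PeriodPair.latticeEquiv_symm_apply, unifScale_ω₁,
    unifScale_ω₂]
  rw [← mul_inv, ← mul_pow]
  congr 2
  ring

lemma unifScale_g₂ (c : ℂ) (hc : c ≠ 0) (L : PeriodPair) :
    (unifScale c hc L).g₂ = (c ^ 4)⁻¹ * L.g₂ := by
  rw [PeriodPair.g₂, PeriodPair.g₂, unifScale_G]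
  ring

lemma unifScale_g₃ (c : ℂ) (hc : c ≠ 0) (L : PeriodPair) :
    (unifScale c hc L).g₃ = (c ^ 6)⁻¹ * L.g₃ := by
  rw [PeriodPair.g₃, PeriodPair.g₃, unifScale_G]
  ring


/-! ### existence of a period pair with prescribed invariants -/

open Fermat.Agent.S24x in
/-- **Uniformisation**: every pair `(g₂, g₃)` with non-vanishing discriminant comes from a
period pair. -/
theorem unif_exists_periodPair (g2 g3 : ℂ) (h : g2 ^ 3 - 27 * g3 ^ 2 ≠ 0) :
    ∃ L : PeriodPair, L.g₂ = g2 ∧ L.g₃ = g3 := by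
  -- choose `τ` with `j(τ) = 1728 g2³ / (g2³ - 27 g3²)`
  obtain ⟨τ, hτ⟩ := jFun_surjective (1728 * g2 ^ 3 / (g2 ^ 3 - 27 * g3 ^ 2))
  set γ₂ := (unifPP τ).g₂ with hγ₂
  set γ₃ := (unifPP τ).g₃ with hγ₃
  have hdisc : γ₂ ^ 3 - 27 * γ₃ ^ 2 ≠ 0 := unifPP_disc_ne_zero τ
  have hΔ := discriminant_ne_zero τ
  have hπ := unif_pi_ne_zero
  -- the key proportionality `γ₂³ g3² = g2³ γ₃²`
  have hkey : γ₂ ^ 3 * g3 ^ 2 = g2 ^ 3 * γ₃ ^ 2 := by
    have h1 : γ₂ ^ 3 * (g2 ^ 3 - 27 * g3 ^ 2) = g2 ^ 3 * (γ₂ ^ 3 - 27 * γ₃ ^ 2) := by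
      rw [unifPP_disc, hγ₂, unifPP_g₂]
      rw [jFun, div_eq_div_iff hΔ h] at hτ
      have hπ12 : (Real.pi : ℂ) ^ 12 ≠ 0 := pow_ne_zero _ hπ
      linear_combination (64 / 27 * (Real.pi : ℂ) ^ 12) * hτ
    linear_combination (-1 / 27 : ℂ) * h1
  by_cases h2 : g2 = 0
  · -- `g2 = 0`
    subst h2
    have hg3 : g3 ≠ 0 := by
      intro h3
      apply h
      rw [h3]
      ring
    have hγ₂0 : γ₂ = 0 := by
      have : γ₂ ^ 3 * g3 ^ 2 = 0 := by rw [hkey]; ring
      rcases mul_eq_zero.mp this with h4 | h4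
      · exact pow_eq_zero_iff (by norm_num) |>.mp h4
      · exact absurd (pow_eq_zero_iff (by norm_num) |>.mp h4) hg3
    have hγ₃0 : γ₃ ≠ 0 := by
      intro h3
      apply hdisc
      rw [hγ₂0, h3]
      ring
    obtain ⟨c, hc⟩ := IsAlgClosed.exists_pow_nat_eq (γ₃ / g3) (n := 6) (by norm_num)
    have hc0 : c ≠ 0 := by
      intro hc0
      rw [hc0] at hc
      have : γ₃ / g3 = 0 := by rw [← hc]; norm_num
      exact div_ne_zero hγ₃0 hg3 this
    refine ⟨unifScale c hc0 (unifPP τ), ?_, ?_⟩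
    · rw [unifScale_g₂, ← hγ₂, hγ₂0, mul_zero]
    · rw [unifScale_g₃, ← hγ₃, hc]
      field_simp
  · by_cases h3 : g3 = 0
    · -- `g3 = 0`
      subst h3
      have hγ₃0 : γ₃ = 0 := by
        have : g2 ^ 3 * γ₃ ^ 2 = 0 := by rw [← hkey]; ring
        rcases mul_eq_zero.mp this with h4 | h4
        · exact absurd (pow_eq_zero_iff (by norm_num) |>.mp h4) h2
        · exact pow_eq_zero_iff (by norm_num) |>.mp h4
      have hγ₂0 : γ₂ ≠ 0 := by
        intro h4
        apply hdisc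
        rw [hγ₃0, h4]
        ring
      obtain ⟨c, hc⟩ := IsAlgClosed.exists_pow_nat_eq (γ₂ / g2) (n := 4) (by norm_num)
      have hc0 : c ≠ 0 := by
        intro hc0
        rw [hc0] at hc
        have : γ₂ / g2 = 0 := by rw [← hc]; norm_num
        exact div_ne_zero hγ₂0 h2 this
      refine ⟨unifScale c hc0 (unifPP τ), ?_, ?_⟩
      · rw [unifScale_g₂, ← hγ₂, hc]
        field_simp
      · rw [unifScale_g₃, ← hγ₃, hγ₃0, mul_zero]
    · -- generic case
      have hγ₂0 : γ₂ ≠ 0 := by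
        intro h4
        have : g2 ^ 3 * γ₃ ^ 2 = 0 := by rw [← hkey, h4]; ring
        rcases mul_eq_zero.mp this with h5 | h5
        · exact h2 (pow_eq_zero_iff (by norm_num) |>.mp h5)
        · apply hdisc
          rw [h4, pow_eq_zero_iff (by norm_num) |>.mp h5]
          ring
      have hγ₃0 : γ₃ ≠ 0 := by
        intro h4
        have : γ₂ ^ 3 * g3 ^ 2 = 0 := by rw [hkey, h4]; ring
        rcases mul_eq_zero.mp this with h5 | h5
        · exact hγ₂0 (pow_eq_zero_iff (by norm_num) |>.mp h5)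
        · exact h3 (pow_eq_zero_iff (by norm_num) |>.mp h5)
      obtain ⟨c, hc⟩ := IsAlgClosed.exists_pow_nat_eq (γ₃ * g2 / (g3 * γ₂)) (n := 2) (by norm_num)
      have hc0 : c ≠ 0 := by
        intro hc0
        rw [hc0] at hc
        have : γ₃ * g2 / (g3 * γ₂) = 0 := by rw [← hc]; norm_num
        exact div_ne_zero (mul_ne_zero hγ₃0 h2) (mul_ne_zero h3 hγ₂0) this
      have hc4 : c ^ 4 = γ₂ / g2 := by
        have : c ^ 4 = (c ^ 2) ^ 2 := by ring
        rw [this, hc, div_pow, div_eq_div_iff (pow_ne_zero _ (mul_ne_zero h3 hγ₂0)) h2]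
        linear_combination (-1 : ℂ) * hkey
      have hc6 : c ^ 6 = γ₃ / g3 := by
        have : c ^ 6 = c ^ 4 * c ^ 2 := by ring
        rw [this, hc4, hc]
        field_simp
      refine ⟨unifScale c hc0 (unifPP τ), ?_, ?_⟩
      · rw [unifScale_g₂, ← hγ₂, hc4]
        field_simp
      · rw [unifScale_g₃, ← hγ₃, hc6]
        field_simp

end Fermat.Agent.S13x
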