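import Mathlib
import Fermat.Agent.S13x.GalInertiaBasic

/-!
# S13 project, G6 (ii)/(iii) (shadow file): the decomposition group preserves the valuation

For an algebraic extension `L/K`, a valuation subring `A` of `L` and `σ : L ≃ₐ[K] L` with
`σ • A = A` we have `A.valuation (σ x) = A.valuation x` for every `x`.

Proof: `σ` and `σ⁻¹` preserve `≤` between valuations, hence `σ` preserves `<`; the orbit of `x`
under the powers of `σ` is finite, so `σ^k x = x` for some `k ≥ 1`; a strict inequality between
`v (σ x)` and `v x` would propagate to `v (σ^k x)` and `v x`.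
-/

set_option autoImplicit false

namespace Fermat.Agent.S13x

open ValuationSubring
open scoped Pointwise

variable {K L : Type*} [Field K] [Field L] [Algebra K L]

/-- a multiplicative map preserving `A` preserves `≤` between valuations -/
theorem vgb_le_of_le (A : ValuationSubring L) (f : L →+* L) (hf : ∀ a ∈ A, f a ∈ A) {a b : L}
    (h : A.valuation a ≤ A.valuation b) : A.valuation (f a) ≤ A.valuation (f b) := by
  rcases eq_or_ne b 0 with rfl | hb
  · rw [map_zero, le_zero_iff, map_eq_zero] at h
    rw [h, map_zero]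
  · have hvb : 0 < A.valuation b := by
      rw [pos_iff_ne_zero, ne_eq, map_eq_zero]; exact hb
    have h1 : A.valuation (a / b) ≤ 1 := by
      rw [map_div₀]; exact (div_le_one₀ hvb).mpr h
    have h2 : a / b ∈ A := (A.valuation_le_one_iff _).mp h1
    have h3 : A.valuation (f (a / b)) ≤ 1 := (A.valuation_le_one_iff _).mpr (hf _ h2)
    have hfb : f b ≠ 0 := by rwa [ne_eq, map_eq_zero]
    have hvfb : 0 < A.valuation (f b) := by
      rw [pos_iff_ne_zero, ne_eq, map_eq_zero]; exact hfb
    rw [map_div₀, map_div₀] at h3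
    exact (div_le_one₀ hvfb).mp h3

theorem vgb_le_iff (A : ValuationSubring L) (σ : L ≃ₐ[K] L) (hσ : σ • A = A) (a b : L) :
    A.valuation (σ a) ≤ A.valuation (σ b) ↔ A.valuation a ≤ A.valuation b := by
  constructor
  · intro h
    have := vgb_le_of_le A (σ.symm : L ≃ₐ[K] L).toAlgHom.toRingHom
      (fun x hx => gi_symm_mem_of_smul_eq A σ hσ hx) h
    simpa using this
  · intro h
    exact vgb_le_of_le A (σ : L ≃ₐ[K] L).toAlgHom.toRingHom
      (fun x hx => gi_smul_mem_of_mem_decomposition A σ hσ hx) h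

theorem vgb_lt_iff (A : ValuationSubring L) (σ : L ≃ₐ[K] L) (hσ : σ • A = A) (a b : L) :
    A.valuation (σ a) < A.valuation (σ b) ↔ A.valuation a < A.valuation b := by
  rw [← not_le, ← not_le, vgb_le_iff A σ hσ]

/-- the orbit of an algebraic element under the powers of an automorphism is finite -/
theorem vgb_exists_iterate_eq (σ : L ≃ₐ[K] L) {x : L} (hx : IsAlgebraic K x) :
    ∃ k : ℕ, 0 < k ∧ (⇑σ)^[k] x = x := by
  have hp : minpoly K x ≠ 0 := minpoly.ne_zero hx.isIntegral
  have hroot : ∀ i : ℕ, (⇑σ)^[i] x ∈ (minpoly K x).rootSet L := by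
    intro i
    induction i with
    | zero =>
      rw [Function.iterate_zero, id, Polynomial.mem_rootSet]
      exact ⟨hp, minpoly.aeval K x⟩
    | succ n ih =>
      rw [Function.iterate_succ_apply']
      rw [Polynomial.mem_rootSet] at ih ⊢
      refine ⟨hp, ?_⟩
      rw [show σ ((⇑σ)^[n] x) = (σ : L →ₐ[K] L) ((⇑σ)^[n] x) from rfl,
        Polynomial.aeval_algHom_apply, ih.2, map_zero]
  have : Finite ((minpoly K x).rootSet L) := (Polynomial.rootSet_finite _ L).to_subtype
  obtain ⟨i, j, hij, he⟩ := Finite.exists_ne_map_eq_of_infinite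
    (fun i : ℕ => (⟨(⇑σ)^[i] x, hroot i⟩ : (minpoly K x).rootSet L))
  have he' : (⇑σ)^[i] x = (⇑σ)^[j] x := congrArg Subtype.val he
  have key : ∀ i j : ℕ, i < j → (⇑σ)^[i] x = (⇑σ)^[j] x → ∃ k : ℕ, 0 < k ∧ (⇑σ)^[k] x = x := by
    intro i j hlt h
    refine ⟨j - i, Nat.sub_pos_of_lt hlt, ?_⟩
    have hj : j = i + (j - i) := by omega
    rw [hj, Function.iterate_add_apply] at h
    exact ((σ.injective.iterate i) h).symm
  rcases lt_or_gt_of_ne hij with h | h
  · exact key i j h he'
  · exact key j i h he'.symm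

/-- iterating `σ` preserves strict inequalities between valuations -/
theorem vgb_iterate_lt (A : ValuationSubring L) (σ : L ≃ₐ[K] L) (hσ : σ • A = A) (n : ℕ)
    {a b : L} (h : A.valuation a < A.valuation b) :
    A.valuation ((⇑σ)^[n] a) < A.valuation ((⇑σ)^[n] b) := by
  induction n with
  | zero => simpa using h
  | succ n ih =>
    rw [Function.iterate_succ_apply', Function.iterate_succ_apply']
    exact (vgb_lt_iff A σ hσ _ _).mpr ih

/-- **G6 (ii)**: an element of the decomposition group preserves the valuation -/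
theorem vgb_val_map_eq [Algebra.IsAlgebraic K L] (A : ValuationSubring L) (σ : L ≃ₐ[K] L)
    (hσ : σ • A = A) (x : L) : A.valuation (σ x) = A.valuation x := by
  obtain ⟨k, hk, hkx⟩ := vgb_exists_iterate_eq σ (Algebra.IsAlgebraic.isAlgebraic (R := K) x)
  rcases lt_trichotomy (A.valuation (σ x)) (A.valuation x) with h | h | h
  · exfalso
    have hanti : StrictAnti (fun i : ℕ => A.valuation ((⇑σ)^[i] x)) := by
      refine strictAnti_nat_of_succ_lt fun n => ?_
      show A.valuation ((⇑σ)^[n + 1] x) < A.valuation ((⇑σ)^[n] x)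
      rw [Function.iterate_succ_apply]
      exact vgb_iterate_lt A σ hσ n h
    have := hanti hk
    simp only [Function.iterate_zero, id, hkx] at this
    exact lt_irrefl _ this
  · exact h
  · exfalso
    have hmono : StrictMono (fun i : ℕ => A.valuation ((⇑σ)^[i] x)) := by
      refine strictMono_nat_of_lt_succ fun n => ?_
      show A.valuation ((⇑σ)^[n] x) < A.valuation ((⇑σ)^[n + 1] x)
      rw [Function.iterate_succ_apply]
      exact vgb_iterate_lt A σ hσ n h
    have := hmono hk
    simp only [Function.iterate_zero, id, hkx] at this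
    exact lt_irrefl _ this

theorem vgb_val_map_eq_of_mem_decomposition [Algebra.IsAlgebraic K L] (A : ValuationSubring L)
    (σ : L ≃ₐ[K] L) (hσ : σ ∈ A.decompositionSubgroup K) (x : L) :
    A.valuation (σ x) = A.valuation x :=
  vgb_val_map_eq A σ ((gi_mem_decomposition_iff A σ).mp hσ) x

/-- **G6 (iii)**: an element of the inertia group preserves the valuation -/
theorem vgb_val_map_eq_of_mem_inertia [Algebra.IsAlgebraic K L] (A : ValuationSubring L)
    (σ : L ≃ₐ[K] L) (hσ : σ ∈ A.inertiaSubgroupIn K) (x : L) :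
    A.valuation (σ x) = A.valuation x :=
  vgb_val_map_eq A σ ((gi_mem_inertiaSubgroupIn_iff A σ).mp hσ).1 x

/-- `AlgebraicClosure ℚ` is algebraic over `ℚ` for whichever `ℚ`-algebra structure is inferred -/
theorem vgb_isAlgebraic_Qb : Algebra.IsAlgebraic ℚ (AlgebraicClosure ℚ) := by
  have key : ∀ (a : Algebra ℚ (AlgebraicClosure ℚ)),
      @Algebra.IsAlgebraic ℚ (AlgebraicClosure ℚ) _ _ a := by
    intro a
    have ha : a = AlgebraicClosure.instAlgebra ℚ := Subsingleton.elim _ _
    subst ha
    infer_instance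
  exact key _

/-- the instance used for `Qb = AlgebraicClosure ℚ` -/
theorem vgb_val_map_eq_Qb (A : ValuationSubring (AlgebraicClosure ℚ))
    (σ : AlgebraicClosure ℚ ≃ₐ[ℚ] AlgebraicClosure ℚ) (hσ : σ ∈ A.inertiaSubgroupIn ℚ)
    (x : AlgebraicClosure ℚ) : A.valuation (σ x) = A.valuation x :=
  haveI := vgb_isAlgebraic_Qb
  vgb_val_map_eq_of_mem_inertia A σ hσ x

theorem vgb_val_map_eq_Qb_dec (A : ValuationSubring (AlgebraicClosure ℚ))
    (σ : AlgebraicClosure ℚ ≃ₐ[ℚ] AlgebraicClosure ℚ) (hσ : σ ∈ A.decompositionSubgroup ℚ)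
    (x : AlgebraicClosure ℚ) : A.valuation (σ x) = A.valuation x :=
  haveI := vgb_isAlgebraic_Qb
  vgb_val_map_eq_of_mem_decomposition A σ hσ x

end Fermat.Agent.S13x
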