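import Fermat.Agent.S13x.WronDefs

/-!
# S13, Wronskian route: the integer Vandermonde of the pole orders `0, 2, 3, …, p`

`∏_{i<j} (wrIdx j - wrIdx i)` is the top coefficient of the Wronskian `wron p`.  For a prime `p`
it is `p · u` with `p ∤ u`: the only difference divisible by `p` is `p - 0`.
-/

set_option autoImplicit false

namespace Fermat.Agent.S13x

/-- the integer Vandermonde determinant of the pole orders `0, 2, 3, …, n` -/
def vdiVand (n : ℕ) : ℤ :=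
  ∏ i : Fin n, ∏ j ∈ Finset.Ioi i, ((wrIdx j : ℤ) - (wrIdx i : ℤ))

theorem vdi_idx_zero {n : ℕ} (i : Fin n) (hi : (i : ℕ) = 0) : wrIdx i = 0 := by
  simp [wrIdx, hi]

theorem vdi_idx_pos {n : ℕ} (i : Fin n) (hi : (i : ℕ) ≠ 0) : wrIdx i = (i : ℕ) + 1 := by
  simp [wrIdx, hi]

/-- all differences lie in `[1, n]` -/
theorem vdi_diff_bounds {n : ℕ} {i j : Fin n} (hij : i < j) :
    1 ≤ (wrIdx j : ℤ) - (wrIdx i : ℤ) ∧ (wrIdx j : ℤ) - (wrIdx i : ℤ) ≤ n := by
  have hj : (j : ℕ) ≠ 0 := by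
    have : (i : ℕ) < (j : ℕ) := hij
    omega
  have hjn : (j : ℕ) < n := j.isLt
  have hij' : (i : ℕ) < (j : ℕ) := hij
  rw [vdi_idx_pos j hj]
  by_cases hi : (i : ℕ) = 0
  · rw [vdi_idx_zero i hi]
    push_cast
    constructor <;> omega
  · rw [vdi_idx_pos i hi]
    push_cast
    constructor <;> omega

/-- the difference equals `n` only for the pair `(0, n-1)` -/
theorem vdi_diff_eq_iff {n : ℕ} {i j : Fin n} (hij : i < j) :
    (wrIdx j : ℤ) - (wrIdx i : ℤ) = n ↔ (i : ℕ) = 0 ∧ (j : ℕ) + 1 = n := by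
  have hj : (j : ℕ) ≠ 0 := by
    have : (i : ℕ) < (j : ℕ) := hij
    omega
  have hjn : (j : ℕ) < n := j.isLt
  have hij' : (i : ℕ) < (j : ℕ) := hij
  rw [vdi_idx_pos j hj]
  by_cases hi : (i : ℕ) = 0
  · rw [vdi_idx_zero i hi]
    push_cast
    constructor
    · intro h; exact ⟨hi, by omega⟩
    · rintro ⟨-, h⟩; omega
  · rw [vdi_idx_pos i hi]
    push_cast
    constructor
    · intro h; omega
    · rintro ⟨h, -⟩; exact absurd h hi

theorem vdi_dvd_diff_iff {p : ℕ} (hp : p.Prime) {i j : Fin p} (hij : i < j) :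
    (p : ℤ) ∣ (wrIdx j : ℤ) - (wrIdx i : ℤ) ↔ (i : ℕ) = 0 ∧ (j : ℕ) + 1 = p := by
  rw [← vdi_diff_eq_iff hij]
  obtain ⟨h1, h2⟩ := vdi_diff_bounds hij
  constructor
  · rintro ⟨c, hc⟩
    have hp0 : (0 : ℤ) < p := by exact_mod_cast hp.pos
    have hc1 : 0 < c := by
      by_contra hneg
      have : c ≤ 0 := not_lt.mp hneg
      nlinarith
    have hc2 : c < 2 := by
      by_contra hge
      have : 2 ≤ c := not_lt.mp hge
      nlinarith
    have : c = 1 := by omega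
    rw [hc, this, mul_one]
  · intro h
    rw [h]

/-- MAIN: for a prime `p` the Vandermonde of `0, 2, 3, …, p` is `p · u` with `p ∤ u`. -/
theorem vdi_vand_prime {p : ℕ} (hp : p.Prime) :
    ∃ u : ℤ, ¬ (p : ℤ) ∣ u ∧ vdiVand p = (p : ℤ) * u := by
  classical
  have hp2 : 2 ≤ p := hp.two_le
  have hpZ : Prime (p : ℤ) := Nat.prime_iff_prime_int.mp hp
  -- rewrite as a product over pairs
  have hsig : vdiVand p =
      ∏ x ∈ (Finset.univ : Finset (Fin p)).sigma (fun i => Finset.Ioi i),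
        ((wrIdx x.2 : ℤ) - (wrIdx x.1 : ℤ)) := by
    rw [vdiVand, Finset.prod_sigma]
  set i0 : Fin p := ⟨0, by omega⟩ with hi0
  set j0 : Fin p := ⟨p - 1, by omega⟩ with hj0
  have hij0 : i0 < j0 := by
    rw [Fin.lt_def]
    show 0 < p - 1
    omega
  have hmem : (⟨i0, j0⟩ : Σ _ : Fin p, Fin p) ∈
      (Finset.univ : Finset (Fin p)).sigma (fun i => Finset.Ioi i) := by
    rw [Finset.mem_sigma]
    exact ⟨Finset.mem_univ _, Finset.mem_Ioi.mpr hij0⟩
  have hd0 : (wrIdx j0 : ℤ) - (wrIdx i0 : ℤ) = p := by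
    rw [vdi_diff_eq_iff hij0]
    refine ⟨rfl, ?_⟩
    show p - 1 + 1 = p
    omega
  refine ⟨∏ x ∈ ((Finset.univ : Finset (Fin p)).sigma (fun i => Finset.Ioi i)).erase ⟨i0, j0⟩,
        ((wrIdx x.2 : ℤ) - (wrIdx x.1 : ℤ)), ?_, ?_⟩
  · intro hdvd
    obtain ⟨x, hx, hxd⟩ := (Prime.dvd_finsetProd_iff hpZ _).mp hdvd
    rw [Finset.mem_erase, Finset.mem_sigma, Finset.mem_Ioi] at hx
    obtain ⟨hne, -, hlt⟩ := hx
    obtain ⟨h1, h2⟩ := (vdi_dvd_diff_iff hp hlt).mp hxd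
    apply hne
    obtain ⟨xi, xj⟩ := x
    have e1 : xi = i0 := Fin.ext h1
    have e2 : xj = j0 := Fin.ext (by show (xj : ℕ) = p - 1; simp only at h2; omega)
    rw [e1, e2]
  · rw [hsig, ← Finset.mul_prod_erase _ _ hmem, hd0]

/-- the Vandermonde determinant of the pole orders, in any commutative ring -/
theorem vdi_det_vandermonde {K : Type*} [CommRing K] (n : ℕ) :
    Matrix.det (Matrix.vandermonde (fun j : Fin n => ((wrIdx j : ℕ) : K))) =
      ((vdiVand n : ℤ) : K) := by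
  rw [Matrix.det_vandermonde, vdiVand]
  push_cast
  rfl

/-- in characteristic zero the Vandermonde of the pole orders is nonzero -/
theorem vdi_vand_ne_zero (n : ℕ) : vdiVand n ≠ 0 := by
  rw [vdiVand]
  refine Finset.prod_ne_zero_iff.mpr fun i _ => Finset.prod_ne_zero_iff.mpr fun j hj => ?_
  have h := (vdi_diff_bounds (Finset.mem_Ioi.mp hj)).1
  omega

/-- squared form used for the leading coefficient of the norm: `V² = p² · u`, `p ∤ u` -/
theorem vdi_vand_sq_prime {p : ℕ} (hp : p.Prime) :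
    ∃ u : ℤ, ¬ (p : ℤ) ∣ u ∧ vdiVand p ^ 2 = (p : ℤ) ^ 2 * u := by
  obtain ⟨u, hu, h⟩ := vdi_vand_prime hp
  have hpZ : Prime (p : ℤ) := Nat.prime_iff_prime_int.mp hp
  refine ⟨u ^ 2, fun hd => hu (hpZ.dvd_of_dvd_pow hd), ?_⟩
  rw [h, mul_pow]

end Fermat.Agent.S13x
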