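/-
S13 leaf (d), Wronskian route: the integer Vandermonde product of the pole orders
`0, 2, 3, …, n` (the top coefficient of the Wronskian `wron W n`), and the fact that for a prime
`p` it is `p` times an integer prime to `p` (so the leading coefficient of the norm of `wron W p`
is `p ^ 2` times an integer prime to `p`).  Pure arithmetic; imports only `WronDefs` (for `wrIdx`).
-/
import Fermat.Agent.S13x.WronDefs

set_option autoImplicit false

namespace Fermat.Agent.S13x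

open Finset

/-- integer Vandermonde product of the pole orders `wrIdx` -/
def vdiProd (n : ℕ) : ℤ :=
  ∏ i : Fin n, ∏ j ∈ Finset.Ioi i, (((wrIdx j : ℕ) : ℤ) - ((wrIdx i : ℕ) : ℤ))

lemma vdi_idx_lt {n : ℕ} {i j : Fin n} (h : i < j) : wrIdx i < wrIdx j := by
  unfold wrIdx
  have h' : (i : ℕ) < (j : ℕ) := h
  split_ifs <;> omega

lemma vdi_idx_le {n : ℕ} (j : Fin n) : wrIdx j ≤ n := by
  unfold wrIdx
  have := j.isLt
  split_ifs <;> omega

lemma vdi_idx_eq_iff {n : ℕ} (j : Fin n) (hn : 2 ≤ n) : wrIdx j = n ↔ (j : ℕ) = n - 1 := by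
  unfold wrIdx
  have := j.isLt
  split_ifs <;> omega

lemma vdi_idx_eq_zero_iff {n : ℕ} (j : Fin n) : wrIdx j = 0 ↔ (j : ℕ) = 0 := by
  unfold wrIdx
  by_cases h : (j : ℕ) = 0
  · simp [h]
  · simp [h]

/-- the cast of the integer Vandermonde product into any commutative ring -/
lemma vdi_cast (K : Type*) [CommRing K] (n : ℕ) :
    ((vdiProd n : ℤ) : K) =
      ∏ i : Fin n, ∏ j ∈ Finset.Ioi i, (((wrIdx j : ℕ) : K) - ((wrIdx i : ℕ) : K)) := by
  unfold vdiProd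
  push_cast
  rfl

/-- for a prime `p` the integer Vandermonde product of `0, 2, 3, …, p` is `p` times an integer
prime to `p` -/
theorem vdi_exists (p : ℕ) (hp : p.Prime) :
    ∃ u : ℤ, ¬ (p : ℤ) ∣ u ∧ vdiProd p = (p : ℤ) * u := by
  classical
  have hp2 : 2 ≤ p := hp.two_le
  set F : (Σ _ : Fin p, Fin p) → ℤ :=
    fun x => (((wrIdx x.2 : ℕ) : ℤ) - ((wrIdx x.1 : ℕ) : ℤ)) with hF
  set s : Finset (Σ _ : Fin p, Fin p) :=
    (Finset.univ : Finset (Fin p)).sigma (fun i => Finset.Ioi i) with hs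
  have hprod : vdiProd p = ∏ x ∈ s, F x := by
    unfold vdiProd
    rw [hs, Finset.prod_sigma]
  set a : (Σ _ : Fin p, Fin p) := ⟨⟨0, by omega⟩, ⟨p - 1, by omega⟩⟩ with ha
  have has : a ∈ s := by
    rw [hs, Finset.mem_sigma]
    refine ⟨Finset.mem_univ _, ?_⟩
    rw [Finset.mem_Ioi]
    show (⟨0, _⟩ : Fin p) < ⟨p - 1, _⟩
    rw [Fin.mk_lt_mk]
    omega
  have hFa : F a = (p : ℤ) := by
    have h1 : wrIdx (⟨p - 1, by omega⟩ : Fin p) = p := by
      rw [vdi_idx_eq_iff _ hp2]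
    have h0 : wrIdx (⟨0, by omega⟩ : Fin p) = 0 := by
      rw [vdi_idx_eq_zero_iff]
    show (((wrIdx (⟨p - 1, _⟩ : Fin p) : ℕ) : ℤ) - ((wrIdx (⟨0, _⟩ : Fin p) : ℕ) : ℤ)) = p
    rw [h1, h0]
    simp
  refine ⟨∏ x ∈ s.erase a, F x, ?_, ?_⟩
  · intro hdvd
    have hpi : Prime (p : ℤ) := Nat.prime_iff_prime_int.mp hp
    obtain ⟨x, hx, hxd⟩ := (Prime.dvd_finsetProd_iff hpi _).mp hdvd
    rw [Finset.mem_erase] at hx
    obtain ⟨hxa, hxs⟩ := hx
    rw [hs, Finset.mem_sigma, Finset.mem_Ioi] at hxs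
    have hlt : x.1 < x.2 := hxs.2
    have h1 := vdi_idx_lt hlt
    have h2 := vdi_idx_le x.2
    -- `0 < F x ≤ p`, so `F x = p`
    have hpos : 0 < F x := by
      show 0 < (((wrIdx x.2 : ℕ) : ℤ) - ((wrIdx x.1 : ℕ) : ℤ))
      omega
    have hle : F x ≤ p := by
      show (((wrIdx x.2 : ℕ) : ℤ) - ((wrIdx x.1 : ℕ) : ℤ)) ≤ p
      omega
    have hge : (p : ℤ) ≤ F x := Int.le_of_dvd hpos hxd
    have heq : (((wrIdx x.2 : ℕ) : ℤ) - ((wrIdx x.1 : ℕ) : ℤ)) = p := le_antisymm hle hge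
    have e2 : wrIdx x.2 = p := by omega
    have e1 : wrIdx x.1 = 0 := by omega
    rw [vdi_idx_eq_iff _ hp2] at e2
    rw [vdi_idx_eq_zero_iff] at e1
    apply hxa
    obtain ⟨x1, x2⟩ := x
    have e1' : x1 = ⟨0, by omega⟩ := Fin.ext e1
    have e2' : x2 = ⟨p - 1, by omega⟩ := Fin.ext e2
    rw [ha, Sigma.mk.injEq]
    exact ⟨e1', heq_of_eq e2'⟩
  · rw [hprod, ← Finset.mul_prod_erase s F has, hFa]

/-- squared version: the leading coefficient of the norm of `wron W p` -/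
theorem vdi_sq (p : ℕ) (hp : p.Prime) :
    ∃ u : ℤ, ¬ (p : ℤ) ∣ u ∧ vdiProd p ^ 2 = (p : ℤ) ^ 2 * u := by
  obtain ⟨u, hu, h⟩ := vdi_exists p hp
  refine ⟨u ^ 2, ?_, by rw [h]; ring⟩
  intro hd
  exact hu ((Nat.prime_iff_prime_int.mp hp).dvd_of_dvd_pow hd)

end Fermat.Agent.S13x
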