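import Mathlib

/-!
# S13 project, 2-adic package: group-law identities for `Y² + a₁XY = X³ + a₂X² + a₄X`

Port of `S05x/Ident.lean` to the model with `a₁ ≠ 0` (`a₃ = a₆ = 0`); no valuations here.
`b₂ = a₁² + 4a₂` is Mathlib's `W.b₂`.  All names are prefixed `w1_`.
-/

set_option autoImplicit false
open WeierstrassCurve WeierstrassCurve.Affine WeierstrassCurve.Affine.Point

namespace Fermat.Agent.S13x

variable {K : Type*} [Field K]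

/-- `W` has the shape `Y² + a₁XY = X³ + a₂X² + a₄X`. -/
structure IsW1 (W : WeierstrassCurve K) : Prop where
  a₃ : W.a₃ = 0
  a₆ : W.a₆ = 0

section Ident
variable {W : WeierstrassCurve K}

theorem w1_equation_iff (hW : IsW1 W) (x y : K) :
    W.toAffine.Equation x y ↔ y ^ 2 + W.a₁ * x * y = x ^ 3 + W.a₂ * x ^ 2 + W.a₄ * x := by
  rw [Affine.equation_iff, hW.a₃, hW.a₆]
  simp

theorem w1_negY (hW : IsW1 W) (x y : K) : W.toAffine.negY x y = -y - W.a₁ * x := by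
  simp [Affine.negY, hW.a₃]

/-- the equation of a nonsingular point, in `W1` form -/
theorem w1_eq_of_nonsingular (hW : IsW1 W) {x y : K} (h : W.toAffine.Nonsingular x y) :
    y ^ 2 + W.a₁ * x * y = x ^ 3 + W.a₂ * x ^ 2 + W.a₄ * x :=
  (w1_equation_iff hW x y).mp h.1

/-- `ψ₂² = (2y + a₁x)² = x (4x² + b₂x + 4a₄)` -/
theorem w1_psi_sq (hW : IsW1 W) {x y : K} (h : W.toAffine.Nonsingular x y) :
    (2 * y + W.a₁ * x) ^ 2 = x * (4 * x ^ 2 + W.b₂ * x + 4 * W.a₄) := by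
  have e := w1_eq_of_nonsingular hW h
  rw [WeierstrassCurve.b₂]
  linear_combination 4 * e

variable [DecidableEq K]

set_option linter.unusedSectionVars false in
theorem w1_neg_some (hW : IsW1 W) {x y : K} (h : W.toAffine.Nonsingular x y) :
    ∃ h' : W.toAffine.Nonsingular x (-y - W.a₁ * x),
      -(Point.some x y h) = Point.some x (-y - W.a₁ * x) h' := by
  have h1 : W.toAffine.Nonsingular x (W.toAffine.negY x y) := (Affine.nonsingular_neg ..).mpr h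
  have h2 : W.toAffine.Nonsingular x (-y - W.a₁ * x) := by rwa [w1_negY hW] at h1
  refine ⟨h2, ?_⟩
  rw [Point.neg_some, Point.some.injEq]
  exact ⟨rfl, w1_negY hW x y⟩

set_option linter.unusedSectionVars false in
/-- two affine points with the same `x` are equal or opposite -/
theorem w1_same_x (hW : IsW1 W) {x y₁ y₂ : K} (h₁ : W.toAffine.Nonsingular x y₁)
    (h₂ : W.toAffine.Nonsingular x y₂) : y₂ = y₁ ∨ y₂ = -y₁ - W.a₁ * x := by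
  have := Affine.Y_eq_of_X_eq h₂.1 h₁.1 rfl
  rwa [w1_negY hW] at this

theorem w1_add_self_of_psi_eq_zero (hW : IsW1 W) {x y : K} (h : W.toAffine.Nonsingular x y)
    (hy : 2 * y + W.a₁ * x = 0) : Point.some x y h + Point.some x y h = 0 := by
  apply Point.add_self_of_Y_eq
  rw [w1_negY hW]
  linear_combination hy

/-- duplication formula -/
theorem w1_double (hW : IsW1 W) {x y : K} (h : W.toAffine.Nonsingular x y)
    (hy : 2 * y + W.a₁ * x ≠ 0) :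
    ∃ (x' y' : K) (h' : W.toAffine.Nonsingular x' y'),
      Point.some x y h + Point.some x y h = Point.some x' y' h' ∧
      x' * (x * (4 * x ^ 2 + W.b₂ * x + 4 * W.a₄)) = (x ^ 2 - W.a₄) ^ 2 := by
  have hne : y ≠ W.toAffine.negY x y := by
    rw [w1_negY hW]
    intro e
    apply hy
    linear_combination e
  refine ⟨_, _, _, Point.add_self_of_Y_ne hne, ?_⟩
  have heq := w1_eq_of_nonsingular hW h
  rw [← w1_psi_sq hW h]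
  rw [Affine.slope_of_Y_ne rfl hne, w1_negY hW]
  simp only [Affine.addX]
  have hden : y - (-y - W.a₁ * x) = 2 * y + W.a₁ * x := by ring
  rw [hden]
  set ℓ : K := (3 * x ^ 2 + 2 * W.a₂ * x + W.a₄ - W.a₁ * y) / (2 * y + W.a₁ * x) with hℓdef
  have hℓ : ℓ * (2 * y + W.a₁ * x) = 3 * x ^ 2 + 2 * W.a₂ * x + W.a₄ - W.a₁ * y := by
    rw [hℓdef, div_mul_cancel₀ _ hy]
  have hℓ2 : ℓ ^ 2 * (2 * y + W.a₁ * x) ^ 2 =
      (3 * x ^ 2 + 2 * W.a₂ * x + W.a₄ - W.a₁ * y) ^ 2 := by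
    rw [← hℓ]; ring
  have key : (ℓ ^ 2 + W.a₁ * ℓ - W.a₂ - x - x) * (2 * y + W.a₁ * x) ^ 2 =
      (3 * x ^ 2 + 2 * W.a₂ * x + W.a₄ - W.a₁ * y) ^ 2 +
        W.a₁ * (3 * x ^ 2 + 2 * W.a₂ * x + W.a₄ - W.a₁ * y) * (2 * y + W.a₁ * x) -
        (W.a₂ + 2 * x) * (2 * y + W.a₁ * x) ^ 2 := by
    rw [← hℓ2, ← hℓ]; ring
  rw [key]
  linear_combination (-(W.a₁ ^ 2) - 4 * W.a₂ - 8 * x) * heq

/-- sum and difference of two affine points with distinct `x`-coordinates -/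
theorem w1_add_sub (hW : IsW1 W) {x₁ y₁ x₂ y₂ : K} (h₁ : W.toAffine.Nonsingular x₁ y₁)
    (h₂ : W.toAffine.Nonsingular x₂ y₂) (hx : x₁ ≠ x₂) :
    ∃ (x₃ y₃ : K) (h₃ : W.toAffine.Nonsingular x₃ y₃) (x₄ y₄ : K)
      (h₄ : W.toAffine.Nonsingular x₄ y₄),
      Point.some x₁ y₁ h₁ + Point.some x₂ y₂ h₂ = Point.some x₃ y₃ h₃ ∧
      Point.some x₁ y₁ h₁ - Point.some x₂ y₂ h₂ = Point.some x₄ y₄ h₄ ∧
      (x₃ + x₄) * (x₁ - x₂) ^ 2 =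
        x₁ * x₂ * (2 * (x₁ + x₂) + W.b₂) + 2 * W.a₄ * (x₁ + x₂) ∧
      x₃ * x₄ * (x₁ - x₂) ^ 2 = (x₁ * x₂ - W.a₄) ^ 2 ∧
      x₄ * (x₁ - x₂) ^ 2 = x₁ * x₂ * (x₁ + x₂ + 2 * W.a₂ + W.a₁ ^ 2) + W.a₄ * (x₁ + x₂) +
        2 * y₁ * y₂ + W.a₁ * (x₂ * y₁ + x₁ * y₂) ∧
      x₄ = ((y₁ + y₂ + W.a₁ * x₂) / (x₁ - x₂)) ^ 2 + W.a₁ * ((y₁ + y₂ + W.a₁ * x₂) / (x₁ - x₂))
        - W.a₂ - x₁ - x₂ := by
  have e₁ := w1_eq_of_nonsingular hW h₁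
  have e₂ := w1_eq_of_nonsingular hW h₂
  have hd : x₁ - x₂ ≠ 0 := sub_ne_zero.mpr hx
  obtain ⟨h₂', hneg⟩ := w1_neg_some hW h₂
  -- the two `x`-coordinates
  set x₃ : K := ((y₁ - y₂) / (x₁ - x₂)) ^ 2 + W.a₁ * ((y₁ - y₂) / (x₁ - x₂)) - W.a₂ - x₁ - x₂
    with hx₃
  set x₄ : K := ((y₁ + y₂ + W.a₁ * x₂) / (x₁ - x₂)) ^ 2 +
    W.a₁ * ((y₁ + y₂ + W.a₁ * x₂) / (x₁ - x₂)) - W.a₂ - x₁ - x₂ with hx₄
  have hadd : ∃ (y₃ : K) (h₃ : W.toAffine.Nonsingular x₃ y₃),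
      Point.some x₁ y₁ h₁ + Point.some x₂ y₂ h₂ = Point.some x₃ y₃ h₃ := by
    have key := Point.add_of_X_ne (h₁ := h₁) (h₂ := h₂) hx
    have hxx : W.toAffine.addX x₁ x₂ (W.toAffine.slope x₁ x₂ y₁ y₂) = x₃ := by
      rw [Affine.slope_of_X_ne hx]
      simp only [Affine.addX, hx₃]
    have hns := Affine.nonsingular_add h₁ h₂ (fun hxy => hx hxy.left)
    rw [hxx] at hns
    refine ⟨_, hns, ?_⟩
    rw [key, Point.some.injEq]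
    exact ⟨hxx, rfl⟩
  have hsub : ∃ (y₄ : K) (h₄ : W.toAffine.Nonsingular x₄ y₄),
      Point.some x₁ y₁ h₁ - Point.some x₂ y₂ h₂ = Point.some x₄ y₄ h₄ := by
    rw [sub_eq_add_neg, hneg]
    have key := Point.add_of_X_ne (h₁ := h₁) (h₂ := h₂') hx
    have hxx : W.toAffine.addX x₁ x₂ (W.toAffine.slope x₁ x₂ y₁ (-y₂ - W.a₁ * x₂)) = x₄ := by
      rw [Affine.slope_of_X_ne hx]
      simp only [Affine.addX, hx₄]
      have : y₁ - (-y₂ - W.a₁ * x₂) = y₁ + y₂ + W.a₁ * x₂ := by ring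
      rw [this]
    have hns := Affine.nonsingular_add h₁ h₂' (fun hxy => hx hxy.left)
    rw [hxx] at hns
    refine ⟨_, hns, ?_⟩
    rw [key, Point.some.injEq]
    exact ⟨hxx, rfl⟩
  obtain ⟨y₃, h₃, hP⟩ := hadd
  obtain ⟨y₄, h₄, hQ⟩ := hsub
  -- the basic identities
  have hA : x₃ * (x₁ - x₂) ^ 2 =
      x₁ * x₂ * (x₁ + x₂ + 2 * W.a₂ + W.a₁ ^ 2) + W.a₄ * (x₁ + x₂) -
        2 * y₁ * y₂ - W.a₁ * (x₂ * y₁ + x₁ * y₂) - W.a₁ ^ 2 * x₁ * x₂ := by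
    rw [hx₃]
    field_simp
    linear_combination e₁ + e₂
  have hB : x₄ * (x₁ - x₂) ^ 2 =
      x₁ * x₂ * (x₁ + x₂ + 2 * W.a₂ + W.a₁ ^ 2) + W.a₄ * (x₁ + x₂) +
        2 * y₁ * y₂ + W.a₁ * (x₂ * y₁ + x₁ * y₂) := by
    rw [hx₄]
    field_simp
    linear_combination e₁ + e₂
  refine ⟨x₃, y₃, h₃, x₄, y₄, h₄, hP, hQ, ?_, ?_, hB, rfl⟩
  · rw [WeierstrassCurve.b₂]
    linear_combination hA + hB
  · apply mul_right_cancel₀ (pow_ne_zero 2 hd)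
    linear_combination (x₄ * (x₁ - x₂) ^ 2) * hA +
      (x₁ * x₂ * (x₁ + x₂ + 2 * W.a₂ + W.a₁ ^ 2) + W.a₄ * (x₁ + x₂) -
        2 * y₁ * y₂ - W.a₁ * (x₂ * y₁ + x₁ * y₂) - W.a₁ ^ 2 * x₁ * x₂) * hB +
      (-(x₂ ^ 2 * W.a₁ ^ 2) - 4 * x₂ * y₂ * W.a₁ - 4 * y₂ ^ 2) * e₁ +
      (-4 * x₁ ^ 3 - x₁ ^ 2 * W.a₁ ^ 2 - 4 * x₁ ^ 2 * W.a₂ - 4 * x₁ * W.a₄) * e₂

end Ident

end Fermat.Agent.S13x
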