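import Fermat.Agent.S05x.Sawtooth
import Fermat.Agent.S05x.PairPtCore
import Fermat.Agent.S13x.W1Ident
import Fermat.Agent.S13x.W1PairVal

/-!
# S13 project, 2-adic package: the pair lemma for points and the sawtooth consequence for
`Y² + a₁XY = X³ + a₂X² + a₄X` (port of `S05x/PairPtCore.lean` + `S05x/Sawtooth.lean`)

`psz`, `sz`, `rfl2` are the definitions of `S05x/Defs.lean` (they do not depend on the model).
-/

set_option autoImplicit false
open WeierstrassCurve WeierstrassCurve.Affine WeierstrassCurve.Affine.Point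

namespace Fermat.Agent.S13x

open Fermat.Agent.S05x

variable {K : Type*} [Field K]

/-- Node hypotheses for the model `Y² + a₁XY = X³ + a₂X² + a₄X`: integral coefficients,
`b₂ = a₁² + 4a₂` a unit, `a₄` a nonzero nonunit (the reduction has a node at `(0,0)`).
Nothing is assumed about `v 2`. -/
structure W1Hyp (A : ValuationSubring K) (W : WeierstrassCurve K) : Prop where
  w1 : IsW1 W
  a₁ : A.valuation W.a₁ ≤ 1
  a₂ : A.valuation W.a₂ ≤ 1
  b₂u : A.valuation W.b₂ = 1
  a₄m : A.valuation W.a₄ < 1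
  a₄0 : W.a₄ ≠ 0

section Aux

variable (A : ValuationSubring K) {W : WeierstrassCurve K}

theorem w1_val_a₄_ne_zero (H : W1Hyp A W) : A.valuation W.a₄ ≠ 0 :=
  (A.valuation.ne_zero_iff).mpr H.a₄0

theorem w1_le_psz (H : W1Hyp A W) (P : W.toAffine.Point) : A.valuation W.a₄ ≤ psz A W P := by
  rcases P with _ | ⟨x, y, h⟩
  · exact H.a₄m.le
  · exact le_sz A H.a₄m.le x

theorem w1_psz_ne_zero (H : W1Hyp A W) (P : W.toAffine.Point) : psz A W P ≠ 0 := by
  intro h0
  have h1 := w1_le_psz A H P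
  rw [h0] at h1
  exact w1_val_a₄_ne_zero A H (le_antisymm h1 zero_le)

end Aux

section Main

variable [DecidableEq K] (A : ValuationSubring K) {W : WeierstrassCurve K}

/-- The size of a `2`-torsion point is `1` or `η`. -/
theorem w1_sz_of_psi_eq_zero (H : W1Hyp A W) {x y : K} (h : W.toAffine.Nonsingular x y)
    (hy : 2 * y + W.a₁ * x = 0) :
    sz A (A.valuation W.a₄) x = 1 ∨ sz A (A.valuation W.a₄) x = A.valuation W.a₄ := by
  have hψ := w1_psi_sq H.w1 h
  rw [hy] at hψ
  have hη1 : A.valuation W.a₄ ≤ 1 := H.a₄m.le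
  by_cases hx0 : x = 0
  · right
    subst hx0
    rw [sz, _root_.map_zero, max_eq_right zero_le, min_eq_right hη1]
  · have hq : x * (4 * x + W.b₂) = -(4 * W.a₄) := by
      have h1 : x * (4 * x ^ 2 + W.b₂ * x + 4 * W.a₄) = 0 := by
        rw [← hψ]; ring
      have h2 : 4 * x ^ 2 + W.b₂ * x + 4 * W.a₄ = 0 := by
        rcases mul_eq_zero.mp h1 with h | h
        · exact absurd h hx0
        · exact h
      linear_combination h2
    by_cases hv : A.valuation x < 1
    · right
      have hv2 : A.valuation (4 * x + W.b₂) = 1 := by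
        rw [← H.b₂u]
        apply Valuation.map_add_eq_of_lt_right
        rw [H.b₂u]
        exact (w1pv_four_mul_le A.valuation x).trans_lt hv
      have hv3 : A.valuation x ≤ A.valuation W.a₄ := by
        have := congrArg A.valuation hq
        rw [map_mul, hv2, mul_one, Valuation.map_neg] at this
        rw [this]
        exact w1pv_four_mul_le A.valuation _
      rw [sz, max_eq_right hv3, min_eq_right hη1]
    · left
      rw [not_lt] at hv
      rw [sz, max_eq_left (hη1.trans hv), min_eq_left hv]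

/-- The doubling lemma for points. -/
theorem w1_psz_double (H : W1Hyp A W) (P : W.toAffine.Point) :
    psz A W (P + P) = rfl2 (A.valuation W.a₄) (psz A W P * psz A W P) := by
  have hη1 : A.valuation W.a₄ ≤ 1 := H.a₄m.le
  have hη0 := w1_val_a₄_ne_zero A H
  rcases P with _ | ⟨x, y, h⟩
  · show psz A W ((0 : W.toAffine.Point) + 0) = _
    rw [add_zero]
    show (1 : A.ValueGroup) = rfl2 _ (1 * 1)
    rw [mul_one, m5_rfl2_of_le hη1]
  · by_cases hy : 2 * y + W.a₁ * x = 0
    · rw [w1_add_self_of_psi_eq_zero H.w1 h hy, psz_zero, psz_some]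
      rcases w1_sz_of_psi_eq_zero A H h hy with h1 | h1
      · rw [h1, mul_one, m5_rfl2_of_le hη1]
      · rw [h1, m5_rfl2_sq hη0 H.a₄m]
    · obtain ⟨x', y', h', e, hd⟩ := w1_double H.w1 h hy
      rw [e, psz_some, psz_some]
      have hψ : x * (4 * x ^ 2 + W.b₂ * x + 4 * W.a₄) ≠ 0 := by
        rw [← w1_psi_sq H.w1 h]
        exact pow_ne_zero 2 hy
      exact w1pv_dbl A.valuation W.b₂ W.a₄ H.b₂u H.a₄m H.a₄0 x x' hψ hd

/-- **The pair lemma for points.** -/
theorem w1_pair_pt (H : W1Hyp A W) (P Q : W.toAffine.Point) :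
    (psz A W (P + Q) = min (psz A W P / psz A W Q) (psz A W Q / psz A W P) ∧
      psz A W (P - Q) = rfl2 (A.valuation W.a₄) (psz A W P * psz A W Q)) ∨
    (psz A W (P - Q) = min (psz A W P / psz A W Q) (psz A W Q / psz A W P) ∧
      psz A W (P + Q) = rfl2 (A.valuation W.a₄) (psz A W P * psz A W Q)) := by
  have hη1 : A.valuation W.a₄ ≤ 1 := H.a₄m.le
  -- `Q = ± P` first
  by_cases hPQ : Q = P
  · subst hPQ
    right
    refine ⟨?_, w1_psz_double A H Q⟩
    rw [sub_self, psz_zero, m5_min_div_self (w1_psz_ne_zero A H Q)]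
  by_cases hPQ' : Q = -P
  · subst hPQ'
    left
    rw [m5_psz_neg]
    refine ⟨?_, ?_⟩
    · rw [add_neg_cancel, psz_zero, m5_min_div_self (w1_psz_ne_zero A H P)]
    · rw [sub_neg_eq_add]
      exact w1_psz_double A H P
  rcases P with _ | ⟨x₁, y₁, h₁⟩
  · -- `P = 0`
    left
    show psz A W ((0 : W.toAffine.Point) + Q) = min (1 / psz A W Q) (psz A W Q / 1) ∧
      psz A W ((0 : W.toAffine.Point) - Q) = rfl2 _ (1 * psz A W Q)
    rw [zero_add, zero_sub, m5_psz_neg, one_mul,
      m5_min_one_div (m5_psz_le_one A Q) (w1_psz_ne_zero A H Q),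
      m5_rfl2_of_le (w1_le_psz A H Q)]
    exact ⟨rfl, rfl⟩
  rcases Q with _ | ⟨x₂, y₂, h₂⟩
  · -- `Q = 0`
    left
    show psz A W (Point.some x₁ y₁ h₁ + (0 : W.toAffine.Point)) =
        min (psz A W (Point.some x₁ y₁ h₁) / 1) (1 / psz A W (Point.some x₁ y₁ h₁)) ∧
      psz A W (Point.some x₁ y₁ h₁ - (0 : W.toAffine.Point)) =
        rfl2 _ (psz A W (Point.some x₁ y₁ h₁) * 1)
    rw [add_zero, sub_zero, mul_one,
      m5_min_div_one (m5_psz_le_one A _) (w1_psz_ne_zero A H _),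
      m5_rfl2_of_le (w1_le_psz A H _)]
    exact ⟨rfl, rfl⟩
  -- two affine points, `Q ≠ ± P`
  have hx : x₁ ≠ x₂ := by
    intro hx
    rcases (Point.X_eq_iff (h₁ := h₁) (h₂ := h₂)).mp hx with h | h
    · exact hPQ h.symm
    · exact hPQ' (by rw [h, neg_neg])
  obtain ⟨x₃, y₃, h₃, x₄, y₄, h₄, e₃, e₄, hS, hP, -, -⟩ := w1_add_sub H.w1 h₁ h₂ hx
  rw [e₃, e₄]
  simp only [psz_some]
  exact w1pv_pair A.valuation W.b₂ W.a₄ H.b₂u H.a₄m H.a₄0 x₁ x₂ x₃ x₄ hx hS hP

end Main

end Fermat.Agent.S13x
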