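/-
S13 leaf (d), analytic route, module D01: basic facts on `℘`, `℘'`:
derivatives (`℘'' = 6℘² - g₂/2`), Laurent data at `0`.
-/
import Fermat.Agent.S13x.WpDefs
import Mathlib.Analysis.Meromorphic.Order

set_option autoImplicit false

open scoped PeriodPair Topology
open Filter

namespace Fermat.Agent.S13x

theorem wpb_hasDerivAt_wp (L : PeriodPair) {z : ℂ} (hz : z ∉ L.lattice) :
    HasDerivAt ℘[L] (℘'[L] z) z := by
  have h := (L.analyticOnNhd_weierstrassP z hz).differentiableAt.hasDerivAt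
  rwa [L.deriv_weierstrassP] at h

theorem wpb_add_mem_lattice_iff (L : PeriodPair) {z l : ℂ} (hl : l ∈ L.lattice) :
    z + l ∈ L.lattice ↔ z ∈ L.lattice :=
  ⟨fun h => by simpa using sub_mem h hl, fun h => add_mem h hl⟩

theorem wpb_wp_eq (L : PeriodPair) (z : ℂ) :
    ℘[L] z = 1 / z ^ 2 + ℘[L - (0 : ℂ)] z := by
  have h := L.weierstrassPExcept_def (0 : L.lattice) z
  simp only [ZeroMemClass.coe_zero, sub_zero] at h
  rw [h]
  simp

theorem wpb_wp'_eq (L : PeriodPair) (z : ℂ) :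
    ℘'[L] z = -2 / z ^ 3 + ℘'[L - (0 : ℂ)] z := by
  have h := L.derivWeierstrassPExcept_def (0 : L.lattice) z
  simp only [ZeroMemClass.coe_zero, sub_zero] at h
  rw [h]
  ring

/-- `℘'` does not vanish in a punctured neighbourhood of `0`. -/
theorem wpb_eventually_wp'_ne_zero (L : PeriodPair) : ∀ᶠ z in 𝓝[≠] (0 : ℂ), ℘'[L] z ≠ 0 := by
  have hcont : ContinuousAt (fun z : ℂ => -2 + z ^ 3 * ℘'[L - (0 : ℂ)] z) 0 := by
    have := (L.analyticAt_derivWeierstrassPExcept 0).continuousAt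
    fun_prop
  have hne : (fun z : ℂ => -2 + z ^ 3 * ℘'[L - (0 : ℂ)] z) 0 ≠ 0 := by simp
  have hev := hcont.eventually_ne hne
  filter_upwards [hev.filter_mono nhdsWithin_le_nhds, self_mem_nhdsWithin] with z hz hz0 h0
  apply hz
  have hz0' : z ≠ 0 := hz0
  rw [wpb_wp'_eq] at h0
  have hz3 : z ^ 3 ≠ 0 := pow_ne_zero 3 hz0'
  have : z ^ 3 * (-2 / z ^ 3 + ℘'[L - (0 : ℂ)] z) = -2 + z ^ 3 * ℘'[L - (0 : ℂ)] z := by
    field_simp
  rw [← this, h0, mul_zero]

theorem wpb_meromorphicOrderAt_wp'_ne_top (L : PeriodPair) (z : ℂ) :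
    meromorphicOrderAt ℘'[L] z ≠ ⊤ := by
  have h0 : meromorphicOrderAt ℘'[L] 0 ≠ ⊤ := by
    intro h
    rw [meromorphicOrderAt_eq_top_iff] at h
    have := (h.and (wpb_eventually_wp'_ne_zero L)).exists
    obtain ⟨w, hw, hw'⟩ := this
    exact hw' hw
  have hmer : MeromorphicOn ℘'[L] Set.univ := fun x _ => L.meromorphic_derivWeierstrassP x
  exact hmer.meromorphicOrderAt_ne_top_of_isPreconnected isPreconnected_univ (Set.mem_univ 0)
    (Set.mem_univ z) h0

/-- `℘'' = 6℘² - g₂/2`. -/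
theorem wpb_hasDerivAt_wp' (L : PeriodPair) {z : ℂ} (hz : z ∉ L.lattice) :
    HasDerivAt ℘'[L] (6 * ℘[L] z ^ 2 - L.g₂ / 2) z := by
  have hU : IsOpen ((L.lattice : Set ℂ)ᶜ) := L.isClosed_lattice.isOpen_compl
  have hA' : AnalyticAt ℂ ℘'[L] z := L.analyticOnNhd_derivWeierstrassP z hz
  have hd : HasDerivAt ℘'[L] (deriv ℘'[L] z) z := hA'.differentiableAt.hasDerivAt
  suffices hs : deriv ℘'[L] z = 6 * ℘[L] z ^ 2 - L.g₂ / 2 by rwa [hs] at hd
  have key : ∀ w, w ∉ L.lattice →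
      ℘'[L] w * (2 * deriv ℘'[L] w - 12 * ℘[L] w ^ 2 + L.g₂) = 0 := by
    intro w hw
    have hdw : HasDerivAt ℘'[L] (deriv ℘'[L] w) w :=
      (L.analyticOnNhd_derivWeierstrassP w hw).differentiableAt.hasDerivAt
    have h1 : HasDerivAt (fun u => ℘'[L] u ^ 2) (2 * ℘'[L] w * deriv ℘'[L] w) w := by
      simpa using hdw.fun_pow 2
    have hp := wpb_hasDerivAt_wp L hw
    have h2 : HasDerivAt (fun u => 4 * ℘[L] u ^ 3 - L.g₂ * ℘[L] u - L.g₃)
        (4 * (3 * ℘[L] w ^ 2 * ℘'[L] w) - L.g₂ * ℘'[L] w) w := by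
      have := (((hp.fun_pow 3).const_mul 4).sub (hp.const_mul L.g₂)).sub_const L.g₃
      simpa using this
    have heq : (fun u => ℘'[L] u ^ 2) =ᶠ[𝓝 w]
        fun u => 4 * ℘[L] u ^ 3 - L.g₂ * ℘[L] u - L.g₃ := by
      filter_upwards [hU.mem_nhds hw] with u hu using L.derivWeierstrassP_sq u hu
    have := h1.unique (h2.congr_of_eventuallyEq heq)
    linear_combination this
  by_contra hne
  have hfne : (fun w => 2 * deriv ℘'[L] w - 12 * ℘[L] w ^ 2 + L.g₂) z ≠ 0 := by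
    intro h0
    apply hne
    simp only at h0
    linear_combination h0 / 2
  have hfcont : ContinuousAt (fun w => 2 * deriv ℘'[L] w - 12 * ℘[L] w ^ 2 + L.g₂) z := by
    have h1 : ContinuousAt (deriv ℘'[L]) z := hA'.deriv.continuousAt
    have h2 : ContinuousAt ℘[L] z := (L.analyticOnNhd_weierstrassP z hz).continuousAt
    fun_prop
  have hev := hfcont.eventually_ne hfne
  have hzero : ∀ᶠ w in 𝓝 z, ℘'[L] w = 0 := by
    filter_upwards [hev, hU.mem_nhds hz] with w hw hwU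
    rcases mul_eq_zero.1 (key w hwU) with h | h
    · exact h
    · exact absurd h hw
  apply wpb_meromorphicOrderAt_wp'_ne_top L z
  rw [meromorphicOrderAt_eq_top_iff]
  exact hzero.filter_mono nhdsWithin_le_nhds

end Fermat.Agent.S13x
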