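/-
S13 leaf (d), analytic route, module D02: the generic addition theorem for `℘`
(Euler's method: for fixed `c`, the function
`z ↦ ((℘' z - ℘' (c - z)) / (℘ z - ℘ (c - z)))² / 4 - ℘ z - ℘ (c - z)` has derivative `0`,
extends analytically across `z = 0` with value `℘ c`, hence equals `℘ c` by the identity theorem
for meromorphic functions).  The `y`-coordinate formula is obtained by differentiating the
`x`-coordinate formula in the second variable.

Main results: `wpa_add_x`, `wpa_add_y` (statements `spec_wpa_add_x`, `spec_wpa_add_y` of `WpSpec`).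
-/
import Fermat.Agent.S13x.WpBasic
import Mathlib.Analysis.Meromorphic.RCLike
import Mathlib.Analysis.Calculus.MeanValue
import Mathlib.Analysis.Calculus.Deriv.Shift
import Mathlib.Analysis.Calculus.Deriv.Pow
import Mathlib.Analysis.Calculus.Deriv.Inv
import Mathlib.Tactic.FieldSimp
import Mathlib.Tactic.LinearCombination

set_option autoImplicit false

open Filter Topology
open scoped PeriodPair

namespace Fermat.Agent.S13x

/-- Euler's function: for `w = c - z`, the right-hand side of the addition formula. -/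
noncomputable def wpa_F (L : PeriodPair) (c z : ℂ) : ℂ :=
  ((℘'[L] z - ℘'[L] (c - z)) / (℘[L] z - ℘[L] (c - z))) ^ 2 / 4 - ℘[L] z - ℘[L] (c - z)

/-- The denominator `D` appearing in the local analysis of `wpa_F` at `0`. -/
noncomputable def wpa_D (L : PeriodPair) (c z : ℂ) : ℂ :=
  1 + z ^ 2 * (℘[L - (0 : ℂ)] z - ℘[L] (c - z))

/-- The numerator `N` appearing in the local analysis of `wpa_F` at `0`. -/
noncomputable def wpa_N (L : PeriodPair) (c z : ℂ) : ℂ :=
  -2 + z ^ 3 * (℘'[L - (0 : ℂ)] z - ℘'[L] (c - z))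

/-- Analytic continuation of `wpa_F L c` across `0`. -/
noncomputable def wpa_Ft (L : PeriodPair) (c z : ℂ) : ℂ :=
  (wpa_N L c z - 2 * wpa_D L c z) *
      (2 * (℘[L - (0 : ℂ)] z - ℘[L] (c - z)) + z * (℘'[L - (0 : ℂ)] z - ℘'[L] (c - z))) /
      (4 * wpa_D L c z ^ 2) - ℘[L - (0 : ℂ)] z - ℘[L] (c - z)

theorem wpa_hasDerivAt_F (L : PeriodPair) {c z : ℂ} (hz : z ∉ L.lattice)
    (hcz : c - z ∉ L.lattice) (hne : ℘[L] z ≠ ℘[L] (c - z)) :
    HasDerivAt (wpa_F L c) 0 z := by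
  have h1 := wpb_hasDerivAt_wp L hz
  have h1' := wpb_hasDerivAt_wp' L hz
  have h2 := (wpb_hasDerivAt_wp L hcz).comp_const_sub c z
  have h2' := (wpb_hasDerivAt_wp' L hcz).comp_const_sub c z
  have e1 := L.derivWeierstrassP_sq z hz
  have e2 := L.derivWeierstrassP_sq (c - z) hcz
  have hd : ℘[L] z - ℘[L] (c - z) ≠ 0 := sub_ne_zero.2 hne
  have hlam := (h1'.fun_sub h2').fun_div (h1.fun_sub h2) hd
  have hF := (((hlam.fun_pow 2).div_const 4).fun_sub h1).fun_sub h2
  unfold wpa_F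
  refine hF.congr_deriv ?_
  set x1 := ℘[L] z
  set x2 := ℘[L] (c - z)
  set y1 := ℘'[L] z
  set y2 := ℘'[L] (c - z)
  simp only [Nat.add_one_sub_one, pow_one, Nat.cast_ofNat]
  field_simp
  linear_combination (-2 * (y1 - y2)) * (e1 - e2)

theorem wpa_F_eq_Ft (L : PeriodPair) {c z : ℂ} (hz : z ≠ 0) (hD : wpa_D L c z ≠ 0) :
    wpa_F L c z = wpa_Ft L c z := by
  have hx1 := wpb_wp_eq L z
  have hy1 := wpb_wp'_eq L z
  have hx : ℘[L] z - ℘[L] (c - z) = wpa_D L c z / z ^ 2 := by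
    rw [hx1, wpa_D]; field_simp; ring
  have hy : ℘'[L] z - ℘'[L] (c - z) = wpa_N L c z / z ^ 3 := by
    rw [hy1, wpa_N]; field_simp; ring
  unfold wpa_F wpa_Ft
  rw [hx, hy, hx1]
  have hN : wpa_N L c z = -2 + z ^ 3 * (℘'[L - (0 : ℂ)] z - ℘'[L] (c - z)) := rfl
  have hDD : wpa_D L c z = 1 + z ^ 2 * (℘[L - (0 : ℂ)] z - ℘[L] (c - z)) := rfl
  generalize ℘[L - (0 : ℂ)] z = a at *
  generalize ℘'[L - (0 : ℂ)] z = a' at *
  generalize ℘[L] (c - z) = p at *
  generalize ℘'[L] (c - z) = q at *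
  generalize wpa_D L c z = D at *
  generalize wpa_N L c z = N at *
  field_simp
  rw [hN, hDD]
  ring

theorem wpa_analyticAt_wp_sub (L : PeriodPair) {c : ℂ} (hc : c ∉ L.lattice) :
    AnalyticAt ℂ (fun z => ℘[L] (c - z)) 0 := by
  have h : AnalyticAt ℂ ℘[L] (c - 0) := by simpa using L.analyticOnNhd_weierstrassP c hc
  exact h.comp (f := fun z => c - z) (by fun_prop)

theorem wpa_analyticAt_wp'_sub (L : PeriodPair) {c : ℂ} (hc : c ∉ L.lattice) :
    AnalyticAt ℂ (fun z => ℘'[L] (c - z)) 0 := by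
  have h : AnalyticAt ℂ ℘'[L] (c - 0) := by simpa using L.analyticOnNhd_derivWeierstrassP c hc
  exact h.comp (f := fun z => c - z) (by fun_prop)

theorem wpa_analyticAt_D (L : PeriodPair) {c : ℂ} (hc : c ∉ L.lattice) :
    AnalyticAt ℂ (wpa_D L c) 0 := by
  have h1 := L.analyticAt_weierstrassPExcept 0
  have h2 := wpa_analyticAt_wp_sub L hc
  unfold wpa_D
  fun_prop

theorem wpa_analyticAt_N (L : PeriodPair) {c : ℂ} (hc : c ∉ L.lattice) :
    AnalyticAt ℂ (wpa_N L c) 0 := by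
  have h1 := L.analyticAt_derivWeierstrassPExcept 0
  have h2 := wpa_analyticAt_wp'_sub L hc
  unfold wpa_N
  fun_prop

@[simp] theorem wpa_D_zero (L : PeriodPair) (c : ℂ) : wpa_D L c 0 = 1 := by simp [wpa_D]

@[simp] theorem wpa_N_zero (L : PeriodPair) (c : ℂ) : wpa_N L c 0 = -2 := by simp [wpa_N]

theorem wpa_analyticAt_Ft (L : PeriodPair) {c : ℂ} (hc : c ∉ L.lattice) :
    AnalyticAt ℂ (wpa_Ft L c) 0 := by
  have h1 := L.analyticAt_weierstrassPExcept 0
  have h1' := L.analyticAt_derivWeierstrassPExcept 0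
  have h2 := wpa_analyticAt_wp_sub L hc
  have h2' := wpa_analyticAt_wp'_sub L hc
  have hD := wpa_analyticAt_D L hc
  have hN := wpa_analyticAt_N L hc
  have hne : 4 * wpa_D L c 0 ^ 2 ≠ 0 := by simp
  unfold wpa_Ft
  fun_prop (disch := simpa using hne)

theorem wpa_Ft_zero (L : PeriodPair) (c : ℂ) : wpa_Ft L c 0 = ℘[L] c := by
  simp [wpa_Ft]
  ring


theorem wpa_wp_sub_eq (L : PeriodPair) (c : ℂ) {z : ℂ} (hz : z ≠ 0) :
    ℘[L] z - ℘[L] (c - z) = wpa_D L c z / z ^ 2 := by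
  rw [wpb_wp_eq L z, wpa_D]; field_simp; ring

theorem wpa_wp_ne_of_D_ne (L : PeriodPair) {c z : ℂ} (hz : z ≠ 0) (hD : wpa_D L c z ≠ 0) :
    ℘[L] z ≠ ℘[L] (c - z) := by
  rw [← sub_ne_zero, wpa_wp_sub_eq L c hz]
  exact div_ne_zero hD (pow_ne_zero _ hz)

/-- Near `0` (punctured), Euler's function is the constant `℘ c`. -/
theorem wpa_eventually_F_eq (L : PeriodPair) {c : ℂ} (hc : c ∉ L.lattice) :
    ∀ᶠ z in 𝓝[≠] (0 : ℂ), wpa_F L c z = ℘[L] c := by
  have hFt := wpa_analyticAt_Ft L hc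
  have hA : ∀ᶠ z in 𝓝 (0 : ℂ), AnalyticAt ℂ (wpa_Ft L c) z := hFt.eventually_analyticAt
  have hDne : ∀ᶠ z in 𝓝 (0 : ℂ), wpa_D L c z ≠ 0 :=
    (wpa_analyticAt_D L hc).continuousAt.eventually_ne (by simp)
  have hlat : ∀ᶠ z in 𝓝 (0 : ℂ), z ∈ ((L.lattice : Set ℂ) \ {0})ᶜ :=
    L.compl_lattice_sdiff_singleton_mem_nhds 0
  have hclat : ∀ᶠ z in 𝓝 (0 : ℂ), c - z ∉ L.lattice := by
    have hcont : ContinuousAt (fun z : ℂ => c - z) 0 := by fun_prop
    have hmem : (L.lattice : Set ℂ)ᶜ ∈ 𝓝 (c - 0) := by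
      simpa using L.isClosed_lattice.isOpen_compl.mem_nhds hc
    exact hcont.preimage_mem_nhds hmem
  obtain ⟨r, hr, hball⟩ := Metric.eventually_nhds_iff_ball.1 (hA.and (hDne.and (hlat.and hclat)))
  -- derivative of `wpa_Ft` vanishes on the punctured ball
  have hderiv : ∀ z ∈ Metric.ball (0 : ℂ) r, z ≠ 0 → deriv (wpa_Ft L c) z = 0 := by
    intro z hz hz0
    have hopen : Metric.ball (0 : ℂ) r \ {0} ∈ 𝓝 z :=
      (Metric.isOpen_ball.sdiff isClosed_singleton).mem_nhds ⟨hz, hz0⟩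
    have heq : wpa_Ft L c =ᶠ[𝓝 z] wpa_F L c := by
      filter_upwards [hopen] with y hy
      exact (wpa_F_eq_Ft L hy.2 (hball y hy.1).2.1).symm
    obtain ⟨-, hDz, hzl, hczl⟩ := hball z hz
    have hzl' : z ∉ L.lattice := fun h => hzl ⟨h, hz0⟩
    have hd := wpa_hasDerivAt_F L hzl' hczl (wpa_wp_ne_of_D_ne L hz0 hDz)
    exact (hd.congr_of_eventuallyEq heq).deriv
  have hderiv0 : deriv (wpa_Ft L c) 0 = 0 := by
    have hcont : ContinuousAt (deriv (wpa_Ft L c)) 0 := hFt.deriv.continuousAt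
    have hev : ∀ᶠ z in 𝓝[≠] (0 : ℂ), deriv (wpa_Ft L c) z = 0 := by
      filter_upwards [nhdsWithin_le_nhds (Metric.ball_mem_nhds (0 : ℂ) hr),
        self_mem_nhdsWithin] with z hz hz0 using hderiv z hz hz0
    exact tendsto_nhds_unique (hcont.tendsto.mono_left nhdsWithin_le_nhds)
      (tendsto_const_nhds.congr' (hev.mono fun z hz => hz.symm))
  have hconst : ∀ z ∈ Metric.ball (0 : ℂ) r, wpa_Ft L c z = wpa_Ft L c 0 := by
    intro z hz
    refine Metric.isOpen_ball.is_const_of_deriv_eq_zero (convex_ball (0 : ℂ) r).isPreconnected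
      (fun y hy => (hball y hy).1.differentiableAt.differentiableWithinAt) ?_ hz
      (Metric.mem_ball_self hr)
    intro y hy
    by_cases hy0 : y = 0
    · subst hy0; simpa using hderiv0
    · simpa using hderiv y hy hy0
  filter_upwards [nhdsWithin_le_nhds (Metric.ball_mem_nhds (0 : ℂ) hr),
    self_mem_nhdsWithin] with z hz hz0
  rw [wpa_F_eq_Ft L hz0 (hball z hz).2.1, hconst z hz, wpa_Ft_zero]

theorem wpa_meromorphic_wp_sub (L : PeriodPair) (c : ℂ) :
    Meromorphic (fun z => ℘[L] (c - z)) := fun x =>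
  (L.meromorphic_weierstrassP (c - x)).comp_analyticAt (g := fun z => c - z) (by fun_prop)

theorem wpa_meromorphic_wp'_sub (L : PeriodPair) (c : ℂ) :
    Meromorphic (fun z => ℘'[L] (c - z)) := fun x =>
  (L.meromorphic_derivWeierstrassP (c - x)).comp_analyticAt (g := fun z => c - z) (by fun_prop)

theorem wpa_meromorphic_F (L : PeriodPair) (c : ℂ) : Meromorphic (wpa_F L c) := by
  have h1 := L.meromorphic_weierstrassP
  have h1' := L.meromorphic_derivWeierstrassP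
  have h2 := wpa_meromorphic_wp_sub L c
  have h2' := wpa_meromorphic_wp'_sub L c
  unfold wpa_F
  fun_prop

/-- Euler's function is the constant `℘ c` wherever it is defined. -/
theorem wpa_F_eq (L : PeriodPair) {c z : ℂ} (hc : c ∉ L.lattice) (hz : z ∉ L.lattice)
    (hcz : c - z ∉ L.lattice) (hne : ℘[L] z ≠ ℘[L] (c - z)) : wpa_F L c z = ℘[L] c := by
  have hG : Meromorphic (fun u => wpa_F L c u - ℘[L] c) := by
    have := wpa_meromorphic_F L c
    fun_prop
  have h0 : meromorphicOrderAt (fun u => wpa_F L c u - ℘[L] c) 0 = ⊤ := by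
    rw [meromorphicOrderAt_eq_top_iff]
    filter_upwards [wpa_eventually_F_eq L hc] with u hu
    rw [hu, sub_self]
  have hz' : meromorphicOrderAt (fun u => wpa_F L c u - ℘[L] c) z = ⊤ := by
    by_contra hne'
    exact (hG.exists_meromorphicOrderAt_ne_top_iff_forall.1 ⟨z, hne'⟩) 0 h0
  rw [meromorphicOrderAt_eq_top_iff] at hz'
  have hcont : ContinuousAt (fun u => wpa_F L c u - ℘[L] c) z :=
    ((wpa_hasDerivAt_F L hz hcz hne).continuousAt).sub continuousAt_const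
  have := tendsto_nhds_unique (hcont.tendsto.mono_left nhdsWithin_le_nhds)
    (tendsto_const_nhds.congr' (hz'.mono fun u hu => hu.symm))
  exact sub_eq_zero.1 this

/-- Generic addition theorem, `x`-coordinate. -/
theorem wpa_add_x (L : PeriodPair) {z w : ℂ} (hz : z ∉ L.lattice) (hw : w ∉ L.lattice)
    (hzw : z + w ∉ L.lattice) (hne : ℘[L] z ≠ ℘[L] w) :
    ℘[L] (z + w) =
      ((℘'[L] z - ℘'[L] w) / (℘[L] z - ℘[L] w)) ^ 2 / 4 - ℘[L] z - ℘[L] w := by
  have hw' : z + w - z = w := by ring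
  have h := wpa_F_eq L (c := z + w) (z := z) hzw hz (by rwa [hw']) (by rwa [hw'])
  rw [wpa_F, hw'] at h
  exact h.symm

/-- Generic addition theorem, `y`-coordinate (in terms of `℘'`, i.e. twice the curve's `y`). -/
theorem wpa_add_y (L : PeriodPair) {z w : ℂ} (hz : z ∉ L.lattice) (hw : w ∉ L.lattice)
    (hzw : z + w ∉ L.lattice) (hne : ℘[L] z ≠ ℘[L] w) :
    ℘'[L] (z + w) =
      -((℘'[L] z - ℘'[L] w) / (℘[L] z - ℘[L] w) * (℘[L] (z + w) - ℘[L] z) + ℘'[L] z) := by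
  have hx := wpa_add_x L hz hw hzw hne
  have hU : IsOpen ((L.lattice : Set ℂ)ᶜ) := L.isClosed_lattice.isOpen_compl
  have hev : (fun u => ℘[L] (z + u)) =ᶠ[𝓝 w] fun u =>
      ((℘'[L] z - ℘'[L] u) / (℘[L] z - ℘[L] u)) ^ 2 / 4 - ℘[L] z - ℘[L] u := by
    have h1 : ∀ᶠ u in 𝓝 w, u ∉ L.lattice := hU.mem_nhds hw
    have h2 : ∀ᶠ u in 𝓝 w, z + u ∉ L.lattice := by
      have hcont : ContinuousAt (fun u : ℂ => z + u) w := by fun_prop
      exact hcont.preimage_mem_nhds (hU.mem_nhds hzw)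
    have h3 : ∀ᶠ u in 𝓝 w, ℘[L] z ≠ ℘[L] u :=
      ((L.analyticOnNhd_weierstrassP w hw).continuousAt.eventually_ne hne.symm).mono
        fun u hu => hu.symm
    filter_upwards [h1, h2, h3] with u hu1 hu2 hu3 using wpa_add_x L hz hu1 hu2 hu3
  have hL : HasDerivAt (fun u => ℘[L] (z + u)) (℘'[L] (z + w)) w :=
    (wpb_hasDerivAt_wp L hzw).comp_const_add z w
  have hw1 := wpb_hasDerivAt_wp L hw
  have hw1' := wpb_hasDerivAt_wp' L hw
  have hd : ℘[L] z - ℘[L] w ≠ 0 := sub_ne_zero.2 hne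
  have hlam := ((hasDerivAt_const w (℘'[L] z)).fun_sub hw1').fun_div
    ((hasDerivAt_const w (℘[L] z)).fun_sub hw1) hd
  have hR := (((hlam.fun_pow 2).div_const 4).fun_sub (hasDerivAt_const w (℘[L] z))).fun_sub hw1
  have key := hL.unique (hR.congr_of_eventuallyEq hev)
  rw [key, hx]
  have e1 := L.derivWeierstrassP_sq z hz
  have e2 := L.derivWeierstrassP_sq w hw
  set x1 := ℘[L] z
  set x2 := ℘[L] w
  set y1 := ℘'[L] z
  set y2 := ℘'[L] w
  simp only [Nat.add_one_sub_one, pow_one, Nat.cast_ofNat, zero_sub, sub_zero]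
  field_simp
  linear_combination (y1 - y2) * (e1 - e2)

end Fermat.Agent.S13x
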