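/-
S13 project (wave 3), leaf (d): torsion of elliptic curves via complex uniformisation.
Module `WpOrderTwo.lean` (helper40; prefix `wp_`): basic facts on the Weierstrass `℘`-function: second derivative, and the
"order two" lemma (`℘ z = ℘ w` and `℘' z = ℘' w` imply `z - w ∈ Λ`).
-/
import Mathlib

set_option autoImplicit false

namespace Fermat.Agent.S13x

open PeriodPair Filter Topology

variable (L : PeriodPair)

theorem wp_isOpen_compl : IsOpen (L.lattice : Set ℂ)ᶜ := L.isClosed_lattice.isOpen_compl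

theorem wp_countable_lattice : (L.lattice : Set ℂ).Countable :=
  countable_of_Lindelof_of_discrete (X := L.lattice)

theorem wp_isPreconnected_compl : IsPreconnected (L.lattice : Set ℂ)ᶜ :=
  (Set.Countable.isConnected_compl_of_one_lt_rank (by simp) (wp_countable_lattice L)).2

theorem wp_analyticAt {z : ℂ} (hz : z ∉ L.lattice) : AnalyticAt ℂ ℘[L] z :=
  L.analyticOnNhd_weierstrassP z hz

theorem wp_analyticAt' {z : ℂ} (hz : z ∉ L.lattice) : AnalyticAt ℂ ℘'[L] z :=
  L.analyticOnNhd_derivWeierstrassP z hz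

theorem wp_hasDerivAt {z : ℂ} (hz : z ∉ L.lattice) : HasDerivAt ℘[L] (℘'[L] z) z := by
  have h := (wp_analyticAt L hz).differentiableAt.hasDerivAt
  rwa [L.deriv_weierstrassP] at h

/-- The product `℘' * (2 ℘'' - 12 ℘² + g₂)` vanishes off the lattice. -/
theorem wp_mul_eq_zero {z : ℂ} (hz : z ∉ L.lattice) :
    ℘'[L] z * (2 * deriv ℘'[L] z - 12 * ℘[L] z ^ 2 + L.g₂) = 0 := by
  have h1 : HasDerivAt (fun w => ℘'[L] w ^ 2) (2 * ℘'[L] z * deriv ℘'[L] z) z := by
    have := ((wp_analyticAt' L hz).differentiableAt.hasDerivAt).fun_pow 2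
    simpa using this
  have h2 : HasDerivAt (fun w => 4 * ℘[L] w ^ 3 - L.g₂ * ℘[L] w - L.g₃)
      (4 * (3 * ℘[L] z ^ 2 * ℘'[L] z) - L.g₂ * ℘'[L] z) z := by
    have hp := wp_hasDerivAt L hz
    have := (((hp.fun_pow 3).const_mul 4).sub (hp.const_mul L.g₂)).sub_const L.g₃
    simpa using this
  have h3 : (fun w => ℘'[L] w ^ 2) =ᶠ[𝓝 z] (fun w => 4 * ℘[L] w ^ 3 - L.g₂ * ℘[L] w - L.g₃) := by
    filter_upwards [(wp_isOpen_compl L).mem_nhds hz] with w hw
    exact L.derivWeierstrassP_sq w hw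
  have h4 := (h1.congr_of_eventuallyEq h3.symm).unique h2
  linear_combination h4

/-- `℘'` does not vanish identically off the lattice. -/
theorem wp_exists_deriv_ne_zero : ∃ z, z ∉ L.lattice ∧ ℘'[L] z ≠ 0 := by
  classical
  by_contra hcon
  push Not at hcon
  have hconst : ∃ a, ∀ x ∈ (L.lattice : Set ℂ)ᶜ, ℘[L] x = a := by
    refine (wp_isOpen_compl L).exists_is_const_of_deriv_eq_zero (wp_isPreconnected_compl L)
      L.differentiableOn_weierstrassP ?_
    intro x hx
    rw [L.deriv_weierstrassP]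
    exact hcon x hx
  obtain ⟨a, ha⟩ := hconst
  have h1 : ℘[L] =ᶠ[𝓝[≠] (0 : ℂ)] fun _ => a := by
    have := L.compl_lattice_sdiff_singleton_mem_nhds 0
    filter_upwards [mem_nhdsWithin_of_mem_nhds this, self_mem_nhdsWithin] with x hx hx0
    apply ha
    intro hxl
    exact hx ⟨hxl, hx0⟩
  have h2 := L.order_weierstrassP 0 (zero_mem _)
  rw [meromorphicOrderAt_congr h1, meromorphicOrderAt_const] at h2
  split_ifs at h2
  · exact WithTop.top_ne_coe h2
  · have h3 : ((0 : ℤ) : WithTop ℤ) = ((-2 : ℤ) : WithTop ℤ) := h2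
    have := WithTop.coe_injective h3
    omega

/-- **D1**: `℘'' = 6 ℘² - g₂ / 2` off the lattice. -/
theorem wp_deriv_deriv {z : ℂ} (hz : z ∉ L.lattice) :
    deriv ℘'[L] z = 6 * ℘[L] z ^ 2 - L.g₂ / 2 := by
  have hA : AnalyticOnNhd ℂ ℘'[L] (L.lattice : Set ℂ)ᶜ := L.analyticOnNhd_derivWeierstrassP
  have hB : AnalyticOnNhd ℂ (fun w => 2 * deriv ℘'[L] w - 12 * ℘[L] w ^ 2 + L.g₂)
      (L.lattice : Set ℂ)ᶜ := by
    intro w hw
    have h1 : AnalyticAt ℂ (deriv ℘'[L]) w := (wp_analyticAt' L hw).deriv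
    have h2 : AnalyticAt ℂ ℘[L] w := wp_analyticAt L hw
    fun_prop
  rcases hA.eq_zero_or_eq_zero_of_mul_eq_zero hB (fun w hw => wp_mul_eq_zero L hw)
    (wp_isPreconnected_compl L) with h | h
  · obtain ⟨w, hw, hw'⟩ := wp_exists_deriv_ne_zero L
    exact absurd (h w hw) hw'
  · have := h z hz
    linear_combination this / 2

theorem wp_hasDerivAt' {z : ℂ} (hz : z ∉ L.lattice) :
    HasDerivAt ℘'[L] (6 * ℘[L] z ^ 2 - L.g₂ / 2) z := by
  have h := (wp_analyticAt' L hz).differentiableAt.hasDerivAt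
  rwa [wp_deriv_deriv L hz] at h

/-- If `℘ t = ℘ (t + u)` for `t` in a punctured neighbourhood of `0`, then `u` is a period. -/
theorem wp_period_mem {u : ℂ} (h : ∀ᶠ t in 𝓝[≠] (0 : ℂ), ℘[L] t = ℘[L] (t + u)) :
    u ∈ L.lattice := by
  by_contra hu
  have h1 : AnalyticAt ℂ (fun t => ℘[L] (t + u)) 0 := by
    have h2 : AnalyticAt ℂ ℘[L] (0 + u) := wp_analyticAt L (by simpa using hu)
    exact h2.comp (f := fun t => t + u) (by fun_prop)
  have h3 := L.order_weierstrassP 0 (zero_mem _)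
  rw [meromorphicOrderAt_congr (show ℘[L] =ᶠ[𝓝[≠] (0 : ℂ)] fun t => ℘[L] (t + u) from h)] at h3
  have h4 := h1.meromorphicOrderAt_nonneg
  rw [h3] at h4
  exact absurd h4 (by decide)

theorem wp_hasDerivAt_comp_add (z : ℂ) {h : ℂ} (hz : z + h ∉ L.lattice) :
    HasDerivAt (fun t => ℘[L] (z + t)) (℘'[L] (z + h)) h := by
  have := (wp_hasDerivAt L hz).comp_const_add z h
  simpa using this

theorem wp_hasDerivAt_comp_add' (z : ℂ) {h : ℂ} (hz : z + h ∉ L.lattice) :
    HasDerivAt (fun t => ℘'[L] (z + t)) (6 * ℘[L] (z + h) ^ 2 - L.g₂ / 2) h := by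
  have := (wp_hasDerivAt' L hz).comp_const_add z h
  simpa using this

theorem wp_eventually_notMem {z : ℂ} (hz : z ∉ L.lattice) :
    ∀ᶠ h in 𝓝 (0 : ℂ), z + h ∉ L.lattice := by
  have h1 : Tendsto (fun h : ℂ => z + h) (𝓝 0) (𝓝 z) := by
    have : Continuous (fun h : ℂ => z + h) := by fun_prop
    simpa using this.tendsto 0
  exact h1.eventually ((wp_isOpen_compl L).mem_nhds hz)

/-- Local uniqueness: equal Cauchy data at `z` and `w` force `℘ (z + h) = ℘ (w + h)` near `0`. -/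
theorem wp_eventually_eq_of_eq {z w : ℂ} (hz : z ∉ L.lattice) (hw : w ∉ L.lattice)
    (h0 : ℘[L] z = ℘[L] w) (h1 : ℘'[L] z = ℘'[L] w) :
    ∀ᶠ h in 𝓝 (0 : ℂ), ℘[L] (z + h) = ℘[L] (w + h) := by
  set D : ℂ → ℂ := fun h => ℘[L] (z + h) - ℘[L] (w + h) with hD
  set D1 : ℂ → ℂ := fun h => ℘'[L] (z + h) - ℘'[L] (w + h) with hD1
  set G : ℂ → ℂ := fun h => 6 * (℘[L] (z + h) + ℘[L] (w + h)) with hG
  have hPz : AnalyticAt ℂ (fun h => ℘[L] (z + h)) 0 :=
    (wp_analyticAt L (by simpa using hz) : AnalyticAt ℂ ℘[L] (z + 0)).comp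
      (f := fun h => z + h) (by fun_prop)
  have hPw : AnalyticAt ℂ (fun h => ℘[L] (w + h)) 0 :=
    (wp_analyticAt L (by simpa using hw) : AnalyticAt ℂ ℘[L] (w + 0)).comp
      (f := fun h => w + h) (by fun_prop)
  have hPz' : AnalyticAt ℂ (fun h => ℘'[L] (z + h)) 0 :=
    (wp_analyticAt' L (by simpa using hz) : AnalyticAt ℂ ℘'[L] (z + 0)).comp
      (f := fun h => z + h) (by fun_prop)
  have hPw' : AnalyticAt ℂ (fun h => ℘'[L] (w + h)) 0 :=
    (wp_analyticAt' L (by simpa using hw) : AnalyticAt ℂ ℘'[L] (w + 0)).comp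
      (f := fun h => w + h) (by fun_prop)
  have hDa : AnalyticAt ℂ D 0 := hPz.sub hPw
  have hD1a : AnalyticAt ℂ D1 0 := hPz'.sub hPw'
  have hGa : AnalyticAt ℂ G 0 := by
    simp only [hG]
    fun_prop
  have hD0 : D 0 = 0 := by simp [hD, h0]
  have hD10 : D1 0 = 0 := by simp [hD1, h1]
  have hdD : deriv D =ᶠ[𝓝 0] D1 := by
    filter_upwards [wp_eventually_notMem L hz, wp_eventually_notMem L hw] with h hzh hwh
    exact ((wp_hasDerivAt_comp_add L z hzh).sub (wp_hasDerivAt_comp_add L w hwh)).deriv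
  have hdD1 : deriv D1 =ᶠ[𝓝 0] G * D := by
    filter_upwards [wp_eventually_notMem L hz, wp_eventually_notMem L hw] with h hzh hwh
    have hd : HasDerivAt D1 ((6 * ℘[L] (z + h) ^ 2 - L.g₂ / 2) - (6 * ℘[L] (w + h) ^ 2 - L.g₂ / 2)) h :=
      (wp_hasDerivAt_comp_add' L z hzh).sub (wp_hasDerivAt_comp_add' L w hwh)
    rw [hd.deriv]
    simp only [hG, hD, Pi.mul_apply]
    ring
  have e1 : analyticOrderAt (deriv D) 0 + 1 = analyticOrderAt D 0 := by
    have := hDa.analyticOrderAt_deriv_add_one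
    simpa [hD0] using this
  have e2 : analyticOrderAt (deriv D1) 0 + 1 = analyticOrderAt D1 0 := by
    have := hD1a.analyticOrderAt_deriv_add_one
    simpa [hD10] using this
  have e3 : analyticOrderAt (deriv D) 0 = analyticOrderAt D1 0 := analyticOrderAt_congr hdD
  have e4 : analyticOrderAt (deriv D1) 0 = analyticOrderAt G 0 + analyticOrderAt D 0 := by
    rw [analyticOrderAt_congr hdD1, analyticOrderAt_mul hGa hDa]
  have e5 : analyticOrderAt D 0 = ⊤ := by
    by_contra hne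
    obtain ⟨n, hn⟩ := ENat.ne_top_iff_exists.mp hne
    rw [← hn] at e4 e1
    rw [e3, ← e2, e4] at e1
    generalize analyticOrderAt G 0 = g at e1
    cases g with
    | top => simp at e1
    | coe g =>
      have : ((g + n + 1 + 1 : ℕ) : ℕ∞) = (n : ℕ∞) := by push_cast; exact e1
      have := ENat.natCast_inj.mp this
      omega
  have := analyticOrderAt_eq_top.mp e5
  filter_upwards [this] with h hh
  exact sub_eq_zero.mp hh

theorem wp_countable_preimage {f : ℂ → ℂ} (hf : Function.Injective f) :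
    {t : ℂ | f t ∈ L.lattice}.Countable :=
  (wp_countable_lattice L).preimage_of_injOn hf.injOn

theorem wp_isClosed_preimage {f : ℂ → ℂ} (hf : Continuous f) :
    IsClosed {t : ℂ | f t ∈ L.lattice} :=
  L.isClosed_lattice.preimage hf

/-- Propagation: if `℘ t = ℘ (t + u)` near some point, then it holds wherever both sides are
defined. -/
theorem wp_eq_add_of_eventually {u t₀ : ℂ} (ht₀ : t₀ ∉ L.lattice) (ht₀u : t₀ + u ∉ L.lattice)
    (h : ∀ᶠ t in 𝓝 t₀, ℘[L] t = ℘[L] (t + u)) {t : ℂ} (ht : t ∉ L.lattice)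
    (htu : t + u ∉ L.lattice) : ℘[L] t = ℘[L] (t + u) := by
  set V : Set ℂ := ({t : ℂ | t ∈ L.lattice} ∪ {t : ℂ | t + u ∈ L.lattice})ᶜ with hV
  have hVpre : IsPreconnected V := by
    refine (Set.Countable.isConnected_compl_of_one_lt_rank (by simp) ?_).2
    exact (wp_countable_preimage L (f := id) Function.injective_id).union
      (wp_countable_preimage L (f := fun t => t + u) (add_left_injective u))
  have hmem : ∀ {s : ℂ}, s ∈ V ↔ s ∉ L.lattice ∧ s + u ∉ L.lattice := by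
    intro s
    simp [hV]
  have hf : AnalyticOnNhd ℂ ℘[L] V := fun s hs => wp_analyticAt L (hmem.mp hs).1
  have hg : AnalyticOnNhd ℂ (fun s => ℘[L] (s + u)) V := fun s hs =>
    (wp_analyticAt L (hmem.mp hs).2).comp (f := fun s => s + u) (by fun_prop)
  exact hf.eqOn_of_preconnected_of_eventuallyEq hg hVpre (hmem.mpr ⟨ht₀, ht₀u⟩) h
    (hmem.mpr ⟨ht, htu⟩)

/-- **D2** (order two lemma): `℘` and `℘'` together separate points of `ℂ / Λ`. -/
theorem wp_sub_mem_of_eq {z w : ℂ} (hz : z ∉ L.lattice) (hw : w ∉ L.lattice)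
    (h0 : ℘[L] z = ℘[L] w) (h1 : ℘'[L] z = ℘'[L] w) : z - w ∈ L.lattice := by
  have hloc := wp_eventually_eq_of_eq L hz hw h0 h1
  -- `℘ t = ℘ (t + (z - w))` for `t` near `w`
  have h2 : ∀ᶠ t in 𝓝 w, ℘[L] t = ℘[L] (t + (z - w)) := by
    have h3 : Tendsto (fun t : ℂ => t - w) (𝓝 w) (𝓝 0) := by
      have : Continuous (fun t : ℂ => t - w) := by fun_prop
      simpa using this.tendsto w
    filter_upwards [h3.eventually hloc] with t ht
    have e1 : z + (t - w) = t + (z - w) := by ring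
    have e2 : w + (t - w) = t := by ring
    rw [e1, e2] at ht
    exact ht.symm
  apply wp_period_mem L
  have hopen : ∀ᶠ t in 𝓝 (0 : ℂ), t ∈ ((L.lattice : Set ℂ) \ {0})ᶜ :=
    L.compl_lattice_sdiff_singleton_mem_nhds 0
  by_contra hcon
  -- if `z - w ∉ Λ` then `t + (z - w) ∉ Λ` for `t` near `0`
  have hu : z - w ∉ L.lattice := fun hmem => hcon (by
    filter_upwards with t
    have := L.weierstrassP_add_coe t ⟨z - w, hmem⟩
    simpa using this.symm)
  have hev : ∀ᶠ t in 𝓝[≠] (0 : ℂ), ℘[L] t = ℘[L] (t + (z - w)) := by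
    have h4 : ∀ᶠ t in 𝓝 (0 : ℂ), t + (z - w) ∉ L.lattice := by
      have h5 : Tendsto (fun t : ℂ => t + (z - w)) (𝓝 0) (𝓝 (z - w)) := by
        have : Continuous (fun t : ℂ => t + (z - w)) := by fun_prop
        simpa using this.tendsto 0
      exact h5.eventually ((wp_isOpen_compl L).mem_nhds hu)
    filter_upwards [mem_nhdsWithin_of_mem_nhds hopen, mem_nhdsWithin_of_mem_nhds h4,
      self_mem_nhdsWithin] with t ht1 ht2 ht0
    have htl : t ∉ L.lattice := fun hmem => ht1 ⟨hmem, ht0⟩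
    exact wp_eq_add_of_eventually L hw (by simpa using hz) h2 htl ht2
  exact hcon hev

theorem wp_eq_of_sub_mem {z w : ℂ} (h : z - w ∈ L.lattice) : ℘[L] z = ℘[L] w := by
  have := L.weierstrassP_add_coe w ⟨z - w, h⟩
  simpa using this

theorem wp_eq_of_sub_mem' {z w : ℂ} (h : z - w ∈ L.lattice) : ℘'[L] z = ℘'[L] w := by
  have := L.derivWeierstrassP_add_coe w ⟨z - w, h⟩
  simpa using this

theorem wp_neg_notMem {z : ℂ} (hz : z ∉ L.lattice) : -z ∉ L.lattice := fun h => hz (by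
  simpa using neg_mem h)

/-- `℘ z = ℘ w` iff `z ≡ ± w` modulo the lattice. -/
theorem wp_eq_iff {z w : ℂ} (hz : z ∉ L.lattice) (hw : w ∉ L.lattice) :
    ℘[L] z = ℘[L] w ↔ z - w ∈ L.lattice ∨ z + w ∈ L.lattice := by
  constructor
  · intro h0
    have h1 : ℘'[L] z ^ 2 = ℘'[L] w ^ 2 := by
      rw [L.derivWeierstrassP_sq z hz, L.derivWeierstrassP_sq w hw, h0]
    rcases sq_eq_sq_iff_eq_or_eq_neg.mp h1 with h | h
    · exact Or.inl (wp_sub_mem_of_eq L hz hw h0 h)
    · right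
      have := wp_sub_mem_of_eq L hz (wp_neg_notMem L hw) (by simpa using h0) (by simpa using h)
      simpa using this
  · rintro (h | h)
    · exact wp_eq_of_sub_mem L h
    · have := wp_eq_of_sub_mem L (z := z) (w := -w) (by simpa using h)
      simpa using this

/-- `℘' z = 0` iff `z` is a (non-trivial) 2-division point. -/
theorem wp_deriv_eq_zero_iff {z : ℂ} (hz : z ∉ L.lattice) :
    ℘'[L] z = 0 ↔ 2 * z ∈ L.lattice := by
  constructor
  · intro h
    have := wp_sub_mem_of_eq L hz (wp_neg_notMem L hz) (by simp) (by simp [h])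
    have e : z - -z = 2 * z := by ring
    rwa [e] at this
  · intro h
    have h1 := wp_eq_of_sub_mem' L (z := z) (w := -z) (by
      have e : z - -z = 2 * z := by ring
      rwa [e])
    rw [L.derivWeierstrassP_neg] at h1
    have h2 : (2 : ℂ) * ℘'[L] z = 0 := by linear_combination h1
    simpa using h2

end Fermat.Agent.S13x
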