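/-
S13 project, leaf (d) analytic route, module D05 (final wrappers, helper95): the statements of
`WpSpec.lean` for `wpCurve` / `wpPoint`, obtained from `WpPoint.lean` (`WppInputs`) and the landed
analytic modules `WpEuler` (D02), `WpInj` (D03), `WpSurj` (D04).
-/
import Fermat.Agent.S13x.WpDefs
import Fermat.Agent.S13x.WpPoint
import Fermat.Agent.S13x.WpEuler
import Fermat.Agent.S13x.WpInj
import Fermat.Agent.S13x.WpSurj

set_option autoImplicit false

open scoped PeriodPair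
open WeierstrassCurve WeierstrassCurve.Affine

namespace Fermat.Agent.S13x

/-- all analytic inputs of `WpPoint.lean`. -/
theorem wpp_inputs (L : PeriodPair) : WppInputs L where
  add_x := fun _ _ hz hw hzw hne => wpe_add_x L hz hw hzw hne
  add_y := fun _ _ hz hw hzw hne => wpe_add_y L hz hw hzw hne
  inj := fun _ _ hz hw h => wpi_eq_imp L hz hw h
  deriv_zero := fun _ hz h => wpi_deriv_eq_zero_imp L hz h
  dup_x := fun _ hz h2 =>
    (wpi_dup_of_add L (fun _ _ hz hw hzw hne =>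
      ⟨wpe_add_x L hz hw hzw hne, wpe_add_y L hz hw hzw hne⟩) hz h2).1
  dup_y := fun _ hz h2 =>
    (wpi_dup_of_add L (fun _ _ hz hw hzw hne =>
      ⟨wpe_add_x L hz hw hzw hne, wpe_add_y L hz hw hzw hne⟩) hz h2).2
  surj := wps_surj L

theorem wpp_curve_eq (L : PeriodPair) : wppCurve L = wpCurve L := rfl

theorem wpp_point_eq (L : PeriodPair) (hΔ : L.g₂ ^ 3 - 27 * L.g₃ ^ 2 ≠ 0) (z : ℂ) :
    wppPoint L hΔ z = wpPoint L hΔ z := rfl

theorem wpp_add (L : PeriodPair) (hΔ : L.g₂ ^ 3 - 27 * L.g₃ ^ 2 ≠ 0) (z w : ℂ) :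
    wpPoint L hΔ (z + w) = wpPoint L hΔ z + wpPoint L hΔ w :=
  wppPoint_add hΔ (wpp_inputs L) z w

theorem wpp_surjective (L : PeriodPair) (hΔ : L.g₂ ^ 3 - 27 * L.g₃ ^ 2 ≠ 0) :
    Function.Surjective (wpPoint L hΔ) :=
  wppPoint_surjective hΔ (wpp_inputs L)

/-- The uniformisation isomorphism `ℂ ⧸ Λ ≃+ E_L(ℂ)`. -/
theorem wpp_exists_equiv (L : PeriodPair) (hΔ : L.g₂ ^ 3 - 27 * L.g₃ ^ 2 ≠ 0) :
    ∃ e : (ℂ ⧸ L.lattice.toAddSubgroup) ≃+ (wpCurve L).toAffine.Point,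
      ∀ z : ℂ, e (QuotientAddGroup.mk z) = wpPoint L hΔ z :=
  ⟨wppEquiv hΔ (wpp_inputs L), fun z => wppEquiv_mk hΔ (wpp_inputs L) z⟩

end Fermat.Agent.S13x
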