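/-
S13 leaf (d), analytic route: SPEC (exact statements of every module, `sorry` bodies).
NEVER import this file from a module that is to be landed as final: prove the statement under the
real name (= the spec name without `spec_`), in the file named in table `s13d_plan`.
-/
import Fermat.Agent.S13x.WpDefs
import Mathlib.Algebra.Module.Torsion.Basic
import Mathlib.FieldTheory.IsAlgClosed.AlgebraicClosure
import Fermat.Prelude.Def_FLTPrelim_GaloisRep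

set_option autoImplicit false

open scoped PeriodPair
open WeierstrassCurve WeierstrassCurve.Affine

namespace Fermat.Agent.S13x

/-! ## D01 `WpBasic.lean` (prefix `wpb_`) -/

theorem spec_wpb_hasDerivAt_wp (L : PeriodPair) {z : ℂ} (hz : z ∉ L.lattice) :
    HasDerivAt ℘[L] (℘'[L] z) z := sorry

/-- `℘'' = 6℘² - g₂/2`. -/
theorem spec_wpb_hasDerivAt_wp' (L : PeriodPair) {z : ℂ} (hz : z ∉ L.lattice) :
    HasDerivAt ℘'[L] (6 * ℘[L] z ^ 2 - L.g₂ / 2) z := sorry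

theorem spec_wpb_add_mem_lattice_iff (L : PeriodPair) {z l : ℂ} (hl : l ∈ L.lattice) :
    z + l ∈ L.lattice ↔ z ∈ L.lattice := sorry

/-- Laurent data at `0`: `℘ z = z⁻² + h z`, `℘' z = -2 z⁻³ + h' z` with `h = ℘[L - 0]` analytic
at `0`, `h 0 = 0`, `h' 0 = 0` (Mathlib: `weierstrassPExcept_def`, `analyticAt_weierstrassPExcept`,
`weierstrassPExcept_zero`, `derivWeierstrassPExcept_zero_zero`). -/
theorem spec_wpb_wp_eq (L : PeriodPair) (z : ℂ) :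
    ℘[L] z = 1 / z ^ 2 + ℘[L - (0 : ℂ)] z := sorry

theorem spec_wpb_wp'_eq (L : PeriodPair) (z : ℂ) :
    ℘'[L] z = -2 / z ^ 3 + ℘'[L - (0 : ℂ)] z := sorry

/-! ## D02 `WpAdd.lean` (`wpa_`, helper15) / `WpEuler.lean` (`wpe_`, helper26):
generic addition theorem -/

/-- Generic addition theorem, `x`-coordinate. -/
theorem spec_wpa_add_x (L : PeriodPair) {z w : ℂ} (hz : z ∉ L.lattice) (hw : w ∉ L.lattice)
    (hzw : z + w ∉ L.lattice) (hne : ℘[L] z ≠ ℘[L] w) :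
    ℘[L] (z + w) =
      ((℘'[L] z - ℘'[L] w) / (℘[L] z - ℘[L] w)) ^ 2 / 4 - ℘[L] z - ℘[L] w := sorry

/-- Generic addition theorem, `y`-coordinate (in terms of `℘'`, i.e. twice the curve's `y`). -/
theorem spec_wpa_add_y (L : PeriodPair) {z w : ℂ} (hz : z ∉ L.lattice) (hw : w ∉ L.lattice)
    (hzw : z + w ∉ L.lattice) (hne : ℘[L] z ≠ ℘[L] w) :
    ℘'[L] (z + w) =
      -((℘'[L] z - ℘'[L] w) / (℘[L] z - ℘[L] w) * (℘[L] (z + w) - ℘[L] z) + ℘'[L] z) := sorry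

/-! ## D03 `WpInj.lean` (`wpi_`, helper17): injectivity mod ±, 2-torsion, duplication -/

theorem spec_wpi_eq_imp (L : PeriodPair) {z w : ℂ} (hz : z ∉ L.lattice) (hw : w ∉ L.lattice)
    (h : ℘[L] z = ℘[L] w) : z - w ∈ L.lattice ∨ z + w ∈ L.lattice := sorry

theorem spec_wpi_deriv_eq_zero_imp (L : PeriodPair) {z : ℂ} (hz : z ∉ L.lattice)
    (h : ℘'[L] z = 0) : 2 * z ∈ L.lattice := sorry

theorem spec_wpi_deriv_eq_zero_of (L : PeriodPair) {z : ℂ} (hz : z ∉ L.lattice)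
    (h : 2 * z ∈ L.lattice) : ℘'[L] z = 0 := sorry

/-- Duplication formula, `x`-coordinate; `℘'' = 6℘² - g₂/2`. -/
theorem spec_wpi_two_mul_x (L : PeriodPair) {z : ℂ} (hz : z ∉ L.lattice)
    (h2 : 2 * z ∉ L.lattice) :
    ℘[L] (2 * z) = ((6 * ℘[L] z ^ 2 - L.g₂ / 2) / ℘'[L] z) ^ 2 / 4 - 2 * ℘[L] z := sorry

/-- Duplication formula, `y`-coordinate. -/
theorem spec_wpi_two_mul_y (L : PeriodPair) {z : ℂ} (hz : z ∉ L.lattice)
    (h2 : 2 * z ∉ L.lattice) :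
    ℘'[L] (2 * z) =
      -((6 * ℘[L] z ^ 2 - L.g₂ / 2) / ℘'[L] z * (℘[L] (2 * z) - ℘[L] z) + ℘'[L] z) := sorry

/-! ## D04 `WpSurj.lean` (`wps_`, helper98) -/

theorem spec_wps_surj (L : PeriodPair) (c : ℂ) : ∃ z : ℂ, z ∉ L.lattice ∧ ℘[L] z = c := sorry

/-! ## D05 `WpPoint.lean` (`wpp_`, helper81) -/

theorem spec_wpp_add (L : PeriodPair) (hΔ : L.g₂ ^ 3 - 27 * L.g₃ ^ 2 ≠ 0) (z w : ℂ) :
    wpPoint L hΔ (z + w) = wpPoint L hΔ z + wpPoint L hΔ w := sorry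

theorem spec_wpp_surjective (L : PeriodPair) (hΔ : L.g₂ ^ 3 - 27 * L.g₃ ^ 2 ≠ 0) :
    Function.Surjective (wpPoint L hΔ) := sorry

/-- The uniformisation isomorphism `ℂ ⧸ Λ ≃+ E_L(ℂ)`. -/
theorem spec_wpp_exists_equiv (L : PeriodPair) (hΔ : L.g₂ ^ 3 - 27 * L.g₃ ^ 2 ≠ 0) :
    ∃ e : (ℂ ⧸ L.lattice.toAddSubgroup) ≃+ (wpCurve L).toAffine.Point,
      ∀ z : ℂ, e (QuotientAddGroup.mk z) = wpPoint L hΔ z := sorry

/-! ## D06 `WpTorsion.lean` (`wpt_`, OPEN) -/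

theorem spec_wpt_card_torsion_quot (L : PeriodPair) {n : ℕ} (hn : 0 < n) :
    Nat.card (Submodule.torsionBy ℤ (ℂ ⧸ L.lattice.toAddSubgroup) (n : ℤ)) = n ^ 2 := sorry

theorem spec_wpt_card_torsion (L : PeriodPair) (hΔ : L.g₂ ^ 3 - 27 * L.g₃ ^ 2 ≠ 0) {n : ℕ}
    (hn : 0 < n) :
    Nat.card (Submodule.torsionBy ℤ (wpCurve L).toAffine.Point (n : ℤ)) = n ^ 2 := sorry

/-! ## D07 `LatticeOfInvariants.lean` (`loi_`, helper95) / `LatticeOfG.lean` (`lg_`, helper97) -/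

theorem spec_loi_exists_periodPair (a b : ℂ) (h : a ^ 3 - 27 * b ^ 2 ≠ 0) :
    ∃ L : PeriodPair, L.g₂ = a ∧ L.g₃ = b := sorry

/-! ## D08 `TorsionC.lean` (`tc_`, OPEN) -/

theorem spec_tc_card_torsion (W : WeierstrassCurve ℂ) (hΔ : W.Δ ≠ 0) {n : ℕ} (hn : 0 < n) :
    Nat.card (Submodule.torsionBy ℤ W.toAffine.Point (n : ℤ)) = n ^ 2 := sorry

/-! ## D09 `DescentQbar.lean` (`dq_`, OPEN) -/

/-- Torsion points over `ℂ` of a curve defined over `ℚ` have algebraic coordinates: they come from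
`Qbar`-points along any embedding `Qbar → ℂ`. (Uses finiteness of `E[n](ℂ)` = D08.) -/
theorem spec_dq_exists_of_torsion (W : WeierstrassCurve ℚ) (hΔ : W.Δ ≠ 0) {n : ℕ} (hn : 0 < n)
    (f : AlgebraicClosure ℚ →ₐ[ℚ] ℂ) (P : (W⁄ℂ).Point) (hP : (n : ℤ) • P = 0) :
    ∃ Q : (W⁄(AlgebraicClosure ℚ)).Point, Affine.Point.map f Q = P := sorry

theorem spec_dq_card_eq (W : WeierstrassCurve ℚ) (hΔ : W.Δ ≠ 0) {n : ℕ} (hn : 0 < n) :
    Nat.card (Submodule.torsionBy ℤ (W⁄(AlgebraicClosure ℚ)).Point (n : ℤ)) =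
      Nat.card (Submodule.torsionBy ℤ (W⁄ℂ).Point (n : ℤ)) := sorry

/-! ## D10 `TorsionQbar.lean` (`tq_`, helper81) -/

theorem spec_tq_card_torsion (W : WeierstrassCurve ℚ) (hΔ : W.Δ ≠ 0) {n : ℕ} (hn : 0 < n) :
    Nat.card (Submodule.torsionBy ℤ (W⁄(AlgebraicClosure ℚ)).Point (n : ℤ)) = n ^ 2 := sorry

theorem spec_tq_nontrivial (W : WeierstrassCurve ℚ) (hΔ : W.Δ ≠ 0) {n : ℕ} (hn : 1 < n) :
    Nontrivial (Submodule.torsionBy ℤ (W⁄(AlgebraicClosure ℚ)).Point (n : ℤ)) := sorry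

end Fermat.Agent.S13x
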