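/-
S13 project, leaf (d), module D06 (second half, helper62): the `n`-torsion of the Weierstrass
curve `wpCurve L` has `n ^ 2` points, GIVEN the uniformisation isomorphism of module D05
(`wpp_exists_equiv`) as a hypothesis.  The hypothesis-free `wpt_card_torsion` is the one-liner
`wpt_card_torsion_of L hΔ (wpp_exists_equiv L hΔ) hn` once `WpPoint.lean` is landed.
-/
import Fermat.Agent.S13x.WpDefs
import Fermat.Agent.S13x.WpTorsion

set_option autoImplicit false

open scoped PeriodPair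
open WeierstrassCurve WeierstrassCurve.Affine

namespace Fermat.Agent.S13x

theorem wpt_card_torsion_of (L : PeriodPair) (hΔ : L.g₂ ^ 3 - 27 * L.g₃ ^ 2 ≠ 0)
    (he : ∃ e : (ℂ ⧸ L.lattice.toAddSubgroup) ≃+ (wpCurve L).toAffine.Point,
      ∀ z : ℂ, e (QuotientAddGroup.mk z) = wpPoint L hΔ z) {n : ℕ} (hn : 0 < n) :
    Nat.card (Submodule.torsionBy ℤ (wpCurve L).toAffine.Point (n : ℤ)) = n ^ 2 := by
  obtain ⟨e, -⟩ := he
  exact wpt_card_torsionBy_of_addEquiv L e n hn

/-- variant from additivity + surjectivity of `wpPoint` (the two other exports of D05). -/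
theorem wpt_card_torsion_of_add_surj (L : PeriodPair) (hΔ : L.g₂ ^ 3 - 27 * L.g₃ ^ 2 ≠ 0)
    (hadd : ∀ z w : ℂ, wpPoint L hΔ (z + w) = wpPoint L hΔ z + wpPoint L hΔ w)
    (hsurj : Function.Surjective (wpPoint L hΔ)) {n : ℕ} (hn : 0 < n) :
    Nat.card (Submodule.torsionBy ℤ (wpCurve L).toAffine.Point (n : ℤ)) = n ^ 2 := by
  let f : ℂ →+ (wpCurve L).toAffine.Point :=
    { toFun := wpPoint L hΔ
      map_zero' := (wpPoint_eq_zero_iff L hΔ 0).2 (zero_mem _)
      map_add' := hadd }
  exact wpt_card_torsionBy_of_surjective L f hsurj (fun z => wpPoint_eq_zero_iff L hΔ z) n hn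

end Fermat.Agent.S13x
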