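/-
S13 leaf (d), Wronskian route, module W06 (helper96): counting zeros of a function on the affine
curve and existence of zeros over an algebraically closed field; the torsion bounds (U), (L) in
"core" form (the inputs from W03 `WronDeg` and W05 `WronTors` are explicit hypotheses, so that this
file only needs `WronDefs` and `TorsCount`).
-/
import Fermat.Agent.S13x.WronDefs
import Fermat.Agent.S13x.TorsCount

set_option autoImplicit false

open Polynomial WeierstrassCurve WeierstrassCurve.Affine
open scoped Polynomial.Bivariate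

namespace Fermat.Agent.S13x

variable {K : Type*} [Field K] {W : Affine K}

/-- `wrEval` (WronDefs) and `tcEval` (TorsCount) are the same evaluation map. -/
lemma wr_eval_eq_tcEval {a b : K} (h : W.Equation a b) : wrEval h = tcEval W h := rfl

/-- Over an algebraically closed field, every maximal ideal of the coordinate ring is the kernel
of a `K`-algebra hom to `K`. -/
theorem wr_exists_algHom_of_isMaximal [IsAlgClosed K] (m : Ideal W.CoordinateRing)
    [hm : m.IsMaximal] : ∃ ψ : W.CoordinateRing →ₐ[K] K, ∀ f, ψ f = 0 ↔ f ∈ m := by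
  let _ : Field (W.CoordinateRing ⧸ m) := Ideal.Quotient.field m
  have hft : Algebra.FiniteType K (W.CoordinateRing ⧸ m) :=
    Algebra.FiniteType.of_surjective (Ideal.Quotient.mkₐ K m) Ideal.Quotient.mk_surjective
  have hfin : Module.Finite K (W.CoordinateRing ⧸ m) :=
    finite_of_finite_type_of_isJacobsonRing K (W.CoordinateRing ⧸ m)
  have hbij : Function.Bijective (algebraMap K (W.CoordinateRing ⧸ m)) :=
    IsAlgClosed.algebraMap_bijective_of_isIntegral
  let e : K ≃ₐ[K] (W.CoordinateRing ⧸ m) :=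
    AlgEquiv.ofBijective (Algebra.ofId K (W.CoordinateRing ⧸ m)) hbij
  refine ⟨(e.symm : (W.CoordinateRing ⧸ m) →ₐ[K] K).comp (Ideal.Quotient.mkₐ K m), fun f => ?_⟩
  rw [AlgHom.comp_apply]
  constructor
  · intro h0
    have h1 : (Ideal.Quotient.mkₐ K m) f = 0 :=
      e.symm.injective (by rw [map_zero]; exact h0)
    exact Ideal.Quotient.eq_zero_iff_mem.mp h1
  · intro hf
    have h1 : (Ideal.Quotient.mkₐ K m) f = 0 := Ideal.Quotient.eq_zero_iff_mem.mpr hf
    rw [h1]
    exact map_zero _

/-- over an algebraically closed field every maximal ideal of the coordinate ring is a point -/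
theorem wr_exists_point_of_isMaximal [IsAlgClosed K] (m : Ideal W.CoordinateRing) [m.IsMaximal] :
    ∃ a b : K, W.Equation a b ∧ m = CoordinateRing.XYIdeal W a (C b) := by
  obtain ⟨ψ, hψ⟩ := wr_exists_algHom_of_isMaximal m
  refine ⟨_, _, tc_algHom_equation W ψ, ?_⟩
  ext f
  rw [← hψ f, ← tcEval_eq_zero_iff W (tc_algHom_equation W ψ), ← tc_algHom_eq_tcEval W ψ]

/-- a nonzero function has at most `deg` zeros -/
theorem wr_card_zeros_le {f : W.CoordinateRing} (hf : f ≠ 0)
    (s : Finset (K × K)) (hs : ∀ P ∈ s, ∃ h : W.Equation P.1 P.2, wrEval h f = 0) :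
    s.card ≤ (Algebra.norm K[X] f).natDegree := by
  refine tc_card_le W f hf s fun P hP => ?_
  obtain ⟨h, h0⟩ := hs P hP
  exact ⟨h, (wr_eval_eq_zero_iff h f).1 h0⟩

/-- (U), core form: if `g ≠ 0` vanishes at every affine `n`-torsion point then there are at most
`natDegree (norm g) + 1` points killed by `n`. -/
theorem wr_torsion_finite_card_le_core [DecidableEq K] (n : ℕ) (g : W.CoordinateRing) (hg : g ≠ 0)
    (hcrit : ∀ (a b : K) (h : W.Nonsingular a b), n • Point.some a b h = 0 → wrEval h.1 g = 0) :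
    {P : W.Point | n • P = 0}.Finite ∧
      {P : W.Point | n • P = 0}.ncard ≤ (Algebra.norm K[X] g).natDegree + 1 :=
  tc_points_ncard_le W g hg _ fun a b h hP => (wr_eval_eq_zero_iff h.1 g).1 (hcrit a b h hP)

/-- (U) from the inputs of W03 (`wron_ne_zero`, `wron_natDegree_norm`) and W05
(`wr_nsmul_eq_zero_iff`, direction `→`). -/
theorem wr_torsion_finite_card_le_of [DecidableEq K] (n : ℕ) (hn : 1 ≤ n)
    (h0 : wron W n ≠ 0) (hdeg : (Algebra.norm K[X] (wron W n)).natDegree = n ^ 2 - 1)
    (hcrit : ∀ (a b : K) (h : W.Nonsingular a b),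
      n • Point.some a b h = 0 → wrEval h.1 (wron W n) = 0) :
    {P : W.Point | n • P = 0}.Finite ∧ {P : W.Point | n • P = 0}.ncard ≤ n ^ 2 := by
  obtain ⟨hfin, hcard⟩ := wr_torsion_finite_card_le_core n (wron W n) h0 hcrit
  refine ⟨hfin, hcard.trans ?_⟩
  rw [hdeg]
  have : 1 ≤ n ^ 2 := Nat.one_le_pow _ _ hn
  omega

/-- (L), core form: a non-unit `g` all of whose zeros are `n`-torsion points produces a nonzero
`n`-torsion point over an algebraically closed field. -/
theorem wr_exists_torsion_core [DecidableEq K] [IsAlgClosed K] (hΔ : W.Δ ≠ 0) (n : ℕ)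
    (g : W.CoordinateRing) (hunit : ¬ IsUnit g)
    (hcrit : ∀ (a b : K) (h : W.Nonsingular a b), wrEval h.1 g = 0 → n • Point.some a b h = 0) :
    ∃ P : W.Point, P ≠ 0 ∧ n • P = 0 := by
  obtain ⟨a, b, h, hmem⟩ := tc_exists_nonsingular W hΔ g hunit
  exact ⟨Point.some a b h, Point.some_ne_zero h, hcrit a b h ((wr_eval_eq_zero_iff h.1 g).2 hmem)⟩

/-- (L) from the inputs of W03 (`wron_not_isUnit`) and W05 (`wr_nsmul_eq_zero_iff`, `←`). -/
theorem wr_exists_torsion_of [DecidableEq K] [IsAlgClosed K] [W.IsElliptic] (n : ℕ)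
    (hunit : ¬ IsUnit (wron W n))
    (hcrit : ∀ (a b : K) (h : W.Nonsingular a b),
      wrEval h.1 (wron W n) = 0 → n • Point.some a b h = 0) :
    ∃ P : W.Point, P ≠ 0 ∧ n • P = 0 :=
  wr_exists_torsion_core (W.coe_Δ' ▸ W.Δ'.ne_zero) n (wron W n) hunit hcrit

end Fermat.Agent.S13x
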