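/-
S13 leaf (d), Wronskian route, module T2: calculus of the filtration `wrFil` (pole order at
infinity) and of the coefficient functionals `wrTop`.
-/
import Fermat.Agent.S13x.WronDefs
import Fermat.Agent.S13x.WronNorm

set_option autoImplicit false

open Polynomial WeierstrassCurve WeierstrassCurve.Affine
open scoped Polynomial.Bivariate

namespace Fermat.Agent.S13x

variable {K : Type*} [Field K] (W : Affine K)

/-! ### degrees of the auxiliary polynomials -/

lemma wr_natDegree_G_le : (wrG W).natDegree ≤ 3 := by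
  unfold wrG; compute_degree

lemma wr_coeff_G_three : (wrG W).coeff 3 = 1 := by
  unfold wrG; simp

lemma wr_natDegree_L_le : (wrL W).natDegree ≤ 1 := by
  unfold wrL; compute_degree

lemma wr_natDegree_G'_le : (wrG' W).natDegree ≤ 2 := by
  unfold wrG'; compute_degree

lemma wr_coeff_G'_two : (wrG' W).coeff 2 = 3 := by
  unfold wrG'; simp

/-! ### membership in natDegree form -/

lemma wr_degree_lt_succ_iff (p : K[X]) (k : ℕ) :
    p.degree < ((k + 1 : ℕ) : WithBot ℕ) ↔ p.natDegree ≤ k := by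
  rw [degree_lt_iff_coeff_zero, natDegree_le_iff_coeff_eq_zero]
  constructor
  · intro h N hN; exact h N hN
  · intro h N hN; exact h N hN

lemma wr_degree_lt_iff (q : K[X]) (b : ℕ) :
    q.degree < (b : WithBot ℕ) ↔ (q = 0 ∨ q.natDegree + 1 ≤ b) := by
  rcases eq_or_ne q 0 with rfl | hq
  · simp only [degree_zero, true_or, iff_true]; exact WithBot.bot_lt_coe _
  · rw [← natDegree_lt_iff_degree_lt hq]
    constructor
    · intro h; exact Or.inr h
    · rintro (h | h)
      · exact absurd h hq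
      · exact h

lemma wr_mem_fil_iff' {m : ℕ} {f : W.CoordinateRing} : f ∈ wrFil W m ↔
    (wrP W f).natDegree ≤ m / 2 ∧ (wrQ W f = 0 ∨ (wrQ W f).natDegree + 1 ≤ (m - 1) / 2) := by
  rw [wr_mem_fil, wr_degree_lt_succ_iff, wr_degree_lt_iff]

theorem wr_fil_mono {m m' : ℕ} (h : m ≤ m') : wrFil W m ≤ wrFil W m' := by
  intro f hf
  rw [wr_mem_fil_iff'] at hf ⊢
  obtain ⟨h1, h2⟩ := hf
  refine ⟨by omega, ?_⟩
  rcases h2 with h2 | h2
  · exact Or.inl h2
  · exact Or.inr (by omega)

/-! ### top coefficients: linearity -/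

theorem wr_top_add (m : ℕ) (f g : W.CoordinateRing) :
    wrTop W m (f + g) = wrTop W m f + wrTop W m g := by
  unfold wrTop
  split_ifs
  · rw [wr_P_add, coeff_add]
  · rw [wr_Q_add, coeff_add]

theorem wr_top_smul (m : ℕ) (c : K) (f : W.CoordinateRing) :
    wrTop W m (c • f) = c * wrTop W m f := by
  have h : c • f = (C c : K[X]) • f := by
    rw [Algebra.smul_def, Algebra.smul_def]; rfl
  unfold wrTop
  split_ifs
  · rw [h, wr_P_smul, coeff_C_mul]
  · rw [h, wr_Q_smul, coeff_C_mul]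

lemma wr_top_zero (m : ℕ) : wrTop W m (0 : W.CoordinateRing) = 0 := by
  unfold wrTop; rw [wr_P_zero, wr_Q_zero]; simp

lemma wr_top_sum {ι : Type*} (s : Finset ι) (m : ℕ) (F : ι → W.CoordinateRing) :
    wrTop W m (∑ i ∈ s, F i) = ∑ i ∈ s, wrTop W m (F i) := by
  classical
  induction s using Finset.induction_on with
  | empty => simp [wr_top_zero]
  | insert a s ha ih => rw [Finset.sum_insert ha, Finset.sum_insert ha, wr_top_add, ih]

/-- above the filtration degree all coefficient functionals vanish -/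
lemma wr_top_eq_zero_of_mem_fil {m n : ℕ} {f : W.CoordinateRing} (hf : f ∈ wrFil W m)
    (hn : m < n) : wrTop W n f = 0 := by
  rw [wr_mem_fil_iff'] at hf
  obtain ⟨h1, h2⟩ := hf
  unfold wrTop
  split_ifs with he
  · apply coeff_eq_zero_of_natDegree_lt
    obtain ⟨k, rfl⟩ := he
    omega
  · rcases h2 with h2 | h2
    · rw [h2, coeff_zero]
    · apply coeff_eq_zero_of_natDegree_lt
      rw [Nat.not_even_iff_odd] at he
      obtain ⟨k, rfl⟩ := he
      omega

/-! ### products -/

theorem wr_mul_mem_fil {m m' : ℕ} {f g : W.CoordinateRing} (hf : f ∈ wrFil W m)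
    (hg : g ∈ wrFil W m') : f * g ∈ wrFil W (m + m') := by
  rw [wr_mem_fil_iff'] at hf hg ⊢
  obtain ⟨hf1, hf2⟩ := hf
  obtain ⟨hg1, hg2⟩ := hg
  have hG := wr_natDegree_G_le W
  have hL := wr_natDegree_L_le W
  rw [wr_P_mul, wr_Q_mul]
  rcases hf2 with hf2 | hf2 <;> rcases hg2 with hg2 | hg2
  · simp only [hf2, hg2, zero_mul, mul_zero, add_zero, sub_zero]
    refine ⟨?_, Or.inl trivial⟩
    compute_degree
    omega
  · simp only [hf2, zero_mul, mul_zero, add_zero, sub_zero]
    refine ⟨?_, Or.inr ?_⟩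
    · compute_degree
      omega
    · have : (wrP W f * wrQ W g).natDegree ≤ (m + m' - 1) / 2 - 1 := by
        compute_degree
        omega
      omega
  · simp only [hg2, zero_mul, mul_zero, add_zero, sub_zero, zero_add]
    refine ⟨?_, Or.inr ?_⟩
    · compute_degree
      omega
    · have : (wrP W g * wrQ W f).natDegree ≤ (m + m' - 1) / 2 - 1 := by
        compute_degree
        omega
      omega
  · refine ⟨?_, Or.inr ?_⟩
    · compute_degree
      all_goals omega
    · have : (wrP W f * wrQ W g + wrP W g * wrQ W f - wrQ W f * wrQ W g * wrL W).natDegree ≤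
          (m + m' - 1) / 2 - 1 := by
        compute_degree
        all_goals omega
      omega

lemma wr_top_even (a : ℕ) (f : W.CoordinateRing) : wrTop W (2 * a) f = (wrP W f).coeff a := by
  unfold wrTop
  rw [if_pos ⟨a, by ring⟩]
  congr 1
  omega

lemma wr_top_odd (a : ℕ) (f : W.CoordinateRing) :
    wrTop W (2 * a + 1) f = (wrQ W f).coeff (a - 1) := by
  unfold wrTop
  rw [if_neg (by rw [Nat.not_even_iff_odd]; exact ⟨a, rfl⟩)]
  congr 1
  omega

private lemma wr_top_mul_ee {a a' : ℕ} {f g : W.CoordinateRing} (hf : f ∈ wrFil W (2 * a))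
    (hg : g ∈ wrFil W (2 * a')) :
    wrTop W (2 * a + 2 * a') (f * g) = wrTop W (2 * a) f * wrTop W (2 * a') g := by
  rw [wr_mem_fil_iff'] at hf hg
  obtain ⟨hf1, hf2⟩ := hf
  obtain ⟨hg1, hg2⟩ := hg
  have hG := wr_natDegree_G_le W
  have e : 2 * a + 2 * a' = 2 * (a + a') := by ring
  rw [e, wr_top_even, wr_top_even, wr_top_even, wr_P_mul, coeff_add]
  have h1 : (wrP W f * wrP W g).coeff (a + a') = (wrP W f).coeff a * (wrP W g).coeff a' :=
    coeff_mul_add_eq_of_natDegree_le (by omega) (by omega)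
  have h2 : (wrQ W f * wrQ W g * wrG W).coeff (a + a') = 0 := by
    rcases hf2 with hf2 | hf2
    · simp [hf2]
    rcases hg2 with hg2 | hg2
    · simp [hg2]
    apply coeff_eq_zero_of_natDegree_lt
    have : (wrQ W f * wrQ W g * wrG W).natDegree ≤ a + a' - 1 := by
      compute_degree
      omega
    omega
  rw [h1, h2, add_zero]

private lemma wr_top_mul_eo {a a' : ℕ} {f g : W.CoordinateRing} (hf : f ∈ wrFil W (2 * a))
    (hg : g ∈ wrFil W (2 * a' + 1)) :
    wrTop W (2 * a + (2 * a' + 1)) (f * g) = wrTop W (2 * a) f * wrTop W (2 * a' + 1) g := by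
  rw [wr_mem_fil_iff'] at hf hg
  obtain ⟨hf1, hf2⟩ := hf
  obtain ⟨hg1, hg2⟩ := hg
  have hL := wr_natDegree_L_le W
  have e : 2 * a + (2 * a' + 1) = 2 * (a + a') + 1 := by ring
  rw [e, wr_top_odd, wr_top_even, wr_top_odd, wr_Q_mul, coeff_sub, coeff_add]
  -- the term `P g * Q f`
  have h2 : (wrP W g * wrQ W f).coeff (a + a' - 1) = 0 := by
    rcases hf2 with hf2 | hf2
    · simp [hf2]
    apply coeff_eq_zero_of_natDegree_lt
    have : (wrP W g * wrQ W f).natDegree ≤ a + a' - 2 := by
      compute_degree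
      omega
    omega
  -- the term `Q f * Q g * L`
  have h3 : (wrQ W f * wrQ W g * wrL W).coeff (a + a' - 1) = 0 := by
    rcases hf2 with hf2 | hf2
    · simp [hf2]
    rcases hg2 with hg2 | hg2
    · simp [hg2]
    apply coeff_eq_zero_of_natDegree_lt
    have : (wrQ W f * wrQ W g * wrL W).natDegree ≤ a + a' - 2 := by
      compute_degree
      omega
    omega
  rw [h2, h3, add_zero, sub_zero]
  rcases hg2 with hg2 | hg2
  · simp [hg2]
  · have e2 : a + a' - 1 = a + (a' - 1) := by omega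
    rw [e2]
    exact coeff_mul_add_eq_of_natDegree_le (by omega) (by omega)

private lemma wr_top_mul_oo {a a' : ℕ} {f g : W.CoordinateRing} (hf : f ∈ wrFil W (2 * a + 1))
    (hg : g ∈ wrFil W (2 * a' + 1)) :
    wrTop W (2 * a + 1 + (2 * a' + 1)) (f * g) =
      wrTop W (2 * a + 1) f * wrTop W (2 * a' + 1) g := by
  rw [wr_mem_fil_iff'] at hf hg
  obtain ⟨hf1, hf2⟩ := hf
  obtain ⟨hg1, hg2⟩ := hg
  have hG := wr_natDegree_G_le W
  have e : 2 * a + 1 + (2 * a' + 1) = 2 * (a + a' + 1) := by ring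
  rw [e, wr_top_even, wr_top_odd, wr_top_odd, wr_P_mul, coeff_add]
  have h1 : (wrP W f * wrP W g).coeff (a + a' + 1) = 0 := by
    apply coeff_eq_zero_of_natDegree_lt
    have : (wrP W f * wrP W g).natDegree ≤ a + a' := by
      compute_degree
      omega
    omega
  rw [h1, zero_add]
  rcases hf2 with hf2 | hf2
  · simp [hf2]
  rcases hg2 with hg2 | hg2
  · simp [hg2]
  have e2 : a + a' + 1 = (a - 1) + (a' - 1) + 3 := by omega
  rw [e2, coeff_mul_add_eq_of_natDegree_le (df := (a - 1) + (a' - 1)) (dg := 3)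
    (by compute_degree; omega) hG,
    coeff_mul_add_eq_of_natDegree_le (df := a - 1) (dg := a' - 1) (by omega) (by omega),
    wr_coeff_G_three, mul_one]

theorem wr_top_mul {m m' : ℕ} {f g : W.CoordinateRing} (hf : f ∈ wrFil W m)
    (hg : g ∈ wrFil W m') : wrTop W (m + m') (f * g) = wrTop W m f * wrTop W m' g := by
  rcases Nat.even_or_odd' m with ⟨a, rfl | rfl⟩ <;> rcases Nat.even_or_odd' m' with ⟨a', rfl | rfl⟩
  · exact wr_top_mul_ee W hf hg
  · exact wr_top_mul_eo W hf hg
  · rw [add_comm, mul_comm f g, mul_comm (wrTop W _ f)]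
    exact wr_top_mul_eo W hg hf
  · exact wr_top_mul_oo W hf hg

/-! ### the derivation -/

lemma wr_deg_mul_lt {a b : K[X]} {n k N : ℕ} (ha : a.degree < (n : WithBot ℕ))
    (hb : b.natDegree ≤ k) (hN : n ≠ 0 → n + k ≤ N) : (a * b).degree < (N : WithBot ℕ) := by
  rw [wr_degree_lt_iff] at ha
  rcases ha with rfl | ha
  · rw [zero_mul, degree_zero]; exact WithBot.bot_lt_coe _
  · have hn : n ≠ 0 := by omega
    have h1 := hN hn
    have h2 : (a * b).natDegree ≤ a.natDegree + b.natDegree := natDegree_mul_le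
    refine lt_of_le_of_lt degree_le_natDegree ?_
    have h3 : (a * b).natDegree < N := by omega
    exact_mod_cast h3

lemma wr_deg_derivative_lt {p : K[X]} {n N : ℕ} (hp : p.degree < (n : WithBot ℕ))
    (hN : 2 ≤ n → n - 1 ≤ N) : (derivative p).degree < (N : WithBot ℕ) := by
  rw [wr_degree_lt_iff] at hp
  rcases hp with rfl | hp
  · rw [derivative_zero, degree_zero]; exact WithBot.bot_lt_coe _
  · by_cases h0 : p.natDegree = 0
    · rw [derivative_of_natDegree_zero h0, degree_zero]; exact WithBot.bot_lt_coe _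
    · have h1 := natDegree_derivative_lt h0
      have h2 := hN (by omega)
      refine lt_of_le_of_lt degree_le_natDegree ?_
      have h3 : (derivative p).natDegree < N := by omega
      exact_mod_cast h3

lemma wr_deg_lt_mono {p : K[X]} {n N : ℕ} (hp : p.degree < (n : WithBot ℕ)) (h : n ≤ N) :
    p.degree < (N : WithBot ℕ) :=
  lt_of_lt_of_le hp (by exact_mod_cast h)

theorem wr_D_mem_fil {m : ℕ} {f : W.CoordinateRing} (hf : f ∈ wrFil W m) :
    wrD W f ∈ wrFil W (m + 1) := by
  rw [wr_mem_fil] at hf ⊢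
  obtain ⟨hP, hQ⟩ := hf
  have hG := wr_natDegree_G_le W
  have hG' := wr_natDegree_G'_le W
  have hL := wr_natDegree_L_le W
  rw [wr_P_D, wr_Q_D]
  have hP' : ∀ N, (2 ≤ m / 2 + 1 → m / 2 + 1 - 1 ≤ N) →
      (derivative (wrP W f)).degree < (N : WithBot ℕ) := fun N h => wr_deg_derivative_lt hP h
  have hQ' : ∀ N, (2 ≤ (m - 1) / 2 → (m - 1) / 2 - 1 ≤ N) →
      (derivative (wrQ W f)).degree < (N : WithBot ℕ) := fun N h => wr_deg_derivative_lt hQ h
  constructor
  · -- `P' L + 2 Q' G + Q G'`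
    unfold wrDA
    have t1 : (derivative (wrP W f) * wrL W).degree < (((m + 1) / 2 + 1 : ℕ) : WithBot ℕ) :=
      wr_deg_mul_lt (hP' (m / 2) (by omega)) hL (by omega)
    have t2 : (2 * derivative (wrQ W f) * wrG W).degree < (((m + 1) / 2 + 1 : ℕ) : WithBot ℕ) := by
      have e : 2 * derivative (wrQ W f) * wrG W = derivative (wrQ W f) * (2 * wrG W) := by ring
      rw [e]
      have h2G : (2 * wrG W).natDegree ≤ 3 := by compute_degree; exact hG
      exact wr_deg_mul_lt (hQ' ((m - 1) / 2 - 1) (by omega)) h2G (by omega)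
    have t3 : (wrQ W f * wrG' W).degree < (((m + 1) / 2 + 1 : ℕ) : WithBot ℕ) :=
      wr_deg_mul_lt hQ hG' (by omega)
    exact lt_of_le_of_lt (degree_add_le _ _)
      (max_lt (lt_of_le_of_lt (degree_add_le _ _) (max_lt t1 t2)) t3)
  · -- `2 P' - Q' L - a₁ Q`
    unfold wrDB
    have e : (m + 1 - 1) / 2 = m / 2 := by omega
    rw [e]
    have t1 : (2 * derivative (wrP W f)).degree < ((m / 2 : ℕ) : WithBot ℕ) := by
      rw [mul_comm]
      have h2 : (2 : K[X]).natDegree ≤ 0 := by compute_degree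
      exact wr_deg_mul_lt (hP' (m / 2) (by omega)) h2 (by omega)
    have t2 : (derivative (wrQ W f) * wrL W).degree < ((m / 2 : ℕ) : WithBot ℕ) :=
      wr_deg_mul_lt (hQ' ((m - 1) / 2 - 1) (by omega)) hL (by omega)
    have t3 : (C W.a₁ * wrQ W f).degree < ((m / 2 : ℕ) : WithBot ℕ) := by
      rw [mul_comm]
      have hC : (C W.a₁ : K[X]).natDegree ≤ 0 := by compute_degree
      exact wr_deg_mul_lt hQ hC (by omega)
    exact lt_of_le_of_lt (degree_sub_le _ _)
      (max_lt (lt_of_le_of_lt (degree_sub_le _ _) (max_lt t1 t2)) t3)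

lemma wr_natDegree_derivative_le' (p : K[X]) :
    derivative p = 0 ∨ (derivative p).natDegree + 1 ≤ p.natDegree := by
  by_cases h0 : p.natDegree = 0
  · exact Or.inl (derivative_of_natDegree_zero h0)
  · exact Or.inr (natDegree_derivative_lt h0)

private lemma wr_top_D_even {a : ℕ} {f : W.CoordinateRing} (hf : f ∈ wrFil W (2 * a)) :
    wrTop W (2 * a + 1) (wrD W f) = ((2 * a : ℕ) : K) * wrTop W (2 * a) f := by
  rw [wr_mem_fil_iff'] at hf
  obtain ⟨hf1, hf2⟩ := hf
  have hL := wr_natDegree_L_le W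
  rw [wr_top_odd, wr_top_even, wr_Q_D]
  unfold wrDB
  rw [coeff_sub, coeff_sub]
  -- `C a₁ * Q`
  have h3 : (C W.a₁ * wrQ W f).coeff (a - 1) = 0 := by
    rcases hf2 with hf2 | hf2
    · simp [hf2]
    · rw [coeff_C_mul, coeff_eq_zero_of_natDegree_lt (by omega), mul_zero]
  -- `Q' L`
  have h2 : (derivative (wrQ W f) * wrL W).coeff (a - 1) = 0 := by
    rcases hf2 with hf2 | hf2
    · simp [hf2]
    rcases wr_natDegree_derivative_le' (wrQ W f) with hd | hd
    · simp [hd]
    apply coeff_eq_zero_of_natDegree_lt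
    have : (derivative (wrQ W f) * wrL W).natDegree ≤ a - 2 := by
      compute_degree
      omega
    omega
  rw [h2, h3, sub_zero, sub_zero]
  rcases Nat.eq_zero_or_pos a with rfl | ha
  · have h0 : (wrP W f).natDegree = 0 := by omega
    simp [derivative_of_natDegree_zero h0]
  · obtain ⟨b, rfl⟩ : ∃ b, a = b + 1 := ⟨a - 1, by omega⟩
    have e2 : (2 : K[X]) * derivative (wrP W f) = C 2 * derivative (wrP W f) := by
      rw [map_ofNat]
    rw [e2, coeff_C_mul, coeff_derivative]
    simp only [Nat.add_sub_cancel]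
    push_cast
    ring

private lemma wr_top_D_odd {a : ℕ} {f : W.CoordinateRing} (hf : f ∈ wrFil W (2 * a + 1)) :
    wrTop W (2 * a + 1 + 1) (wrD W f) = ((2 * a + 1 : ℕ) : K) * wrTop W (2 * a + 1) f := by
  rw [wr_mem_fil_iff'] at hf
  obtain ⟨hf1, hf2⟩ := hf
  have hL := wr_natDegree_L_le W
  have hG := wr_natDegree_G_le W
  have hG' := wr_natDegree_G'_le W
  have e : 2 * a + 1 + 1 = 2 * (a + 1) := by ring
  rw [e, wr_top_even, wr_top_odd, wr_P_D]
  unfold wrDA
  rw [coeff_add, coeff_add]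
  -- `P' L`
  have h1 : (derivative (wrP W f) * wrL W).coeff (a + 1) = 0 := by
    rcases wr_natDegree_derivative_le' (wrP W f) with hd | hd
    · simp [hd]
    apply coeff_eq_zero_of_natDegree_lt
    have : (derivative (wrP W f) * wrL W).natDegree ≤ a := by
      compute_degree
      omega
    omega
  rw [h1, zero_add]
  rcases hf2 with hf2 | hf2
  · simp [hf2]
  -- now `Q ≠ 0`, `natDegree Q ≤ a - 1`, `a ≥ 1`
  obtain ⟨b, rfl⟩ : ∃ b, a = b + 1 := ⟨a - 1, by omega⟩
  simp only [Nat.add_sub_cancel]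
  have hq : (wrQ W f).natDegree ≤ b := by omega
  -- `Q G'`
  have h3 : (wrQ W f * wrG' W).coeff (b + 1 + 1) = (wrQ W f).coeff b * 3 := by
    have e3 : b + 1 + 1 = b + 2 := by ring
    rw [e3, coeff_mul_add_eq_of_natDegree_le hq hG', wr_coeff_G'_two]
  -- `2 Q' G`
  have h2 : (2 * derivative (wrQ W f) * wrG W).coeff (b + 1 + 1) =
      2 * ((wrQ W f).coeff b * (b : K)) := by
    have e2 : (2 : K[X]) * derivative (wrQ W f) * wrG W =
        C 2 * (derivative (wrQ W f) * wrG W) := by
      rw [map_ofNat]; ring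
    rw [e2, coeff_C_mul]
    congr 1
    rcases Nat.eq_zero_or_pos b with rfl | hb
    · have h0 : (wrQ W f).natDegree = 0 := by omega
      simp [derivative_of_natDegree_zero h0]
    · obtain ⟨c, rfl⟩ : ∃ c, b = c + 1 := ⟨b - 1, by omega⟩
      have hd : (derivative (wrQ W f)).natDegree ≤ c := by
        rcases wr_natDegree_derivative_le' (wrQ W f) with hd | hd
        · simp [hd]
        · omega
      have e3 : c + 1 + 1 + 1 = c + 3 := by ring
      rw [e3, coeff_mul_add_eq_of_natDegree_le hd hG, wr_coeff_G_three, mul_one,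
        coeff_derivative]
      push_cast
      ring
  rw [h2, h3]
  push_cast
  ring

theorem wr_top_D {m : ℕ} {f : W.CoordinateRing} (hf : f ∈ wrFil W m) :
    wrTop W (m + 1) (wrD W f) = (m : K) * wrTop W m f := by
  rcases Nat.even_or_odd' m with ⟨a, rfl | rfl⟩
  · exact wr_top_D_even W hf
  · exact wr_top_D_odd W hf

/-! ### the basis elements -/

lemma wr_P_smul_one (p : K[X]) : wrP W (p • (1 : W.CoordinateRing)) = p := by
  have := wr_P_smul_basis W p 0
  simpa using this

lemma wr_Q_smul_one (p : K[X]) : wrQ W (p • (1 : W.CoordinateRing)) = 0 := by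
  have := wr_Q_smul_basis W p 0
  simpa using this

lemma wr_P_smul_Y (q : K[X]) : wrP W (q • wrY W) = 0 := by
  have := wr_P_smul_basis W 0 q
  simpa using this

lemma wr_Q_smul_Y (q : K[X]) : wrQ W (q • wrY W) = q := by
  have := wr_Q_smul_basis W 0 q
  simpa using this

theorem wr_one_mem_fil : (1 : W.CoordinateRing) ∈ wrFil W 0 := by
  rw [wr_mem_fil_iff', wr_P_one, wr_Q_one]
  exact ⟨by simp, Or.inl rfl⟩

theorem wr_top_one : wrTop W 0 (1 : W.CoordinateRing) = 1 := by
  have h := wr_top_even W 0 (1 : W.CoordinateRing)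
  rw [mul_zero] at h
  rw [h, wr_P_one, coeff_one_zero]

lemma wr_E_even (a : ℕ) : wrE W (2 * a) = (X ^ a : K[X]) • (1 : W.CoordinateRing) := by
  unfold wrE
  rw [if_pos ⟨a, by ring⟩]
  congr 2
  omega

lemma wr_E_odd (a : ℕ) : wrE W (2 * a + 1) = (X ^ (a - 1) : K[X]) • wrY W := by
  unfold wrE
  rw [if_neg (by rw [Nat.not_even_iff_odd]; exact ⟨a, rfl⟩)]
  congr 2
  omega

theorem wr_E_mem_fil {d : ℕ} (hd : d ≠ 1) : wrE W d ∈ wrFil W d := by
  rw [wr_mem_fil_iff']
  rcases Nat.even_or_odd' d with ⟨a, rfl | rfl⟩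
  · rw [wr_E_even, wr_P_smul_one, wr_Q_smul_one]
    refine ⟨?_, Or.inl rfl⟩
    rw [natDegree_X_pow]
    omega
  · rw [wr_E_odd, wr_P_smul_Y, wr_Q_smul_Y]
    refine ⟨by simp, Or.inr ?_⟩
    rw [natDegree_X_pow]
    omega

theorem wr_top_E {d : ℕ} (hd : d ≠ 1) : wrTop W d (wrE W d) = 1 := by
  rcases Nat.even_or_odd' d with ⟨a, rfl | rfl⟩
  · rw [wr_top_even, wr_E_even, wr_P_smul_one, coeff_X_pow_self]
  · rw [wr_top_odd, wr_E_odd, wr_Q_smul_Y, coeff_X_pow_self]

theorem wr_top_E_of_ne {d d' : ℕ} (hd : d ≠ 1) (hd' : d' ≠ 1) (h : d ≠ d') :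
    wrTop W d' (wrE W d) = 0 := by
  rcases Nat.even_or_odd' d with ⟨a, rfl | rfl⟩ <;>
    rcases Nat.even_or_odd' d' with ⟨a', rfl | rfl⟩
  · rw [wr_top_even, wr_E_even, wr_P_smul_one, coeff_X_pow, if_neg (by omega)]
  · rw [wr_top_odd, wr_E_even, wr_Q_smul_one, coeff_zero]
  · rw [wr_top_even, wr_E_odd, wr_P_smul_Y, coeff_zero]
  · rw [wr_top_odd, wr_E_odd, wr_Q_smul_Y, coeff_X_pow, if_neg (by omega)]

/-- lower filtration step = vanishing of the top coefficient -/
theorem wr_mem_fil_succ_iff {m : ℕ} {f : W.CoordinateRing} (hf : f ∈ wrFil W (m + 1)) :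
    f ∈ wrFil W m ↔ wrTop W (m + 1) f = 0 := by
  constructor
  · intro h
    exact wr_top_eq_zero_of_mem_fil W h (Nat.lt_succ_self m)
  · intro ht
    rw [wr_mem_fil_iff'] at hf ⊢
    obtain ⟨h1, h2⟩ := hf
    rcases Nat.even_or_odd' (m + 1) with ⟨a, ha | ha⟩
    · -- `m + 1 = 2 a`
      rw [ha, wr_top_even] at ht
      refine ⟨?_, ?_⟩
      · rw [natDegree_le_iff_coeff_eq_zero]
        intro N hN
        rcases Nat.lt_or_ge a N with h | h
        · exact coeff_eq_zero_of_natDegree_lt (by omega)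
        · have : N = a := by omega
          rw [this]; exact ht
      · rcases h2 with h2 | h2
        · exact Or.inl h2
        · exact Or.inr (by omega)
    · -- `m + 1 = 2 a + 1`
      rw [ha, wr_top_odd] at ht
      refine ⟨by omega, ?_⟩
      rcases h2 with h2 | h2
      · exact Or.inl h2
      · by_cases hq : wrQ W f = 0
        · exact Or.inl hq
        · right
          have hne : (wrQ W f).natDegree ≠ a - 1 := by
            intro he
            have := leadingCoeff_ne_zero.mpr hq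
            rw [leadingCoeff, he] at this
            exact this ht
          omega

theorem wr_top_neg (m : ℕ) (f : W.CoordinateRing) : wrTop W m (-f) = -wrTop W m f := by
  have h := wr_top_smul W m (-1 : K) f
  rw [neg_one_smul, neg_one_mul] at h
  exact h

theorem wr_top_sub (m : ℕ) (f g : W.CoordinateRing) :
    wrTop W m (f - g) = wrTop W m f - wrTop W m g := by
  rw [sub_eq_add_neg, wr_top_add, wr_top_neg, sub_eq_add_neg]

lemma wr_idx_castSucc {n : ℕ} (j : Fin n) : wrIdx (Fin.castSucc j) = wrIdx j := by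
  simp [wrIdx]

lemma wr_idx_last {n : ℕ} (hn : 1 ≤ n) : wrIdx (Fin.last n) = n + 1 := by
  simp only [wrIdx, Fin.val_last]
  rw [if_neg (by omega)]

lemma wr_idx_ne_one' {n : ℕ} (j : Fin n) : wrIdx j ≠ 1 := by
  unfold wrIdx
  split_ifs with h <;> omega

lemma wr_idx_le' {n : ℕ} (j : Fin n) : wrIdx j ≤ n := by
  unfold wrIdx
  have := j.isLt
  split_ifs with h <;> omega

/-- `L(n·O)` is spanned by `e_{d_j}`, `j < n` (for `n ≥ 1`). -/
theorem wr_fil_decomp {n : ℕ} (hn : 1 ≤ n) {f : W.CoordinateRing} (hf : f ∈ wrFil W n) :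
    f = ∑ j : Fin n, wrTop W (wrIdx j) f • wrE W (wrIdx j) := by
  induction n, hn using Nat.le_induction generalizing f with
  | base =>
    rw [Fin.sum_univ_one]
    have h0 : wrIdx (0 : Fin 1) = 0 := by simp [wrIdx]
    rw [h0]
    rw [wr_mem_fil_iff'] at hf
    obtain ⟨h1, h2⟩ := hf
    have hq : wrQ W f = 0 := by
      rcases h2 with h2 | h2
      · exact h2
      · omega
    have hp : wrP W f = C ((wrP W f).coeff 0) := eq_C_of_natDegree_eq_zero (by omega)
    apply wr_ext
    · have e0 : wrE W 0 = (X ^ 0 : K[X]) • (1 : W.CoordinateRing) := wr_E_even W 0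
      have ht : wrTop W 0 f = (wrP W f).coeff 0 := by
        have := wr_top_even W 0 f
        rwa [mul_zero] at this
      have hs : wrTop W 0 f • wrE W 0 = (C (wrTop W 0 f) : K[X]) • wrE W 0 := by
        rw [Algebra.smul_def, Algebra.smul_def]; rfl
      rw [hs, wr_P_smul, e0, wr_P_smul_one, pow_zero, mul_one, ht]
      exact hp
    · have e0 : wrE W 0 = (X ^ 0 : K[X]) • (1 : W.CoordinateRing) := wr_E_even W 0
      have hs : wrTop W 0 f • wrE W 0 = (C (wrTop W 0 f) : K[X]) • wrE W 0 := by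
        rw [Algebra.smul_def, Algebra.smul_def]; rfl
      rw [hs, wr_Q_smul, e0, wr_Q_smul_one, mul_zero, hq]
  | succ n hn ih =>
    rw [Fin.sum_univ_castSucc]
    simp only [wr_idx_castSucc, wr_idx_last hn]
    set c := wrTop W (n + 1) f with hc
    set g := f - c • wrE W (n + 1) with hg
    have hne : n + 1 ≠ 1 := by omega
    have hg1 : g ∈ wrFil W (n + 1) :=
      Submodule.sub_mem _ hf (Submodule.smul_mem _ _ (wr_E_mem_fil W hne))
    have hg2 : wrTop W (n + 1) g = 0 := by
      rw [hg, wr_top_sub, wr_top_smul, wr_top_E W hne, mul_one, hc, sub_self]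
    have hg3 : g ∈ wrFil W n := (wr_mem_fil_succ_iff W hg1).mpr hg2
    have key := ih hg3
    have htop : ∀ j : Fin n, wrTop W (wrIdx j) g = wrTop W (wrIdx j) f := by
      intro j
      rw [hg, wr_top_sub, wr_top_smul,
        wr_top_E_of_ne W hne (wr_idx_ne_one' j) (by have := wr_idx_le' j; omega), mul_zero,
        sub_zero]
    simp only [htop] at key
    rw [← key, hg]
    abel

/-! ### link with the norm (proved by helper35 in `WronNorm.lean`) -/

theorem wr_mem_fil_of_natDegree_norm_le {m : ℕ} {f : W.CoordinateRing}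
    (h : (Algebra.norm K[X] f).natDegree ≤ m) : f ∈ wrFil W m :=
  wrn_mem_fil_of_natDegree_norm_le W h

theorem wr_natDegree_norm_le_of_mem_fil {m : ℕ} {f : W.CoordinateRing} (hf : f ∈ wrFil W m) :
    (Algebra.norm K[X] f).natDegree ≤ m :=
  wrn_natDegree_norm_le_of_mem_fil W hf

theorem wr_natDegree_norm_eq_of_top_ne_zero {m : ℕ} {f : W.CoordinateRing} (hf : f ∈ wrFil W m)
    (ht : wrTop W m f ≠ 0) : (Algebra.norm K[X] f).natDegree = m :=
  wrn_natDegree_norm_eq_of_top_ne_zero W hf ht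

end Fermat.Agent.S13x
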