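/-
S13 leaf (d), Wronskian route: the elementary half of module W02 (Spec section T2) under `wrn_`
names: monotonicity, additivity of the coefficient functionals, the basis `e_d`, the decomposition
of `L(n·O)`.  helper35.
-/
import Fermat.Agent.S13x.WronNorm

set_option autoImplicit false

open Polynomial WeierstrassCurve WeierstrassCurve.Affine
open scoped Polynomial.Bivariate

namespace Fermat.Agent.S13x

variable {K : Type*} [Field K] (W : Affine K)

/-! ### coordinates of `p • 1` and `q • Y` -/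

lemma wrn_P_smul_one (p : K[X]) : wrP W (p • (1 : W.CoordinateRing)) = p := by
  have := wr_P_smul_basis W p 0
  simpa using this

lemma wrn_Q_smul_one (p : K[X]) : wrQ W (p • (1 : W.CoordinateRing)) = 0 := by
  have := wr_Q_smul_basis W p 0
  simpa using this

lemma wrn_P_smul_Y (q : K[X]) : wrP W (q • wrY W) = 0 := by
  have := wr_P_smul_basis W 0 q
  simpa using this

lemma wrn_Q_smul_Y (q : K[X]) : wrQ W (q • wrY W) = q := by
  have := wr_Q_smul_basis W 0 q
  simpa using this

lemma wrn_smul_eq_C_smul (c : K) (f : W.CoordinateRing) : c • f = (C c : K[X]) • f := by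
  rw [Algebra.smul_def, Algebra.smul_def]; rfl

lemma wrn_P_smul_const (c : K) (f : W.CoordinateRing) : wrP W (c • f) = C c * wrP W f := by
  rw [wrn_smul_eq_C_smul, wr_P_smul]

lemma wrn_Q_smul_const (c : K) (f : W.CoordinateRing) : wrQ W (c • f) = C c * wrQ W f := by
  rw [wrn_smul_eq_C_smul, wr_Q_smul]

/-! ### the filtration and the coefficient functionals -/

theorem wrn_fil_mono {m m' : ℕ} (h : m ≤ m') : wrFil W m ≤ wrFil W m' := by
  intro f hf
  rw [wrn_mem_fil_iff] at hf ⊢
  have hmm : (m : WithBot ℕ) ≤ (m' : WithBot ℕ) := by exact_mod_cast h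
  exact ⟨hf.1.trans hmm, hf.2.trans hmm⟩

theorem wrn_top_add (m : ℕ) (f g : W.CoordinateRing) :
    wrTop W m (f + g) = wrTop W m f + wrTop W m g := by
  unfold wrTop
  split_ifs
  · rw [wr_P_add, coeff_add]
  · rw [wr_Q_add, coeff_add]

theorem wrn_top_smul (m : ℕ) (c : K) (f : W.CoordinateRing) :
    wrTop W m (c • f) = c * wrTop W m f := by
  unfold wrTop
  split_ifs
  · rw [wrn_P_smul_const, coeff_C_mul]
  · rw [wrn_Q_smul_const, coeff_C_mul]

theorem wrn_top_zero (m : ℕ) : wrTop W m (0 : W.CoordinateRing) = 0 := by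
  unfold wrTop
  split_ifs
  · rw [wr_P_zero, coeff_zero]
  · rw [wr_Q_zero, coeff_zero]

theorem wrn_top_sum {ι : Type*} (s : Finset ι) (m : ℕ) (F : ι → W.CoordinateRing) :
    wrTop W m (∑ i ∈ s, F i) = ∑ i ∈ s, wrTop W m (F i) := by
  classical
  induction s using Finset.induction_on with
  | empty => simp [wrn_top_zero]
  | insert a s ha ih => rw [Finset.sum_insert ha, Finset.sum_insert ha, wrn_top_add, ih]

theorem wrn_one_mem_fil : (1 : W.CoordinateRing) ∈ wrFil W 0 := by
  rw [wr_mem_fil, wr_P_one, wr_Q_one]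
  refine ⟨?_, ?_⟩
  · rw [degree_one]; exact_mod_cast Nat.zero_lt_one
  · rw [degree_zero]; exact WithBot.bot_lt_coe _

theorem wrn_top_one : wrTop W 0 (1 : W.CoordinateRing) = 1 := by
  unfold wrTop
  rw [if_pos (by decide : Even 0), wr_P_one]
  simp

/-- lower filtration step = vanishing of the top coefficient -/
theorem wrn_mem_fil_succ_iff {m : ℕ} {f : W.CoordinateRing} (hf : f ∈ wrFil W (m + 1)) :
    f ∈ wrFil W m ↔ wrTop W (m + 1) f = 0 := by
  rw [wr_mem_fil] at hf ⊢
  obtain ⟨h1, h2⟩ := hf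
  rw [degree_lt_iff_coeff_zero] at h1 h2
  unfold wrTop
  split_ifs with hev
  · -- `m + 1 = 2k`
    obtain ⟨k, hk⟩ := hev
    have e1 : (m + 1) / 2 = k := by omega
    have e2 : m / 2 + 1 = k := by omega
    have e3 : (m + 1 - 1) / 2 = (m - 1) / 2 := by omega
    rw [e1] at h1 ⊢
    rw [e3] at h2
    rw [e2]
    constructor
    · rintro ⟨h3, -⟩
      rw [degree_lt_iff_coeff_zero] at h3
      exact h3 k le_rfl
    · intro h0
      refine ⟨?_, ?_⟩
      · rw [degree_lt_iff_coeff_zero]
        intro i hi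
        rcases eq_or_lt_of_le hi with rfl | hlt
        · exact h0
        · exact h1 i (by omega)
      · rw [degree_lt_iff_coeff_zero]; exact h2
  · -- `m + 1 = 2k + 1`
    have hodd : Odd (m + 1) := Nat.not_even_iff_odd.mp hev
    obtain ⟨k, hk⟩ := hodd
    have e1 : (m + 1) / 2 + 1 = k + 1 := by omega
    have e2 : m / 2 + 1 = k + 1 := by omega
    have e3 : (m + 1 - 1) / 2 = k := by omega
    have e4 : (m + 1 - 3) / 2 = k - 1 := by omega
    have e5 : (m - 1) / 2 = k - 1 := by omega
    rw [e1] at h1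
    rw [e3] at h2
    rw [e2, e4, e5]
    constructor
    · rintro ⟨-, h3⟩
      rw [degree_lt_iff_coeff_zero] at h3
      exact h3 (k - 1) le_rfl
    · intro h0
      refine ⟨?_, ?_⟩
      · rw [degree_lt_iff_coeff_zero]; exact h1
      · rw [degree_lt_iff_coeff_zero]
        intro i hi
        rcases Nat.eq_zero_or_pos k with hk0 | hkpos
        · exact h2 i (by omega)
        · rcases eq_or_lt_of_le hi with heq | hlt
          · rw [← heq]; exact h0
          · exact h2 i (by omega)

/-! ### the basis elements `e_d` -/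

lemma wrn_P_E_even {d : ℕ} (hd : Even d) : wrP W (wrE W d) = X ^ (d / 2) := by
  unfold wrE; rw [if_pos hd, wrn_P_smul_one]

lemma wrn_Q_E_even {d : ℕ} (hd : Even d) : wrQ W (wrE W d) = 0 := by
  unfold wrE; rw [if_pos hd, wrn_Q_smul_one]

lemma wrn_P_E_odd {d : ℕ} (hd : ¬ Even d) : wrP W (wrE W d) = 0 := by
  unfold wrE; rw [if_neg hd, wrn_P_smul_Y]

lemma wrn_Q_E_odd {d : ℕ} (hd : ¬ Even d) : wrQ W (wrE W d) = X ^ ((d - 3) / 2) := by
  unfold wrE; rw [if_neg hd, wrn_Q_smul_Y]

theorem wrn_E_mem_fil {d : ℕ} (hd : d ≠ 1) : wrE W d ∈ wrFil W d := by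
  rw [wr_mem_fil]
  by_cases hev : Even d
  · rw [wrn_P_E_even W hev, wrn_Q_E_even W hev, degree_X_pow, degree_zero]
    exact ⟨by exact_mod_cast Nat.lt_succ_self _, WithBot.bot_lt_coe _⟩
  · rw [wrn_P_E_odd W hev, wrn_Q_E_odd W hev, degree_X_pow, degree_zero]
    have hodd : Odd d := Nat.not_even_iff_odd.mp hev
    obtain ⟨k, hk⟩ := hodd
    refine ⟨WithBot.bot_lt_coe _, ?_⟩
    have : (d - 3) / 2 < (d - 1) / 2 := by omega
    exact_mod_cast this

theorem wrn_top_E {d : ℕ} (_hd : d ≠ 1) : wrTop W d (wrE W d) = 1 := by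
  unfold wrTop
  by_cases hev : Even d
  · rw [if_pos hev, wrn_P_E_even W hev, coeff_X_pow, if_pos rfl]
  · rw [if_neg hev, wrn_Q_E_odd W hev, coeff_X_pow, if_pos rfl]

/-- the coefficient functionals are dual to the basis `e_d` -/
theorem wrn_top_E_of_ne {d d' : ℕ} (hd : d ≠ 1) (hd' : d' ≠ 1) (h : d ≠ d') :
    wrTop W d' (wrE W d) = 0 := by
  unfold wrTop
  by_cases hev : Even d <;> by_cases hev' : Even d'
  · rw [if_pos hev', wrn_P_E_even W hev, coeff_X_pow, if_neg]
    obtain ⟨k, hk⟩ := hev
    obtain ⟨k', hk'⟩ := hev'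
    omega
  · rw [if_neg hev', wrn_Q_E_even W hev, coeff_zero]
  · rw [if_pos hev', wrn_P_E_odd W hev, coeff_zero]
  · rw [if_neg hev', wrn_Q_E_odd W hev, coeff_X_pow, if_neg]
    obtain ⟨k, hk⟩ := Nat.not_even_iff_odd.mp hev
    obtain ⟨k', hk'⟩ := Nat.not_even_iff_odd.mp hev'
    omega

/-! ### decomposition of `L(n·O)` -/

lemma wrn_P_sum {ι : Type*} (s : Finset ι) (F : ι → W.CoordinateRing) :
    wrP W (∑ i ∈ s, F i) = ∑ i ∈ s, wrP W (F i) := by
  classical
  induction s using Finset.induction_on with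
  | empty => simp [wr_P_zero]
  | insert a s ha ih => rw [Finset.sum_insert ha, Finset.sum_insert ha, wr_P_add, ih]

lemma wrn_Q_sum {ι : Type*} (s : Finset ι) (F : ι → W.CoordinateRing) :
    wrQ W (∑ i ∈ s, F i) = ∑ i ∈ s, wrQ W (F i) := by
  classical
  induction s using Finset.induction_on with
  | empty => simp [wr_Q_zero]
  | insert a s ha ih => rw [Finset.sum_insert ha, Finset.sum_insert ha, wr_Q_add, ih]

lemma wrn_idx_le {n : ℕ} (j : Fin n) : wrIdx j ≤ n := by
  unfold wrIdx
  split_ifs <;> omega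

lemma wrn_idx_ne_one {n : ℕ} (j : Fin n) : wrIdx j ≠ 1 := by
  unfold wrIdx
  split_ifs <;> omega

lemma wrn_idx_injective {n : ℕ} : Function.Injective (wrIdx : Fin n → ℕ) := by
  intro i j h
  unfold wrIdx at h
  apply Fin.ext
  split_ifs at h <;> omega

/-- `L(n·O)` is spanned by `e_{d_j}`, `j < n` (for `n ≥ 1`; false for `n = 0`) -/
theorem wrn_fil_decomp {n : ℕ} (hn : 1 ≤ n) {f : W.CoordinateRing} (hf : f ∈ wrFil W n) :
    f = ∑ j : Fin n, wrTop W (wrIdx j) f • wrE W (wrIdx j) := by
  rw [wr_mem_fil] at hf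
  obtain ⟨h1, h2⟩ := hf
  rw [degree_lt_iff_coeff_zero] at h1 h2
  apply wr_ext
  · rw [wrn_P_sum]
    ext k
    rw [finsetSum_coeff]
    simp only [wrn_P_smul_const, coeff_C_mul]
    by_cases hk : 2 * k ≤ n
    · -- the index with `wrIdx j₀ = 2k`
      have hj0 : (if k = 0 then 0 else 2 * k - 1) < n := by split_ifs <;> omega
      set j0 : Fin n := ⟨if k = 0 then 0 else 2 * k - 1, hj0⟩ with hj0def
      have hidx : wrIdx j0 = 2 * k := by
        unfold wrIdx
        simp only [hj0def]
        split_ifs <;> omega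
      rw [Finset.sum_eq_single j0]
      · have hev : Even (wrIdx j0) := ⟨k, by omega⟩
        rw [wrn_P_E_even W hev, coeff_X_pow, if_pos (by omega), mul_one]
        unfold wrTop
        rw [if_pos hev]
        congr 1
        omega
      · intro j _ hj
        by_cases hev : Even (wrIdx j)
        · rw [wrn_P_E_even W hev, coeff_X_pow, if_neg, mul_zero]
          intro hk2
          apply hj
          apply wrn_idx_injective
          obtain ⟨i, hi⟩ := hev
          omega
        · rw [wrn_P_E_odd W hev, coeff_zero, mul_zero]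
      · intro h; exact absurd (Finset.mem_univ _) h
    · rw [h1 k (by omega)]
      symm
      apply Finset.sum_eq_zero
      intro j _
      by_cases hev : Even (wrIdx j)
      · rw [wrn_P_E_even W hev, coeff_X_pow, if_neg, mul_zero]
        have := wrn_idx_le j
        obtain ⟨i, hi⟩ := hev
        omega
      · rw [wrn_P_E_odd W hev, coeff_zero, mul_zero]
  · rw [wrn_Q_sum]
    ext k
    rw [finsetSum_coeff]
    simp only [wrn_Q_smul_const, coeff_C_mul]
    by_cases hk : 2 * k + 3 ≤ n
    · have hj0 : 2 * k + 2 < n := by omega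
      set j0 : Fin n := ⟨2 * k + 2, hj0⟩ with hj0def
      have hidx : wrIdx j0 = 2 * k + 3 := by
        unfold wrIdx
        simp only [hj0def]
        split_ifs <;> omega
      rw [Finset.sum_eq_single j0]
      · have hev : ¬ Even (wrIdx j0) := by
          rw [Nat.not_even_iff_odd]; exact ⟨k + 1, by omega⟩
        rw [wrn_Q_E_odd W hev, coeff_X_pow, if_pos (by omega), mul_one]
        unfold wrTop
        rw [if_neg hev]
        congr 1
        omega
      · intro j _ hj
        by_cases hev : Even (wrIdx j)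
        · rw [wrn_Q_E_even W hev, coeff_zero, mul_zero]
        · rw [wrn_Q_E_odd W hev, coeff_X_pow, if_neg, mul_zero]
          intro hk2
          apply hj
          apply wrn_idx_injective
          obtain ⟨i, hi⟩ := Nat.not_even_iff_odd.mp hev
          have := wrn_idx_ne_one j
          omega
      · intro h; exact absurd (Finset.mem_univ _) h
    · rw [h2 k (by omega)]
      symm
      apply Finset.sum_eq_zero
      intro j _
      by_cases hev : Even (wrIdx j)
      · rw [wrn_Q_E_even W hev, coeff_zero, mul_zero]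
      · rw [wrn_Q_E_odd W hev, coeff_X_pow, if_neg, mul_zero]
        have := wrn_idx_le j
        have := wrn_idx_ne_one j
        obtain ⟨i, hi⟩ := Nat.not_even_iff_odd.mp hev
        omega

end Fermat.Agent.S13x
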