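/-
S13 leaf (d), Wronskian route, module T3 (W03): the Wronskian `wron n` has pole order exactly
`n² - 1` at infinity, with top coefficient the Vandermonde determinant of the pole orders
`0, 2, 3, …, n`.
-/
import Fermat.Agent.S13x.WronFil
import Fermat.Agent.S13x.WronNorm2

set_option autoImplicit false

open Polynomial WeierstrassCurve WeierstrassCurve.Affine
open scoped Polynomial.Bivariate

namespace Fermat.Agent.S13x

variable {K : Type*} [Field K] (W : Affine K)

/-! ### iterated derivatives of the basis elements -/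

theorem wr_iterate_D_E_mem_fil (d i : ℕ) (hd : d ≠ 1) :
    (⇑(wrD W))^[i] (wrE W d) ∈ wrFil W (d + i) := by
  induction i with
  | zero => simpa using wrn_E_mem_fil W hd
  | succ i ih =>
    rw [Function.iterate_succ_apply', ← add_assoc]
    exact wr_D_mem_fil W ih

theorem wr_top_iterate_D_E (d i : ℕ) (hd : d ≠ 1) :
    wrTop W (d + i) ((⇑(wrD W))^[i] (wrE W d)) = (ascPochhammer K i).eval (d : K) := by
  induction i with
  | zero => simpa using wrn_top_E W hd
  | succ i ih =>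
    rw [Function.iterate_succ_apply', ← add_assoc, wr_top_D W (wr_iterate_D_E_mem_fil W d i hd), ih,
      ascPochhammer_succ_eval]
    push_cast
    ring

/-! ### the index function -/

theorem wr_idx_ne_one {n : ℕ} (j : Fin n) : wrIdx j ≠ 1 := by
  unfold wrIdx
  split_ifs with h <;> omega

theorem wr_idx_injective {n : ℕ} : Function.Injective (wrIdx : Fin n → ℕ) := by
  intro i j h
  unfold wrIdx at h
  apply Fin.ext
  split_ifs at h with h1 h2 h2 <;> omega

theorem wr_idx_le {n : ℕ} (j : Fin n) : wrIdx j ≤ n := by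
  unfold wrIdx
  have := j.isLt
  split_ifs <;> omega

theorem wr_sum_idx (n : ℕ) (hn : 1 ≤ n) :
    ∑ j : Fin n, (wrIdx j + (j : ℕ)) = n ^ 2 - 1 := by
  have h1 : ∑ j : Fin n, (wrIdx j + (j : ℕ)) =
      ∑ j ∈ Finset.range n, ((if j = 0 then 0 else j + 1) + j) :=
    Fin.sum_univ_eq_sum_range (fun j => (if j = 0 then 0 else j + 1) + j) n
  rw [h1]
  obtain ⟨m, rfl⟩ : ∃ m, n = m + 1 := ⟨n - 1, by omega⟩
  clear hn h1
  induction m with
  | zero => simp
  | succ m ih =>
    rw [Finset.sum_range_succ, ih]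
    have : (if m + 1 = 0 then 0 else m + 1 + 1) = m + 2 := by
      rw [if_neg (by omega)]
    rw [this]
    have h2 : 1 ≤ (m + 1) ^ 2 := Nat.one_le_pow _ _ (by omega)
    have h3 : (m + 1 + 1) ^ 2 = (m + 1) ^ 2 + 2 * m + 3 := by ring
    omega

/-! ### finite products in the filtration -/

theorem wr_prod_mem_fil_and_top {ι : Type*} (s : Finset ι) (f : ι → W.CoordinateRing)
    (m : ι → ℕ) (h : ∀ i ∈ s, f i ∈ wrFil W (m i)) :
    ∏ i ∈ s, f i ∈ wrFil W (∑ i ∈ s, m i) ∧
      wrTop W (∑ i ∈ s, m i) (∏ i ∈ s, f i) = ∏ i ∈ s, wrTop W (m i) (f i) := by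
  classical
  induction s using Finset.induction_on with
  | empty =>
    simp only [Finset.prod_empty, Finset.sum_empty]
    exact ⟨wrn_one_mem_fil W, wrn_top_one W⟩
  | insert a s ha ih =>
    have h1 := ih fun i hi => h i (Finset.mem_insert_of_mem hi)
    have h2 := h a (Finset.mem_insert_self a s)
    rw [Finset.prod_insert ha, Finset.sum_insert ha, Finset.prod_insert ha]
    exact ⟨wr_mul_mem_fil W h2 h1.1, by rw [wr_top_mul W h2 h1.1, h1.2]⟩

/-! ### the Wronskian -/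

/-- the term of the Leibniz expansion of `wron n` attached to a permutation -/
noncomputable def wronTerm (n : ℕ) (σ : Equiv.Perm (Fin n)) : W.CoordinateRing :=
  ∏ i : Fin n, (⇑(wrD W))^[((σ i : Fin n) : ℕ)] (wrE W (wrIdx i))

theorem wron_eq_sum (n : ℕ) :
    wron W n = ∑ σ : Equiv.Perm (Fin n),
      (((Equiv.Perm.sign σ : ℤˣ) : ℤ) : K) • wronTerm W n σ := by
  unfold wron
  rw [Matrix.det_apply']
  apply Finset.sum_congr rfl
  intro σ _
  rw [Algebra.smul_def, map_intCast]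
  rfl

theorem wr_sum_perm (n : ℕ) (hn : 1 ≤ n) (σ : Equiv.Perm (Fin n)) :
    ∑ i : Fin n, (wrIdx i + ((σ i : Fin n) : ℕ)) = n ^ 2 - 1 := by
  rw [← wr_sum_idx n hn, Finset.sum_add_distrib, Finset.sum_add_distrib]
  congr 1
  exact Equiv.sum_comp σ (fun i : Fin n => (i : ℕ))

theorem wronTerm_mem_fil (n : ℕ) (hn : 1 ≤ n) (σ : Equiv.Perm (Fin n)) :
    wronTerm W n σ ∈ wrFil W (n ^ 2 - 1) := by
  have h := (wr_prod_mem_fil_and_top W Finset.univ
    (fun i : Fin n => (⇑(wrD W))^[((σ i : Fin n) : ℕ)] (wrE W (wrIdx i)))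
    (fun i => wrIdx i + ((σ i : Fin n) : ℕ))
    (fun i _ => wr_iterate_D_E_mem_fil W _ _ (wr_idx_ne_one i))).1
  rwa [wr_sum_perm n hn σ] at h

theorem wr_top_wronTerm (n : ℕ) (hn : 1 ≤ n) (σ : Equiv.Perm (Fin n)) :
    wrTop W (n ^ 2 - 1) (wronTerm W n σ) =
      ∏ i : Fin n, (ascPochhammer K ((σ i : Fin n) : ℕ)).eval ((wrIdx i : ℕ) : K) := by
  have h := (wr_prod_mem_fil_and_top W Finset.univ
    (fun i : Fin n => (⇑(wrD W))^[((σ i : Fin n) : ℕ)] (wrE W (wrIdx i)))
    (fun i => wrIdx i + ((σ i : Fin n) : ℕ))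
    (fun i _ => wr_iterate_D_E_mem_fil W _ _ (wr_idx_ne_one i))).2
  rw [wr_sum_perm n hn σ] at h
  rw [wronTerm, h]
  apply Finset.prod_congr rfl
  intro i _
  exact wr_top_iterate_D_E W _ _ (wr_idx_ne_one i)

theorem wron_mem_fil (n : ℕ) (hn : 1 ≤ n) : wron W n ∈ wrFil W (n ^ 2 - 1) := by
  rw [wron_eq_sum]
  exact Submodule.sum_mem _ fun σ _ => Submodule.smul_mem _ _ (wronTerm_mem_fil W n hn σ)

/-- the top coefficient of the Wronskian is the Vandermonde determinant of the pole orders. -/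
theorem wr_top_wron_eq (n : ℕ) (hn : 1 ≤ n) :
    wrTop W (n ^ 2 - 1) (wron W n) =
      (Matrix.vandermonde fun j : Fin n => ((wrIdx j : ℕ) : K)).det := by
  rw [wron_eq_sum, wr_top_sum]
  have h1 : ∀ σ : Equiv.Perm (Fin n),
      wrTop W (n ^ 2 - 1) ((((Equiv.Perm.sign σ : ℤˣ) : ℤ) : K) • wronTerm W n σ) =
      (((Equiv.Perm.sign σ : ℤˣ) : ℤ) : K) *
        ∏ i : Fin n, (Matrix.of fun i j : Fin n =>
          (ascPochhammer K (i : ℕ)).eval ((wrIdx j : ℕ) : K)) (σ i) i := by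
    intro σ
    rw [wr_top_smul, wr_top_wronTerm W n hn σ]
    rfl
  rw [Finset.sum_congr rfl fun σ _ => h1 σ, ← Matrix.det_apply',
    Matrix.det_eval_matrixOfPolynomials_eq_det_vandermonde
      (fun j : Fin n => ((wrIdx j : ℕ) : K)) (fun i : Fin n => ascPochhammer K (i : ℕ))
      (fun i => ascPochhammer_natDegree K (i : ℕ)) (fun i => monic_ascPochhammer K (i : ℕ)),
    ← Matrix.det_transpose]
  rfl

theorem wr_top_wron_eq_prod (n : ℕ) (hn : 1 ≤ n) :
    wrTop W (n ^ 2 - 1) (wron W n) =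
      ∏ i : Fin n, ∏ j ∈ Finset.Ioi i, (((wrIdx j : ℕ) : K) - ((wrIdx i : ℕ) : K)) := by
  rw [wr_top_wron_eq W n hn, Matrix.det_vandermonde]

theorem wr_top_wron [CharZero K] (n : ℕ) (hn : 1 ≤ n) :
    wrTop W (n ^ 2 - 1) (wron W n) ≠ 0 := by
  rw [wr_top_wron_eq W n hn, Matrix.det_vandermonde_ne_zero_iff]
  intro i j h
  exact wr_idx_injective (Nat.cast_injective h)

theorem wron_natDegree_norm [CharZero K] (n : ℕ) (hn : 1 ≤ n) :
    (Algebra.norm K[X] (wron W n)).natDegree = n ^ 2 - 1 :=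
  wrn_natDegree_norm_eq_of_top_ne_zero W (wron_mem_fil W n hn) (wr_top_wron W n hn)

theorem wron_ne_zero [CharZero K] (n : ℕ) (hn : 1 ≤ n) : wron W n ≠ 0 := by
  intro h
  have := wr_top_wron W n hn
  rw [h, wr_top_zero] at this
  exact this rfl

theorem wron_not_isUnit [CharZero K] (n : ℕ) (hn : 2 ≤ n) : ¬ IsUnit (wron W n) := by
  intro hu
  have h1 : IsUnit (Algebra.norm K[X] (wron W n)) := hu.map (Algebra.norm K[X])
  have h2 : (Algebra.norm K[X] (wron W n)).natDegree = 0 := natDegree_eq_zero_of_isUnit h1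
  rw [wron_natDegree_norm W n (by omega)] at h2
  have : 4 ≤ n ^ 2 := by nlinarith
  omega

end Fermat.Agent.S13x
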