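/-
S13 leaf (d), Wronskian route, module T4 (local analysis at a nonsingular point), by helper22.
Internal names carry the prefix `wlb_`; the four statements of `WronSpec` section T4 are exported
at the end under their exact Spec names `wr_D_mem_pow`, `wr_eval_iterate_eq_zero_of_mem_pow`,
`wr_mem_pow_of_eval_iterate`, `wr_finrank_quot_pow`.

Main points: `D(I^(n+1)) ⊆ I^n` (Leibniz), evaluation of `p + qY` at a point, existence of a
uniformizer `t ∈ I_P` with `(D t)(P) ≠ 0` (nonsingularity), the identity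
`(D^n (t^n))(P) = n! ((D t)(P))^n`, and the Taylor criterion in characteristic zero.
-/
import Fermat.Agent.S13x.WronDefs
import Fermat.Agent.S13x.TorsLocalDim

set_option autoImplicit false

open Polynomial WeierstrassCurve WeierstrassCurve.Affine
open scoped Polynomial.Bivariate

namespace Fermat.Agent.S13x

variable {K : Type*} [Field K] {W : Affine K}

/-- `D` lowers the order of vanishing by at most one -/
theorem wlb_D_mem_pow (I : Ideal W.CoordinateRing) (n : ℕ) {f : W.CoordinateRing}
    (hf : f ∈ I ^ (n + 1)) : wrD W f ∈ I ^ n := by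
  induction n generalizing f with
  | zero => rw [pow_zero, Ideal.one_eq_top]; trivial
  | succ n ih =>
    rw [pow_succ] at hf
    refine Submodule.mul_induction_on hf ?_ ?_
    · intro m hm k hk
      rw [Derivation.leibniz, smul_eq_mul, smul_eq_mul]
      refine Ideal.add_mem _ (Ideal.mul_mem_right _ _ hm) ?_
      rw [pow_succ']
      exact Ideal.mul_mem_mul hk (ih hm)
    · intro x y hx hy
      rw [map_add]
      exact Ideal.add_mem _ hx hy

theorem wlb_iterate_mem_pow (I : Ideal W.CoordinateRing) (n i : ℕ) (hi : i ≤ n)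
    {f : W.CoordinateRing} (hf : f ∈ I ^ n) : (⇑(wrD W))^[i] f ∈ I ^ (n - i) := by
  induction i generalizing f with
  | zero => simpa using hf
  | succ i ih =>
    rw [Function.iterate_succ_apply']
    have h1 : (⇑(wrD W))^[i] f ∈ I ^ (n - i) := ih (by omega) hf
    have h2 : n - i = (n - (i + 1)) + 1 := by omega
    rw [h2] at h1
    exact wlb_D_mem_pow I _ h1

/-! ### evaluation -/

theorem wlb_eval_of_sub_mem {a b : K} (h : W.Equation a b) {f : W.CoordinateRing} {c : K}
    (hc : f - algebraMap K W.CoordinateRing c ∈ CoordinateRing.XYIdeal W a (C b)) :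
    wrEval h f = c := by
  have h1 := (wr_eval_eq_zero_iff h _).mpr hc
  rw [map_sub, AlgHom.commutes, sub_eq_zero] at h1
  simpa using h1

theorem wlb_XClass_mem (a b : K) :
    CoordinateRing.XClass W a ∈ CoordinateRing.XYIdeal W a (C b) :=
  Ideal.subset_span (by simp)

theorem wlb_YClass_mem (a b : K) :
    CoordinateRing.YClass W (C b) ∈ CoordinateRing.XYIdeal W a (C b) :=
  Ideal.subset_span (by simp)

theorem wlb_eval_smul_one {a b : K} (h : W.Equation a b) (p : K[X]) :
    wrEval h (p • (1 : W.CoordinateRing)) = p.eval a := by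
  apply wlb_eval_of_sub_mem
  obtain ⟨q, hq⟩ : (X - C a) ∣ p - C (p.eval a) := by
    rw [dvd_iff_isRoot]; simp
  have h1 : p • (1 : W.CoordinateRing) - algebraMap K W.CoordinateRing (p.eval a) =
      CoordinateRing.XClass W a * CoordinateRing.mk W (C q) := by
    rw [CoordinateRing.XClass, ← map_mul, ← C_mul, ← hq, Algebra.smul_def, mul_one]
    simp only [map_sub]
    rfl
  rw [h1]
  exact Ideal.mul_mem_right _ _ (wlb_XClass_mem a b)

theorem wlb_eval_Y {a b : K} (h : W.Equation a b) : wrEval h (wrY W) = b := by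
  apply wlb_eval_of_sub_mem
  have h1 : wrY W - algebraMap K W.CoordinateRing b = CoordinateRing.YClass W (C b) := by
    rw [CoordinateRing.YClass, map_sub]
    rfl
  rw [h1]
  exact wlb_YClass_mem a b

theorem wlb_eval_basis {a b : K} (h : W.Equation a b) (p q : K[X]) :
    wrEval h (p • (1 : W.CoordinateRing) + q • wrY W) = p.eval a + q.eval a * b := by
  have h2 : q • wrY W = (q • (1 : W.CoordinateRing)) * wrY W := by
    rw [smul_mul_assoc, one_mul]
  rw [map_add, h2, map_mul, wlb_eval_smul_one, wlb_eval_smul_one, wlb_eval_Y]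


/-! ### a uniformizer -/

theorem wlb_XClass_eq (a : K) : CoordinateRing.XClass W a =
    (X - C a : K[X]) • (1 : W.CoordinateRing) + (0 : K[X]) • wrY W := by
  rw [zero_smul, add_zero, Algebra.smul_def, mul_one]
  rfl

theorem wlb_YClass_eq (b : K) : CoordinateRing.YClass W (C b) =
    (-C b : K[X]) • (1 : W.CoordinateRing) + (1 : K[X]) • wrY W := by
  rw [one_smul, Algebra.smul_def, mul_one, CoordinateRing.YClass, map_sub, map_neg]
  rw [neg_add_eq_sub]
  rfl

theorem wlb_eval_D_XClass {a b : K} (h : W.Equation a b) :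
    wrEval h (wrD W (CoordinateRing.XClass W a)) = W.a₁ * a + W.a₃ + 2 * b := by
  rw [wr_D_apply, wlb_XClass_eq, wr_P_smul_basis, wr_Q_smul_basis, wlb_eval_basis]
  simp [wrDA, wrDB, wrL]

theorem wlb_eval_D_YClass {a b : K} (h : W.Equation a b) :
    wrEval h (wrD W (CoordinateRing.YClass W (C b))) =
      3 * a ^ 2 + 2 * W.a₂ * a + W.a₄ - W.a₁ * b := by
  rw [wr_D_apply, wlb_YClass_eq, wr_P_smul_basis, wr_Q_smul_basis, wlb_eval_basis]
  simp [wrDA, wrDB, wrG']
  ring

theorem wlb_exists_uniformizer {a b : K} (h : W.Nonsingular a b) :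
    ∃ t : W.CoordinateRing, t ∈ CoordinateRing.XYIdeal W a (C b) ∧ wrEval h.1 (wrD W t) ≠ 0 := by
  rcases (Affine.nonsingular_iff a b).mp h with ⟨-, h1 | h1⟩
  · refine ⟨CoordinateRing.YClass W (C b), wlb_YClass_mem a b, ?_⟩
    rw [wlb_eval_D_YClass]
    intro h0
    apply h1
    linear_combination -h0
  · refine ⟨CoordinateRing.XClass W a, wlb_XClass_mem a b, ?_⟩
    rw [wlb_eval_D_XClass]
    intro h0
    apply h1
    linear_combination h0


/-! ### iterates of `D` -/

theorem wlb_iterate_add (n : ℕ) (f g : W.CoordinateRing) :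
    (⇑(wrD W))^[n] (f + g) = (⇑(wrD W))^[n] f + (⇑(wrD W))^[n] g := by
  have h := Module.End.pow_apply ((wrD W : Derivation K W.CoordinateRing W.CoordinateRing) :
    W.CoordinateRing →ₗ[K] W.CoordinateRing) n
  have hc : ∀ x, (⇑(wrD W))^[n] x = (((wrD W : Derivation K W.CoordinateRing W.CoordinateRing) :
    W.CoordinateRing →ₗ[K] W.CoordinateRing) ^ n) x := fun x => (h x).symm
  rw [hc, hc, hc, map_add]

theorem wlb_iterate_smul (n : ℕ) (c : K) (f : W.CoordinateRing) :
    (⇑(wrD W))^[n] (c • f) = c • (⇑(wrD W))^[n] f := by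
  have h := Module.End.pow_apply ((wrD W : Derivation K W.CoordinateRing W.CoordinateRing) :
    W.CoordinateRing →ₗ[K] W.CoordinateRing) n
  have hc : ∀ x, (⇑(wrD W))^[n] x = (((wrD W : Derivation K W.CoordinateRing W.CoordinateRing) :
    W.CoordinateRing →ₗ[K] W.CoordinateRing) ^ n) x := fun x => (h x).symm
  rw [hc, hc, map_smul]

theorem wlb_eval_iterate_eq_zero {a b : K} (h : W.Equation a b) (n : ℕ)
    {f : W.CoordinateRing} (hf : f ∈ CoordinateRing.XYIdeal W a (C b) ^ n) (i : ℕ) (hi : i < n) :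
    wrEval h ((⇑(wrD W))^[i] f) = 0 := by
  rw [wr_eval_eq_zero_iff]
  have h1 := wlb_iterate_mem_pow (CoordinateRing.XYIdeal W a (C b)) n i hi.le hf
  have h2 : CoordinateRing.XYIdeal W a (C b) ^ (n - i) ≤ CoordinateRing.XYIdeal W a (C b) := by
    have h3 : n - i = (n - i - 1) + 1 := by omega
    rw [h3, pow_succ]
    exact (Ideal.mul_le_right : CoordinateRing.XYIdeal W a (C b) ^ (n - i - 1) *
      CoordinateRing.XYIdeal W a (C b) ≤ CoordinateRing.XYIdeal W a (C b))
  exact h2 h1

/-- Claim B -/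
theorem wlb_eval_iterate_mul {a b : K} (h : W.Equation a b) (m : ℕ) {g : W.CoordinateRing}
    (hg : g ∈ CoordinateRing.XYIdeal W a (C b) ^ m) (c : W.CoordinateRing) :
    wrEval h ((⇑(wrD W))^[m] (g * c)) = wrEval h ((⇑(wrD W))^[m] g) * wrEval h c := by
  induction m generalizing g c with
  | zero => simp
  | succ m ih =>
    rw [Function.iterate_succ_apply, Function.iterate_succ_apply, Derivation.leibniz,
      wlb_iterate_add, map_add, smul_eq_mul, smul_eq_mul]
    have h1 : wrEval h ((⇑(wrD W))^[m] (g * wrD W c)) = 0 :=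
      wlb_eval_iterate_eq_zero h (m + 1) (Ideal.mul_mem_right _ _ hg) m (Nat.lt_succ_self m)
    have h2 : c * wrD W g = wrD W g * c := mul_comm _ _
    rw [h1, zero_add, h2, ih (wlb_D_mem_pow _ m hg)]

/-- Claim A -/
theorem wlb_eval_iterate_mul_mem {a b : K} (h : W.Equation a b) (m : ℕ) {g k : W.CoordinateRing}
    (hg : g ∈ CoordinateRing.XYIdeal W a (C b) ^ m)
    (hk : k ∈ CoordinateRing.XYIdeal W a (C b)) :
    wrEval h ((⇑(wrD W))^[m + 1] (g * k)) =
      ((m : K) + 1) * wrEval h ((⇑(wrD W))^[m] g) * wrEval h (wrD W k) := by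
  induction m generalizing g with
  | zero =>
    have hk0 : wrEval h k = 0 := (wr_eval_eq_zero_iff h k).mpr hk
    simp [Derivation.leibniz, hk0]
  | succ m ih =>
    rw [Function.iterate_succ_apply, Derivation.leibniz, wlb_iterate_add, map_add, smul_eq_mul,
      smul_eq_mul, wlb_eval_iterate_mul h (m + 1) hg]
    have h2 : k * wrD W g = wrD W g * k := mul_comm _ _
    rw [h2, ih (wlb_D_mem_pow _ m hg)]
    rw [← Function.iterate_succ_apply (⇑(wrD W)) m g]
    push_cast
    ring

theorem wlb_eval_iterate_pow {a b : K} (h : W.Equation a b) {t : W.CoordinateRing}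
    (ht : t ∈ CoordinateRing.XYIdeal W a (C b)) (n : ℕ) :
    wrEval h ((⇑(wrD W))^[n] (t ^ n)) = (n.factorial : K) * wrEval h (wrD W t) ^ n := by
  induction n with
  | zero => simp
  | succ n ih =>
    rw [pow_succ, wlb_eval_iterate_mul_mem h n (Ideal.pow_mem_pow ht n) ht, ih,
      Nat.factorial_succ]
    push_cast
    ring


/-! ### the Taylor criterion -/

theorem wlb_pow_eq_span_sup {a b : K} (h : W.Nonsingular a b) (k : ℕ) {u : W.CoordinateRing}
    (hu : u ∈ CoordinateRing.XYIdeal W a (C b) ^ k)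
    (hu' : u ∉ CoordinateRing.XYIdeal W a (C b) ^ (k + 1)) :
    CoordinateRing.XYIdeal W a (C b) ^ k =
      Ideal.span {u} ⊔ CoordinateRing.XYIdeal W a (C b) ^ (k + 1) := by
  have hIJ : CoordinateRing.XYIdeal W a (C b) * CoordinateRing.XYIdeal W a (C <| W.negY a b) =
      Ideal.span {CoordinateRing.XClass W a} := by
    rw [mul_comm, CoordinateRing.XYIdeal_neg_mul h]
    rfl
  have ht : CoordinateRing.XClass W a ≠ 0 := CoordinateRing.XClass_ne_zero a
  exact tld_pow_eq_span_sup ht hIJ (tld_XYIdeal_isMaximal h.left) k hu hu'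

/-- Taylor criterion: vanishing of the first `n` derivatives at `P` forces order `≥ n` -/
theorem wlb_mem_pow_of_eval_iterate [CharZero K] {a b : K} (h : W.Nonsingular a b) (n : ℕ)
    {f : W.CoordinateRing} (hf : ∀ i, i < n → wrEval h.1 ((⇑(wrD W))^[i] f) = 0) :
    f ∈ CoordinateRing.XYIdeal W a (C b) ^ n := by
  induction n with
  | zero => rw [pow_zero, Ideal.one_eq_top]; trivial
  | succ n ih =>
    have hfn : f ∈ CoordinateRing.XYIdeal W a (C b) ^ n :=
      ih fun i hi => hf i (Nat.lt_succ_of_lt hi)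
    obtain ⟨t, htI, htD⟩ := wlb_exists_uniformizer h
    have hev : wrEval h.1 ((⇑(wrD W))^[n] (t ^ n)) ≠ 0 := by
      rw [wlb_eval_iterate_pow h.1 htI n]
      exact mul_ne_zero (Nat.cast_ne_zero.mpr (Nat.factorial_ne_zero n)) (pow_ne_zero n htD)
    have htn : t ^ n ∈ CoordinateRing.XYIdeal W a (C b) ^ n := Ideal.pow_mem_pow htI n
    have htn' : t ^ n ∉ CoordinateRing.XYIdeal W a (C b) ^ (n + 1) := fun hmem =>
      hev (wlb_eval_iterate_eq_zero h.1 (n + 1) hmem n (Nat.lt_succ_self n))
    rw [wlb_pow_eq_span_sup h n htn htn', Submodule.mem_sup] at hfn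
    obtain ⟨y, hy, g, hg, hyg⟩ := hfn
    obtain ⟨r, rfl⟩ := Ideal.mem_span_singleton'.mp hy
    obtain ⟨c, hc⟩ := tld_exists_const_sub_mem h.left r
    -- `f = c • t^n + g'` with `g' ∈ I^(n+1)`
    have hg' : (r - algebraMap K W.CoordinateRing c) * t ^ n + g ∈
        CoordinateRing.XYIdeal W a (C b) ^ (n + 1) := by
      refine Ideal.add_mem _ ?_ hg
      rw [pow_succ']
      exact Ideal.mul_mem_mul hc htn
    have hfdec : f = c • t ^ n + ((r - algebraMap K W.CoordinateRing c) * t ^ n + g) := by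
      rw [← hyg, Algebra.smul_def]
      ring
    have hDn := hf n (Nat.lt_succ_self n)
    rw [hfdec, wlb_iterate_add, map_add, wlb_iterate_smul, map_smul,
      wlb_eval_iterate_eq_zero h.1 (n + 1) hg' n (Nat.lt_succ_self n), add_zero, smul_eq_mul] at hDn
    have hc0 : c = 0 := by
      rcases mul_eq_zero.mp hDn with h0 | h0
      · exact h0
      · exact absurd h0 hev
    have hz : c • t ^ n = 0 := by rw [hc0, zero_smul]
    rw [hfdec, hz, zero_add]
    exact hg'

/-! ### exported statements (Spec section T4) -/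

theorem wr_D_mem_pow {a b : K} (n : ℕ) {f : W.CoordinateRing}
    (hf : f ∈ CoordinateRing.XYIdeal W a (C b) ^ (n + 1)) :
    wrD W f ∈ CoordinateRing.XYIdeal W a (C b) ^ n :=
  wlb_D_mem_pow _ n hf

theorem wr_eval_iterate_eq_zero_of_mem_pow {a b : K} (h : W.Nonsingular a b) (n : ℕ)
    {f : W.CoordinateRing} (hf : f ∈ CoordinateRing.XYIdeal W a (C b) ^ n) (i : ℕ) (hi : i < n) :
    wrEval h.1 ((⇑(wrD W))^[i] f) = 0 :=
  wlb_eval_iterate_eq_zero h.1 n hf i hi

theorem wr_mem_pow_of_eval_iterate [CharZero K] {a b : K} (h : W.Nonsingular a b)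
    (n : ℕ) {f : W.CoordinateRing} (hf : ∀ i, i < n → wrEval h.1 ((⇑(wrD W))^[i] f) = 0) :
    f ∈ CoordinateRing.XYIdeal W a (C b) ^ n :=
  wlb_mem_pow_of_eval_iterate h n hf

theorem wr_finrank_quot_pow [CharZero K] {a b : K} (h : W.Nonsingular a b) (n : ℕ) :
    Module.finrank K (W.CoordinateRing ⧸ CoordinateRing.XYIdeal W a (C b) ^ n) = n :=
  tld_finrank_quotient_XYIdeal_pow h n

end Fermat.Agent.S13x
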