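/-
S13 leaf (d)/(A_N), Wronskian route (helper96): roots of the norm of a function on an affine
Weierstrass curve and their multiplicities.

* `wrr_sq_dvd_norm` : if `g` vanishes at `P = (x₀, y₀)` and at `-P ≠ P` then
  `(X - x₀)² ∣ norm g`.
* `wrr_exists_zero_of_root` : over an algebraically closed field every root `r` of `norm g` is the
  `x`-coordinate of a zero of `g` on the curve.
-/
import Fermat.Agent.S13x.WronDefs
import Fermat.Agent.S13x.TorsCount

set_option autoImplicit false

open Polynomial WeierstrassCurve WeierstrassCurve.Affine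
open scoped Polynomial.Bivariate

namespace Fermat.Agent.S13x

variable {K : Type*} [Field K] {W : Affine K}

/-- evaluation of `p + qY` at a point -/
lemma wrr_tcEval_smul_basis {x y : K} (h : W.Equation x y) (p q : K[X]) :
    tcEval W h (p • (1 : W.CoordinateRing) + q • CoordinateRing.mk W Y)
      = p.eval x + q.eval x * y := by
  have h1 : ∀ f : K[X], tcEval W h (CoordinateRing.mk W (C f)) = f.eval x := by
    intro f
    rw [tc_algHom_mk, tcEval_mk_C_X, tcEval_mk_Y, Polynomial.evalEval_C]
  rw [CoordinateRing.smul, CoordinateRing.smul, map_add, map_mul, map_mul, h1, h1, map_one,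
    mul_one, tcEval_mk_Y]

/-- evaluation of an element of `K[X]` at a point -/
lemma wrr_tcEval_algebraMap {x y : K} (h : W.Equation x y) (f : K[X]) :
    tcEval W h (algebraMap K[X] W.CoordinateRing f) = f.eval x := by
  have : algebraMap K[X] W.CoordinateRing f = CoordinateRing.mk W (C f) := rfl
  rw [this, tc_algHom_mk, tcEval_mk_C_X, tcEval_mk_Y, Polynomial.evalEval_C]

/-- the value of the norm at `x` is the product of the values of `g` at `(x,y)` and `(x,-y)` -/
lemma wrr_eval_norm {x y : K} (h : W.Equation x y) (g : W.CoordinateRing) :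
    (Algebra.norm K[X] g).eval x
      = tcEval W h g * tcEval W ((W.equation_neg x y).2 h) g := by
  obtain ⟨p, q, rfl⟩ := CoordinateRing.exists_smul_basis_eq g
  rw [wrr_tcEval_smul_basis, wrr_tcEval_smul_basis, CoordinateRing.norm_smul_basis]
  have he := (W.equation_iff x y).1 h
  simp only [eval_sub, eval_mul, eval_pow, eval_add, eval_C, eval_X, negY]
  linear_combination (q.eval x) ^ 2 * he

/-- If `g` vanishes at `P = (x₀, y₀)` and at `-P`, and `P ≠ -P`, then `(X - x₀)²` divides the norm
of `g`. -/
theorem wrr_sq_dvd_norm {x₀ y₀ : K} (h : W.Nonsingular x₀ y₀) (hne : y₀ ≠ W.negY x₀ y₀)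
    (g : W.CoordinateRing) (h1 : g ∈ CoordinateRing.XYIdeal W x₀ (C y₀))
    (h2 : g ∈ CoordinateRing.XYIdeal W x₀ (C (W.negY x₀ y₀))) :
    (X - C x₀) ^ 2 ∣ Algebra.norm K[X] g := by
  -- the two ideals are coprime
  have hcop : IsCoprime (CoordinateRing.XYIdeal W x₀ (C (W.negY x₀ y₀)))
      (CoordinateRing.XYIdeal W x₀ (C y₀)) := by
    rw [Ideal.isCoprime_iff_exists]
    have hu : y₀ - W.negY x₀ y₀ ≠ 0 := sub_ne_zero.2 hne
    refine ⟨algebraMap K W.CoordinateRing (y₀ - W.negY x₀ y₀)⁻¹ *
        CoordinateRing.YClass W (C (W.negY x₀ y₀)), ?_,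
      -(algebraMap K W.CoordinateRing (y₀ - W.negY x₀ y₀)⁻¹ *
        CoordinateRing.YClass W (C y₀)), ?_, ?_⟩
    · exact Ideal.mul_mem_left _ _ (Ideal.subset_span (by simp))
    · exact neg_mem (Ideal.mul_mem_left _ _ (Ideal.subset_span (by simp)))
    · have e1 : CoordinateRing.YClass W (C (W.negY x₀ y₀))
          = CoordinateRing.mk W Y - algebraMap K W.CoordinateRing (W.negY x₀ y₀) := by
        simp only [CoordinateRing.YClass, map_sub]; rfl
      have e2 : CoordinateRing.YClass W (C y₀)
          = CoordinateRing.mk W Y - algebraMap K W.CoordinateRing y₀ := by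
        simp only [CoordinateRing.YClass, map_sub]; rfl
      rw [e1, e2]
      have : algebraMap K W.CoordinateRing (y₀ - W.negY x₀ y₀)⁻¹ *
          algebraMap K W.CoordinateRing (y₀ - W.negY x₀ y₀) = 1 := by
        rw [← map_mul, inv_mul_cancel₀ hu, map_one]
      rw [map_sub] at this
      linear_combination this
  have hmem : g ∈ CoordinateRing.XIdeal W x₀ := by
    rw [← CoordinateRing.XYIdeal_neg_mul h, Ideal.mul_eq_inf_of_isCoprime hcop]
    exact ⟨h2, h1⟩
  obtain ⟨c, rfl⟩ := Ideal.mem_span_singleton'.1 hmem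
  have hX : CoordinateRing.XClass W x₀ = algebraMap K[X] W.CoordinateRing (X - C x₀) := rfl
  rw [map_mul, hX, Algebra.norm_algebraMap_of_basis (CoordinateRing.basis W)]
  simp only [Fintype.card_fin]
  exact Dvd.intro_left _ rfl

/-- Over an algebraically closed field, every `x` is the abscissa of a point of the curve. -/
lemma wrr_exists_equation [IsAlgClosed K] (W : Affine K) (r : K) : ∃ y : K, W.Equation r y := by
  let f : K[X] := X ^ 2 + C (W.a₁ * r + W.a₃) * X - C (r ^ 3 + W.a₂ * r ^ 2 + W.a₄ * r + W.a₆)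
  have hdeg : f.degree = 2 := by
    have h1 : (C (W.a₁ * r + W.a₃) * X - C (r ^ 3 + W.a₂ * r ^ 2 + W.a₄ * r + W.a₆) : K[X]).degree
        < (X ^ 2 : K[X]).degree := by
      rw [degree_X_pow]
      refine lt_of_le_of_lt (degree_sub_le _ _) (max_lt ?_ ?_)
      · exact lt_of_le_of_lt (degree_C_mul_X_le _) (by norm_num)
      · exact lt_of_le_of_lt degree_C_le (by norm_num)
    have : f = X ^ 2 + (C (W.a₁ * r + W.a₃) * X
        - C (r ^ 3 + W.a₂ * r ^ 2 + W.a₄ * r + W.a₆)) := by
      simp only [f]; ring
    rw [this, degree_add_eq_left_of_degree_lt h1, degree_X_pow]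
    rfl
  obtain ⟨y, hy⟩ := IsAlgClosed.exists_root f (by rw [hdeg]; norm_num)
  refine ⟨y, (W.equation_iff r y).2 ?_⟩
  simp only [f, IsRoot.def, eval_sub, eval_add, eval_mul, eval_pow, eval_C, eval_X] at hy
  linear_combination hy

/-- Over an algebraically closed field every root of the norm of `g` is the abscissa of a zero of
`g` on the curve. -/
theorem wrr_exists_zero_of_root [IsAlgClosed K] (g : W.CoordinateRing) (r : K)
    (hr : (Algebra.norm K[X] g).IsRoot r) :
    ∃ (y : K) (h : W.Equation r y), tcEval W h g = 0 := by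
  obtain ⟨y, h⟩ := wrr_exists_equation W r
  have := wrr_eval_norm h g
  rw [IsRoot.def] at hr
  rw [hr] at this
  rcases mul_eq_zero.1 this.symm with h0 | h0
  · exact ⟨y, h, h0⟩
  · exact ⟨W.negY r y, (W.equation_neg r y).2 h, h0⟩

/-- an odd-torsion affine point is not its own negative -/
lemma wrr_Y_ne_negY_of_odd_nsmul [DecidableEq K] {x y : K} (h : W.Nonsingular x y) {n : ℕ}
    (hodd : Odd n) (hn : n • Point.some x y h = 0) : y ≠ W.negY x y := by
  intro hy
  have h2 : Point.some x y h + Point.some x y h = 0 := Point.add_self_of_Y_eq hy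
  obtain ⟨k, rfl⟩ := hodd
  have : (2 * k + 1) • Point.some x y h = Point.some x y h := by
    rw [add_smul, mul_comm, mul_smul, two_smul, h2, smul_zero, zero_add, one_smul]
  rw [this] at hn
  exact Point.some_ne_zero h hn

/-- (A_N), core form: if the zeros of `g` on the affine curve are exactly the nonzero `n`-torsion
points (`n` odd), then every root of `norm g` is the abscissa of a nonzero `n`-torsion point and
every such abscissa is a root of multiplicity at least two. -/
theorem wrr_torsion_poly_core [DecidableEq K] [IsAlgClosed K] (hΔ : W.Δ ≠ 0) {n : ℕ}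
    (hodd : Odd n) (g : W.CoordinateRing)
    (hcrit : ∀ (a b : K) (h : W.Nonsingular a b),
      n • Point.some a b h = 0 ↔ wrEval h.1 g = 0) :
    (∀ r : K, (Algebra.norm K[X] g).IsRoot r →
      ∃ (y : K) (h : W.Nonsingular r y), n • Point.some r y h = 0) ∧
    (∀ (x y : K) (h : W.Nonsingular x y), n • Point.some x y h = 0 →
      (X - C x) ^ 2 ∣ Algebra.norm K[X] g) := by
  constructor
  · intro r hr
    obtain ⟨y, h, h0⟩ := wrr_exists_zero_of_root g r hr
    have hns := (W.equation_iff_nonsingular_of_Δ_ne_zero hΔ).1 h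
    exact ⟨y, hns, (hcrit r y hns).2 h0⟩
  · intro x y h hn
    have hne := wrr_Y_ne_negY_of_odd_nsmul h hodd hn
    have hneg : W.Nonsingular x (W.negY x y) := (W.nonsingular_neg x y).2 h
    have hn' : n • Point.some x (W.negY x y) hneg = 0 := by
      have : Point.some x (W.negY x y) hneg = -Point.some x y h := (Point.neg_some h).symm
      rw [this, smul_neg, hn, neg_zero]
    have h1 : g ∈ CoordinateRing.XYIdeal W x (C y) :=
      (wr_eval_eq_zero_iff h.1 g).1 ((hcrit x y h).1 hn)
    have h2 : g ∈ CoordinateRing.XYIdeal W x (C (W.negY x y)) :=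
      (wr_eval_eq_zero_iff hneg.1 g).1 ((hcrit x _ hneg).1 hn')
    exact wrr_sq_dvd_norm h hne g h1 h2

end Fermat.Agent.S13x
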