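/-
S13 leaf (d), WRONSKIAN ROUTE (helper41): interface spec.  Every statement below is a stub; the
real proofs live in the module files named in the section headers (namespace `Fermat.Agent.S13x`,
same names without `Spec.`).  This file is NEVER imported by final files.

Mathematics: `R = W.CoordinateRing`, `D = wrD W` the invariant derivation (`D X = W_Y`,
`D Y = -W_X`), `wrFil m = L(m·O)`, `e_d = wrE W d` the monomial basis (`d ≠ 1`),
`wron n = det (D^i e_{d_j})` for the basis `d_j ∈ {0,2,3,…,n}` of `L(n·O)`.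
A point `P ≠ O` is `n`-torsion iff `I_P^n` is principal iff some `f ≠ 0` in `L(n·O)` vanishes to
order `n` at `P` iff `wron n` vanishes at `P`; and `wron n` has exactly `n² - 1` zeros with
multiplicity (`natDegree (norm (wron n)) = n² - 1`).
-/
import Fermat.Agent.S13x.WronDefs

set_option autoImplicit false

open Polynomial WeierstrassCurve WeierstrassCurve.Affine
open scoped Polynomial.Bivariate

namespace Fermat.Agent.S13x.Spec

variable {K : Type*} [Field K] (W : Affine K)

/-! ## T2 `WronFil.lean`: calculus of the filtration and of top coefficients (no char assumption) -/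

theorem wr_fil_mono {m m' : ℕ} (h : m ≤ m') : wrFil W m ≤ wrFil W m' := sorry

theorem wr_mul_mem_fil {m m' : ℕ} {f g : W.CoordinateRing} (hf : f ∈ wrFil W m)
    (hg : g ∈ wrFil W m') : f * g ∈ wrFil W (m + m') := sorry

theorem wr_top_mul {m m' : ℕ} {f g : W.CoordinateRing} (hf : f ∈ wrFil W m)
    (hg : g ∈ wrFil W m') : wrTop W (m + m') (f * g) = wrTop W m f * wrTop W m' g := sorry

theorem wr_D_mem_fil {m : ℕ} {f : W.CoordinateRing} (hf : f ∈ wrFil W m) :
    wrD W f ∈ wrFil W (m + 1) := sorry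

theorem wr_top_D {m : ℕ} {f : W.CoordinateRing} (hf : f ∈ wrFil W m) :
    wrTop W (m + 1) (wrD W f) = (m : K) * wrTop W m f := sorry

theorem wr_top_add (m : ℕ) (f g : W.CoordinateRing) :
    wrTop W m (f + g) = wrTop W m f + wrTop W m g := sorry

theorem wr_top_smul (m : ℕ) (c : K) (f : W.CoordinateRing) :
    wrTop W m (c • f) = c * wrTop W m f := sorry

/-- lower filtration step = vanishing of the top coefficient -/
theorem wr_mem_fil_succ_iff {m : ℕ} {f : W.CoordinateRing} (hf : f ∈ wrFil W (m + 1)) :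
    f ∈ wrFil W m ↔ wrTop W (m + 1) f = 0 := sorry

theorem wr_one_mem_fil : (1 : W.CoordinateRing) ∈ wrFil W 0 := sorry

theorem wr_top_one : wrTop W 0 (1 : W.CoordinateRing) = 1 := sorry

theorem wr_E_mem_fil {d : ℕ} (hd : d ≠ 1) : wrE W d ∈ wrFil W d := sorry

theorem wr_top_E {d : ℕ} (hd : d ≠ 1) : wrTop W d (wrE W d) = 1 := sorry

/-- the coefficient functionals are dual to the basis `e_d` -/
theorem wr_top_E_of_ne {d d' : ℕ} (hd : d ≠ 1) (hd' : d' ≠ 1) (h : d ≠ d') :
    wrTop W d' (wrE W d) = 0 := sorry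

/-- `L(n·O)` is spanned by `e_{d_j}`, `j < n` -/
theorem wr_fil_decomp {n : ℕ} (hn : 1 ≤ n) {f : W.CoordinateRing} (hf : f ∈ wrFil W n) :
    f = ∑ j : Fin n, wrTop W (wrIdx j) f • wrE W (wrIdx j) := sorry

/-- link with the norm to `K[X]` -/
theorem wr_mem_fil_of_natDegree_norm_le {m : ℕ} {f : W.CoordinateRing}
    (h : (Algebra.norm K[X] f).natDegree ≤ m) : f ∈ wrFil W m := sorry

theorem wr_natDegree_norm_le_of_mem_fil {m : ℕ} {f : W.CoordinateRing} (hf : f ∈ wrFil W m) :
    (Algebra.norm K[X] f).natDegree ≤ m := sorry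

theorem wr_natDegree_norm_eq_of_top_ne_zero {m : ℕ} {f : W.CoordinateRing} (hf : f ∈ wrFil W m)
    (ht : wrTop W m f ≠ 0) : (Algebra.norm K[X] f).natDegree = m := sorry

/-! ## T3 `WronDeg.lean`: the Wronskian has pole order exactly `n² - 1` (needs T2) -/

theorem wr_iterate_D_E_mem_fil (d i : ℕ) (hd : d ≠ 1) :
    (⇑(wrD W))^[i] (wrE W d) ∈ wrFil W (d + i) := sorry

theorem wr_top_iterate_D_E (d i : ℕ) (hd : d ≠ 1) :
    wrTop W (d + i) ((⇑(wrD W))^[i] (wrE W d)) = (ascPochhammer K i).eval (d : K) := sorry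

theorem wr_sum_idx (n : ℕ) (hn : 1 ≤ n) :
    ∑ j : Fin n, (wrIdx j + (j : ℕ)) = n ^ 2 - 1 := sorry

theorem wron_mem_fil (n : ℕ) (hn : 1 ≤ n) : wron W n ∈ wrFil W (n ^ 2 - 1) := sorry

theorem wr_top_wron [CharZero K] (n : ℕ) (hn : 1 ≤ n) : wrTop W (n ^ 2 - 1) (wron W n) ≠ 0 := sorry

theorem wron_natDegree_norm [CharZero K] (n : ℕ) (hn : 1 ≤ n) :
    (Algebra.norm K[X] (wron W n)).natDegree = n ^ 2 - 1 := sorry

theorem wron_ne_zero [CharZero K] (n : ℕ) (hn : 1 ≤ n) : wron W n ≠ 0 := sorry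

theorem wron_not_isUnit [CharZero K] (n : ℕ) (hn : 2 ≤ n) : ¬ IsUnit (wron W n) := sorry

/-! ## T4 `WronLocal.lean`: local analysis at a nonsingular point (independent of T2/T3) -/

variable {W}

/-- `D` lowers the order of vanishing by at most one -/
theorem wr_D_mem_pow {a b : K} (n : ℕ) {f : W.CoordinateRing}
    (hf : f ∈ CoordinateRing.XYIdeal W a (C b) ^ (n + 1)) :
    wrD W f ∈ CoordinateRing.XYIdeal W a (C b) ^ n := sorry

theorem wr_eval_iterate_eq_zero_of_mem_pow {a b : K} (h : W.Nonsingular a b) (n : ℕ)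
    {f : W.CoordinateRing} (hf : f ∈ CoordinateRing.XYIdeal W a (C b) ^ n) (i : ℕ) (hi : i < n) :
    wrEval h.1 ((⇑(wrD W))^[i] f) = 0 := sorry

/-- Taylor criterion: vanishing of the first `n` derivatives at `P` forces order `≥ n` -/
theorem wr_mem_pow_of_eval_iterate [CharZero K] {a b : K} (h : W.Nonsingular a b) (n : ℕ)
    {f : W.CoordinateRing} (hf : ∀ i, i < n → wrEval h.1 ((⇑(wrD W))^[i] f) = 0) :
    f ∈ CoordinateRing.XYIdeal W a (C b) ^ n := sorry

theorem wr_finrank_quot_pow [CharZero K] {a b : K} (h : W.Nonsingular a b) (n : ℕ) :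
    Module.finrank K (W.CoordinateRing ⧸ CoordinateRing.XYIdeal W a (C b) ^ n) = n := sorry

/-! ## T5 `WronTors.lean`: the torsion criterion (needs T2, T4; not T3) -/

theorem wr_nsmul_eq_zero_iff_isPrincipal [DecidableEq K] {a b : K} (h : W.Nonsingular a b) (n : ℕ) :
    n • Point.some a b h = 0 ↔
      ∃ f : W.CoordinateRing, f ≠ 0 ∧ CoordinateRing.XYIdeal W a (C b) ^ n = Ideal.span {f} := sorry

theorem wr_isPrincipal_iff_exists_mem_fil [CharZero K] {a b : K} (h : W.Nonsingular a b) (n : ℕ) :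
    (∃ f : W.CoordinateRing, f ≠ 0 ∧ CoordinateRing.XYIdeal W a (C b) ^ n = Ideal.span {f}) ↔
      ∃ f : W.CoordinateRing, f ≠ 0 ∧ f ∈ wrFil W n ∧ f ∈ CoordinateRing.XYIdeal W a (C b) ^ n :=
  sorry

theorem wr_exists_mem_fil_iff_eval_wron [CharZero K] {a b : K} (h : W.Nonsingular a b) (n : ℕ)
    (hn : 1 ≤ n) :
    (∃ f : W.CoordinateRing, f ≠ 0 ∧ f ∈ wrFil W n ∧ f ∈ CoordinateRing.XYIdeal W a (C b) ^ n) ↔
      wrEval h.1 (wron W n) = 0 := sorry

/-- MAIN CRITERION: `P` is `n`-torsion iff the Wronskian vanishes at `P`. -/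
theorem wr_nsmul_eq_zero_iff [DecidableEq K] [CharZero K] {a b : K} (h : W.Nonsingular a b) (n : ℕ)
    (hn : 1 ≤ n) : n • Point.some a b h = 0 ↔ wrEval h.1 (wron W n) = 0 := sorry

/-! ## T6 `WronCount.lean`: counting zeros and existence (needs T3 and T5 statements only) -/

/-- over an algebraically closed field every maximal ideal of the coordinate ring is a point -/
theorem wr_exists_point_of_isMaximal [IsAlgClosed K] (m : Ideal W.CoordinateRing) [m.IsMaximal] :
    ∃ a b : K, W.Equation a b ∧ m = CoordinateRing.XYIdeal W a (C b) := sorry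

/-- a nonzero function has at most `deg` zeros -/
theorem wr_card_zeros_le {f : W.CoordinateRing} (hf : f ≠ 0)
    (s : Finset (K × K)) (hs : ∀ P ∈ s, ∃ h : W.Equation P.1 P.2, wrEval h f = 0) :
    s.card ≤ (Algebra.norm K[X] f).natDegree := sorry

/-- (U): at most `n²` points of order dividing `n` -/
theorem wr_torsion_finite_card_le [DecidableEq K] [CharZero K] (n : ℕ) (hn : 1 ≤ n) :
    {P : W.Point | n • P = 0}.Finite ∧ {P : W.Point | n • P = 0}.ncard ≤ n ^ 2 := sorry

/-- (L): a nontrivial `n`-torsion point exists over an algebraically closed field of char. 0 -/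
theorem wr_exists_torsion [DecidableEq K] [CharZero K] [IsAlgClosed K] [W.IsElliptic] (n : ℕ)
    (hn : 2 ≤ n) : ∃ P : W.Point, P ≠ 0 ∧ n • P = 0 := sorry

end Fermat.Agent.S13x.Spec
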