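/-
S13 leaf A_N: the torsion polynomial of the Frey curve (`exists_torsion_poly`, exact statement of
`S13x/Spec.lean`), `N = Norm(W_p) ∈ ℤ[X]` with `W_p` the Wronskian of the basis of `L((p-1)·O)`
with respect to the invariant derivation.  All the work is in `WronInt.lean` (integrality, roots,
multiplicities), `WronDeg.lean` (top coefficient) and `WronTors.lean` (torsion criterion).
-/
import Fermat.Agent.S13x.FreyTorsPoly
import Fermat.Agent.S13x.WronDeg
import Fermat.Agent.S13x.WronTors

set_option autoImplicit false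

open Polynomial WeierstrassCurve WeierstrassCurve.Affine WeierstrassCurve.Affine.Point

namespace Fermat.Agent.S13x

/-- (A_N) with the degree: the torsion polynomial `N = Norm(W_p) ∈ ℤ[X]` has leading coefficient
`p² · unit`, every root is the `x` of a nonzero `p`-torsion point, every such `x` is a root of
multiplicity `≥ 2`, and `deg N = p² - 1`. -/
theorem frt_exists_torsion_poly_deg (P : FreyPackage) :
    ∃ (N : Polynomial ℤ) (u : ℤ), ¬ (P.p : ℤ) ∣ u ∧ N.leadingCoeff = (P.p : ℤ) ^ 2 * u ∧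
      (∀ r : Qb, (N.map (algebraMap ℤ Qb)).IsRoot r →
        ∃ (y : Qb) (h : (P.freyCurve⁄Qb).Nonsingular r y),
          P.p • (Point.some r y h : FreyPt P) = 0) ∧
      (∀ (x y : Qb) (h : (P.freyCurve⁄Qb).Nonsingular x y),
        P.p • (Point.some x y h : FreyPt P) = 0 →
          (Polynomial.X - Polynomial.C x) ^ 2 ∣ N.map (algebraMap ℤ Qb)) ∧
      N.natDegree = P.p ^ 2 - 1 :=
  ftp_exists_torsion_poly_deg_of P (wron_mem_fil _ _ P.hppos) (wr_top_wron_eq_prod _ _ P.hppos)
    (fun h => wr_nsmul_eq_zero_iff h _ P.hppos)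

/-- (A_N) the torsion polynomial `N = Norm(W_p) ∈ ℤ[X]`: leading coefficient `p² · unit`,
every root is the `x` of a nonzero `p`-torsion point, every such `x` is a root of multiplicity ≥ 2. -/
theorem exists_torsion_poly (P : FreyPackage) :
    ∃ (N : Polynomial ℤ) (u : ℤ), ¬ (P.p : ℤ) ∣ u ∧ N.leadingCoeff = (P.p : ℤ) ^ 2 * u ∧
      (∀ r : Qb, (N.map (algebraMap ℤ Qb)).IsRoot r →
        ∃ (y : Qb) (h : (P.freyCurve⁄Qb).Nonsingular r y),
          P.p • (Point.some r y h : FreyPt P) = 0) ∧
      (∀ (x y : Qb) (h : (P.freyCurve⁄Qb).Nonsingular x y),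
        P.p • (Point.some x y h : FreyPt P) = 0 →
          (Polynomial.X - Polynomial.C x) ^ 2 ∣ N.map (algebraMap ℤ Qb)) :=
  ftp_exists_torsion_poly_of P (wron_mem_fil _ _ P.hppos) (wr_top_wron_eq_prod _ _ P.hppos)
    (fun h => wr_nsmul_eq_zero_iff h _ P.hppos)

end Fermat.Agent.S13x
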